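/-
S35 stage 1 (helper5, prefix `s35t_`): the TAME RELATION, abstract form.

`B` a Dedekind domain with an action of a group `G`, `P` a nonzero prime over the rational
prime `q`.  If `φ` acts on `B ⧸ P` as `x ↦ x ^ q` and `τ` acts trivially on `B ⧸ P`, then
`c = φ τ φ⁻¹ τ⁻q` acts trivially on `P ⧸ P²`, and some `q`-power of `c` acts trivially on `B`
(when `c` has finite order).
-/
import Mathlib
import Fermat.Agent.Lib.GC.Tame

set_option autoImplicit false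
set_option linter.unusedSectionVars false
set_option linter.style.haveILetI false

namespace Fermat.Agent.Lib.S35

open Fermat.Agent.Lib.GC

section General

variable {B : Type*} [CommRing B] {G : Type*} [Group G] [MulSemiringAction G B]

/-- an automorphism preserving `P` preserves `P ^ k` -/
lemma s35t_smul_mem_pow {P : Ideal B} (σ : G) (hσ : ∀ x ∈ P, σ • x ∈ P) (k : ℕ) {x : B}
    (hx : x ∈ P ^ k) : σ • x ∈ P ^ k := by
  have h1 : (P ^ k).map (MulSemiringAction.toRingHom G B σ) ≤ P ^ k := by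
    rw [Ideal.map_pow]
    refine Ideal.pow_right_mono ?_ k
    rw [Ideal.map_le_iff_le_comap]
    intro y hy
    exact hσ y hy
  exact h1 (Ideal.mem_map_of_mem _ hx)

/-- `τ` acts on `P ⧸ P²` as multiplication by `d` -/
def s35t_IsTheta (P : Ideal B) (τ : G) (d : B) : Prop := ∀ π ∈ P, τ • π - d * π ∈ P ^ 2

/-- `τ` acts trivially on `B ⧸ P` -/
def s35t_IsIn (P : Ideal B) (τ : G) : Prop := ∀ x : B, τ • x - x ∈ P

lemma s35t_IsIn.smul_mem {P : Ideal B} {τ : G} (h : s35t_IsIn P τ) {x : B} (hx : x ∈ P) :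
    τ • x ∈ P := gch_smul_mem_of_sub_mem τ h hx

lemma s35t_isIn_one (P : Ideal B) : s35t_IsIn P (1 : G) := fun x => by
  rw [one_smul, sub_self]; exact P.zero_mem

lemma s35t_IsIn.mul {P : Ideal B} {σ τ : G} (hσ : s35t_IsIn P σ) (hτ : s35t_IsIn P τ) :
    s35t_IsIn P (σ * τ) := fun x => by
  have h1 : (σ * τ) • x - x = (σ • (τ • x) - τ • x) + (τ • x - x) := by rw [mul_smul]; ring
  rw [h1]
  exact P.add_mem (hσ _) (hτ _)

lemma s35t_IsIn.inv {P : Ideal B} {τ : G} (hτ : s35t_IsIn P τ) : s35t_IsIn P τ⁻¹ := fun x => by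
  have h1 := hτ (τ⁻¹ • x)
  rw [smul_inv_smul] at h1
  have h2 : τ⁻¹ • x - x = -(x - τ⁻¹ • x) := by ring
  rw [h2]
  exact P.neg_mem h1

lemma s35t_IsIn.pow {P : Ideal B} {τ : G} (hτ : s35t_IsIn P τ) (n : ℕ) : s35t_IsIn P (τ ^ n) := by
  induction n with
  | zero => rw [pow_zero]; exact s35t_isIn_one P
  | succ n ih => rw [pow_succ]; exact ih.mul hτ

lemma s35t_IsIn.conj {P : Ideal B} {τ : G} (hτ : s35t_IsIn P τ) (φ : G)
    (hφ : ∀ x ∈ P, φ • x ∈ P) : s35t_IsIn P (φ * τ * φ⁻¹) := fun x => by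
  have h1 : (φ * τ * φ⁻¹) • x - x = φ • (τ • (φ⁻¹ • x) - φ⁻¹ • x) := by
    rw [smul_sub, mul_smul, mul_smul, smul_inv_smul]
  rw [h1]
  exact hφ _ (hτ _)

lemma s35t_isTheta_one (P : Ideal B) : s35t_IsTheta P (1 : G) 1 := fun π _ => by
  rw [one_smul, one_mul, sub_self]; exact Ideal.zero_mem _

lemma s35t_IsTheta.congr {P : Ideal B} {τ : G} {d d' : B} (h : s35t_IsTheta P τ d)
    (hd : d - d' ∈ P) : s35t_IsTheta P τ d' := fun π hπ => by
  have h1 : τ • π - d' * π = (τ • π - d * π) + (d - d') * π := by ring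
  rw [h1, pow_two]
  refine Ideal.add_mem _ ?_ (Ideal.mul_mem_mul hd hπ)
  rw [← pow_two]; exact h π hπ

lemma s35t_IsTheta.mul {P : Ideal B} {σ τ : G} {d d' : B} (hσ : s35t_IsIn P σ)
    (h : s35t_IsTheta P σ d) (h' : s35t_IsTheta P τ d') : s35t_IsTheta P (σ * τ) (d * d') :=
  fun π hπ => by
  have h1 : (σ * τ) • π - d * d' * π =
      σ • (τ • π - d' * π) + (σ • d' - d') * (σ • π) + d' * (σ • π - d * π) := by
    rw [mul_smul]
    simp only [smul_sub, smul_mul']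
    ring
  rw [h1]
  refine Ideal.add_mem _ (Ideal.add_mem _ ?_ ?_) (Ideal.mul_mem_left _ _ (h π hπ))
  · exact s35t_smul_mem_pow σ (fun x hx => hσ.smul_mem hx) 2 (h' π hπ)
  · rw [pow_two]
    exact Ideal.mul_mem_mul (hσ d') (hσ.smul_mem hπ)

lemma s35t_IsTheta.pow {P : Ideal B} {τ : G} {d : B} (hτ : s35t_IsIn P τ)
    (h : s35t_IsTheta P τ d) (n : ℕ) : s35t_IsTheta P (τ ^ n) (d ^ n) := by
  induction n with
  | zero => rw [pow_zero, pow_zero]; exact s35t_isTheta_one P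
  | succ n ih => rw [pow_succ, pow_succ]; exact ih.mul (hτ.pow n) h

/-- conjugation by a Frobenius element raises the tame character to the `q`-th power -/
lemma s35t_IsTheta.conj {P : Ideal B} {τ : G} {d : B} (h : s35t_IsTheta P τ d) (φ : G) (q : ℕ)
    (hφ : ∀ x : B, φ • x - x ^ q ∈ P) (hφP : ∀ x ∈ P, φ • x ∈ P) (hφP' : ∀ x ∈ P, φ⁻¹ • x ∈ P) :
    s35t_IsTheta P (φ * τ * φ⁻¹) (d ^ q) := fun π hπ => by
  have h1 : (φ * τ * φ⁻¹) • π - d ^ q * π =
      φ • (τ • (φ⁻¹ • π) - d * (φ⁻¹ • π)) + (φ • d - d ^ q) * π := by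
    rw [smul_sub, smul_mul', mul_smul, mul_smul, smul_inv_smul]
    ring
  rw [h1]
  refine Ideal.add_mem _ (s35t_smul_mem_pow φ hφP 2 (h _ (hφP' π hπ))) ?_
  rw [pow_two]
  exact Ideal.mul_mem_mul (hφ d) hπ

end General

section Dedekind

variable {B : Type*} [CommRing B] [IsDedekindDomain B] {G : Type*} [Group G]
  [MulSemiringAction G B] {P : Ideal B} [hPp : P.IsPrime]

lemma s35t_exists_isTheta (hP0 : P ≠ ⊥) {τ : G} (hτ : s35t_IsIn P τ) :
    ∃ d : B, s35t_IsTheta P τ d := by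
  obtain ⟨π₀, hπ₀, hπ₀2⟩ := SetLike.exists_of_lt (Ideal.pow_succ_lt_pow hP0 1)
  rw [pow_one] at hπ₀
  obtain ⟨d, e, he, hde⟩ := Ideal.exists_mul_add_mem_pow_succ hP0 (i := 1) π₀ (τ • π₀)
    (by rwa [pow_one]) hπ₀2 (by rw [pow_one]; exact hτ.smul_mem hπ₀)
  refine ⟨d, fun π hπ => ?_⟩
  obtain ⟨u, e', he', hue⟩ := Ideal.exists_mul_add_mem_pow_succ hP0 (i := 1) π₀ π
    (by rwa [pow_one]) hπ₀2 (by rwa [pow_one])
  have h1 : τ • π - d * π = π₀ * d * (τ • u - u) + e * (τ • u) + τ • e' - d * e' := by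
    rw [← hue, smul_add, smul_mul', ← hde]
    ring
  rw [h1]
  refine Ideal.sub_mem _ (Ideal.add_mem _ (Ideal.add_mem _ ?_ (Ideal.mul_mem_right _ _ he)) ?_)
    (Ideal.mul_mem_left _ _ he')
  · rw [pow_two]
    exact Ideal.mul_mem_mul (Ideal.mul_mem_right _ _ hπ₀) (hτ u)
  · exact s35t_smul_mem_pow τ (fun x hx => hτ.smul_mem hx) 2 he'

lemma s35t_IsTheta.unique (hP0 : P ≠ ⊥) {τ : G} {d d' : B} (h : s35t_IsTheta P τ d)
    (h' : s35t_IsTheta P τ d') : d - d' ∈ P := by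
  obtain ⟨π₀, hπ₀, hπ₀2⟩ := SetLike.exists_of_lt (Ideal.pow_succ_lt_pow hP0 1)
  rw [pow_one] at hπ₀
  apply Ideal.mem_prime_of_mul_mem_pow (i := 1) hP0 hπ₀2
  have h1 : π₀ * (d - d') = (τ • π₀ - d' * π₀) - (τ • π₀ - d * π₀) := by ring
  rw [h1]
  exact Ideal.sub_mem _ (h' π₀ hπ₀) (h π₀ hπ₀)

/-- if `σ₁`, `σ₂` have the same tame character, `σ₁ σ₂⁻¹` has trivial tame character -/
lemma s35t_isTheta_mul_inv (hP0 : P ≠ ⊥) {σ₁ σ₂ : G} {d : B} (h₁ : s35t_IsIn P σ₁)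
    (h₂ : s35t_IsIn P σ₂) (ht₁ : s35t_IsTheta P σ₁ d) (ht₂ : s35t_IsTheta P σ₂ d) :
    s35t_IsTheta P (σ₁ * σ₂⁻¹) 1 := by
  obtain ⟨d', hd'⟩ := s35t_exists_isTheta hP0 h₂.inv
  have h3 : s35t_IsTheta P (σ₂ * σ₂⁻¹) (d * d') := ht₂.mul h₂ hd'
  rw [mul_inv_cancel] at h3
  have h4 : d * d' - 1 ∈ P := h3.unique hP0 (s35t_isTheta_one P)
  exact (ht₁.mul h₁ hd').congr h4

/-- **elements of the wild inertia group of order prime to `q` are trivial** -/
theorem s35t_wild_trivial (hP0 : P ≠ ⊥) {q : ℕ} (hqP : (q : B) ∈ P) {τ : G}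
    (hτ : s35t_IsIn P τ) (ht : s35t_IsTheta P τ 1) {n : ℕ} (hn : n.Coprime q)
    (hτn : τ ^ n = 1) (x : B) : τ • x = x := by
  haveI hPmax : P.IsMaximal := Ideal.IsPrime.isMaximal hPp hP0
  have hb : (n : ℤ) * Nat.gcdA n q + (q : ℤ) * Nat.gcdB n q = 1 := by
    have := Nat.gcd_eq_gcd_ab n q
    rw [hn] at this
    exact_mod_cast this.symm
  have hb' : (n : B) * ((Nat.gcdA n q : ℤ) : B) + (q : B) * ((Nat.gcdB n q : ℤ) : B) = 1 := by
    have := congrArg (Int.cast (R := B)) hb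
    push_cast at this ⊢
    exact this
  have hnP : (n : B) ∉ P := by
    intro hmem
    apply hPmax.ne_top
    rw [Ideal.eq_top_iff_one, ← hb']
    exact Ideal.add_mem _ (Ideal.mul_mem_right _ _ hmem) (Ideal.mul_mem_right _ _ hqP)
  -- every residue class has a `τ`-fixed representative
  have hfix : ∀ y : B, ∃ a : B, τ • a = a ∧ y - a ∈ P := by
    intro y
    set s : B := ∑ i ∈ Finset.range n, (τ ^ i) • y with hs
    have hs1 : τ • s = s := by
      rw [hs, Finset.smul_sum]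
      have e1 : ∀ i ∈ Finset.range n, τ • (τ ^ i) • y = (τ ^ (i + 1)) • y := by
        intro i _
        rw [pow_succ', mul_smul]
      rw [Finset.sum_congr rfl e1]
      have e2 := Finset.sum_range_succ_sub_sum (fun i => (τ ^ i) • y) (n := n)
      have e3 : ∑ i ∈ Finset.range n, (τ ^ (i + 1)) • y =
          ∑ i ∈ Finset.range (n + 1), (τ ^ i) • y - (τ ^ 0) • y := by
        rw [Finset.sum_range_succ' (fun i => (τ ^ i) • y) n]
        ring
      rw [e3, Finset.sum_range_succ, hτn, pow_zero]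
      ring
    have hs2 : s - (n : B) * y ∈ P := by
      have e1 : s - (n : B) * y = ∑ i ∈ Finset.range n, ((τ ^ i) • y - y) := by
        rw [Finset.sum_sub_distrib, Finset.sum_const, Finset.card_range, nsmul_eq_mul]
      rw [e1]
      exact Ideal.sum_mem _ (fun i _ => (hτ.pow i) y)
    refine ⟨((Nat.gcdA n q : ℤ) : B) * s, ?_, ?_⟩
    · rw [smul_mul', hs1]
      congr 1
      exact map_intCast (MulSemiringAction.toRingHom G B τ) _
    · have e1 : y - ((Nat.gcdA n q : ℤ) : B) * s =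
          (q : B) * ((Nat.gcdB n q : ℤ) : B) * y - ((Nat.gcdA n q : ℤ) : B) * (s - (n : B) * y) := by
        linear_combination (-y) * hb'
      rw [e1]
      exact Ideal.sub_mem _ (Ideal.mul_mem_right _ _ (Ideal.mul_mem_right _ _ hqP))
        (Ideal.mul_mem_left _ _ hs2)
  have hsq : ∀ y : B, τ • y - y ∈ P ^ 2 := by
    intro y
    obtain ⟨a, ha, hya⟩ := hfix y
    have e1 : τ • y - y = τ • (y - a) - 1 * (y - a) := by
      rw [smul_sub, ha]; ring
    rw [e1]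
    exact ht _ hya
  exact gch_smul_eq_of_sq τ hsq hnP hτn x

/-- **the tame relation**: if `φ` is a Frobenius element and `τ` is in the inertia group at `P`,
then some `q`-power of `φ τ φ⁻¹ τ⁻q` acts trivially on `B`. -/
theorem s35t_tame_abs (hP0 : P ≠ ⊥) {q : ℕ} (hq : q.Prime) (hqP : (q : B) ∈ P) {φ τ : G}
    (hφ : ∀ x : B, φ • x - x ^ q ∈ P) (hφP' : ∀ x ∈ P, φ⁻¹ • x ∈ P) (hτ : s35t_IsIn P τ)
    (hfin : IsOfFinOrder (φ * τ * φ⁻¹ * (τ ^ q)⁻¹)) :
    ∃ a : ℕ, ∀ x : B, ((φ * τ * φ⁻¹ * (τ ^ q)⁻¹) ^ (q ^ a)) • x = x := by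
  have hφP : ∀ x ∈ P, φ • x ∈ P := by
    intro x hx
    have h1 := hφ x
    have h2 : φ • x = (φ • x - x ^ q) + x ^ q := by ring
    rw [h2]
    exact P.add_mem h1 (Ideal.pow_mem_of_mem _ hx q hq.pos)
  set c := φ * τ * φ⁻¹ * (τ ^ q)⁻¹ with hc
  obtain ⟨d, hd⟩ := s35t_exists_isTheta hP0 hτ
  have h1 : s35t_IsIn P (φ * τ * φ⁻¹) := hτ.conj φ hφP
  have h2 : s35t_IsIn P (τ ^ q) := hτ.pow q
  have hcin : s35t_IsIn P c := h1.mul h2.inv
  have hct : s35t_IsTheta P c 1 :=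
    s35t_isTheta_mul_inv hP0 h1 h2 (hd.conj φ q hφ hφP hφP') (hd.pow hτ q)
  -- decompose the order of `c`
  have hord : 0 < orderOf c := hfin.orderOf_pos
  obtain ⟨a, n, hnq, hn⟩ := Nat.exists_eq_pow_mul_and_not_dvd hord.ne' q hq.ne_one
  refine ⟨a, fun x => ?_⟩
  have h3 : (c ^ (q ^ a)) ^ n = 1 := by
    rw [← pow_mul, ← hn]; exact pow_orderOf_eq_one c
  have h4 : n.Coprime q := (Nat.Coprime.symm ((Nat.Prime.coprime_iff_not_dvd hq).mpr hnq))
  have h5 : s35t_IsTheta P (c ^ (q ^ a)) 1 := by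
    have := hct.pow hcin (q ^ a)
    rwa [one_pow] at this
  exact s35t_wild_trivial hP0 hqP (hcin.pow _) h5 h4 h3 x

end Dedekind

end Fermat.Agent.Lib.S35
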