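/-
S35 stage 1 (helper5, prefix `s35t_`): the TAME RELATION on finite Galois quotients of `G_ℚ`.

`A` a valuation subring of `ℚ̄` over the prime `q`, `σ` a Frobenius lift at `A`, `τ` in the
inertia group of `A`, `L/ℚ` finite normal inside `ℚ̄`.  Then some `q`-power of
`σ τ σ⁻¹ τ⁻q` fixes `L` pointwise.
-/
import Mathlib
import Fermat.Agent.Lib.S35.TameAbs
import Fermat.Agent.Lib.Frey.OrdInertia
import Fermat.Agent.Lib.Frobenius.Exists
import Fermat.Prelude.Def_EllipticCurve_FrobeniusTrace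
import Fermat.Prelude.Def_FLTPrelim_Ramification

set_option autoImplicit false
set_option linter.unusedSectionVars false
set_option linter.style.haveILetI false

namespace Fermat.Agent.Lib.S35

open NumberField Fermat.Agent.Lib.Frey

/-- A Frobenius lift lies in the decomposition group and acts as `x ↦ x ^ q` modulo the maximal
ideal. -/
theorem s35t_frob_spec {K L : Type*} [Field K] [Field L] [Algebra K L] (A : ValuationSubring L)
    (σ : L ≃ₐ[K] L) (q : ℕ) (hσ : A.IsFrobeniusAt σ q) :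
    σ ∈ A.decompositionSubgroup K ∧ ∀ a ∈ A, σ a - a ^ q ∈ A.nonunits := by
  refine ⟨hσ.mem_decompositionSubgroup, ?_⟩
  intro a ha
  have h1 := hσ.smul_residue_eq (IsLocalRing.residue A ⟨a, ha⟩)
  rw [← IsLocalRing.ResidueField.residue_smul, ← map_pow] at h1
  have h2 : (⟨σ, hσ.mem_decompositionSubgroup⟩ : A.decompositionSubgroup K) • (⟨a, ha⟩ : A) -
      (⟨a, ha⟩ : A) ^ q ∈ IsLocalRing.maximalIdeal A := by
    rw [← Ideal.Quotient.eq]
    exact h1
  exact (ValuationSubring.coe_mem_nonunits_iff (A := A)).mpr h2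

/-- the inertia group is normalised by the decomposition group -/
theorem s35t_conj_mem_inertia {K L : Type*} [Field K] [Field L] [Algebra K L]
    (A : ValuationSubring L) (σ τ : L ≃ₐ[K] L) (hσ : σ ∈ A.decompositionSubgroup K)
    (hτ : τ ∈ A.inertiaSubgroupIn K) : σ * τ * σ⁻¹ ∈ A.inertiaSubgroupIn K := by
  obtain ⟨t, ht, rfl⟩ := hτ
  refine ⟨⟨σ, hσ⟩ * t * ⟨σ, hσ⟩⁻¹, ?_, rfl⟩
  exact (MonoidHom.normal_ker _).conj_mem t ht ⟨σ, hσ⟩

local notation "Ω" => AlgebraicClosure ℚ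

/-- **the tame relation at finite level** -/
theorem s35t_tame_fin (A : ValuationSubring Ω) {q : ℕ} (hq : q.Prime) (hA : A.LiesOverPrime q)
    (σ τ : Ω ≃ₐ[ℚ] Ω) (hσ : A.IsFrobeniusAt σ q) (hτ : τ ∈ A.inertiaSubgroupIn ℚ)
    (L : IntermediateField ℚ Ω) (hfd : FiniteDimensional ℚ L)
    (hstable : ∀ g : Ω ≃ₐ[ℚ] Ω, ∀ x ∈ L, g x ∈ L) :
    ∃ a : ℕ, ∀ x ∈ L, ((σ * τ * σ⁻¹ * (τ ^ q)⁻¹) ^ (q ^ a)) x = x := by
  haveI hgal := Fermat.Agent.Lib.Frobenius.isGalois_QBar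
  haveI hnormal := (IntermediateField.normal_iff_forall_map_le' (K := L)).mpr (by
    rintro g x ⟨y, hy, rfl⟩
    exact hstable g y hy)
  haveI : NumberField L :=
    { to_charZero := inferInstance
      to_finiteDimensional := by convert hfd }
  haveI hG := @IsGalois.mk ℚ _ L _ _ (by infer_instance) hnormal
  let ι : 𝓞 L →+* Ω := (algebraMap L Ω).comp (algebraMap (𝓞 L) L)
  have hιA : ∀ x : 𝓞 L, ι x ∈ A := by
    intro x
    have h1 : IsIntegral ℤ (ι x) := (RingOfIntegers.isIntegral x).map ι.toIntAlgHom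
    have h2 : IsIntegral A (ι x) := h1.tower_top
    obtain ⟨y, hy⟩ := (IsIntegrallyClosed.isIntegral_iff (R := A) (K := Ω)).mp h2
    rw [← hy]
    exact y.2
  let f : 𝓞 L →+* A := ι.codRestrict A.toSubring hιA
  let P : Ideal (𝓞 L) := Ideal.comap f (IsLocalRing.maximalIdeal A)
  haveI hPp : P.IsPrime := Ideal.comap_isPrime f _
  have hmemP : ∀ x : 𝓞 L, x ∈ P ↔ ι x ∈ A.nonunits := by
    intro x
    rw [Ideal.mem_comap, ← ValuationSubring.coe_mem_nonunits_iff]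
    rfl
  have hqP : ((q : ℕ) : 𝓞 L) ∈ P := by
    rw [hmemP, map_natCast]
    exact hA
  have hP0 : P ≠ ⊥ := by
    intro h
    rw [h, Ideal.mem_bot] at hqP
    exact hq.ne_zero (by exact_mod_cast hqP)
  let r : (Ω ≃ₐ[ℚ] Ω) →* (L ≃ₐ[ℚ] L) := AlgEquiv.restrictNormalHom L
  have hcomm : ∀ (g : Ω ≃ₐ[ℚ] Ω) (x : 𝓞 L), ι (r g • x) = g (ι x) := by
    intro g x
    exact AlgEquiv.restrictNormalHom_apply L g (x : L)
  obtain ⟨hσD, hσF⟩ := s35t_frob_spec A σ q hσ
  obtain ⟨hτD, hτI⟩ := ford_inertia_spec A τ hτ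
  have hφ : ∀ x : 𝓞 L, r σ • x - x ^ q ∈ P := by
    intro x
    rw [hmemP, map_sub, map_pow, hcomm]
    exact hσF _ (hιA x)
  have hσinv : σ⁻¹ ∈ A.decompositionSubgroup ℚ := inv_mem hσD
  have hφP' : ∀ x ∈ P, (r σ)⁻¹ • x ∈ P := by
    intro x hx
    rw [← map_inv, hmemP, hcomm]
    rw [hmemP] at hx
    -- `σ⁻¹` preserves the nonunits
    rw [ValuationSubring.mem_nonunits_iff_or] at hx ⊢
    rcases hx with hx | hx
    · exact Or.inl (by rw [hx, map_zero])
    · refine Or.inr fun h => hx ?_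
      have := ford_decomposition_mem A σ hσD _ h
      rwa [map_inv₀, show σ (σ⁻¹ (ι x)) = ι x from σ.apply_symm_apply _] at this
  have hτ' : s35t_IsIn P (r τ) := by
    intro x
    rw [hmemP, map_sub, hcomm]
    exact hτI _ (hιA x)
  obtain ⟨a, ha⟩ := s35t_tame_abs hP0 hq hqP hφ hφP' hτ' (isOfFinOrder_of_finite _)
  refine ⟨a, fun x hx => ?_⟩
  set c := (σ * τ * σ⁻¹ * (τ ^ q)⁻¹) ^ (q ^ a) with hc
  have hrc : r c = (r σ * r τ * (r σ)⁻¹ * (r τ ^ q)⁻¹) ^ (q ^ a) := by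
    rw [hc, map_pow, map_mul, map_mul, map_mul, map_inv, map_inv, map_pow]
  have hfix : ∀ y : 𝓞 L, c (ι y) = ι y := by
    intro y
    rw [← hcomm, hrc, ha y]
  -- `L` is the fraction field of `𝓞 L`
  obtain ⟨y, z, hz, hyz⟩ := IsFractionRing.div_surjective (A := 𝓞 L) (⟨x, hx⟩ : L)
  have hx' : x = ι y / ι z := by
    have := congrArg (algebraMap L Ω) hyz
    rw [map_div₀] at this
    exact this.symm
  rw [hx', map_div₀, hfix, hfix]

end Fermat.Agent.Lib.S35
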