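/-
S35, package [R] (helper5, prefix `s35q_`), part 3: the NUMBER-FIELD CONTRACT `s35q_NFKummer` for
NEW-WEIGHT and the descent theorem `s35q_kummerNW_of_nf`:

  `s35q_NFKummer M q m` (+ the norm compatibility `s35q_NormCompat M q`) ⟹ for every valuation
  ring `A ⊆ ℚ̄` over `q` and every Frobenius lift `σ` at `A`: `s35r_KummerNWmod M q σ m`.

Twin of S34's `RDesc`/`RDescNF`.  The contract is about an ABSTRACT number field `K₀`, Galois over
`ℚ`, in which a polynomial `g ∈ ℚ[X]` chosen by the prover of the contract splits, a discrete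
valuation ring `A₀ ⊆ K₀` over `q`, a FROBENIUS element `σ₀ ∈ Gal(K₀/ℚ)` at `A₀`
(`σ₀ a - a ^ q ∈ 𝔪`), and a function `f₀ ∈ K₀(X₀(M q))^×` with `m ∣ div f₀`, all of whose zeros and
poles are `K₀`-rational, and whose norms along `α` and `β` to `K₀(X₀(M))` are constant times an
`m`-th power; it asks for `x₀ ≠ 0` with `div (P(σ₀) f₀) ≤ m · div x₀`, where
`P(g) f = g⁴f · f ^ (q²) / (g²f) ^ (1 + q²)` (`s35q_P`).
-/
import Mathlib
import Fermat.Agent.Lib.S35.RLevel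
import Fermat.Agent.Lib.S35.TameFin
import Fermat.Agent.Lib.S34.RDescRat
import Fermat.Agent.Lib.S34.RDescNF
import Fermat.Agent.Lib.S18.QDvr
import Fermat.Agent.Lib.S18.QGen
import Fermat.Agent.Lib.S18.XGeo
import Fermat.Agent.Lib.Frey.OrdInertia

set_option autoImplicit false
set_option linter.style.haveILetI false
set_option synthInstance.maxHeartbeats 400000

noncomputable section

namespace Fermat.Agent.Lib.S35

open AlgebraicCurve ModularCurve Polynomial Fermat.Agent.Lib.S18 Fermat.Agent.Lib.FF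
  Fermat.Agent.Lib.Frey Fermat.Agent.Lib.S34

local notation "Qbar" => AlgebraicClosure ℚ
local notation "Γℚ" => (AlgebraicClosure ℚ ≃ₐ[ℚ] AlgebraicClosure ℚ)

section P

variable {K F : Type*} [Field K] [Field F] [Algebra K F]

/-- The operator `P(g) = (g² - Q)(g² - 1)` in multiplicative notation:
`g⁴f · f ^ Q / (g²f) ^ (1 + Q)`. -/
def s35q_P (g : SemilinearAut K F) (Q : ℕ) (f : F) : F :=
  (g • g • g • g • f) * f ^ Q / (g • g • f) ^ (1 + Q)

theorem s35q_P_ne_zero (g : SemilinearAut K F) (Q : ℕ) {f : F} (hf : f ≠ 0) :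
    s35q_P g Q f ≠ 0 := by
  have h2 := s35r_smul_ne_zero g (s35r_smul_ne_zero g hf)
  have h4 := s35r_smul_ne_zero g (s35r_smul_ne_zero g h2)
  exact div_ne_zero (mul_ne_zero h4 (pow_ne_zero Q hf)) (pow_ne_zero _ h2)

theorem s35q_P_mul (g : SemilinearAut K F) (Q : ℕ) {f : F} (hf : f ≠ 0) :
    s35q_P g Q f * (g • g • f) ^ (1 + Q) = (g • g • g • g • f) * f ^ Q :=
  div_mul_cancel₀ _ (pow_ne_zero _ (s35r_smul_ne_zero g (s35r_smul_ne_zero g hf)))

end P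

section Descent

variable (N : ℕ) [NeZero N]

/-- **Descent, generic form.**  If `f = φ_* f₀` for an embedding `φ : K₀ → ℚ̄` compatible with
`σ₀` and `σ`, and `x₀ ≠ 0` in `F_{K₀}` satisfies `ord_Q (P(σ₀) f₀) ≤ m · ord_Q x₀` at all places of
`F_{K₀}`, then the Kummer identity holds for `f` over `ℚ̄`. -/
theorem s35q_kummer_of_descent (σ : Γℚ) (m Q : ℕ) {K₀ : Type*} [Field K₀] [Algebra ℚ K₀]
    (φ : K₀ →+* Qbar) (σ₀ : K₀ ≃ₐ[ℚ] K₀) (h : ∀ a : K₀, φ (σ₀ a) = σ (φ a))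
    (f₀ x₀ : ↥(laurentBaseChange K₀ (modularFunctionFieldFull N))) (hf₀ : f₀ ≠ 0) (hx₀ : x₀ ≠ 0)
    (hx : ∀ Q' : Place K₀ ↥(laurentBaseChange K₀ (modularFunctionFieldFull N)),
      Q'.ord (s35q_P (arithmeticGalois (modularFunctionFieldFull N) σ₀) Q f₀) ≤
        (m : ℤ) * Q'.ord x₀) :
    ∃ (c : Qbar) (x : modularFunctionFieldBar N),
      (arithmeticGalois (modularFunctionFieldFull N) σ •
          arithmeticGalois (modularFunctionFieldFull N) σ •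
          arithmeticGalois (modularFunctionFieldFull N) σ •
          arithmeticGalois (modularFunctionFieldFull N) σ •
            s18q_map φ (modularFunctionFieldFull N) f₀) *
          s18q_map φ (modularFunctionFieldFull N) f₀ ^ Q =
        algebraMap Qbar (modularFunctionFieldBar N) c * x ^ m *
          (arithmeticGalois (modularFunctionFieldFull N) σ •
            arithmeticGalois (modularFunctionFieldFull N) σ •
              s18q_map φ (modularFunctionFieldFull N) f₀) ^ (1 + Q) := by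
  obtain ⟨ρ, -, hord⟩ := s18q_restrict_gen_bar φ (modularFunctionFieldFull N)
  obtain ⟨c, hc⟩ := s18x_endgame (s18q_map φ (modularFunctionFieldFull N)) ρ hord
    (fun g hg => s18e_const_of_ord_nonpos N g hg) _ x₀ m hx₀
    (s35q_P_ne_zero (arithmeticGalois (modularFunctionFieldFull N) σ₀) Q hf₀) hx
  refine ⟨c, s18q_map φ (modularFunctionFieldFull N) x₀, ?_⟩
  rw [← hc]
  have hmul := congrArg (s18q_map φ (modularFunctionFieldFull N))
    (s35q_P_mul (arithmeticGalois (modularFunctionFieldFull N) σ₀) Q hf₀)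
  simp only [map_mul, map_pow, s34q_map_smul _ φ σ₀ σ h] at hmul
  rw [hmul]

end Descent

section Contract

variable (M q : ℕ) [NeZero M] [NeZero q]

/-- **The number-field contract** of NEW-WEIGHT for `(M, q, m)`: what the geometric packages must
deliver at level `M q`. -/
def s35q_NFKummer (m : ℕ) : Prop :=
  ∃ g : ℚ[X], g ≠ 0 ∧
    ∀ (K₀ : Type) [Field K₀] [NumberField K₀] [IsGalois ℚ K₀],
      (g.map (algebraMap ℚ K₀)).Splits →
      ∀ (A₀ : ValuationSubring K₀) [IsDiscreteValuationRing ↥A₀], (q : K₀) ∈ A₀.nonunits →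
      ∀ σ₀ : K₀ ≃ₐ[ℚ] K₀, (∀ a : K₀, σ₀ a ∈ A₀ ↔ a ∈ A₀) →
        (∀ a ∈ A₀, σ₀ a - a ^ q ∈ A₀.nonunits) →
      ∀ f₀ : ↥(laurentBaseChange K₀ (modularFunctionFieldFull (M * q))), f₀ ≠ 0 →
        (∀ Q : Place K₀ ↥(laurentBaseChange K₀ (modularFunctionFieldFull (M * q))),
          (m : ℤ) ∣ Q.ord f₀) →
        (∀ Q : Place K₀ ↥(laurentBaseChange K₀ (modularFunctionFieldFull (M * q))),
          Q.ord f₀ ≠ 0 → Q.deg = 1) →
        (∃ (c : K₀) (h : ↥(laurentBaseChange K₀ (modularFunctionFieldFull M))),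
          s35r_normAlong (heckeAlphaBar K₀ M q) f₀ = algebraMap K₀ _ c * h ^ m) →
        (∃ (c : K₀) (h : ↥(laurentBaseChange K₀ (modularFunctionFieldFull M))),
          s35r_normAlong (heckeBetaBar K₀ M q) f₀ = algebraMap K₀ _ c * h ^ m) →
        ∃ x₀ : ↥(laurentBaseChange K₀ (modularFunctionFieldFull (M * q))), x₀ ≠ 0 ∧
          ∀ Q : Place K₀ ↥(laurentBaseChange K₀ (modularFunctionFieldFull (M * q))),
            Q.ord (s35q_P (arithmeticGalois (modularFunctionFieldFull (M * q)) σ₀) (q ^ 2) f₀) ≤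
              (m : ℤ) * Q.ord x₀

/-- **Norm compatibility**: over a subfield `L₀ ⊆ ℚ̄` containing the `q`-th roots of unity, the
norms along `α` and `β` commute with the extension of constants `L₀ ⊆ ℚ̄`. -/
def s35q_NormCompat : Prop :=
  ∀ (L₀ : IntermediateField ℚ Qbar), (∃ ζ : ↥L₀, IsPrimitiveRoot ζ q) →
    ∀ f₀ : ↥(laurentBaseChange ↥L₀ (modularFunctionFieldFull (M * q))),
      s18q_incl M L₀ (s35r_normAlong (heckeAlphaBar ↥L₀ M q) f₀) =
        s35r_normAlong (heckeAlphaBar Qbar M q) (s18q_incl (M * q) L₀ f₀) ∧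
      s18q_incl M L₀ (s35r_normAlong (heckeBetaBar ↥L₀ M q) f₀) =
        s35r_normAlong (heckeBetaBar Qbar M q) (s18q_incl (M * q) L₀ f₀)

end Contract

section Main

variable (M q : ℕ) [NeZero M] [NeZero q]

/-- a number field containing a given finite set of elements of `ℚ̄` -/
theorem s35q_exists_field_const (s : Finset Qbar) :
    ∃ L : IntermediateField ℚ Qbar, FiniteDimensional ℚ L ∧ ∀ c ∈ s, c ∈ L := by
  haveI : Finite ↑(s : Set Qbar) := s.finite_toSet.to_subtype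
  refine ⟨IntermediateField.adjoin ℚ (s : Set Qbar),
    IntermediateField.finiteDimensional_adjoin
      (fun x _ => (s18q_isAlgebraic_bar.isAlgebraic x).isIntegral), fun c hc => ?_⟩
  exact IntermediateField.subset_adjoin ℚ _ (Finset.mem_coe.mpr hc)

/-- **Descent to a number field.** -/
theorem s35q_kummerNW_of_nf (hq : q.Prime) (m : ℕ) (hNC : s35q_NormCompat M q)
    (hNF : s35q_NFKummer M q m)
    (A : ValuationSubring Qbar) (hA : A.LiesOverPrime q) (σ : Γℚ)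
    (hσ : A.IsFrobeniusAt σ q) : s35r_KummerNWmod M q σ m := by
  classical
  haveI : NeZero (M * q) := ⟨mul_ne_zero (NeZero.ne M) (NeZero.ne q)⟩
  haveI : Fact q.Prime := ⟨hq⟩
  haveI := s34q_isAlgClosure_bar
  haveI : Normal ℚ Qbar := IsAlgClosure.normal ℚ Qbar
  obtain ⟨g, hg0, hNF⟩ := hNF
  intro f hf hdiv hn₁ hn₂
  obtain ⟨c₁, h₁, hc₁⟩ := hn₁
  obtain ⟨c₂, h₂, hc₂⟩ := hn₂
  -- a primitive `q`-th root of unity
  obtain ⟨ζ, hζ⟩ := HasEnoughRootsOfUnity.exists_primitiveRoot Qbar q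
  -- the fields
  obtain ⟨L₁, hfd₁, hL₁⟩ := s18q_exists_field (M * q) {f}
  obtain ⟨L₁', hfd₁', hL₁'⟩ := s18q_exists_field M {h₁, h₂}
  obtain ⟨L₁'', hfd₁'', hL₁''⟩ := s35q_exists_field_const {c₁, c₂, ζ}
  obtain ⟨L₂, hfd₂, hL₂⟩ := s34q_exists_field_rat (M * q) f hf
  let L₃ : IntermediateField ℚ Qbar := IntermediateField.adjoin ℚ (g.rootSet Qbar)
  haveI : Finite ↑(g.rootSet Qbar) := (rootSet_finite g Qbar).to_subtype
  haveI hfd₃ : FiniteDimensional ℚ L₃ :=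
    IntermediateField.finiteDimensional_adjoin
      (fun x _ => (s18q_isAlgebraic_bar.isAlgebraic x).isIntegral)
  let L₄ : IntermediateField ℚ Qbar := L₁ ⊔ L₁' ⊔ L₁'' ⊔ L₂ ⊔ L₃
  haveI hfd₄ : FiniteDimensional ℚ L₄ := by
    show FiniteDimensional ℚ ↥(L₁ ⊔ L₁' ⊔ L₁'' ⊔ L₂ ⊔ L₃)
    infer_instance
  let L₀ : IntermediateField ℚ Qbar := IntermediateField.normalClosure ℚ ↥L₄ Qbar
  have hL₄₀ : L₄ ≤ L₀ := IntermediateField.le_normalClosure L₄
  haveI hfd₀ : FiniteDimensional ℚ L₀ := normalClosure.is_finiteDimensional ℚ ↥L₄ Qbar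
  haveI hnorm : Normal ℚ ↥L₀ := normalClosure.normal ℚ ↥L₄ Qbar
  haveI hnf : NumberField ↥L₀ := ⟨⟩
  haveI hgal : IsGalois ℚ ↥L₀ := IsGalois.mk
  have hL₁₀ : L₁ ≤ L₀ :=
    le_trans (le_trans (le_trans (le_trans le_sup_left le_sup_left) le_sup_left) le_sup_left) hL₄₀
  have hL₁'₀ : L₁' ≤ L₀ :=
    le_trans (le_trans (le_trans (le_trans le_sup_right le_sup_left) le_sup_left) le_sup_left) hL₄₀
  have hL₁''₀ : L₁'' ≤ L₀ := le_trans (le_trans (le_trans le_sup_right le_sup_left) le_sup_left) hL₄₀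
  have hL₂₀ : L₂ ≤ L₀ := le_trans (le_trans le_sup_right le_sup_left) hL₄₀
  have hL₃₀ : L₃ ≤ L₀ := le_trans le_sup_right hL₄₀
  -- `g` splits in `L₀`
  have hsplit : (g.map (algebraMap ℚ ↥L₀)).Splits := by
    refine IntermediateField.splits_of_splits (IsAlgClosed.splits _) ?_
    intro x hx
    exact hL₃₀ (IntermediateField.subset_adjoin ℚ _ hx)
  -- the models
  obtain ⟨f₀, hf₀⟩ := s18q_incl_range_mono (M * q) hL₁₀ (hL₁ f (Finset.mem_singleton_self f))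
  obtain ⟨h₁₀, hh₁₀⟩ := s18q_incl_range_mono M hL₁'₀ (hL₁' h₁ (by simp))
  obtain ⟨h₂₀, hh₂₀⟩ := s18q_incl_range_mono M hL₁'₀ (hL₁' h₂ (by simp))
  have hc₁₀ : c₁ ∈ L₀ := hL₁''₀ (hL₁'' c₁ (by simp))
  have hc₂₀ : c₂ ∈ L₀ := hL₁''₀ (hL₁'' c₂ (by simp))
  have hζ₀ : ζ ∈ L₀ := hL₁''₀ (hL₁'' ζ (by simp))
  have hf₀0 : f₀ ≠ 0 := by
    rintro rfl
    exact hf (by rw [← hf₀, map_zero])
  -- the root of unity in `L₀`
  have hζ' : ∃ ζ₀ : ↥L₀, IsPrimitiveRoot ζ₀ q := by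
    refine ⟨⟨ζ, hζ₀⟩, ?_⟩
    have : IsPrimitiveRoot (algebraMap ↥L₀ Qbar ⟨ζ, hζ₀⟩) q := hζ
    exact this.of_map_of_injective (algebraMap ↥L₀ Qbar).injective
  -- the norms over `L₀`
  obtain ⟨hNCα, hNCβ⟩ := hNC L₀ hζ' f₀
  have hnα : s35r_normAlong (heckeAlphaBar ↥L₀ M q) f₀ =
      algebraMap ↥L₀ _ ⟨c₁, hc₁₀⟩ * h₁₀ ^ m := by
    apply s18q_incl_injective M L₀
    rw [hNCα, hf₀, hc₁, map_mul, map_pow, hh₁₀]
    congr 1
    exact (s18q_map_algebraMap (algebraMap ↥L₀ Qbar) (modularFunctionFieldFull M) ⟨c₁, hc₁₀⟩).symm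
  have hnβ : s35r_normAlong (heckeBetaBar ↥L₀ M q) f₀ =
      algebraMap ↥L₀ _ ⟨c₂, hc₂₀⟩ * h₂₀ ^ m := by
    apply s18q_incl_injective M L₀
    rw [hNCβ, hf₀, hc₂, map_mul, map_pow, hh₂₀]
    congr 1
    exact (s18q_map_algebraMap (algebraMap ↥L₀ Qbar) (modularFunctionFieldFull M) ⟨c₂, hc₂₀⟩).symm
  -- the valuation ring
  haveI hdvr : IsDiscreteValuationRing ↥(A.comap (algebraMap ↥L₀ Qbar)) := s18q_A0_dvr A L₀ hA
  have hqA₀ : ((q : ℕ) : ↥L₀) ∈ (A.comap (algebraMap ↥L₀ Qbar)).nonunits := by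
    rw [s34q_mem_nonunits_comap, map_natCast]
    exact hA
  -- the automorphism
  let σ₀ : ↥L₀ ≃ₐ[ℚ] ↥L₀ := σ.restrictNormal ↥L₀
  have hσ₀ : ∀ a : ↥L₀, algebraMap ↥L₀ Qbar (σ₀ a) = σ (algebraMap ↥L₀ Qbar a) :=
    fun a => AlgEquiv.restrictNormal_commutes σ ↥L₀ a
  obtain ⟨hD, hFr⟩ := s35t_frob_spec A σ q hσ
  have hDinv : σ⁻¹ ∈ A.decompositionSubgroup ℚ := inv_mem hD
  have hσ₀A : ∀ a : ↥L₀, σ₀ a ∈ A.comap (algebraMap ↥L₀ Qbar) ↔
      a ∈ A.comap (algebraMap ↥L₀ Qbar) := by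
    intro a
    rw [ValuationSubring.mem_comap, ValuationSubring.mem_comap, hσ₀]
    constructor
    · intro h
      have h2 := ford_decomposition_mem A σ⁻¹ hDinv _ h
      have h3 : σ⁻¹ (σ (algebraMap ↥L₀ Qbar a)) = algebraMap ↥L₀ Qbar a :=
        σ.symm_apply_apply _
      rwa [h3] at h2
    · exact ford_decomposition_mem A σ hD _
  have hσ₀F : ∀ a ∈ A.comap (algebraMap ↥L₀ Qbar),
      σ₀ a - a ^ q ∈ (A.comap (algebraMap ↥L₀ Qbar)).nonunits := by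
    intro a ha
    rw [s34q_mem_nonunits_comap, map_sub, map_pow, hσ₀]
    exact hFr _ ha
  -- divisibility and rationality over `L₀`
  have hdiv₀ : ∀ Q : Place ↥L₀ ↥(laurentBaseChange ↥L₀ (modularFunctionFieldFull (M * q))),
      (m : ℤ) ∣ Q.ord f₀ :=
    s18q_dvd_ord_descend (M * q) L₀ m f₀ (fun P => by rw [hf₀]; exact hdiv P)
  have hrat : ∀ Q : Place ↥L₀ ↥(laurentBaseChange ↥L₀ (modularFunctionFieldFull (M * q))),
      Q.ord f₀ ≠ 0 → Q.deg = 1 := hL₂ L₀ hL₂₀ f₀ hf₀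
  -- the contract
  obtain ⟨x₀, hx₀, hx⟩ := hNF ↥L₀ hsplit (A.comap (algebraMap ↥L₀ Qbar)) hqA₀ σ₀ hσ₀A hσ₀F f₀
    hf₀0 hdiv₀ hrat ⟨_, _, hnα⟩ ⟨_, _, hnβ⟩
  have key := s35q_kummer_of_descent (M * q) σ m (q ^ 2) (algebraMap ↥L₀ Qbar) σ₀ hσ₀ f₀ x₀
    hf₀0 hx₀ hx
  have hincl : s18q_map (algebraMap ↥L₀ Qbar) (modularFunctionFieldFull (M * q)) f₀ = f := hf₀
  rw [hincl] at key
  exact key

end Main

end Fermat.Agent.Lib.S35
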