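/-
S35 (Plan N = "NEW-WEIGHT"), ARCHITECT'S INTERFACE (helper4).

THE NUMBER-FIELD CONTRACT IS helper5's `s35q_NFKummer M q m` (`Lib/S35/RDesc.lean`), with the operator
`s35q_P g Q f = g⁴f · f^Q / (g²f)^(1+Q)` at `Q = q ^ 2`; this file only adds generic facts on
`s35q_P` used by the assembly (`Final`):

* `s35i_ord_P`  : the order of `P(g)f` at a place;
* `s35i_dvd_ord_P` : `m ∣ div f ⇒ m ∣ div P(g)f`;
* `s35i_ord_le_of_div` : from `ord_Q (P(g)f / x^m) ≤ m · ord_Q x'` to `ord_Q (P(g)f) ≤ m · ord_Q (x x')`.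
-/
import Mathlib
import Fermat.Agent.Lib.S35.RDesc

set_option autoImplicit false

noncomputable section

namespace Fermat.Agent.Lib.S35

open AlgebraicCurve Fermat.Agent.Lib.FF

variable {K F : Type*} [Field K] [Field F] [Algebra K F]

/-- The order of `P(g)f`. -/
theorem s35i_ord_P (g : SemilinearAut K F) (Q : ℕ) (v : Place K F) {f : F} (hf : f ≠ 0) :
    v.ord (s35q_P g Q f) = (g⁻¹ • g⁻¹ • g⁻¹ • g⁻¹ • v).ord f + (Q : ℤ) * v.ord f -
      ((1 + Q : ℕ) : ℤ) * (g⁻¹ • g⁻¹ • v).ord f := by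
  have h2 := s35r_smul_ne_zero g (s35r_smul_ne_zero g hf)
  have h4 := s35r_smul_ne_zero g (s35r_smul_ne_zero g h2)
  rw [s35q_P, div_eq_mul_inv, v.ord_mul (mul_ne_zero h4 (pow_ne_zero _ hf))
    (inv_ne_zero (pow_ne_zero _ h2)), v.ord_mul h4 (pow_ne_zero _ hf), v.ord_inv,
    ← zpow_natCast, v.ord_zpow, ← zpow_natCast, v.ord_zpow, s35r_ord_smul, s35r_ord_smul,
    s35r_ord_smul, s35r_ord_smul, s35r_ord_smul, s35r_ord_smul]
  ring

/-- `m ∣ div f ⇒ m ∣ div P(g)f`. -/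
theorem s35i_dvd_ord_P (g : SemilinearAut K F) (Q : ℕ) {f : F} (hf : f ≠ 0) (m : ℤ)
    (h : ∀ v : Place K F, m ∣ v.ord f) (v : Place K F) : m ∣ v.ord (s35q_P g Q f) := by
  rw [s35i_ord_P g Q v hf]
  exact dvd_sub (dvd_add (h _) (Dvd.dvd.mul_left (h _) _)) (Dvd.dvd.mul_left (h _) _)

/-- From the conclusion of Theorem X₀ for `P(g)f / x ^ m` to the conclusion of the contract. -/
theorem s35i_ord_le_of_div {y x x' : F} (hx : x ≠ 0) (hx' : x' ≠ 0) (hy : y ≠ 0) (m : ℕ)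
    (v : Place K F) (h : v.ord (y / x ^ m) ≤ (m : ℤ) * v.ord x') :
    v.ord y ≤ (m : ℤ) * v.ord (x * x') := by
  rw [div_eq_mul_inv, v.ord_mul hy (inv_ne_zero (pow_ne_zero _ hx)), v.ord_inv, ← zpow_natCast,
    v.ord_zpow] at h
  rw [v.ord_mul hx hx']
  linarith

end Fermat.Agent.Lib.S35
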