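/-
S35, package [F] (helper5 for the architect; prefix `s35f_`): **the local generator for the
operator `P`** — generic twin of the order computation in `s34f_loc_of_almostAll` (Lib/S34/FGen).

`B = s34x_ring O S`, `𝔫` an ideal of `B`; `h` a semilinear automorphism of the function field which
preserves `B`, the chart `S` and `𝔫` (`s35f_StableP`; in the application `h = g * g`, NO congruence
`h b ≡ b` is needed).  If at most one place of degree one through `𝔫` has no local equation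
(`s34f_AlmostAll`), then for every `f ≠ 0` with `m ∣ div f` and rational support there is `Φ ≠ 0`
with

  `ord_Q (P(g) Φ) = ord_Q (P(g) f) / m`   at ALL places `Q ∈ S` through `𝔫`,

where `P(g) y = s35q_P g Qexp y = g⁴y · y ^ Qexp / (g²y) ^ (1 + Qexp)`:
`Φ := ∏_{P through 𝔫 with a local equation} φ_P ^ (ord_P f / m)`; the defect `ord f / m - ord Φ` is
supported on the exceptional place, is `g⁻²`-invariant, and the coefficients of `P` sum to zero.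
-/
import Mathlib
import Fermat.Agent.Lib.S34.FContract
import Fermat.Agent.Lib.S35.Iface
import Fermat.Agent.Lib.S18.IInvLocal

set_option autoImplicit false

noncomputable section

namespace Fermat.Agent.Lib.S35

open AlgebraicCurve Fermat.Agent.Lib.FF Fermat.Agent.Lib.S18 Fermat.Agent.Lib.S34

variable {L₀ 𝓕 : Type*} [Field L₀] [Field 𝓕] [Algebra L₀ 𝓕]

section Stab

variable (O : Subring 𝓕) (S : Set (Place L₀ 𝓕))

/-- The hypotheses on a semilinear automorphism `h` relative to the chart ring and an ideal: it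
preserves the chart ring, the chart and the ideal. -/
structure s35f_StableP (𝔫 : Ideal (s34x_ring O S)) (h : SemilinearAut L₀ 𝓕) : Prop where
  mem_iff : ∀ y : 𝓕, y ∈ s34x_ring O S ↔ h • y ∈ s34x_ring O S
  chart : ∀ Q : Place L₀ 𝓕, Q ∈ S ↔ h • Q ∈ S
  fix : ∀ (b : s34x_ring O S) (hb : h • (b : 𝓕) ∈ s34x_ring O S),
    b ∈ 𝔫 ↔ (⟨h • (b : 𝓕), hb⟩ : s34x_ring O S) ∈ 𝔫

variable {O S}
variable {𝔫 : Ideal (s34x_ring O S)} {h : SemilinearAut L₀ 𝓕}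

theorem s35f_StableP.inv (hs : s35f_StableP O S 𝔫 h) : s35f_StableP O S 𝔫 h⁻¹ where
  mem_iff y := by
    have := hs.mem_iff (h⁻¹ • y)
    rw [smul_inv_smul] at this
    exact this.symm
  chart Q := by
    have := hs.chart (h⁻¹ • Q)
    rw [smul_inv_smul] at this
    exact this.symm
  fix b hb := by
    have hb2 : h • ((⟨h⁻¹ • (b : 𝓕), hb⟩ : s34x_ring O S) : 𝓕) ∈ s34x_ring O S := by
      show h • (h⁻¹ • (b : 𝓕)) ∈ s34x_ring O S
      rw [smul_inv_smul]; exact b.2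
    have := hs.fix ⟨h⁻¹ • (b : 𝓕), hb⟩ hb2
    have heq : (⟨h • ((⟨h⁻¹ • (b : 𝓕), hb⟩ : s34x_ring O S) : 𝓕), hb2⟩ : s34x_ring O S) = b := by
      apply Subtype.ext
      show h • (h⁻¹ • (b : 𝓕)) = b
      rw [smul_inv_smul]
    rw [heq] at this
    exact this.symm

/-- "through `𝔫`" is stable under `h`. -/
theorem s35f_StableP.through_smul (hs : s35f_StableP O S 𝔫 h) {Q : Place L₀ 𝓕}
    (hth : s34f_through O S 𝔫 Q) : s34f_through O S 𝔫 (h • Q) := by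
  intro b hb0 hbpos
  have hb' : h⁻¹ • (b : 𝓕) ∈ s34x_ring O S := (hs.inv.mem_iff _).mp b.2
  have hord : Q.ord (h⁻¹ • (b : 𝓕)) = (h • Q).ord (b : 𝓕) := by
    have := SemilinearAut.ord_smul h Q (h⁻¹ • (b : 𝓕))
    rw [smul_inv_smul] at this
    exact this.symm
  have hb'0 : h⁻¹ • (b : 𝓕) ≠ 0 := s35r_smul_ne_zero h⁻¹ hb0
  have hmem : (⟨h⁻¹ • (b : 𝓕), hb'⟩ : s34x_ring O S) ∈ 𝔫 :=
    hth ⟨h⁻¹ • (b : 𝓕), hb'⟩ hb'0 (by rw [hord]; exact hbpos)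
  exact (hs.inv.fix b hb').mpr hmem

/-- Local equations are transported by `h`. -/
theorem s35f_StableP.locEq_smul (hs : s35f_StableP O S 𝔫 h) {Q : Place L₀ 𝓕}
    (hQ : s34f_LocEq O S 𝔫 Q) : s34f_LocEq O S 𝔫 (h • Q) := by
  obtain ⟨φ, hφ0, hφ1, hφ⟩ := hQ
  refine ⟨h • φ, s35r_smul_ne_zero h hφ0, ?_, ?_⟩
  · rw [SemilinearAut.ord_smul]; exact hφ1
  · intro Q' hQ'S hne hth'
    rw [s35r_ord_smul]
    refine hφ (h⁻¹ • Q') ((hs.inv.chart Q').mp hQ'S) ?_ (hs.inv.through_smul hth')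
    intro heq
    apply hne
    rw [← heq, smul_inv_smul]

/-- `s35f_StableP` for `g * g` from the hypotheses spelled with `g • g • ·`. -/
theorem s35f_stableP_sq (𝔫 : Ideal (s34x_ring O S)) (g : SemilinearAut L₀ 𝓕)
    (hmem : ∀ y : 𝓕, y ∈ s34x_ring O S ↔ g • g • y ∈ s34x_ring O S)
    (hchart : ∀ Q : Place L₀ 𝓕, Q ∈ S ↔ g • g • Q ∈ S)
    (hfix : ∀ (b : s34x_ring O S) (hb : g • g • (b : 𝓕) ∈ s34x_ring O S),
      b ∈ 𝔫 ↔ (⟨g • g • (b : 𝓕), hb⟩ : s34x_ring O S) ∈ 𝔫) :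
    s35f_StableP O S 𝔫 (g * g) where
  mem_iff y := by rw [mul_smul]; exact hmem y
  chart Q := by rw [mul_smul]; exact hchart Q
  fix b hb := by
    have hb' : g • g • (b : 𝓕) ∈ s34x_ring O S := by rw [← mul_smul]; exact hb
    have heq : (⟨(g * g) • (b : 𝓕), hb⟩ : s34x_ring O S) = ⟨g • g • (b : 𝓕), hb'⟩ :=
      Subtype.ext (mul_smul g g _)
    rw [heq]
    exact hfix b hb'

end Stab

/-- **The local generator for `P`**, abstract form (`h = g * g` stable). -/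
theorem s35f_genP_of_stable (O : Subring 𝓕) (S : Set (Place L₀ 𝓕))
    (F3 : ∀ y : 𝓕, y ≠ 0 → {Q : Place L₀ 𝓕 | Q ∈ S ∧ Q.ord y ≠ 0}.Finite)
    (𝔫 : Ideal (s34x_ring O S)) (g : SemilinearAut L₀ 𝓕)
    (hst : s35f_StableP O S 𝔫 (g * g))
    (hAA : s34f_AlmostAll O S 𝔫)
    (f : 𝓕) (hf0 : f ≠ 0) (m : ℕ) (hm0 : m ≠ 0) (hdiv : ∀ Q : Place L₀ 𝓕, (m : ℤ) ∣ Q.ord f)
    (hdeg : ∀ Q ∈ S, Q.ord f ≠ 0 → Q.deg = 1) (Qexp : ℕ) :
    ∃ Φ : 𝓕, Φ ≠ 0 ∧ ∀ Q ∈ S, s34f_through O S 𝔫 Q →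
      Q.ord (s35q_P g Qexp Φ) = s18_E (s35q_P g Qexp f) m Q := by
  classical
  have hmZ : (m : ℤ) ≠ 0 := by exact_mod_cast hm0
  set h : SemilinearAut L₀ 𝓕 := g * g with hh
  have hinvsmul : ∀ Q : Place L₀ 𝓕, h⁻¹ • Q = g⁻¹ • g⁻¹ • Q := by
    intro Q
    rw [hh, mul_inv_rev, mul_smul]
  -- the exponent function of `f`
  set e : Place L₀ 𝓕 → ℤ := fun P => P.ord f / (m : ℤ) with he
  have hme : ∀ P : Place L₀ 𝓕, P.ord f = (m : ℤ) * e P := fun P =>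
    (Int.mul_ediv_cancel' (hdiv P)).symm
  have he0 : ∀ P : Place L₀ 𝓕, e P ≠ 0 → P.ord f ≠ 0 := by
    intro P hP h0
    apply hP
    rw [he]
    show P.ord f / (m : ℤ) = 0
    rw [h0, Int.zero_ediv]
  -- the places through `𝔫` in the support of `f` which have a local equation
  have hfinf := F3 f hf0
  set T : Finset (Place L₀ 𝓕) := hfinf.toFinset.filter fun P =>
    s34f_through O S 𝔫 P ∧ s34f_LocEq O S 𝔫 P with hT
  have hTmem : ∀ P, P ∈ T ↔ (P ∈ S ∧ P.ord f ≠ 0) ∧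
      s34f_through O S 𝔫 P ∧ s34f_LocEq O S 𝔫 P := by
    intro P
    rw [hT, Finset.mem_filter, Set.Finite.mem_toFinset]
    rfl
  have hchoose : ∀ P : Place L₀ 𝓕, ∃ φ : 𝓕, P ∈ T → (φ ≠ 0 ∧ P.ord φ = 1 ∧
      ∀ Q' ∈ S, Q' ≠ P → s34f_through O S 𝔫 Q' → Q'.ord φ = 0) := by
    intro P
    by_cases hP : P ∈ T
    · obtain ⟨φ, h1, h2, h3⟩ := ((hTmem P).mp hP).2.2
      exact ⟨φ, fun _ => ⟨h1, h2, h3⟩⟩
    · exact ⟨0, fun h => absurd h hP⟩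
  choose φ hφ using hchoose
  have hφ0 : ∀ P ∈ T, φ P ≠ 0 := fun P hP => (hφ P hP).1
  set Φ : 𝓕 := ∏ P ∈ T, φ P ^ e P with hΦ
  have hΦ0 : Φ ≠ 0 := Finset.prod_ne_zero_iff.mpr fun P hP => zpow_ne_zero _ (hφ0 P hP)
  -- the order of `Φ` at the places through `𝔫`
  have hordΦ : ∀ Q ∈ S, s34f_through O S 𝔫 Q →
      Q.ord Φ = if Q ∈ T then e Q else 0 := by
    intro Q hQS hth
    rw [hΦ, s18i_ord_prod_zpow Q T φ e hφ0]
    by_cases hQT : Q ∈ T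
    · rw [if_pos hQT, Finset.sum_eq_single_of_mem Q hQT, (hφ Q hQT).2.1, mul_one]
      intro P hP hne
      rw [(hφ P hP).2.2 Q hQS (Ne.symm hne) hth, mul_zero]
    · rw [if_neg hQT]
      refine Finset.sum_eq_zero fun P hP => ?_
      have hne : Q ≠ P := fun h => hQT (h ▸ hP)
      rw [(hφ P hP).2.2 Q hQS hne hth, mul_zero]
  -- the defect `Δ = e - ord Φ`
  have hΔ : ∀ Q ∈ S, s34f_through O S 𝔫 Q →
      e Q - Q.ord Φ = if s34f_LocEq O S 𝔫 Q then 0 else e Q := by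
    intro Q hQS hth
    rw [hordΦ Q hQS hth]
    by_cases hQT : Q ∈ T
    · rw [if_pos hQT, if_pos ((hTmem Q).mp hQT).2.2, sub_self]
    · rw [if_neg hQT, sub_zero]
      by_cases hloc : s34f_LocEq O S 𝔫 Q
      · rw [if_pos hloc]
        by_contra hne
        exact hQT ((hTmem Q).mpr ⟨⟨hQS, he0 Q hne⟩, hth, hloc⟩)
      · rw [if_neg hloc]
  -- `h⁻¹`-invariance of the defect
  have hinv : ∀ Q ∈ S, s34f_through O S 𝔫 Q →
      e (h⁻¹ • Q) - (h⁻¹ • Q).ord Φ = e Q - Q.ord Φ := by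
    intro Q hQS hth
    have hQ1S : h⁻¹ • Q ∈ S := (hst.inv.chart Q).mp hQS
    have hth1 : s34f_through O S 𝔫 (h⁻¹ • Q) := hst.inv.through_smul hth
    rw [hΔ Q hQS hth, hΔ _ hQ1S hth1]
    by_cases hloc : s34f_LocEq O S 𝔫 Q
    · rw [if_pos hloc, if_pos (hst.inv.locEq_smul hloc)]
    · have hloc1 : ¬ s34f_LocEq O S 𝔫 (h⁻¹ • Q) := by
        intro h1
        apply hloc
        have := hst.locEq_smul h1
        rwa [smul_inv_smul] at this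
      rw [if_neg hloc, if_neg hloc1]
      by_cases hz : e Q = 0 ∧ e (h⁻¹ • Q) = 0
      · rw [hz.1, hz.2]
      · have hdeg1 : Q.deg = 1 := by
          by_cases h1 : e Q = 0
          · have h2 : e (h⁻¹ • Q) ≠ 0 := fun h2 => hz ⟨h1, h2⟩
            have := hdeg _ hQ1S (he0 _ h2)
            rwa [SemilinearAut.deg_smul] at this
          · exact hdeg Q hQS (he0 Q h1)
        have hdeg2 : (h⁻¹ • Q).deg = 1 := by rw [SemilinearAut.deg_smul]; exact hdeg1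
        have := hAA Q hQS _ hQ1S hth hth1 hdeg1 hdeg2 hloc hloc1
        rw [← this]
  -- the computation
  refine ⟨Φ, hΦ0, fun Q hQS hth => ?_⟩
  have hQ1S : h⁻¹ • Q ∈ S := (hst.inv.chart Q).mp hQS
  have hth1 : s34f_through O S 𝔫 (h⁻¹ • Q) := hst.inv.through_smul hth
  have h1 := hinv Q hQS hth
  have h2 := hinv _ hQ1S hth1
  have hE : s18_E (s35q_P g Qexp f) m Q =
      e (h⁻¹ • h⁻¹ • Q) + (Qexp : ℤ) * e Q - ((1 + Qexp : ℕ) : ℤ) * e (h⁻¹ • Q) := by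
    rw [s18_E, s35i_ord_P g Qexp Q hf0, ← hinvsmul, ← hinvsmul, hme, hme Q, hme (h⁻¹ • Q)]
    have : (m : ℤ) * e (h⁻¹ • h⁻¹ • Q) + (Qexp : ℤ) * ((m : ℤ) * e Q) -
        ((1 + Qexp : ℕ) : ℤ) * ((m : ℤ) * e (h⁻¹ • Q)) =
        (m : ℤ) * (e (h⁻¹ • h⁻¹ • Q) + (Qexp : ℤ) * e Q - ((1 + Qexp : ℕ) : ℤ) * e (h⁻¹ • Q)) := by
      ring
    rw [this, Int.mul_ediv_cancel_left _ hmZ]
  rw [hE, s35i_ord_P g Qexp Q hΦ0, ← hinvsmul, ← hinvsmul]
  have h3 : e (h⁻¹ • h⁻¹ • Q) - (h⁻¹ • h⁻¹ • Q).ord Φ = e Q - Q.ord Φ := by rw [h2, h1]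
  push_cast
  linear_combination (-1 : ℤ) * h3 + (1 + (Qexp : ℤ)) * h1

/-- **The local generator for `P`** in the shape of the architect's specification (hypotheses on
`g • g • ·`, chart ring of `⨅ i, O i`). -/
theorem s35f_genP {ι : Type*} (O : ι → ValuationSubring 𝓕) (S : Set (Place L₀ 𝓕))
    (F3 : ∀ y : 𝓕, y ≠ 0 → {Q : Place L₀ 𝓕 | Q ∈ S ∧ Q.ord y ≠ 0}.Finite)
    (𝔫 : Ideal (s34x_ring (s34x_infRing O) S)) (g : SemilinearAut L₀ 𝓕)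
    (hmem : ∀ y : 𝓕, y ∈ s34x_ring (s34x_infRing O) S ↔ g • g • y ∈ s34x_ring (s34x_infRing O) S)
    (hchart : ∀ Q : Place L₀ 𝓕, Q ∈ S ↔ g • g • Q ∈ S)
    (hfix : ∀ (b : s34x_ring (s34x_infRing O) S)
      (hb : g • g • (b : 𝓕) ∈ s34x_ring (s34x_infRing O) S),
      b ∈ 𝔫 ↔ (⟨g • g • (b : 𝓕), hb⟩ : s34x_ring (s34x_infRing O) S) ∈ 𝔫)
    (hAA : s34f_AlmostAll (s34x_infRing O) S 𝔫)
    (f : 𝓕) (hf0 : f ≠ 0) (m : ℕ) (hm0 : m ≠ 0) (hdiv : ∀ Q : Place L₀ 𝓕, (m : ℤ) ∣ Q.ord f)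
    (hdeg : ∀ Q ∈ S, Q.ord f ≠ 0 → Q.deg = 1) (Qexp : ℕ) :
    ∃ Φ : 𝓕, Φ ≠ 0 ∧ ∀ Q ∈ S, s34f_through (s34x_infRing O) S 𝔫 Q →
      Q.ord (s35q_P g Qexp Φ) = s18_E (s35q_P g Qexp f) m Q :=
  s35f_genP_of_stable (s34x_infRing O) S F3 𝔫 g (s35f_stableP_sq 𝔫 g hmem hchart hfix) hAA f hf0 m
    hm0 hdiv hdeg Qexp

end Fermat.Agent.Lib.S35
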