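/-
S35 project, package [F] (helper9), part 3: (LOC) AT A NODE FROM A LOCAL GENERATOR — pure glue.

Setting of `Lib/S34/XLocGen.lean`: `O : ι → ValuationSubring 𝓕`, `B = s34x_ring (s34x_infRing O) S`,
`𝔫` a prime of `B`.  The function under study is `F = Pf / x ^ m` (`Pf = P(σ) f`, `x` the global
approximate `m`-th root of its reductions).

* `s35f_NodeGen O S π 𝔫 E` : the local generator contract at `𝔫` for the exponent function `E`: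
  `γ ≠ 0` with `E Q ≤ ord_Q γ` at the places of `S` through `𝔫` and `γ ≡ 1 mod π (O i)` for the
  components `i` through `𝔫` — literally the input of `s34x_loc_of_gen`;
* `s35f_loc_of_nodeGen` : (LOC) from `s35f_NodeGen` (finiteness from (F3));
* `s35f_nodeGen_of_frac` : the contract from the output of the node package: `γ₀` with
  `E₀ Q ≤ ord_Q γ₀` (`E₀ = div Pf / m`) and `γ₀ ≡ b / b'`, `x ≡ b₁ / b₁'` modulo `π (O i)` with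
  `b, b', b₁, b₁' ∈ B ∖ 𝔫`: the generator is `γ₀ b' b₁ / (b b₁' x)`.
-/
import Fermat.Agent.Lib.S34.XLocGen
import Fermat.Agent.Lib.S34.FIface

set_option autoImplicit false
set_option linter.style.haveILetI false
set_option linter.unusedSectionVars false

noncomputable section

namespace Fermat.Agent.Lib.S35

open AlgebraicCurve Fermat.Agent.Lib.FF Fermat.Agent.Lib.S18 Fermat.Agent.Lib.S34

variable {L₀ 𝓕 : Type*} [Field L₀] [Field 𝓕] [Algebra L₀ 𝓕]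

variable {ι : Type*} (O : ι → ValuationSubring 𝓕) (S : Set (Place L₀ 𝓕)) (π : 𝓕)

/-- The component `i` passes through the prime `𝔫` of the chart ring. -/
def s35f_compThrough (𝔫 : Ideal (s34x_ring (s34x_infRing O) S)) (i : ι) : Prop :=
  ∀ b : s34x_ring (s34x_infRing O) S, (∃ y ∈ O i, (b : 𝓕) = π * y) → b ∈ 𝔫

/-- **The local generator contract** at `𝔫` for the exponent function `E`. -/
def s35f_NodeGen (𝔫 : Ideal (s34x_ring (s34x_infRing O) S)) (E : Place L₀ 𝓕 → ℤ) : Prop :=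
  ∃ γ : 𝓕, γ ≠ 0 ∧
    (∀ Q ∈ S, s34f_through (s34x_infRing O) S 𝔫 Q → E Q ≤ Q.ord γ) ∧
    ∀ i, s35f_compThrough O S π 𝔫 i → ∃ y ∈ O i, γ - 1 = π * y

/-- **(LOC) from the local generator contract.** -/
theorem s35f_loc_of_nodeGen [Fintype ι] (hπ0 : π ≠ 0) (hπO : ∀ i, π ∈ O i)
    (hU : ∀ i, ∀ y : 𝓕, ∃ k : ℕ, π ^ k * y ∈ O i)
    (F3 : ∀ y : 𝓕, y ≠ 0 → {Q : Place L₀ 𝓕 | Q ∈ S ∧ Q.ord y ≠ 0}.Finite)
    (𝔫 : Ideal (s34x_ring (s34x_infRing O) S)) [h𝔫 : 𝔫.IsPrime]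
    (F : 𝓕) (hF0 : F ≠ 0) (m : ℕ)
    (h : s35f_NodeGen O S π 𝔫 (s18_E F m)) :
    ∃ a ∈ s34x_latSet (s34x_infRing O) S (s18_E F m),
      ∃ s : s34x_ring (s34x_infRing O) S, s ∉ 𝔫 ∧
        ∃ y ∈ s34x_infRing O, a - (s : 𝓕) = π * y := by
  obtain ⟨γ, hγ0, hγQ, hγC⟩ := h
  refine s34x_loc_of_gen O S (s18_E F m) π hπ0 hπO hU 𝔫 γ hγ0 hγQ hγC ?_
  refine ((F3 γ hγ0).union (F3 F hF0)).subset ?_
  rintro Q ⟨hQS, hlt⟩
  by_cases h0 : Q.ord F = 0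
  · left
    refine ⟨hQS, fun h => ?_⟩
    rw [h, s18_E, h0, Int.zero_ediv] at hlt
    exact lt_irrefl _ hlt
  · right
    exact ⟨hQS, h0⟩

/-- An element of `B ∖ 𝔫` is a unit of `O i` for every component `i` through `𝔫`. -/
theorem s35f_inv_mem_of_not_mem
    (hmax : ∀ i, ∀ y ∈ O i, (∃ z ∈ O i, y = π * z) ∨ y⁻¹ ∈ O i)
    (𝔫 : Ideal (s34x_ring (s34x_infRing O) S)) (i : ι) (hi : s35f_compThrough O S π 𝔫 i)
    (b : s34x_ring (s34x_infRing O) S) (hb : b ∉ 𝔫) : ((b : 𝓕))⁻¹ ∈ O i := by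
  rcases hmax i (b : 𝓕) ((s34x_mem_infRing O _).mp b.2.1 i) with hdiv | hinv
  · exact absurd (hi b hdiv) hb
  · exact hinv

/-- An element of `B ∖ 𝔫` has order zero at the places of `S` through `𝔫`. -/
theorem s35f_ord_eq_zero_of_not_mem (𝔫 : Ideal (s34x_ring (s34x_infRing O) S))
    (b : s34x_ring (s34x_infRing O) S) (hb : b ∉ 𝔫) (Q : Place L₀ 𝓕) (hQS : Q ∈ S)
    (hth : s34f_through (s34x_infRing O) S 𝔫 Q) : (b : 𝓕) ≠ 0 ∧ Q.ord (b : 𝓕) = 0 := by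
  have hb0 : (b : 𝓕) ≠ 0 := by
    intro h0
    apply hb
    have : b = 0 := Subtype.ext h0
    rw [this]; exact 𝔫.zero_mem
  refine ⟨hb0, ?_⟩
  have hge := s34x_ord_nonneg_of_mem_ring _ S b Q hQS
  by_contra hne
  exact hb (hth b hb0 (lt_of_le_of_ne hge (Ne.symm hne)))

/-- **The local generator contract for `F = Pf / x ^ m` from the output of the node package.** -/
theorem s35f_nodeGen_of_frac (hπO : ∀ i, π ∈ O i)
    (hmax : ∀ i, ∀ y ∈ O i, (∃ z ∈ O i, y = π * z) ∨ y⁻¹ ∈ O i)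
    (𝔫 : Ideal (s34x_ring (s34x_infRing O) S))
    (Pf x : 𝓕) (hPf0 : Pf ≠ 0) (hx0 : x ≠ 0) (m : ℕ) (hm0 : m ≠ 0)
    (hdiv : ∀ Q ∈ S, (m : ℤ) ∣ Q.ord Pf)
    (γ₀ : 𝓕) (hγ₀ : γ₀ ≠ 0) (b b' b₁ b₁' : s34x_ring (s34x_infRing O) S)
    (hb : b ∉ 𝔫) (hb' : b' ∉ 𝔫) (hb₁ : b₁ ∉ 𝔫) (hb₁' : b₁' ∉ 𝔫)
    (hord : ∀ Q ∈ S, s34f_through (s34x_infRing O) S 𝔫 Q → s18_E Pf m Q ≤ Q.ord γ₀)
    (hγred : ∀ i, s35f_compThrough O S π 𝔫 i → ∃ y ∈ O i, γ₀ * (b' : 𝓕) - (b : 𝓕) = π * y)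
    (hxred : ∀ i, s35f_compThrough O S π 𝔫 i → ∃ y ∈ O i, x * (b₁' : 𝓕) - (b₁ : 𝓕) = π * y) :
    s35f_NodeGen O S π 𝔫 (s18_E (Pf / x ^ m) m) := by
  have hmZ : (m : ℤ) ≠ 0 := by exact_mod_cast hm0
  have hBO : ∀ (c : s34x_ring (s34x_infRing O) S) (i : ι), (c : 𝓕) ∈ O i := fun c i =>
    (s34x_mem_infRing O _).mp c.2.1 i
  have hb0 : (b : 𝓕) ≠ 0 := fun h0 => hb (by
    have : b = 0 := Subtype.ext h0
    rw [this]; exact 𝔫.zero_mem)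
  have hb'0 : (b' : 𝓕) ≠ 0 := fun h0 => hb' (by
    have : b' = 0 := Subtype.ext h0
    rw [this]; exact 𝔫.zero_mem)
  have hb₁0 : (b₁ : 𝓕) ≠ 0 := fun h0 => hb₁ (by
    have : b₁ = 0 := Subtype.ext h0
    rw [this]; exact 𝔫.zero_mem)
  have hb₁'0 : (b₁' : 𝓕) ≠ 0 := fun h0 => hb₁' (by
    have : b₁' = 0 := Subtype.ext h0
    rw [this]; exact 𝔫.zero_mem)
  refine ⟨γ₀ * (b' : 𝓕) * (b₁ : 𝓕) * ((b : 𝓕) * (b₁' : 𝓕) * x)⁻¹,
    mul_ne_zero (mul_ne_zero (mul_ne_zero hγ₀ hb'0) hb₁0)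
      (inv_ne_zero (mul_ne_zero (mul_ne_zero hb0 hb₁'0) hx0)), ?_, ?_⟩
  · intro Q hQS hth
    obtain ⟨-, o1⟩ := s35f_ord_eq_zero_of_not_mem O S 𝔫 b hb Q hQS hth
    obtain ⟨-, o2⟩ := s35f_ord_eq_zero_of_not_mem O S 𝔫 b' hb' Q hQS hth
    obtain ⟨-, o3⟩ := s35f_ord_eq_zero_of_not_mem O S 𝔫 b₁ hb₁ Q hQS hth
    obtain ⟨-, o4⟩ := s35f_ord_eq_zero_of_not_mem O S 𝔫 b₁' hb₁' Q hQS hth
    have hden0 : (b : 𝓕) * (b₁' : 𝓕) * x ≠ 0 := mul_ne_zero (mul_ne_zero hb0 hb₁'0) hx0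
    have hinv : Q.ord (((b : 𝓕) * (b₁' : 𝓕) * x)⁻¹) = - Q.ord x := by
      have := Q.ord_zpow ((b : 𝓕) * (b₁' : 𝓕) * x) (-1)
      rw [zpow_neg_one] at this
      rw [this, Q.ord_mul (mul_ne_zero hb0 hb₁'0) hx0, Q.ord_mul hb0 hb₁'0, o1, o4]; ring
    rw [Q.ord_mul (mul_ne_zero (mul_ne_zero hγ₀ hb'0) hb₁0) (inv_ne_zero hden0),
      Q.ord_mul (mul_ne_zero hγ₀ hb'0) hb₁0, Q.ord_mul hγ₀ hb'0, o2, o3, hinv]
    -- the exponent of `Pf / x ^ m`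
    have hE : s18_E (Pf / x ^ m) m Q = s18_E Pf m Q - Q.ord x := by
      have hxm0 : x ^ m ≠ 0 := pow_ne_zero _ hx0
      have h1 : Q.ord (Pf / x ^ m) = Q.ord Pf - (m : ℤ) * Q.ord x := by
        rw [div_eq_mul_inv, Q.ord_mul hPf0 (inv_ne_zero hxm0)]
        have := Q.ord_zpow (x ^ m) (-1)
        rw [zpow_neg_one] at this
        rw [this]
        have h2 : Q.ord (x ^ m) = (m : ℤ) * Q.ord x := by
          have := Q.ord_zpow x m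
          rwa [zpow_natCast] at this
        rw [h2]; ring
      obtain ⟨k, hk⟩ := hdiv Q hQS
      show Q.ord (Pf / x ^ m) / (m : ℤ) = Q.ord Pf / (m : ℤ) - Q.ord x
      rw [h1, hk, Int.mul_ediv_cancel_left _ hmZ]
      have : (m : ℤ) * k - (m : ℤ) * Q.ord x = (m : ℤ) * (k - Q.ord x) := by ring
      rw [this, Int.mul_ediv_cancel_left _ hmZ]
    rw [hE]
    have := hord Q hQS hth
    omega
  · intro i hi
    obtain ⟨y₁, hy₁, e₁⟩ := hγred i hi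
    obtain ⟨y₂, hy₂, e₂⟩ := hxred i hi
    have ib := s35f_inv_mem_of_not_mem O S π hmax 𝔫 i hi b hb
    have ib₁ := s35f_inv_mem_of_not_mem O S π hmax 𝔫 i hi b₁ hb₁
    -- `x b₁'` is a unit of `O i`
    have hxb : x * (b₁' : 𝓕) = (b₁ : 𝓕) + π * y₂ := by rw [← e₂]; ring
    have hxb0 : x * (b₁' : 𝓕) ≠ 0 := mul_ne_zero hx0 hb₁'0
    have hxbO : x * (b₁' : 𝓕) ∈ O i := by
      rw [hxb]; exact (O i).add_mem _ _ (hBO b₁ i) ((O i).mul_mem _ _ (hπO i) hy₂)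
    have hxbinv : (x * (b₁' : 𝓕))⁻¹ ∈ O i := by
      rcases hmax i _ hxbO with ⟨z, hz, ez⟩ | hinv
      · -- then `b₁ ∈ π (O i)`, so `b₁ ∈ 𝔫`
        exfalso
        apply hb₁
        apply hi b₁
        refine ⟨z - y₂, (O i).sub_mem hz hy₂, ?_⟩
        have : (b₁ : 𝓕) = x * (b₁' : 𝓕) - π * y₂ := by rw [hxb]; ring
        rw [this, ez]; ring
      · exact hinv
    refine ⟨(y₁ * (b₁ : 𝓕) - (b : 𝓕) * y₂) * (((b : 𝓕))⁻¹ * (x * (b₁' : 𝓕))⁻¹),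
      (O i).mul_mem _ _ ((O i).sub_mem ((O i).mul_mem _ _ hy₁ (hBO b₁ i))
        ((O i).mul_mem _ _ (hBO b i) hy₂)) ((O i).mul_mem _ _ ib hxbinv), ?_⟩
    have hγb : γ₀ * (b' : 𝓕) = (b : 𝓕) + π * y₁ := by rw [← e₁]; ring
    have hden : (b : 𝓕) * (b₁' : 𝓕) * x = (b : 𝓕) * (x * (b₁' : 𝓕)) := by ring
    rw [hden, mul_inv, hγb]
    field_simp
    linear_combination (-(b : 𝓕)) * hxb

end Fermat.Agent.Lib.S35
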