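/-
S35 project, package [F] (helper9), part 1: RING-THEORETIC CORE of the generic smooth-point (LOC)
(Mathlib only).

`R` a Noetherian local ring with `𝔪_R = (t, ϖ)` such that `(ϖ)` is a PRIME ideal (the local ring of
the normal model at a smooth point of the special fibre).  Then `R / ϖR` is a Noetherian local
domain with principal maximal ideal, so all its non-zero ideals are powers of the maximal ideal:

* `s35f_quot_principal`  : every ideal `J` of `R` is principal modulo `ϖ`
  (`∃ φ ∈ J, ∀ y ∈ J, y ∈ (φ) + (ϖ)`);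
* `s35f_principal_of_sat` : (Nakayama) an ideal `M` of `R` which is `ϖ`-saturated
  (`ϖ y ∈ M → y ∈ M`) is PRINCIPAL — every horizontal prime divisor through a smooth point has a
  local equation, whatever its degree;
* `s35f_quot_dvd_or_dvd` : the principal ideals of `R / ϖR` are totally ordered;
* `s35f_root_unit`       : if `r a ^ m ≡ b ^ m mod ϖ` with `r` a unit, `a, b ∉ (ϖ)`, `m ≠ 0`, then
  `b ≡ c a mod ϖ` for a unit `c` (extraction of an `m`-th root of a unit in the discrete valuation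
  ring `R / ϖR`).
-/
import Mathlib

set_option autoImplicit false
set_option linter.style.haveILetI false

namespace Fermat.Agent.Lib.S35

open IsLocalRing

section Quot

variable {R : Type*} [CommRing R] [IsLocalRing R]

/-- The quotient of a local ring by a proper ideal is local. -/
theorem s35f_isLocalRing_quot (I : Ideal R) (hI : I ≠ ⊤) : IsLocalRing (R ⧸ I) := by
  haveI : Nontrivial (R ⧸ I) := Ideal.Quotient.nontrivial_iff.mpr hI
  exact IsLocalRing.of_surjective' (Ideal.Quotient.mk I) Ideal.Quotient.mk_surjective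

/-- In the quotient `R / (ϖ)` of a local ring with `𝔪 = (t, ϖ)` the maximal ideal is `(t̄)`. -/
theorem s35f_quot_maximalIdeal (t ϖ : R) (hm : maximalIdeal R = Ideal.span {t, ϖ})
    [hloc : IsLocalRing (R ⧸ (Ideal.span {ϖ} : Ideal R))] :
    maximalIdeal (R ⧸ (Ideal.span {ϖ} : Ideal R)) =
      Ideal.span {Ideal.Quotient.mk (Ideal.span {ϖ} : Ideal R) t} := by
  set I : Ideal R := Ideal.span {ϖ} with hI
  have ht𝔪 : t ∈ maximalIdeal R := by rw [hm]; exact Ideal.subset_span (by simp)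
  have hϖ𝔪 : ϖ ∈ maximalIdeal R := by rw [hm]; exact Ideal.subset_span (by simp)
  apply le_antisymm
  · intro x hx
    obtain ⟨y, rfl⟩ := Ideal.Quotient.mk_surjective x
    have hy : y ∈ maximalIdeal R := by
      rw [mem_maximalIdeal, mem_nonunits_iff]
      intro hu
      rw [mem_maximalIdeal, mem_nonunits_iff] at hx
      exact hx (hu.map _)
    rw [hm, Ideal.mem_span_pair] at hy
    obtain ⟨a, b, rfl⟩ := hy
    rw [Ideal.mem_span_singleton]
    refine ⟨Ideal.Quotient.mk I a, ?_⟩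
    have hb : Ideal.Quotient.mk I (b * ϖ) = 0 :=
      Ideal.Quotient.eq_zero_iff_mem.mpr (Ideal.mul_mem_left _ _ (Ideal.subset_span rfl))
    rw [map_add, hb, add_zero, map_mul, mul_comm]
  · rw [Ideal.span_le]
    rintro x rfl
    show Ideal.Quotient.mk I t ∈ maximalIdeal (R ⧸ I)
    rw [mem_maximalIdeal, mem_nonunits_iff]
    intro hu
    obtain ⟨v, hv⟩ := hu.exists_right_inv
    obtain ⟨s, rfl⟩ := Ideal.Quotient.mk_surjective v
    rw [← map_mul, ← map_one (Ideal.Quotient.mk I), Ideal.Quotient.eq] at hv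
    have h1 : t * s - 1 ∈ maximalIdeal R := by
      have hle : I ≤ maximalIdeal R := by
        rw [hI, Ideal.span_le]
        rintro z rfl
        exact hϖ𝔪
      exact hle hv
    have h2 : (1 : R) ∈ maximalIdeal R := by
      have := (maximalIdeal R).sub_mem ((maximalIdeal R).mul_mem_right s ht𝔪) h1
      rwa [sub_sub_cancel] at this
    exact (Ideal.ne_top_iff_one _).mp (maximalIdeal.isMaximal R).ne_top h2

variable [IsNoetherianRing R] (t ϖ : R) (hm : maximalIdeal R = Ideal.span {t, ϖ})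
  (hprime : (Ideal.span {ϖ} : Ideal R).IsPrime)

include hm hprime in
/-- Ideals of `R / (ϖ)`: every non-zero ideal is a power of the maximal ideal `(t̄)`. -/
theorem s35f_quot_ideal (J : Ideal (R ⧸ (Ideal.span {ϖ} : Ideal R))) (hJ : J ≠ ⊥) :
    ∃ n : ℕ, J = Ideal.span {Ideal.Quotient.mk (Ideal.span {ϖ} : Ideal R) t ^ n} := by
  haveI : IsDomain (R ⧸ (Ideal.span {ϖ} : Ideal R)) := Ideal.Quotient.isDomain _
  haveI : IsLocalRing (R ⧸ (Ideal.span {ϖ} : Ideal R)) :=
    s35f_isLocalRing_quot _ hprime.ne_top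
  have hmax := s35f_quot_maximalIdeal t ϖ hm
  have hprin : (maximalIdeal (R ⧸ (Ideal.span {ϖ} : Ideal R))).IsPrincipal := ⟨⟨_, hmax⟩⟩
  obtain ⟨n, hn⟩ := exists_maximalIdeal_pow_eq_of_principal
    (R ⧸ (Ideal.span {ϖ} : Ideal R)) hprin J hJ
  refine ⟨n, ?_⟩
  rw [hn, hmax, Ideal.span_singleton_pow]

include hm hprime in
/-- **Every ideal of `R` is principal modulo `ϖ`.** -/
theorem s35f_quot_principal (J : Ideal R) :
    ∃ φ ∈ J, ∀ y ∈ J, ∃ c z, y = c * φ + ϖ * z := by
  set I : Ideal R := Ideal.span {ϖ} with hI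
  by_cases hJ : J.map (Ideal.Quotient.mk I) = ⊥
  · refine ⟨0, J.zero_mem, fun y hy => ?_⟩
    have h0 : Ideal.Quotient.mk I y = 0 := by
      have : Ideal.Quotient.mk I y ∈ J.map (Ideal.Quotient.mk I) := Ideal.mem_map_of_mem _ hy
      rw [hJ] at this
      exact this
    rw [Ideal.Quotient.eq_zero_iff_mem, hI, Ideal.mem_span_singleton] at h0
    obtain ⟨z, rfl⟩ := h0
    exact ⟨0, z, by ring⟩
  · obtain ⟨n, hn⟩ := s35f_quot_ideal t ϖ hm hprime _ hJ
    have hmem : Ideal.Quotient.mk I t ^ n ∈ J.map (Ideal.Quotient.mk I) := by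
      rw [hn]; exact Ideal.subset_span rfl
    rw [Ideal.mem_map_iff_of_surjective _ Ideal.Quotient.mk_surjective] at hmem
    obtain ⟨φ, hφJ, hφ⟩ := hmem
    refine ⟨φ, hφJ, fun y hy => ?_⟩
    have hy' : Ideal.Quotient.mk I y ∈ J.map (Ideal.Quotient.mk I) := Ideal.mem_map_of_mem _ hy
    rw [hn, ← hφ, Ideal.mem_span_singleton] at hy'
    obtain ⟨c', hc'⟩ := hy'
    obtain ⟨c, rfl⟩ := Ideal.Quotient.mk_surjective c'
    rw [← map_mul, Ideal.Quotient.eq, hI, Ideal.mem_span_singleton] at hc'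
    obtain ⟨z, hz⟩ := hc'
    exact ⟨c, z, by linear_combination hz⟩

include hm hprime in
/-- **A `ϖ`-saturated ideal of `R` is principal** (Nakayama). -/
theorem s35f_principal_of_sat (M : Ideal R) (hsat : ∀ y, ϖ * y ∈ M → y ∈ M) :
    ∃ φ ∈ M, M = Ideal.span {φ} := by
  obtain ⟨φ, hφM, hφ⟩ := s35f_quot_principal t ϖ hm hprime M
  refine ⟨φ, hφM, le_antisymm ?_ ?_⟩
  · have hϖjac : Ideal.span {ϖ} ≤ (⊥ : Ideal R).jacobson := by
      rw [IsLocalRing.jacobson_eq_maximalIdeal ⊥ bot_ne_top, Ideal.span_le]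
      rintro z rfl
      rw [hm]; exact Ideal.subset_span (by simp)
    refine Submodule.le_of_le_smul_of_le_jacobson_bot (IsNoetherian.noetherian M) hϖjac ?_
    intro y hy
    obtain ⟨c, z, hcz⟩ := hφ y hy
    have hz : z ∈ M := by
      apply hsat
      have : ϖ * z = y - c * φ := by rw [hcz]; ring
      rw [this]
      exact M.sub_mem hy (M.mul_mem_left _ hφM)
    rw [hcz]
    refine Submodule.add_mem_sup ?_ ?_
    · exact Ideal.mul_mem_left _ _ (Ideal.subset_span rfl)
    · rw [smul_eq_mul]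
      exact Ideal.mul_mem_mul (Ideal.subset_span rfl) hz
  · rw [Ideal.span_le]
    rintro z rfl
    exact hφM

include hm hprime in
/-- **The principal ideals of `R / ϖR` are totally ordered.** -/
theorem s35f_quot_dvd_or_dvd (a b : R) (ha : a ∉ (Ideal.span {ϖ} : Ideal R))
    (hb : b ∉ (Ideal.span {ϖ} : Ideal R)) :
    (∃ c z, b = c * a + ϖ * z) ∨ (∃ c z, a = c * b + ϖ * z) := by
  set I : Ideal R := Ideal.span {ϖ} with hI
  have key : ∀ x : R, x ∉ I → ∃ n : ℕ, Ideal.span {Ideal.Quotient.mk I x} =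
      Ideal.span {Ideal.Quotient.mk I t ^ n} := by
    intro x hx
    apply s35f_quot_ideal t ϖ hm hprime
    rw [Ne, Ideal.span_singleton_eq_bot, Ideal.Quotient.eq_zero_iff_mem]
    exact hx
  obtain ⟨k, hk⟩ := key a ha
  obtain ⟨l, hl⟩ := key b hb
  have hdvd : ∀ (x y : R) (k l : ℕ), k ≤ l →
      Ideal.span {Ideal.Quotient.mk I x} = Ideal.span {Ideal.Quotient.mk I t ^ k} →
      Ideal.span {Ideal.Quotient.mk I y} = Ideal.span {Ideal.Quotient.mk I t ^ l} →
      ∃ c z, y = c * x + ϖ * z := by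
    intro x y k l hkl hx hy
    have h1 : Ideal.Quotient.mk I y ∈ Ideal.span {Ideal.Quotient.mk I x} := by
      rw [hx]
      have h2 : Ideal.Quotient.mk I y ∈ Ideal.span {Ideal.Quotient.mk I t ^ l} := by
        rw [← hy]; exact Ideal.subset_span rfl
      rw [Ideal.mem_span_singleton] at h2 ⊢
      exact dvd_trans (pow_dvd_pow _ hkl) h2
    rw [Ideal.mem_span_singleton] at h1
    obtain ⟨c', hc'⟩ := h1
    obtain ⟨c, rfl⟩ := Ideal.Quotient.mk_surjective c'
    rw [← map_mul, Ideal.Quotient.eq, hI, Ideal.mem_span_singleton] at hc'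
    obtain ⟨z, hz⟩ := hc'
    exact ⟨c, z, by linear_combination hz⟩
  rcases le_total k l with h | h
  · exact Or.inl (hdvd a b k l h hk hl)
  · exact Or.inr (hdvd b a l k h hl hk)

include hm hprime in
/-- **Root of a unit.**  If `r * a ^ m ≡ b ^ m` modulo `ϖ` with `r` a unit, `a, b ∉ (ϖ)` and
`m ≠ 0`, then `b ≡ c * a` modulo `ϖ` for a unit `c`. -/
theorem s35f_root_unit (a b r : R) (hr : IsUnit r) (m : ℕ) (hm0 : m ≠ 0)
    (ha : a ∉ (Ideal.span {ϖ} : Ideal R)) (hb : b ∉ (Ideal.span {ϖ} : Ideal R))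
    (hab : r * a ^ m - b ^ m ∈ (Ideal.span {ϖ} : Ideal R)) :
    ∃ c : R, IsUnit c ∧ b - c * a ∈ (Ideal.span {ϖ} : Ideal R) := by
  set I : Ideal R := Ideal.span {ϖ} with hI
  have hI𝔪 : I ≤ maximalIdeal R := by
    rw [hI, Ideal.span_le]
    rintro z rfl
    rw [hm]; exact Ideal.subset_span (by simp)
  have hϖI : ϖ ∈ I := Ideal.subset_span rfl
  -- a unit plus an element of `𝔪` is a unit
  have hunit : ∀ d : R, (∃ u : R, IsUnit u ∧ d ^ m - u ∈ I) → IsUnit d := by
    rintro d ⟨u, hu, hdu⟩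
    by_contra hd
    have hd𝔪 : d ∈ maximalIdeal R := by rwa [mem_maximalIdeal, mem_nonunits_iff]
    have hdm : d ^ m ∈ maximalIdeal R := (maximalIdeal R).pow_mem_of_mem hd𝔪 m (Nat.pos_of_ne_zero hm0)
    have hu𝔪 : u ∈ maximalIdeal R := by
      have := (maximalIdeal R).sub_mem hdm (hI𝔪 hdu)
      rwa [sub_sub_cancel] at this
    rw [mem_maximalIdeal, mem_nonunits_iff] at hu𝔪
    exact hu𝔪 hu
  have ham : a ^ m ∉ I := fun h => ha (hprime.mem_of_pow_mem m h)
  have hbm : b ^ m ∉ I := fun h => hb (hprime.mem_of_pow_mem m h)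
  rcases s35f_quot_dvd_or_dvd t ϖ hm hprime a b ha hb with ⟨d, z, hd⟩ | ⟨d, z, hd⟩
  · -- `b = d a + ϖ z`
    have h1 : b ^ m - d ^ m * a ^ m ∈ I := by
      have hsub : b - d * a ∈ I := by
        have : b - d * a = ϖ * z := by rw [hd]; ring
        rw [this]; exact I.mul_mem_right _ hϖI
      obtain ⟨e, he⟩ := sub_dvd_pow_sub_pow b (d * a) m
      rw [← mul_pow, he]
      exact I.mul_mem_right _ hsub
    have h2 : (r - d ^ m) * a ^ m ∈ I := by
      have : (r - d ^ m) * a ^ m = (r * a ^ m - b ^ m) + (b ^ m - d ^ m * a ^ m) := by ring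
      rw [this]; exact I.add_mem hab h1
    have h3 : r - d ^ m ∈ I := (hprime.mem_or_mem h2).resolve_right ham
    have hdu : IsUnit d := hunit d ⟨r, hr, by
      have : d ^ m - r = -(r - d ^ m) := by ring
      rw [this]; exact I.neg_mem h3⟩
    refine ⟨d, hdu, ?_⟩
    have : b - d * a = ϖ * z := by rw [hd]; ring
    rw [this]; exact I.mul_mem_right _ hϖI
  · -- `a = d b + ϖ z`
    have h1 : a ^ m - d ^ m * b ^ m ∈ I := by
      have hsub : a - d * b ∈ I := by
        have : a - d * b = ϖ * z := by rw [hd]; ring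
        rw [this]; exact I.mul_mem_right _ hϖI
      obtain ⟨e, he⟩ := sub_dvd_pow_sub_pow a (d * b) m
      rw [← mul_pow, he]
      exact I.mul_mem_right _ hsub
    have h2 : (r * d ^ m - 1) * b ^ m ∈ I := by
      have : (r * d ^ m - 1) * b ^ m = (r * a ^ m - b ^ m) - r * (a ^ m - d ^ m * b ^ m) := by ring
      rw [this]; exact I.sub_mem hab (I.mul_mem_left _ h1)
    have h3 : r * d ^ m - 1 ∈ I := (hprime.mem_or_mem h2).resolve_right hbm
    obtain ⟨r', hr'⟩ := hr.exists_left_inv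
    have hdu : IsUnit d := hunit d ⟨r', IsUnit.of_mul_eq_one r hr', by
      have : d ^ m - r' = r' * (r * d ^ m - 1) := by
        have : r' * (r * d ^ m - 1) = (r' * r) * d ^ m - r' := by ring
        rw [this, hr', one_mul]
      rw [this]; exact I.mul_mem_left _ h3⟩
    obtain ⟨d', hd'⟩ := hdu.exists_left_inv
    refine ⟨d', IsUnit.of_mul_eq_one d hd', ?_⟩
    have : b - d' * a = -(d' * (ϖ * z)) := by
      have h4 : d' * a = (d' * d) * b + d' * (ϖ * z) := by rw [hd]; ring
      rw [h4, hd', one_mul]; ring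
    rw [this]
    exact I.neg_mem (I.mul_mem_left _ (I.mul_mem_right _ hϖI))

end Quot

end Fermat.Agent.Lib.S35
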