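/-
S35 project, package [F] (helper9), part 2: the GENERIC SMOOTH-POINT (LOC).

Setting of `Lib/S34/XLocGen.lean` / `FLocal.lean`: `O : ι → ValuationSubring 𝓕` the components,
`B = s34x_ring (s34x_infRing O) S` the chart ring, `𝔫` a prime of `B` containing the uniformiser,
`R = B_𝔫` with `𝔪_R = (t, π)` (a SMOOTH point of the special fibre), and ONLY ONE component `i₀`
through `𝔫`.  No automorphism appears.

* `s35f_purity`, `s35f_exists_other`, `s35f_comp_through`  : `π B = ⋂ 𝔭_j`, the component `i₀` passes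
  through `𝔫`;
* `s35f_iota_mem`, `s35f_mem_span_of_iota` : `R ⊆ O i₀` and `R ∩ π (O i₀) = π R`;
* `s35f_span_isPrime` : `π R` is a prime ideal;
* `s35f_exists_of_regular` : NORMALITY: `y ∈ O i₀` regular at all places of `S` through `𝔫` lies in
  `R`;
* `s35f_locEq_smooth` : every place `Q ∈ S` through `𝔫` — of ANY degree — has a local equation
  `φ ∈ R ∖ π R` (`ord_Q φ = 1`, `ord_Q' φ = 0` at the other places through `𝔫`);
* `s35f_loc_smooth` : **(LOC) at a smooth point** for every `F ≡ 1 mod π (O i₀)` with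
  `m ∣ ord_Q F` on `S`.
-/
import Fermat.Agent.Lib.S35.FSmoothAlg
import Fermat.Agent.Lib.S34.FLocal
import Fermat.Agent.Lib.S18.IInvLocal

set_option autoImplicit false
set_option linter.style.haveILetI false
set_option linter.unusedSectionVars false

noncomputable section

namespace Fermat.Agent.Lib.S35

open AlgebraicCurve Fermat.Agent.Lib.FF Fermat.Agent.Lib.S18 Fermat.Agent.Lib.S34 IsLocalRing

variable {L₀ 𝓕 : Type*} [Field L₀] [Field 𝓕] [Algebra L₀ 𝓕]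

section Dict

variable {ι : Type*} (O : ι → ValuationSubring 𝓕) (S : Set (Place L₀ 𝓕)) (π : 𝓕)
  (hπ0 : π ≠ 0) (hπO : ∀ i, π ∈ O i) (hπL : ∀ Q : Place L₀ 𝓕, Q.ord π = 0)
  (πB : s34x_ring (s34x_infRing O) S) (hπB : (πB : 𝓕) = π)

include hπ0 hπL hπB in
/-- **Purity**: an element of `B` divisible by `π` in every `O j` is divisible by `π` in `B`. -/
theorem s35f_purity (b : s34x_ring (s34x_infRing O) S)
    (hb : ∀ j, ∃ y ∈ O j, (b : 𝓕) = π * y) : ∃ b' : s34x_ring (s34x_infRing O) S, b = πB * b' := by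
  have hmem : π⁻¹ * (b : 𝓕) ∈ s34x_ring (s34x_infRing O) S := by
    refine ⟨(s34x_mem_infRing O _).mpr fun j => ?_, fun Q hQ => ?_⟩
    · obtain ⟨y, hy, e⟩ := hb j
      rw [e, ← mul_assoc, inv_mul_cancel₀ hπ0, one_mul]
      exact hy
    · by_cases hb0 : (b : 𝓕) = 0
      · rw [hb0, mul_zero]; exact Q.toValuationSubring.zero_mem
      have hne : π⁻¹ * (b : 𝓕) ≠ 0 := mul_ne_zero (inv_ne_zero hπ0) hb0
      rw [ff_mem_iff_ord_nonneg Q hne, Q.ord_mul (inv_ne_zero hπ0) hb0]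
      have h1 : Q.ord π⁻¹ = 0 := by
        have := Q.ord_zpow π (-1)
        rw [zpow_neg_one, hπL] at this
        simpa using this
      rw [h1, zero_add]
      exact s34x_ord_nonneg_of_mem_ring _ S b Q hQ
  refine ⟨⟨π⁻¹ * (b : 𝓕), hmem⟩, ?_⟩
  apply Subtype.ext
  push_cast
  rw [hπB, ← mul_assoc, mul_inv_cancel₀ hπ0, one_mul]

variable [Fintype ι] (hU : ∀ i, ∀ y : 𝓕, ∃ k : ℕ, π ^ k * y ∈ O i)
  (𝔫 : Ideal (s34x_ring (s34x_infRing O) S)) [h𝔫 : 𝔫.IsPrime] (i₀ : ι)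
  (honly : ∀ j, j ≠ i₀ → ∃ b : s34x_ring (s34x_infRing O) S,
    (∃ y ∈ O j, (b : 𝓕) = π * y) ∧ b ∉ 𝔫)

include hU honly in
/-- One element of `B ∖ 𝔫` vanishing on all the components other than `i₀`. -/
theorem s35f_exists_other : ∃ c : s34x_ring (s34x_infRing O) S, c ∉ 𝔫 ∧
    ∀ j, j ≠ i₀ → ∃ y ∈ O j, (c : 𝓕) = π * y := by
  classical
  obtain ⟨s, hs𝔫, hs⟩ := s34x_exists_kill_comps O S π hU 𝔫 (1 : 𝓕)
    (Finset.univ.filter fun j => j ≠ i₀) (by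
      intro j hj
      exact honly j (Finset.mem_filter.mp hj).2)
  exact ⟨s, hs𝔫, fun j hj => (hs j (Finset.mem_filter.mpr ⟨Finset.mem_univ _, hj⟩)).1⟩

variable (hπ𝔫 : πB ∈ 𝔫)

include hπ0 hπO hπL hπB hU honly hπ𝔫 in
/-- The component `i₀` passes through `𝔫`. -/
theorem s35f_comp_through (b : s34x_ring (s34x_infRing O) S)
    (hb : ∃ y ∈ O i₀, (b : 𝓕) = π * y) : b ∈ 𝔫 := by
  classical
  obtain ⟨c, hc𝔫, hc⟩ := s35f_exists_other O S π hU 𝔫 i₀ honly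
  have hBO : ∀ (x : s34x_ring (s34x_infRing O) S) (i : ι), (x : 𝓕) ∈ O i := fun x i =>
    (s34x_mem_infRing O _).mp x.2.1 i
  obtain ⟨b', hb'⟩ := s35f_purity O S π hπ0 hπL πB hπB (c * b) (by
    intro j
    by_cases hj : j = i₀
    · subst hj
      obtain ⟨y, hy, e⟩ := hb
      refine ⟨(c : 𝓕) * y, (O j).mul_mem _ _ (hBO c j) hy, ?_⟩
      push_cast
      rw [e]; ring
    · obtain ⟨y, hy, e⟩ := hc j hj
      refine ⟨y * (b : 𝓕), (O j).mul_mem _ _ hy (hBO b j), ?_⟩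
      push_cast
      rw [e]; ring)
  have : c * b ∈ 𝔫 := by rw [hb']; exact 𝔫.mul_mem_right _ hπ𝔫
  exact (h𝔫.mem_or_mem this).resolve_left hc𝔫

variable (hmax : ∀ i, ∀ y ∈ O i, (∃ z ∈ O i, y = π * z) ∨ y⁻¹ ∈ O i)

include hπ0 hπO hπL hπB hU honly hπ𝔫 hmax in
/-- `R = B_𝔫 ⊆ O i₀`. -/
theorem s35f_iota_mem (z : Localization.AtPrime 𝔫) :
    s34f_iota (s34x_infRing O) S 𝔫 z ∈ O i₀ := by
  obtain ⟨b, s, hs, h⟩ := s34f_exists_frac (s34x_infRing O) S 𝔫 z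
  have h1 := congrArg (s34f_iota (s34x_infRing O) S 𝔫) h
  rw [map_mul, s34f_iota_algebraMap, s34f_iota_algebraMap] at h1
  have hBO : ∀ (x : s34x_ring (s34x_infRing O) S) (i : ι), (x : 𝓕) ∈ O i := fun x i =>
    (s34x_mem_infRing O _).mp x.2.1 i
  have hs0 : (s : 𝓕) ≠ 0 := by
    intro h0
    apply hs
    have : s = 0 := Subtype.ext h0
    rw [this]; exact 𝔫.zero_mem
  have hsinv : ((s : 𝓕))⁻¹ ∈ O i₀ := by
    rcases hmax i₀ (s : 𝓕) (hBO s i₀) with hdiv | hinv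
    · exact absurd (s35f_comp_through O S π hπ0 hπO hπL πB hπB hU 𝔫 i₀ honly hπ𝔫 s hdiv) hs
    · exact hinv
  have : s34f_iota (s34x_infRing O) S 𝔫 z = (b : 𝓕) * ((s : 𝓕))⁻¹ := by
    rw [← h1, mul_assoc, mul_inv_cancel₀ hs0, mul_one]
  rw [this]
  exact (O i₀).mul_mem _ _ (hBO b i₀) hsinv

include hπ0 hπO hπL hπB hU honly hπ𝔫 hmax in
/-- `R ∩ π (O i₀) = π R`. -/
theorem s35f_mem_span_of_iota (z : Localization.AtPrime 𝔫)
    (hz : ∃ y ∈ O i₀, s34f_iota (s34x_infRing O) S 𝔫 z = π * y) :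
    z ∈ (Ideal.span {algebraMap (s34x_ring (s34x_infRing O) S) (Localization.AtPrime 𝔫) πB} :
      Ideal (Localization.AtPrime 𝔫)) := by
  classical
  obtain ⟨b, s, hs, h⟩ := s34f_exists_frac (s34x_infRing O) S 𝔫 z
  have h1 := congrArg (s34f_iota (s34x_infRing O) S 𝔫) h
  rw [map_mul, s34f_iota_algebraMap, s34f_iota_algebraMap] at h1
  have hBO : ∀ (x : s34x_ring (s34x_infRing O) S) (i : ι), (x : 𝓕) ∈ O i := fun x i =>
    (s34x_mem_infRing O _).mp x.2.1 i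
  obtain ⟨c, hc𝔫, hc⟩ := s35f_exists_other O S π hU 𝔫 i₀ honly
  obtain ⟨y, hy, e⟩ := hz
  obtain ⟨b', hb'⟩ := s35f_purity O S π hπ0 hπL πB hπB (c * b) (by
    intro j
    by_cases hj : j = i₀
    · subst hj
      refine ⟨(c : 𝓕) * (y * (s : 𝓕)), (O j).mul_mem _ _ (hBO c j)
        ((O j).mul_mem _ _ hy (hBO s j)), ?_⟩
      push_cast
      rw [← h1, e]; ring
    · obtain ⟨y', hy', e'⟩ := hc j hj
      refine ⟨y' * (b : 𝓕), (O j).mul_mem _ _ hy' (hBO b j), ?_⟩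
      push_cast
      rw [e']; ring)
  have hu : IsUnit (algebraMap (s34x_ring (s34x_infRing O) S) (Localization.AtPrime 𝔫) (c * s)) :=
    IsLocalization.map_units (Localization.AtPrime 𝔫)
      (⟨c * s, fun hmem => (h𝔫.mem_or_mem hmem).elim hc𝔫 hs⟩ : 𝔫.primeCompl)
  obtain ⟨v, hv⟩ := hu.exists_right_inv
  rw [Ideal.mem_span_singleton]
  refine ⟨algebraMap _ (Localization.AtPrime 𝔫) b' * v, ?_⟩
  have h2 : z * algebraMap (s34x_ring (s34x_infRing O) S) (Localization.AtPrime 𝔫) (c * s) =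
      algebraMap _ (Localization.AtPrime 𝔫) πB * algebraMap _ (Localization.AtPrime 𝔫) b' := by
    rw [← map_mul, ← hb', map_mul, map_mul, ← h]; ring
  calc z = z * (algebraMap (s34x_ring (s34x_infRing O) S) (Localization.AtPrime 𝔫) (c * s) * v) := by
        rw [hv, mul_one]
    _ = _ := by rw [← mul_assoc, h2]; ring

include hπ0 hπO hπL hπB hU honly hπ𝔫 hmax in
/-- Elements of `π R` are divisible by `π` in `O i₀`. -/
theorem s35f_iota_of_mem_span (z : Localization.AtPrime 𝔫)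
    (hz : z ∈ (Ideal.span {algebraMap (s34x_ring (s34x_infRing O) S) (Localization.AtPrime 𝔫) πB} :
      Ideal (Localization.AtPrime 𝔫))) :
    ∃ y ∈ O i₀, s34f_iota (s34x_infRing O) S 𝔫 z = π * y := by
  rw [Ideal.mem_span_singleton] at hz
  obtain ⟨z', rfl⟩ := hz
  refine ⟨s34f_iota (s34x_infRing O) S 𝔫 z',
    s35f_iota_mem O S π hπ0 hπO hπL πB hπB hU 𝔫 i₀ honly hπ𝔫 hmax z', ?_⟩
  rw [map_mul, s34f_iota_algebraMap, hπB]

include hπ0 hπO hπL hπB hU honly hπ𝔫 hmax in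
/-- **`π R` is a prime ideal of `R = B_𝔫`.** -/
theorem s35f_span_isPrime :
    (Ideal.span {algebraMap (s34x_ring (s34x_infRing O) S) (Localization.AtPrime 𝔫) πB} :
      Ideal (Localization.AtPrime 𝔫)).IsPrime := by
  refine ⟨?_, ?_⟩
  · intro htop
    have h1 : algebraMap (s34x_ring (s34x_infRing O) S) (Localization.AtPrime 𝔫) πB ∈
        maximalIdeal (Localization.AtPrime 𝔫) :=
      (IsLocalization.AtPrime.to_map_mem_maximal_iff (Localization.AtPrime 𝔫) 𝔫 πB).mpr hπ𝔫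
    have h2 : (Ideal.span {algebraMap (s34x_ring (s34x_infRing O) S)
        (Localization.AtPrime 𝔫) πB} : Ideal (Localization.AtPrime 𝔫)) ≤
        maximalIdeal (Localization.AtPrime 𝔫) := by
      rw [Ideal.span_le]
      rintro z rfl
      exact h1
    rw [htop] at h2
    exact (maximalIdeal.isMaximal (Localization.AtPrime 𝔫)).ne_top (top_le_iff.mp h2)
  · intro z₁ z₂ h12
    by_cases hz₁ : z₁ = 0
    · left; rw [hz₁]; exact Ideal.zero_mem _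
    have hι₁0 : s34f_iota (s34x_infRing O) S 𝔫 z₁ ≠ 0 := fun h0 =>
      hz₁ (s34f_iota_injective (s34x_infRing O) S 𝔫 (by rw [h0, map_zero]))
    obtain ⟨y, hy, e⟩ := s35f_iota_of_mem_span O S π hπ0 hπO hπL πB hπB hU 𝔫 i₀ honly hπ𝔫 hmax _ h12
    rw [map_mul] at e
    rcases hmax i₀ _ (s35f_iota_mem O S π hπ0 hπO hπL πB hπB hU 𝔫 i₀ honly hπ𝔫 hmax z₁) with
      hdiv | hinv
    · left
      exact s35f_mem_span_of_iota O S π hπ0 hπO hπL πB hπB hU 𝔫 i₀ honly hπ𝔫 hmax z₁ hdiv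
    · right
      apply s35f_mem_span_of_iota O S π hπ0 hπO hπL πB hπB hU 𝔫 i₀ honly hπ𝔫 hmax z₂
      refine ⟨(s34f_iota (s34x_infRing O) S 𝔫 z₁)⁻¹ * y, (O i₀).mul_mem _ _ hinv hy, ?_⟩
      have : s34f_iota (s34x_infRing O) S 𝔫 z₂ =
          (s34f_iota (s34x_infRing O) S 𝔫 z₁)⁻¹ *
            (s34f_iota (s34x_infRing O) S 𝔫 z₁ * s34f_iota (s34x_infRing O) S 𝔫 z₂) := by
        rw [← mul_assoc, inv_mul_cancel₀ hι₁0, one_mul]
      rw [this, e]; ring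

variable (F3 : ∀ y : 𝓕, y ≠ 0 → {Q : Place L₀ 𝓕 | Q ∈ S ∧ Q.ord y ≠ 0}.Finite)

include hπ0 hπO hU honly F3 in
/-- **Normality**: an element of `O i₀` which is regular at all places of `S` through `𝔫` lies in
`R = B_𝔫`. -/
theorem s35f_exists_of_regular (y : 𝓕) (hy0 : y ≠ 0) (hyO : y ∈ O i₀)
    (hyQ : ∀ Q ∈ S, s34f_through (s34x_infRing O) S 𝔫 Q → 0 ≤ Q.ord y) :
    ∃ z : Localization.AtPrime 𝔫, s34f_iota (s34x_infRing O) S 𝔫 z = y := by
  classical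
  have hBO : ∀ (x : s34x_ring (s34x_infRing O) S) (i : ι), (x : 𝓕) ∈ O i := fun x i =>
    (s34x_mem_infRing O _).mp x.2.1 i
  -- poles outside `𝔫`
  have hfin : {Q : Place L₀ 𝓕 | Q ∈ S ∧ Q.ord y < 0}.Finite :=
    (F3 y hy0).subset fun Q hQ => ⟨hQ.1, ne_of_lt hQ.2⟩
  obtain ⟨s₁, hs₁𝔫, hs₁0, hs₁⟩ := s34x_exists_kill_places (s34x_infRing O) S 𝔫
    (fun Q => - Q.ord y) hfin.toFinset (by
      intro Q hQ
      rw [Set.Finite.mem_toFinset] at hQ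
      refine ⟨hQ.1, ?_⟩
      by_contra hcon
      push Not at hcon
      have := hyQ Q hQ.1 (fun b hb0 hbpos => hcon b hb0 hbpos)
      exact absurd hQ.2 (not_lt.mpr this))
  -- the other components
  obtain ⟨s₂, hs₂𝔫, hs₂⟩ := s34x_exists_kill_comps O S π hU 𝔫 y
    (Finset.univ.filter fun j => j ≠ i₀) (by
      intro j hj
      exact honly j (Finset.mem_filter.mp hj).2)
  have hs₂0 : (s₂ : 𝓕) ≠ 0 := by
    intro h0
    apply hs₂𝔫
    have : s₂ = 0 := Subtype.ext h0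
    rw [this]; exact 𝔫.zero_mem
  have hmem : (s₁ : 𝓕) * s₂ * y ∈ s34x_ring (s34x_infRing O) S := by
    refine ⟨(s34x_mem_infRing O _).mpr fun j => ?_, fun Q hQ => ?_⟩
    · by_cases hj : j = i₀
      · subst hj
        exact (O j).mul_mem _ _ ((O j).mul_mem _ _ (hBO s₁ j) (hBO s₂ j)) hyO
      · obtain ⟨-, y', hy', e'⟩ := hs₂ j (Finset.mem_filter.mpr ⟨Finset.mem_univ _, hj⟩)
        rw [mul_assoc, e']
        exact (O j).mul_mem _ _ (hBO s₁ j) ((O j).mul_mem _ _ (hπO j) hy')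
    · have hne : (s₁ : 𝓕) * s₂ * y ≠ 0 := mul_ne_zero (mul_ne_zero hs₁0 hs₂0) hy0
      rw [ff_mem_iff_ord_nonneg Q hne, Q.ord_mul (mul_ne_zero hs₁0 hs₂0) hy0, Q.ord_mul hs₁0 hs₂0]
      have h1 : 0 ≤ Q.ord (s₁ : 𝓕) := s34x_ord_nonneg_of_mem_ring _ S s₁ Q hQ
      have h2 : 0 ≤ Q.ord (s₂ : 𝓕) := s34x_ord_nonneg_of_mem_ring _ S s₂ Q hQ
      by_cases hneg : Q.ord y < 0
      · have := hs₁ Q ((Set.Finite.mem_toFinset hfin).mpr ⟨hQ, hneg⟩)
        omega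
      · omega
  have hu : IsUnit (algebraMap (s34x_ring (s34x_infRing O) S) (Localization.AtPrime 𝔫) (s₁ * s₂)) :=
    IsLocalization.map_units (Localization.AtPrime 𝔫)
      (⟨s₁ * s₂, fun hmem => (h𝔫.mem_or_mem hmem).elim hs₁𝔫 hs₂𝔫⟩ : 𝔫.primeCompl)
  obtain ⟨v, hv⟩ := hu.exists_right_inv
  refine ⟨algebraMap _ (Localization.AtPrime 𝔫) (⟨_, hmem⟩ : s34x_ring (s34x_infRing O) S) * v, ?_⟩
  have h1 := congrArg (s34f_iota (s34x_infRing O) S 𝔫) hv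
  rw [map_mul, map_one, s34f_iota_algebraMap] at h1
  rw [map_mul, s34f_iota_algebraMap]
  have h2 : ((s₁ * s₂ : s34x_ring (s34x_infRing O) S) : 𝓕) = (s₁ : 𝓕) * s₂ := by push_cast; rfl
  rw [h2] at h1
  show (s₁ : 𝓕) * s₂ * y * s34f_iota (s34x_infRing O) S 𝔫 v = y
  calc (s₁ : 𝓕) * s₂ * y * s34f_iota (s34x_infRing O) S 𝔫 v
      = y * ((s₁ : 𝓕) * s₂ * s34f_iota (s34x_infRing O) S 𝔫 v) := by ring
    _ = y := by rw [h1, mul_one]

end Dict

section LocEq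

variable (O : Subring 𝓕) (S : Set (Place L₀ 𝓕)) (𝔫 : Ideal (s34x_ring O S)) [h𝔫 : 𝔫.IsPrime]
  (Q : Place L₀ 𝓕) (hQS : Q ∈ S) (hth : s34f_through O S 𝔫 Q)

/-- The prime of `R = B_𝔫` of the functions vanishing at a place `Q ∈ S` through `𝔫`. -/
def s35f_vanIdeal : Ideal (Localization.AtPrime 𝔫) where
  carrier := {z | s34f_van Q (s34f_iota O S 𝔫 z)}
  zero_mem' := by
    show s34f_van Q (s34f_iota O S 𝔫 0)
    rw [map_zero]; exact s34f_van_zero Q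
  add_mem' := by
    intro a b ha hb
    show s34f_van Q (s34f_iota O S 𝔫 (a + b))
    rw [map_add]; exact s34f_van_add Q ha hb
  smul_mem' := by
    intro c z hz
    show s34f_van Q (s34f_iota O S 𝔫 (c • z))
    rw [smul_eq_mul, map_mul]
    refine s34f_van_mul Q ?_ hz
    by_cases hc0 : s34f_iota O S 𝔫 c = 0
    · rw [hc0]; exact Q.toValuationSubring.zero_mem
    · rw [ff_mem_iff_ord_nonneg Q hc0]
      exact s34f_iota_ord_nonneg O S 𝔫 c Q hQS hth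

theorem s35f_mem_vanIdeal (z : Localization.AtPrime 𝔫) :
    z ∈ s35f_vanIdeal O S 𝔫 Q hQS hth ↔ s34f_van Q (s34f_iota O S 𝔫 z) := Iff.rfl

variable [IsNoetherianRing (Localization.AtPrime 𝔫)] (π : 𝓕) (hπ0 : π ≠ 0)
  (hπL : ∀ Q : Place L₀ 𝓕, Q.ord π = 0) (πB t : s34x_ring O S) (hπB : (πB : 𝓕) = π)
  (hm : maximalIdeal (Localization.AtPrime 𝔫) =
    Ideal.span {algebraMap (s34x_ring O S) (Localization.AtPrime 𝔫) t,
      algebraMap (s34x_ring O S) (Localization.AtPrime 𝔫) πB})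
  (hprime : (Ideal.span {algebraMap (s34x_ring O S) (Localization.AtPrime 𝔫) πB} :
    Ideal (Localization.AtPrime 𝔫)).IsPrime)

include hQS hth hπ0 hπL hπB hm hprime in
/-- **Local equations at a smooth point, any degree.**  Every place `Q ∈ S` through `𝔫` has a local
equation `φ ∈ R ∖ π R`. -/
theorem s35f_locEq_smooth
    (F1 : ∃ u : s34x_ring O S, Q.ord (u : 𝓕) = 1)
    (F2 : ∀ Q' ∈ S, Q' ≠ Q → ∃ y : s34x_ring O S, 0 < Q.ord (y : 𝓕) ∧ Q'.ord (y : 𝓕) = 0) :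
    ∃ φ : Localization.AtPrime 𝔫,
      φ ∉ (Ideal.span {algebraMap (s34x_ring O S) (Localization.AtPrime 𝔫) πB} :
        Ideal (Localization.AtPrime 𝔫)) ∧
      s34f_iota O S 𝔫 φ ≠ 0 ∧ Q.ord (s34f_iota O S 𝔫 φ) = 1 ∧
      ∀ Q' ∈ S, Q' ≠ Q → s34f_through O S 𝔫 Q' → Q'.ord (s34f_iota O S 𝔫 φ) = 0 := by
  set πR := algebraMap (s34x_ring O S) (Localization.AtPrime 𝔫) πB with hπR
  have hιπ : s34f_iota O S 𝔫 πR = π := by rw [hπR, s34f_iota_algebraMap, hπB]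
  -- saturation
  have hsat : ∀ y, πR * y ∈ s35f_vanIdeal O S 𝔫 Q hQS hth → y ∈ s35f_vanIdeal O S 𝔫 Q hQS hth := by
    intro y hy
    rw [s35f_mem_vanIdeal, map_mul, hιπ] at hy
    rw [s35f_mem_vanIdeal]
    rcases hy with h | h
    · left
      exact (mul_eq_zero.mp h).resolve_left hπ0
    · by_cases hy0 : s34f_iota O S 𝔫 y = 0
      · exact Or.inl hy0
      right
      rwa [Q.ord_mul hπ0 hy0, hπL, zero_add] at h
  obtain ⟨φ, hφM, hφ⟩ := s35f_principal_of_sat _ _ hm hprime (s35f_vanIdeal O S 𝔫 Q hQS hth) hsat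
  -- transport to the function field
  have key : ∀ y : s34x_ring O S, s34f_van Q (y : 𝓕) →
      ∃ z : Localization.AtPrime 𝔫, (y : 𝓕) = s34f_iota O S 𝔫 z * s34f_iota O S 𝔫 φ := by
    intro y hy
    have h1 : algebraMap (s34x_ring O S) (Localization.AtPrime 𝔫) y ∈
        s35f_vanIdeal O S 𝔫 Q hQS hth := by
      rw [s35f_mem_vanIdeal, s34f_iota_algebraMap]; exact hy
    rw [hφ, Ideal.mem_span_singleton'] at h1
    obtain ⟨z, hz⟩ := h1
    refine ⟨z, ?_⟩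
    have h2 := congrArg (s34f_iota O S 𝔫) hz
    rw [map_mul, s34f_iota_algebraMap] at h2
    exact h2.symm
  obtain ⟨u, hu⟩ := F1
  have hu0 : (u : 𝓕) ≠ 0 := by
    intro h
    rw [h, Place.ord_zero] at hu
    exact zero_ne_one hu
  obtain ⟨z, hz⟩ := key u (Or.inr (by rw [hu]; exact zero_lt_one))
  have hφ0 : s34f_iota O S 𝔫 φ ≠ 0 := by
    intro h
    rw [h, mul_zero] at hz
    exact hu0 hz
  have hz0 : s34f_iota O S 𝔫 z ≠ 0 := by
    intro h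
    rw [h, zero_mul] at hz
    exact hu0 hz
  refine ⟨φ, ?_, hφ0, ?_, ?_⟩
  · -- `φ ∉ π R`
    intro hmem
    rw [Ideal.mem_span_singleton] at hmem
    obtain ⟨z', hz'⟩ := hmem
    have hz'M : z' ∈ s35f_vanIdeal O S 𝔫 Q hQS hth := hsat z' (by rw [← hz']; exact hφM)
    rw [hφ, Ideal.mem_span_singleton'] at hz'M
    obtain ⟨c, hc⟩ := hz'M
    -- `φ = πR * c * φ`
    have h1 : (1 - πR * c) * φ = 0 := by
      have : φ = πR * (c * φ) := by rw [hc]; exact hz'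
      calc (1 - πR * c) * φ = φ - πR * (c * φ) := by ring
        _ = 0 := by rw [← this, sub_self]
    have hπ𝔪 : πR ∈ maximalIdeal (Localization.AtPrime 𝔫) := by
      rw [hm]; exact Ideal.subset_span (by simp)
    have hunit : IsUnit (1 - πR * c) := by
      by_contra hnu
      have h2 : 1 - πR * c ∈ maximalIdeal (Localization.AtPrime 𝔫) := by
        rwa [mem_maximalIdeal, mem_nonunits_iff]
      have h3 : (1 : Localization.AtPrime 𝔫) ∈ maximalIdeal (Localization.AtPrime 𝔫) := by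
        have := (maximalIdeal (Localization.AtPrime 𝔫)).add_mem h2
          ((maximalIdeal (Localization.AtPrime 𝔫)).mul_mem_right c hπ𝔪)
        rwa [sub_add_cancel] at this
      exact (Ideal.ne_top_iff_one _).mp (maximalIdeal.isMaximal _).ne_top h3
    have hφz : φ = 0 := (hunit.mul_right_eq_zero).mp h1
    apply hφ0
    rw [hφz, map_zero]
  · have h1 : Q.ord (u : 𝓕) = 1 := hu
    rw [hz, Q.ord_mul hz0 hφ0] at h1
    have h2 : 0 < Q.ord (s34f_iota O S 𝔫 φ) :=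
      ((s35f_mem_vanIdeal O S 𝔫 Q hQS hth φ).mp hφM).resolve_left hφ0
    have h3 := s34f_iota_ord_nonneg O S 𝔫 z Q hQS hth
    omega
  · intro Q' hQ'S hne hth'
    obtain ⟨y, hy1, hy2⟩ := F2 Q' hQ'S hne
    have hy0 : (y : 𝓕) ≠ 0 := by
      intro h
      rw [h, Place.ord_zero] at hy1
      exact lt_irrefl _ hy1
    obtain ⟨z', hz'⟩ := key y (Or.inr hy1)
    have hz'0 : s34f_iota O S 𝔫 z' ≠ 0 := by
      intro h
      rw [h, zero_mul] at hz'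
      exact hy0 hz'
    have h1 : Q'.ord (y : 𝓕) = 0 := hy2
    rw [hz', Q'.ord_mul hz'0 hφ0] at h1
    have h2 := s34f_iota_ord_nonneg O S 𝔫 φ Q' hQ'S hth'
    have h3 := s34f_iota_ord_nonneg O S 𝔫 z' Q' hQ'S hth'
    omega

end LocEq

section Main

variable {ι : Type*} [Fintype ι] (O : ι → ValuationSubring 𝓕) (S : Set (Place L₀ 𝓕)) (π : 𝓕)
  (hπ0 : π ≠ 0) (hπO : ∀ i, π ∈ O i) (hπL : ∀ Q : Place L₀ 𝓕, Q.ord π = 0)
  (πB : s34x_ring (s34x_infRing O) S) (hπB : (πB : 𝓕) = π)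
  (hU : ∀ i, ∀ y : 𝓕, ∃ k : ℕ, π ^ k * y ∈ O i)
  (hmax : ∀ i, ∀ y ∈ O i, (∃ z ∈ O i, y = π * z) ∨ y⁻¹ ∈ O i)
  [hB : IsNoetherianRing (s34x_ring (s34x_infRing O) S)]
  (F1 : ∀ Q ∈ S, ∃ u : s34x_ring (s34x_infRing O) S, Q.ord (u : 𝓕) = 1)
  (F2 : ∀ Q ∈ S, ∀ Q' ∈ S, Q' ≠ Q →
    ∃ y : s34x_ring (s34x_infRing O) S, 0 < Q.ord (y : 𝓕) ∧ Q'.ord (y : 𝓕) = 0)
  (F3 : ∀ y : 𝓕, y ≠ 0 → {Q : Place L₀ 𝓕 | Q ∈ S ∧ Q.ord y ≠ 0}.Finite)
  (𝔫 : Ideal (s34x_ring (s34x_infRing O) S)) [h𝔫 : 𝔫.IsPrime] (hπ𝔫 : πB ∈ 𝔫)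
  (t : s34x_ring (s34x_infRing O) S)
  (hm : maximalIdeal (Localization.AtPrime 𝔫) =
    Ideal.span {algebraMap (s34x_ring (s34x_infRing O) S) (Localization.AtPrime 𝔫) t,
      algebraMap (s34x_ring (s34x_infRing O) S) (Localization.AtPrime 𝔫) πB})
  (i₀ : ι)
  (honly : ∀ j, j ≠ i₀ → ∃ b : s34x_ring (s34x_infRing O) S,
    (∃ y ∈ O j, (b : 𝓕) = π * y) ∧ b ∉ 𝔫)

include hπ0 hπO hπL hπB hU hmax F1 F2 F3 hπ𝔫 hm honly in
/-- **(LOC) at a smooth point** (generic: no automorphism, places of arbitrary degree).  If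
`F ≡ 1 mod π (O i₀)` and `m ∣ ord_Q F` on the chart, the lattice of `div F / m` has a section which
is a unit at `𝔫` modulo `π`. -/
theorem s35f_loc_smooth (F : 𝓕) (hF0 : F ≠ 0) (m : ℕ) (hm0 : m ≠ 0)
    (hdiv : ∀ Q ∈ S, (m : ℤ) ∣ Q.ord F) (hF1 : ∃ y ∈ O i₀, F - 1 = π * y) :
    ∃ a ∈ s34x_latSet (s34x_infRing O) S (s18_E F m),
      ∃ s : s34x_ring (s34x_infRing O) S, s ∉ 𝔫 ∧
        ∃ y ∈ s34x_infRing O, a - (s : 𝓕) = π * y := by
  classical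
  haveI : IsNoetherianRing (Localization.AtPrime 𝔫) :=
    IsLocalization.isNoetherianRing 𝔫.primeCompl _ hB
  have hmZ : (m : ℤ) ≠ 0 := by exact_mod_cast hm0
  set R := Localization.AtPrime 𝔫 with hR
  set ιR := s34f_iota (s34x_infRing O) S 𝔫 with hιR
  set πR : R := algebraMap (s34x_ring (s34x_infRing O) S) (Localization.AtPrime 𝔫) πB with hπR
  have hprime : (Ideal.span {πR} : Ideal R).IsPrime :=
    s35f_span_isPrime O S π hπ0 hπO hπL πB hπB hU 𝔫 i₀ honly hπ𝔫 hmax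
  have hιmem : ∀ z : R, ιR z ∈ O i₀ :=
    s35f_iota_mem O S π hπ0 hπO hπL πB hπB hU 𝔫 i₀ honly hπ𝔫 hmax
  have hspan_of : ∀ z : R, (∃ y ∈ O i₀, ιR z = π * y) → z ∈ (Ideal.span {πR} : Ideal R) :=
    s35f_mem_span_of_iota O S π hπ0 hπO hπL πB hπB hU 𝔫 i₀ honly hπ𝔫 hmax
  have hof_span : ∀ z : R, z ∈ (Ideal.span {πR} : Ideal R) → ∃ y ∈ O i₀, ιR z = π * y :=
    s35f_iota_of_mem_span O S π hπ0 hπO hπL πB hπB hU 𝔫 i₀ honly hπ𝔫 hmax
  have hιinj : Function.Injective ιR := s34f_iota_injective (s34x_infRing O) S 𝔫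
  -- `π` is not a unit of `O i₀`
  have hπnu : ¬ ∃ y ∈ O i₀, (1 : 𝓕) = π * y := by
    intro h
    have : (1 : s34x_ring (s34x_infRing O) S) ∈ 𝔫 :=
      s35f_comp_through O S π hπ0 hπO hπL πB hπB hU 𝔫 i₀ honly hπ𝔫 1 (by simpa using h)
    exact h𝔫.ne_top ((Ideal.eq_top_iff_one _).mpr this)
  -- elements of `R` outside `π R` are units of `O i₀`
  have hinvmem : ∀ z : R, z ∉ (Ideal.span {πR} : Ideal R) → (ιR z)⁻¹ ∈ O i₀ := by
    intro z hz
    rcases hmax i₀ _ (hιmem z) with hdv | hinv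
    · exact absurd (hspan_of z hdv) hz
    · exact hinv
  have hne0 : ∀ z : R, z ∉ (Ideal.span {πR} : Ideal R) → ιR z ≠ 0 := by
    intro z hz h0
    apply hz
    have : z = 0 := hιinj (by rw [h0, map_zero])
    rw [this]; exact Ideal.zero_mem _
  -- units of `R` have order zero at the places through `𝔫`
  have hunitord : ∀ c : R, IsUnit c → ∀ Q ∈ S, s34f_through (s34x_infRing O) S 𝔫 Q →
      Q.ord (ιR c) = 0 := by
    intro c hc Q hQS hth
    obtain ⟨c', hc'⟩ := hc.exists_right_inv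
    have h1 := congrArg ιR hc'
    rw [map_mul, map_one] at h1
    have hc0 : ιR c ≠ 0 := left_ne_zero_of_mul_eq_one h1
    have hc'0 : ιR c' ≠ 0 := right_ne_zero_of_mul_eq_one h1
    have h2 := Q.ord_mul hc0 hc'0
    rw [h1, Place.ord_one] at h2
    have h3 : 0 ≤ Q.ord (ιR c) := s34f_iota_ord_nonneg (s34x_infRing O) S 𝔫 c Q hQS hth
    have h4 : 0 ≤ Q.ord (ιR c') := s34f_iota_ord_nonneg (s34x_infRing O) S 𝔫 c' Q hQS hth
    omega
  -- the exponents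
  set e : Place L₀ 𝓕 → ℤ := fun P => P.ord F / (m : ℤ) with he
  have hme : ∀ P ∈ S, P.ord F = (m : ℤ) * e P := fun P hP =>
    (Int.mul_ediv_cancel' (hdiv P hP)).symm
  have he0 : ∀ P : Place L₀ 𝓕, P.ord F = 0 → e P = 0 := by
    intro P h0
    show P.ord F / (m : ℤ) = 0
    rw [h0, Int.zero_ediv]
  -- the places of the support of `F` through `𝔫`
  have hfinF := F3 F hF0
  set T : Finset (Place L₀ 𝓕) := hfinF.toFinset.filter fun P =>
    s34f_through (s34x_infRing O) S 𝔫 P with hT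
  have hTmem : ∀ P, P ∈ T ↔ (P ∈ S ∧ P.ord F ≠ 0) ∧ s34f_through (s34x_infRing O) S 𝔫 P := by
    intro P
    rw [hT, Finset.mem_filter, Set.Finite.mem_toFinset]
    rfl
  have hchoose : ∀ P : Place L₀ 𝓕, ∃ φ : R, P ∈ T →
      (φ ∉ (Ideal.span {πR} : Ideal R) ∧ ιR φ ≠ 0 ∧ P.ord (ιR φ) = 1 ∧
        ∀ Q' ∈ S, Q' ≠ P → s34f_through (s34x_infRing O) S 𝔫 Q' → Q'.ord (ιR φ) = 0) := by
    intro P
    by_cases hP : P ∈ T
    · obtain ⟨⟨hPS, -⟩, hth⟩ := (hTmem P).mp hP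
      obtain ⟨φ, h1, h2, h3, h4⟩ := s35f_locEq_smooth (s34x_infRing O) S 𝔫 P hPS hth π hπ0 hπL
        πB t hπB hm hprime (F1 P hPS) (F2 P hPS)
      exact ⟨φ, fun _ => ⟨h1, h2, h3, h4⟩⟩
    · exact ⟨0, fun h => absurd h hP⟩
  choose φ hφ using hchoose
  set a : Place L₀ 𝓕 → ℕ := fun P => (e P).toNat with ha
  set b : Place L₀ 𝓕 → ℕ := fun P => (- e P).toNat with hb
  have hab : ∀ P, ((a P : ℕ) : ℤ) - (b P : ℕ) = e P := fun P => Int.toNat_sub_toNat_neg (e P)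
  set A : R := ∏ P ∈ T, φ P ^ a P with hA
  set B' : R := ∏ P ∈ T, φ P ^ b P with hB'
  have hAnot : A ∉ (Ideal.span {πR} : Ideal R) := by
    intro hmem
    rw [hA, hprime.prod_mem_iff] at hmem
    obtain ⟨P, hP, hPm⟩ := hmem
    exact (hφ P hP).1 (hprime.mem_of_pow_mem _ hPm)
  have hB'not : B' ∉ (Ideal.span {πR} : Ideal R) := by
    intro hmem
    rw [hB', hprime.prod_mem_iff] at hmem
    obtain ⟨P, hP, hPm⟩ := hmem
    exact (hφ P hP).1 (hprime.mem_of_pow_mem _ hPm)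
  have hιA : ιR A = ∏ P ∈ T, ιR (φ P) ^ ((a P : ℕ) : ℤ) := by
    rw [hA, map_prod]
    refine Finset.prod_congr rfl fun P _ => ?_
    rw [map_pow, zpow_natCast]
  have hιB' : ιR B' = ∏ P ∈ T, ιR (φ P) ^ ((b P : ℕ) : ℤ) := by
    rw [hB', map_prod]
    refine Finset.prod_congr rfl fun P _ => ?_
    rw [map_pow, zpow_natCast]
  have hφ0 : ∀ P ∈ T, ιR (φ P) ≠ 0 := fun P hP => (hφ P hP).2.1
  have hA0 : ιR A ≠ 0 := hne0 A hAnot
  have hB'0 : ιR B' ≠ 0 := hne0 B' hB'not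
  -- orders at the places through `𝔫`
  have hord : ∀ (c : Place L₀ 𝓕 → ℕ) (Q : Place L₀ 𝓕), Q ∈ S →
      s34f_through (s34x_infRing O) S 𝔫 Q →
      Q.ord (∏ P ∈ T, ιR (φ P) ^ ((c P : ℕ) : ℤ)) = if Q ∈ T then ((c Q : ℕ) : ℤ) else 0 := by
    intro c Q hQS hth
    rw [s18i_ord_prod_zpow Q T (fun P => ιR (φ P)) (fun P => ((c P : ℕ) : ℤ)) hφ0]
    by_cases hQT : Q ∈ T
    · rw [if_pos hQT, Finset.sum_eq_single_of_mem Q hQT, (hφ Q hQT).2.2.1, mul_one]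
      intro P hP hne
      rw [(hφ P hP).2.2.2 Q hQS (Ne.symm hne) hth, mul_zero]
    · rw [if_neg hQT]
      refine Finset.sum_eq_zero fun P hP => ?_
      have hne : Q ≠ P := fun h => hQT (h ▸ hP)
      rw [(hφ P hP).2.2.2 Q hQS hne hth, mul_zero]
  have hordAB : ∀ Q ∈ S, s34f_through (s34x_infRing O) S 𝔫 Q →
      Q.ord (ιR A) - Q.ord (ιR B') = e Q := by
    intro Q hQS hth
    rw [hιA, hιB', hord a Q hQS hth, hord b Q hQS hth]
    by_cases hQT : Q ∈ T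
    · rw [if_pos hQT, if_pos hQT]; exact hab Q
    · rw [if_neg hQT, if_neg hQT, sub_zero]
      have : Q.ord F = 0 := by
        by_contra hne
        exact hQT ((hTmem Q).mpr ⟨⟨hQS, hne⟩, hth⟩)
      exact (he0 Q this).symm
  -- `F` is a unit of `O i₀`
  obtain ⟨yF, hyF, eF⟩ := hF1
  have hFeq : F = 1 + π * yF := by rw [← eF]; ring
  have hFO : F ∈ O i₀ := by
    rw [hFeq]; exact (O i₀).add_mem _ _ (O i₀).one_mem ((O i₀).mul_mem _ _ (hπO i₀) hyF)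
  have hFinv : F⁻¹ ∈ O i₀ := by
    rw [hFeq]
    exact s34x_val_one_add_inv_mem (O i₀) π (hπO i₀) hπnu hyF
  -- the unit `y₀ = F B'^m / A^m`
  set y₀ : 𝓕 := F * ιR B' ^ m * (ιR A ^ m)⁻¹ with hy₀
  have hy₀0 : y₀ ≠ 0 :=
    mul_ne_zero (mul_ne_zero hF0 (pow_ne_zero _ hB'0)) (inv_ne_zero (pow_ne_zero _ hA0))
  have hy₀ord : ∀ Q ∈ S, s34f_through (s34x_infRing O) S 𝔫 Q → Q.ord y₀ = 0 := by
    intro Q hQS hth
    have h1 : Q.ord ((ιR A ^ m)⁻¹) = - ((m : ℤ) * Q.ord (ιR A)) := by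
      have := Q.ord_zpow (ιR A ^ m) (-1)
      rw [zpow_neg_one] at this
      rw [this, s18i_ord_pow]; ring
    rw [hy₀, Q.ord_mul (mul_ne_zero hF0 (pow_ne_zero _ hB'0)) (inv_ne_zero (pow_ne_zero _ hA0)),
      Q.ord_mul hF0 (pow_ne_zero _ hB'0), s18i_ord_pow, h1, hme Q hQS]
    have := hordAB Q hQS hth
    have h2 : (m : ℤ) * e Q + (m : ℤ) * Q.ord (ιR B') + -((m : ℤ) * Q.ord (ιR A)) =
        (m : ℤ) * (e Q - (Q.ord (ιR A) - Q.ord (ιR B'))) := by ring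
    rw [h2, this, sub_self, mul_zero]
  have hy₀O : y₀ ∈ O i₀ := by
    rw [hy₀, ← inv_pow]
    exact (O i₀).mul_mem _ _ ((O i₀).mul_mem _ _ hFO ((O i₀).pow_mem (hιmem B') m))
      ((O i₀).pow_mem (hinvmem A hAnot) m)
  have hy₀invO : y₀⁻¹ ∈ O i₀ := by
    have : y₀⁻¹ = F⁻¹ * ((ιR B')⁻¹) ^ m * ιR A ^ m := by
      rw [hy₀, mul_inv, mul_inv, inv_inv, inv_pow]
    rw [this]
    exact (O i₀).mul_mem _ _ ((O i₀).mul_mem _ _ hFinv ((O i₀).pow_mem (hinvmem B' hB'not) m))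
      ((O i₀).pow_mem (hιmem A) m)
  obtain ⟨r₀, hr₀⟩ := s35f_exists_of_regular O S π hπ0 hπO hU 𝔫 i₀ honly F3 y₀ hy₀0 hy₀O
    (fun Q hQS hth => (hy₀ord Q hQS hth).ge)
  obtain ⟨r₀', hr₀'⟩ := s35f_exists_of_regular O S π hπ0 hπO hU 𝔫 i₀ honly F3 y₀⁻¹
    (inv_ne_zero hy₀0) hy₀invO (fun Q hQS hth => by
      have := Q.ord_zpow y₀ (-1)
      rw [zpow_neg_one, hy₀ord Q hQS hth] at this
      rw [this]; simp)
  have hr₀u : IsUnit r₀ := by
    refine IsUnit.of_mul_eq_one r₀' (hιinj ?_)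
    rw [map_mul, map_one, hr₀, hr₀', mul_inv_cancel₀ hy₀0]
  -- the congruence `r₀ A^m ≡ B'^m`
  have hcong : r₀ * A ^ m - B' ^ m ∈ (Ideal.span {πR} : Ideal R) := by
    apply hspan_of
    refine ⟨yF * ιR B' ^ m, (O i₀).mul_mem _ _ hyF ((O i₀).pow_mem (hιmem B') m), ?_⟩
    rw [map_sub, map_mul, map_pow, map_pow, hr₀, hy₀, hFeq]
    have hAm0 : ιR A ^ m ≠ 0 := pow_ne_zero _ hA0
    field_simp
    ring
  obtain ⟨c, hcu, hc⟩ := s35f_root_unit _ _ hm hprime A B' r₀ hr₀u m hm0 hAnot hB'not hcong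
  -- the generator
  set g : 𝓕 := ιR A * ιR c * (ιR B')⁻¹ with hg
  have hc0 : ιR c ≠ 0 := by
    intro h0
    have : c = 0 := hιinj (by rw [h0, map_zero])
    rw [this] at hcu
    exact not_isUnit_zero hcu
  have hg0 : g ≠ 0 := mul_ne_zero (mul_ne_zero hA0 hc0) (inv_ne_zero hB'0)
  refine s34x_loc_of_gen O S (s18_E F m) π hπ0 hπO hU 𝔫 g hg0 ?_ ?_ ?_
  · intro Q hQS hth
    have h1 : Q.ord ((ιR B')⁻¹) = - Q.ord (ιR B') := by
      have := Q.ord_zpow (ιR B') (-1)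
      rw [zpow_neg_one] at this
      rw [this]; ring
    rw [hg, Q.ord_mul (mul_ne_zero hA0 hc0) (inv_ne_zero hB'0), Q.ord_mul hA0 hc0,
      hunitord c hcu Q hQS hth, h1]
    have := hordAB Q hQS hth
    show e Q ≤ _
    omega
  · intro i hi
    by_cases hii : i = i₀
    · subst hii
      obtain ⟨y', hy', e'⟩ := hof_span _ hc
      refine ⟨- (y' * (ιR B')⁻¹), (O i).neg_mem _ ((O i).mul_mem _ _ hy' (hinvmem B' hB'not)), ?_⟩
      rw [map_sub, map_mul] at e'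
      rw [hg]
      field_simp
      linear_combination (-1 : 𝓕) * e'
    · exfalso
      obtain ⟨b₁, hb₁, hb₁𝔫⟩ := honly i hii
      exact hb₁𝔫 (hi b₁ hb₁)
  · refine ((F3 g hg0).union (F3 F hF0)).subset ?_
    rintro Q ⟨hQS, hlt⟩
    by_cases h0 : Q.ord F = 0
    · left
      refine ⟨hQS, fun h => ?_⟩
      rw [h, s18_E, h0, Int.zero_ediv] at hlt
      exact lt_irrefl _ hlt
    · right
      exact ⟨hQS, h0⟩

end Main

end Fermat.Agent.Lib.S35
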