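/-
S35 project, package [F] (helper9), part 4: GENERIC ASSEMBLY — Theorem X₀ for a function `Pf` with an
approximate `m`-th root `x` of its reductions (twin of `Lib/S34/FAssembly.lean`, operator-free).

`Pf ≠ 0` with `m ∣ div Pf` (in the application `Pf = P(σ) f = σ⁴f · f^{q²} / (σ²f)^{1+q²}`),
`x ≠ 0` with `Pf / x ^ m ≡ 1` modulo `ϖ (O i)` for every component `i` (the global `x` of
helper2's `MNorm`).  For each of the two charts of a base function `t`: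
* the DICTIONARY `s35f_Dict` (noetherian chart ring, (F1)–(F3));
* at every closed point `𝔫 ∋ ϖ` of the chart: either a SMOOTH point lying on one component only
  (`s35f_SmoothAt`; generic lemma `s35f_loc_smooth`, no automorphism), or the local generator
  contract `s35f_NodeGen` for `div (Pf / x ^ m) / m` (the node package, via `s35f_nodeGen_of_frac`).
With the Čech input `hH` for `Pf / x ^ m`:

  `s35f_zero : ∃ x' ≠ 0, (∀ i, x' ∈ O i) ∧ ∀ Q, ord_Q Pf ≤ m · ord_Q (x x')`.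
-/
import Fermat.Agent.Lib.S35.FSmooth
import Fermat.Agent.Lib.S35.FNode

set_option autoImplicit false
set_option linter.style.haveILetI false
set_option linter.unusedSectionVars false

noncomputable section

namespace Fermat.Agent.Lib.S35

open AlgebraicCurve Fermat.Agent.Lib.FF Fermat.Agent.Lib.S18 Fermat.Agent.Lib.S34 IsLocalRing

variable {L₀ 𝓕 : Type*} [Field L₀] [Field 𝓕] [Algebra L₀ 𝓕]

section Chart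

variable (A₀ : ValuationSubring L₀) {ι : Type*} (O : ι → ValuationSubring 𝓕)
  (hAO : ∀ i, ∀ a : A₀, algebraMap L₀ 𝓕 (a : L₀) ∈ O i) (ϖ : A₀) (S : Set (Place L₀ 𝓕))

/-- **The dictionary of a chart** (conjuncts 1–4 of `s34f_ChartContract`). -/
def s35f_Dict : Prop :=
  IsNoetherianRing (s34x_ring (s34x_infRing O) S) ∧
  (∀ Q ∈ S, ∃ u : s34x_ring (s34x_infRing O) S, Q.ord (u : 𝓕) = 1) ∧
  (∀ Q ∈ S, ∀ Q' ∈ S, Q' ≠ Q →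
    ∃ y : s34x_ring (s34x_infRing O) S, 0 < Q.ord (y : 𝓕) ∧ Q'.ord (y : 𝓕) = 0) ∧
  (∀ y : 𝓕, y ≠ 0 → {Q : Place L₀ 𝓕 | Q ∈ S ∧ Q.ord y ≠ 0}.Finite)

/-- **A smooth point lying on one component only**: `𝔪_{B_𝔫} = (t, ϖ)` and every component but `i₀`
misses `𝔫`. -/
def s35f_SmoothAt (𝔫 : Ideal (s34x_ring (s34x_infRing O) S)) [𝔫.IsPrime] : Prop :=
  ∃ (t : s34x_ring (s34x_infRing O) S) (i₀ : ι),
    maximalIdeal (Localization.AtPrime 𝔫) =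
      Ideal.span {algebraMap _ (Localization.AtPrime 𝔫) t,
        algebraMap _ (Localization.AtPrime 𝔫)
          (s34f_constHom A₀ (s34x_infRing O) (s34x_inf_const_mem O A₀ hAO) S ϖ)} ∧
    ∀ j, j ≠ i₀ → ∃ b : s34x_ring (s34x_infRing O) S,
      (∃ y ∈ O j, (b : 𝓕) = algebraMap L₀ 𝓕 (ϖ : L₀) * y) ∧ b ∉ 𝔫

variable [IsDiscreteValuationRing A₀] [Fintype ι]

/-- **(LOC) on one chart.** -/
theorem s35f_hloc (hϖ : Irreducible ϖ)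
    (hU : ∀ i, ∀ y : 𝓕, ∃ k : ℕ, algebraMap L₀ 𝓕 (ϖ : L₀) ^ k * y ∈ O i)
    (hmax : ∀ i, ∀ y ∈ O i, (∃ z ∈ O i, y = algebraMap L₀ 𝓕 (ϖ : L₀) * z) ∨ y⁻¹ ∈ O i)
    (hD : s35f_Dict O S)
    (F : 𝓕) (hF0 : F ≠ 0) (m : ℕ) (hm0 : m ≠ 0) (hdiv : ∀ Q ∈ S, (m : ℤ) ∣ Q.ord F)
    (hF1 : ∀ i, ∃ y ∈ O i, F - 1 = algebraMap L₀ 𝓕 (ϖ : L₀) * y)
    (𝔫 : Ideal (s34x_ring (s34x_infRing O) S)) [h𝔫 : 𝔫.IsPrime]
    (hπ𝔫 : s34x_const (s34x_infRing O) S (ϖ : L₀) (s34x_inf_const_mem O A₀ hAO ϖ) ∈ 𝔫)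
    (hcase : s35f_SmoothAt A₀ O hAO ϖ S 𝔫 ∨
      s35f_NodeGen O S (algebraMap L₀ 𝓕 (ϖ : L₀)) 𝔫 (s18_E F m)) :
    ∃ a ∈ s34x_latSet (s34x_infRing O) S (s18_E F m),
      ∃ s : s34x_ring (s34x_infRing O) S, s ∉ 𝔫 ∧
        ∃ y ∈ s34x_infRing O, a - (s : 𝓕) = algebraMap L₀ 𝓕 (ϖ : L₀) * y := by
  obtain ⟨hnoeth, F1, F2, F3⟩ := hD
  haveI := hnoeth
  have hπ0 : algebraMap L₀ 𝓕 (ϖ : L₀) ≠ 0 := s34f_unif_ne_zero (𝓕 := 𝓕) A₀ ϖ hϖ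
  have hπ𝔫' : s34f_constHom A₀ (s34x_infRing O) (s34x_inf_const_mem O A₀ hAO) S ϖ ∈ 𝔫 := hπ𝔫
  rcases hcase with ⟨t, i₀, hm, honly⟩ | hgen
  · exact s35f_loc_smooth O S (algebraMap L₀ 𝓕 (ϖ : L₀)) hπ0 (fun i => hAO i ϖ)
      (fun Q => ff_ord_algebraMap Q _)
      (s34f_constHom A₀ (s34x_infRing O) (s34x_inf_const_mem O A₀ hAO) S ϖ) rfl hU hmax F1 F2 F3
      𝔫 hπ𝔫' t hm i₀ honly F hF0 m hm0 hdiv (hF1 i₀)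
  · exact s35f_loc_of_nodeGen O S (algebraMap L₀ 𝓕 (ϖ : L₀)) hπ0 (fun i => hAO i ϖ) hU F3 𝔫 F hF0
      m hgen

end Chart

/-- **Theorem X₀ for `Pf` with an approximate root `x`**, from the two chart dictionaries, the
local data at every closed point of the special fibre and the Čech input. -/
theorem s35f_zero {ι : Type*} [Fintype ι] [Nonempty ι] (A₀ : ValuationSubring L₀)
    [IsDiscreteValuationRing A₀]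
    (O : ι → ValuationSubring 𝓕) (hAO : ∀ i, ∀ a : A₀, algebraMap L₀ 𝓕 (a : L₀) ∈ O i)
    (ϖ : A₀) (hϖ : Irreducible ϖ)
    (hϖO : ∀ i, ¬ ∃ y ∈ O i, (1 : 𝓕) = algebraMap L₀ 𝓕 (ϖ : L₀) * y)
    (hU : ∀ i, ∀ y : 𝓕, ∃ k : ℕ, algebraMap L₀ 𝓕 (ϖ : L₀) ^ k * y ∈ O i)
    (hmax : ∀ i, ∀ y ∈ O i, (∃ z ∈ O i, y = algebraMap L₀ 𝓕 (ϖ : L₀) * z) ∨ y⁻¹ ∈ O i)
    (t : 𝓕)
    (hD1 : s35f_Dict O (s18_chart1 (L₀ := L₀) t))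
    (hD2 : s35f_Dict O (s18_chart2 (L₀ := L₀) t))
    (Pf x : 𝓕) (hPf0 : Pf ≠ 0) (hx0 : x ≠ 0)
    (m : ℕ) (hm0 : m ≠ 0) (hmA : ((m : L₀))⁻¹ ∈ A₀) (hmL : (m : L₀) ≠ 0)
    (hdiv : ∀ Q : Place L₀ 𝓕, (m : ℤ) ∣ Q.ord Pf)
    (hF1 : ∀ i, ∃ y ∈ O i, Pf / x ^ m - 1 = algebraMap L₀ 𝓕 (ϖ : L₀) * y)
    (hloc1 : ∀ (𝔫 : Ideal (s34x_ring (s34x_infRing O) (s18_chart1 (L₀ := L₀) t))) [𝔫.IsMaximal],
      s34x_const (s34x_infRing O) (s18_chart1 (L₀ := L₀) t) (ϖ : L₀)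
        (s34x_inf_const_mem O A₀ hAO ϖ) ∈ 𝔫 →
      s35f_SmoothAt A₀ O hAO ϖ (s18_chart1 (L₀ := L₀) t) 𝔫 ∨
        s35f_NodeGen O (s18_chart1 (L₀ := L₀) t) (algebraMap L₀ 𝓕 (ϖ : L₀)) 𝔫
          (s18_E (Pf / x ^ m) m))
    (hloc2 : ∀ (𝔫 : Ideal (s34x_ring (s34x_infRing O) (s18_chart2 (L₀ := L₀) t))) [𝔫.IsMaximal],
      s34x_const (s34x_infRing O) (s18_chart2 (L₀ := L₀) t) (ϖ : L₀)
        (s34x_inf_const_mem O A₀ hAO ϖ) ∈ 𝔫 →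
      s35f_SmoothAt A₀ O hAO ϖ (s18_chart2 (L₀ := L₀) t) 𝔫 ∨
        s35f_NodeGen O (s18_chart2 (L₀ := L₀) t) (algebraMap L₀ 𝓕 (ϖ : L₀)) 𝔫
          (s18_E (Pf / x ^ m) m))
    (hH : ∃ G : Submodule A₀ 𝓕, G.FG ∧
      s34x_lat A₀ (s34x_infRing O) (s34x_inf_const_mem O A₀ hAO) (s18_chart12 t)
          (s18_E (Pf / x ^ m) m) ≤
        G ⊔ (s34x_lat A₀ (s34x_infRing O) (s34x_inf_const_mem O A₀ hAO) (s18_chart1 t)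
            (s18_E (Pf / x ^ m) m) ⊔
          s34x_lat A₀ (s34x_infRing O) (s34x_inf_const_mem O A₀ hAO) (s18_chart2 t)
            (s18_E (Pf / x ^ m) m))) :
    ∃ x' : 𝓕, x' ≠ 0 ∧ (∀ i, x' ∈ O i) ∧
      ∀ Q : Place L₀ 𝓕, Q.ord Pf ≤ (m : ℤ) * Q.ord (x * x') := by
  have hϖ0 : ((ϖ : A₀) : L₀) ≠ 0 := by
    have h1 : (ϖ : A₀) ≠ 0 := hϖ.ne_zero
    exact fun h => h1 (Subtype.ext h)
  have hxm0 : x ^ m ≠ 0 := pow_ne_zero _ hx0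
  have hF0 : Pf / x ^ m ≠ 0 := div_ne_zero hPf0 hxm0
  have hordF : ∀ Q : Place L₀ 𝓕, Q.ord (Pf / x ^ m) = Q.ord Pf - (m : ℤ) * Q.ord x := by
    intro Q
    rw [div_eq_mul_inv, Q.ord_mul hPf0 (inv_ne_zero hxm0)]
    have h1 := Q.ord_zpow (x ^ m) (-1)
    rw [zpow_neg_one] at h1
    have h2 : Q.ord (x ^ m) = (m : ℤ) * Q.ord x := by
      have := Q.ord_zpow x m
      rwa [zpow_natCast] at this
    rw [h1, h2]; ring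
  have hdivF : ∀ Q : Place L₀ 𝓕, (m : ℤ) ∣ Q.ord (Pf / x ^ m) := by
    intro Q
    rw [hordF]
    exact dvd_sub (hdiv Q) (dvd_mul_right _ _)
  have key : ∃ x' : 𝓕, x' ≠ 0 ∧ (∀ i, x' ∈ O i) ∧
      ∀ Q : Place L₀ 𝓕, Q.ord (Pf / x ^ m) ≤ (m : ℤ) * Q.ord x' := by
    refine s34x_zero_inf A₀ O hAO ϖ hϖ0 hϖO t (Pf / x ^ m) m hm0 hmA hmL hdivF hF1 ?_ ?_ hH
    · intro 𝔫 h𝔫 hπ𝔫
      haveI := h𝔫
      haveI : 𝔫.IsPrime := h𝔫.isPrime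
      exact s35f_hloc A₀ O hAO ϖ _ hϖ hU hmax hD1 (Pf / x ^ m) hF0 m hm0 (fun Q _ => hdivF Q) hF1
        𝔫 hπ𝔫 (hloc1 𝔫 hπ𝔫)
    · intro 𝔫 h𝔫 hπ𝔫
      haveI := h𝔫
      haveI : 𝔫.IsPrime := h𝔫.isPrime
      exact s35f_hloc A₀ O hAO ϖ _ hϖ hU hmax hD2 (Pf / x ^ m) hF0 m hm0 (fun Q _ => hdivF Q) hF1
        𝔫 hπ𝔫 (hloc2 𝔫 hπ𝔫)
  obtain ⟨x', hx'0, hx'O, hx'⟩ := key
  refine ⟨x', hx'0, hx'O, fun Q => ?_⟩
  have h1 := hx' Q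
  rw [hordF] at h1
  rw [Q.ord_mul hx0 hx'0]
  linarith

end Fermat.Agent.Lib.S35
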