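/-
S35 project, package [G] (helper9 for helper4's [Geo]): THE REFINED DICHOTOMY.

Twin of helper1's `s34d_dichotomy` (`Lib/S34/DNode.lean`) and helper8's `s34df_dichotomy`
(`Lib/S34/DFibre.lean`) — SAME hypotheses, SAME order of arguments — keeping what the proofs know:

* at a SMOOTH point the OTHER component misses `𝔫` (the witness `s ∈ ker r_j ∖ 𝔫`);
* at a WEAK NODE both kernels lie in `𝔫` (a CROSSING point) and `u ∈ ker r₂`, `w ∈ ker r₁`.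

* `s35gd_dichotomy`     : abstract (Mathlib only);
* `s35gd_df_dichotomy`  : concrete two-component fibre of level `M q` (`r₁ = s34df_r1`,
  `r₂ = s34df_r2`), element form;
* `s35gd_Elem`          : the refined element-form dichotomy on a chart (twin of `s34f_Elem`);
* `s35gd_smoothAt_or_crossing` : from `s35gd_Elem` to `s35f_SmoothAt` (the input of `s35f_zero`) or
  a crossing point with its weak-node presentation in `Localization.AtPrime` form (the input of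
  `NSec.lean` / `FLocal.lean` and of the node package).
-/
import Fermat.Agent.Lib.S34.DFibre
import Fermat.Agent.Lib.S34.CChart
import Fermat.Agent.Lib.S35.FZero

set_option autoImplicit false
set_option linter.unusedSectionVars false
set_option linter.style.haveILetI false

noncomputable section

namespace Fermat.Agent.Lib.S35

open ModularCurve AlgebraicCurve HahnSeries Fermat.Agent.Lib.FF Fermat.Agent.Lib.S18
  Fermat.Agent.Lib.S34 Fermat.Agent.Lib.S37 IsDedekindDomain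

section Abstract

variable {B κ₁ κ₂ D₁ D₂ : Type*} [CommRing B] [Field κ₁] [Field κ₂]
  [CommRing D₁] [IsDedekindDomain D₁] [Algebra D₁ κ₁] [IsFractionRing D₁ κ₁]
  [CommRing D₂] [IsDedekindDomain D₂] [Algebra D₂ κ₂] [IsFractionRing D₂ κ₂]

/-- **The refined dichotomy** (hypotheses of `s34d_dichotomy`).  Every prime `𝔫 ∋ ϖ` of `B` is
* a SMOOTH point `𝔫 B_𝔫 = (t, ϖ)` lying on ONE component only (a witness in `ker r_j ∖ 𝔫`), or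
* a CROSSING point (`ker r₁, ker r₂ ≤ 𝔫`) with a weak-node presentation `𝔫 B_𝔫 = (u, w, ϖ)`,
  `ϖ ∣ u w`, `u ∈ ker r₂`, `w ∈ ker r₁`. -/
theorem s35gd_dichotomy (ϖ : B) (r₁ : B →+* κ₁) (r₂ : B →+* κ₂)
    (hker : ∀ b, r₁ b = 0 → r₂ b = 0 → ϖ ∣ b) (q : ℕ) (hq : 2 ≤ q)
    (hα : ∀ d : D₁, ∃ g : B, r₁ g = algebraMap D₁ κ₁ d ∧ ∃ b : B, r₂ g = r₂ b ^ q)
    (hβ : ∀ d : D₂, ∃ g : B, r₂ g = algebraMap D₂ κ₂ d ∧ ∃ b : B, r₁ g = r₁ b ^ q)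
    (𝔫 : Ideal B) [h𝔫 : 𝔫.IsPrime] (hϖ𝔫 : ϖ ∈ 𝔫) :
    (∃ t ∈ 𝔫, (∀ y ∈ 𝔫, ∃ c, c ∉ 𝔫 ∧ ∃ z b, c * y = z * t + b * ϖ) ∧
      ((∃ s, r₂ s = 0 ∧ s ∉ 𝔫) ∨ (∃ s, r₁ s = 0 ∧ s ∉ 𝔫))) ∨
    (RingHom.ker r₁ ≤ 𝔫 ∧ RingHom.ker r₂ ≤ 𝔫 ∧
      ∃ u ∈ 𝔫, ∃ w ∈ 𝔫, r₂ u = 0 ∧ r₁ w = 0 ∧ ϖ ∣ u * w ∧
        ∀ y ∈ 𝔫, ∃ c, c ∉ 𝔫 ∧ ∃ z z' b, c * y = z * u + z' * w + b * ϖ) := by
  have hker' : ∀ b, r₂ b = 0 → r₁ b = 0 → ϖ ∣ b := fun b h2 h1 => hker b h1 h2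
  have hboth : ∀ b, r₁ b = 0 → r₂ b = 0 → b ∈ 𝔫 := by
    intro b h1 h2
    obtain ⟨c, rfl⟩ := hker b h1 h2
    exact 𝔫.mul_mem_right _ hϖ𝔫
  have hl₁ : ∀ d : D₁, ∃ g : B, r₁ g = algebraMap D₁ κ₁ d := fun d => (hα d).imp fun _ h => h.1
  have hl₂ : ∀ d : D₂, ∃ g : B, r₂ g = algebraMap D₂ κ₂ d := fun d => (hβ d).imp fun _ h => h.1
  by_cases h2 : RingHom.ker r₂ ≤ 𝔫
  · by_cases h1 : RingHom.ker r₁ ≤ 𝔫
    · -- a crossing point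
      right
      obtain ⟨d₁, hd₁⟩ := s34d_exists_locGenAt r₁ hl₁ 𝔫 h1
      obtain ⟨d₂, hd₂⟩ := s34d_exists_locGenAt r₂ hl₂ 𝔫 h2
      obtain ⟨g₁, hg₁, b₁, hb₁⟩ := hα d₁
      obtain ⟨g₂, hg₂, b₂, hb₂⟩ := hβ d₂
      have hG₁ := hd₁ g₁ hg₁
      have hG₂ := hd₂ g₂ hg₂
      have hu₂ : r₂ (g₁ - b₁ ^ q) = 0 := by rw [map_sub, map_pow, hb₁, sub_self]
      have hw₁ : r₁ (g₂ - b₂ ^ q) = 0 := by rw [map_sub, map_pow, hb₂, sub_self]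
      have hb₁𝔫 : b₁ ∈ 𝔫 := by
        have h : g₁ - b₁ ^ q ∈ 𝔫 := h2 hu₂
        have h' : b₁ ^ q ∈ 𝔫 := by
          have := 𝔫.sub_mem hG₁.1 h
          rwa [sub_sub_cancel] at this
        exact h𝔫.mem_of_pow_mem _ h'
      have hb₂𝔫 : b₂ ∈ 𝔫 := by
        have h : g₂ - b₂ ^ q ∈ 𝔫 := h1 hw₁
        have h' : b₂ ^ q ∈ 𝔫 := by
          have := 𝔫.sub_mem hG₂.1 h
          rwa [sub_sub_cancel] at this
        exact h𝔫.mem_of_pow_mem _ h'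
      have hU := s34d_locGenAt_sub_pow hG₁ hb₁𝔫 hq
      have hW := s34d_locGenAt_sub_pow hG₂ hb₂𝔫 hq
      obtain ⟨hdvd, hgen⟩ := s34d_node ϖ r₁ r₂ hker 𝔫 hU hu₂ hW hw₁
      exact ⟨h1, h2, _, hU.1, _, hW.1, hu₂, hw₁, hdvd, hgen⟩
    · -- on the second component only
      left
      obtain ⟨s, hs, hs𝔫⟩ := SetLike.not_le_iff_exists.mp h1
      obtain ⟨d₂, hd₂⟩ := s34d_exists_locGenAt r₂ hl₂ 𝔫 h2
      obtain ⟨g₂, hg₂⟩ := hl₂ d₂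
      have hG₂ := hd₂ g₂ hg₂
      exact ⟨g₂, hG₂.1, s34d_smooth ϖ r₂ r₁ hker' 𝔫 hs hs𝔫 hG₂, Or.inr ⟨s, hs, hs𝔫⟩⟩
  · -- on the first component only
    left
    obtain ⟨s, hs, hs𝔫⟩ := SetLike.not_le_iff_exists.mp h2
    have h1 : RingHom.ker r₁ ≤ 𝔫 := by
      intro a ha
      have : a * s ∈ 𝔫 := hboth _ (by rw [map_mul, ha, zero_mul]) (by rw [map_mul, hs, mul_zero])
      exact (h𝔫.mem_or_mem this).resolve_right hs𝔫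
    obtain ⟨d₁, hd₁⟩ := s34d_exists_locGenAt r₁ hl₁ 𝔫 h1
    obtain ⟨g₁, hg₁⟩ := hl₁ d₁
    have hG₁ := hd₁ g₁ hg₁
    exact ⟨g₁, hG₁.1, s34d_smooth ϖ r₁ r₂ hker 𝔫 hs hs𝔫 hG₁, Or.inl ⟨s, hs, hs𝔫⟩⟩

end Abstract

local notation "Kb" => AlgebraicClosure ℚ

variable {K₀ : Type*} [Field K₀] [Algebra ℚ K₀] {κ : Type*} [Field κ] (G : s18g_GaussData K₀ κ)
variable (φ : K₀ →+* Kb) (M q : ℕ) [NeZero M] [NeZero q] (hq : q.Prime) (hqM : ¬ q ∣ M)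
variable (S : Set (Place K₀ (s34m_F K₀ (M * q))))

section Concrete

variable (Fb : IntermediateField κ (LaurentSeries κ))
  {D₁ D₂ : Type*} [CommRing D₁] [IsDedekindDomain D₁] [Algebra D₁ Fb] [IsFractionRing D₁ Fb]
  [CommRing D₂] [IsDedekindDomain D₂] [Algebra D₂ Fb] [IsFractionRing D₂ Fb]

/-- **The concrete refined dichotomy** (element form; hypotheses and argument order of
`s34df_dichotomy`). -/
theorem s35gd_df_dichotomy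
    (hF₁ : ∀ b, s34df_r1 G φ M q hq hqM S b ∈ Fb) (hF₂ : ∀ b, s34df_r2 G φ M q hq hqM S b ∈ Fb)
    (ϖB : s34x_ring (s34x_infRing (s34m_VV G φ M q hq hqM)) S)
    (hϖB : (ϖB : s34m_F K₀ (M * q)) = s34m_unif G (M * q))
    (BM : Set (s34m_F K₀ M)) (hBMV : ∀ g ∈ BM, g ∈ s34m_Vinf G M)
    (hαB : ∀ g ∈ BM, heckeAlphaBar K₀ M q g ∈
      s34x_ring (s34x_infRing (s34m_VV G φ M q hq hqM)) S)
    (hβB : ∀ g ∈ BM, ∃ b' ∈ s34x_ring (s34x_infRing (s34m_VV G φ M q hq hqM)) S,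
      ∃ z, z ∈ s34m_Vinf G (M * q) ∧ z ∈ s34m_Vzero G φ M q hq hqM ∧
        b' - heckeBetaBar K₀ M q g = s34m_unif G (M * q) * z)
    (hlift₁ : ∀ d : D₁, ∃ g, ∃ hg : g ∈ BM,
      s34m_redInf G M ⟨g, hBMV g hg⟩ = ((algebraMap D₁ Fb d : Fb) : LaurentSeries κ))
    (hlift₂ : ∀ d : D₂, ∃ g, ∃ hg : g ∈ BM,
      s34m_redInf G M ⟨g, hBMV g hg⟩ = ((algebraMap D₂ Fb d : Fb) : LaurentSeries κ))
    (htw₁ : ∀ d : D₁, ∃ d' : D₂, qExpand κ q ((algebraMap D₁ Fb d : Fb) : LaurentSeries κ) =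
      ((algebraMap D₂ Fb d' : Fb) : LaurentSeries κ) ^ q)
    (htw₂ : ∀ d : D₂, ∃ d' : D₁, qExpand κ q ((algebraMap D₂ Fb d : Fb) : LaurentSeries κ) =
      ((algebraMap D₁ Fb d' : Fb) : LaurentSeries κ) ^ q)
    (𝔫 : Ideal (s34x_ring (s34x_infRing (s34m_VV G φ M q hq hqM)) S)) [h𝔫 : 𝔫.IsPrime]
    (hϖ𝔫 : ϖB ∈ 𝔫) :
    (∃ t ∈ 𝔫, (∀ y ∈ 𝔫, ∃ c, c ∉ 𝔫 ∧ ∃ z b, c * y = z * t + b * ϖB) ∧
      ((∃ s, s34df_r2 G φ M q hq hqM S s = 0 ∧ s ∉ 𝔫) ∨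
        (∃ s, s34df_r1 G φ M q hq hqM S s = 0 ∧ s ∉ 𝔫))) ∨
    (RingHom.ker (s34df_r1 G φ M q hq hqM S) ≤ 𝔫 ∧ RingHom.ker (s34df_r2 G φ M q hq hqM S) ≤ 𝔫 ∧
      ∃ u ∈ 𝔫, ∃ w ∈ 𝔫, s34df_r2 G φ M q hq hqM S u = 0 ∧ s34df_r1 G φ M q hq hqM S w = 0 ∧
        ϖB ∣ u * w ∧
        ∀ y ∈ 𝔫, ∃ c, c ∉ 𝔫 ∧ ∃ z z' b, c * y = z * u + z' * w + b * ϖB) := by
  -- the two reductions with values in the field `Fb`
  set r₁ : s34x_ring (s34x_infRing (s34m_VV G φ M q hq hqM)) S →+* Fb :=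
    (s34df_r1 G φ M q hq hqM S).codRestrict Fb hF₁ with hr₁
  set r₂ : s34x_ring (s34x_infRing (s34m_VV G φ M q hq hqM)) S →+* Fb :=
    (s34df_r2 G φ M q hq hqM S).codRestrict Fb hF₂ with hr₂
  have hr₁c : ∀ b, ((r₁ b : Fb) : LaurentSeries κ) = s34df_r1 G φ M q hq hqM S b := fun _ => rfl
  have hr₂c : ∀ b, ((r₂ b : Fb) : LaurentSeries κ) = s34df_r2 G φ M q hq hqM S b := fun _ => rfl
  have hz₁ : ∀ b, r₁ b = 0 ↔ s34df_r1 G φ M q hq hqM S b = 0 := by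
    intro b
    rw [← hr₁c]
    exact ⟨fun h => by rw [h]; rfl, fun h => Subtype.ext h⟩
  have hz₂ : ∀ b, r₂ b = 0 ↔ s34df_r2 G φ M q hq hqM S b = 0 := by
    intro b
    rw [← hr₂c]
    exact ⟨fun h => by rw [h]; rfl, fun h => Subtype.ext h⟩
  have hα₁ : ∀ g (hg : g ∈ BM), s34df_r1 G φ M q hq hqM S ⟨_, hαB g hg⟩ =
      s34m_redInf G M ⟨g, hBMV g hg⟩ := fun g hg =>
    (s34df_r1_eq G φ M q hq hqM S _ _ (s34m_alpha_mem_Vinf G M q (hBMV g hg)) rfl).trans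
      (s34m_redInf_alpha G M q ⟨g, hBMV g hg⟩)
  have hα₂ : ∀ g (hg : g ∈ BM), s34df_r2 G φ M q hq hqM S ⟨_, hαB g hg⟩ =
      qExpand κ q (s34m_redInf G M ⟨g, hBMV g hg⟩) := fun g hg =>
    (s34df_r2_eq G φ M q hq hqM S _ _ (s34m_alpha_mem_Vzero G φ M q hq hqM (hBMV g hg)) rfl).trans
      (s34m_redZero_alpha G φ M q hq hqM ⟨g, hBMV g hg⟩)
  have hβ₁ : ∀ g (hg : g ∈ BM) (b' : s34m_F K₀ (M * q))
      (hb' : b' ∈ s34x_ring (s34x_infRing (s34m_VV G φ M q hq hqM)) S)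
      (z : s34m_F K₀ (M * q)), z ∈ s34m_Vinf G (M * q) →
      b' - heckeBetaBar K₀ M q g = s34m_unif G (M * q) * z →
      s34df_r1 G φ M q hq hqM S ⟨b', hb'⟩ = qExpand κ q (s34m_redInf G M ⟨g, hBMV g hg⟩) := by
    intro g hg b' hb' z hz e
    rw [s34df_r1_apply, ← s34m_redInf_beta G M q ⟨g, hBMV g hg⟩]
    exact s34df_redInf_congr G M q _ _ hz e
  have hβ₂ : ∀ g (hg : g ∈ BM) (b' : s34m_F K₀ (M * q))
      (hb' : b' ∈ s34x_ring (s34x_infRing (s34m_VV G φ M q hq hqM)) S)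
      (z : s34m_F K₀ (M * q)), z ∈ s34m_Vzero G φ M q hq hqM →
      b' - heckeBetaBar K₀ M q g = s34m_unif G (M * q) * z →
      s34df_r2 G φ M q hq hqM S ⟨b', hb'⟩ = s34m_redInf G M ⟨g, hBMV g hg⟩ := by
    intro g hg b' hb' z hz e
    rw [s34df_r2_apply, ← s34m_redZero_beta G φ M q hq hqM ⟨g, hBMV g hg⟩]
    exact s34df_redZero_congr G φ M q hq hqM _ _ hz e
  have key := s35gd_dichotomy (D₁ := D₁) (D₂ := D₂) ϖB r₁ r₂ ?_ q hq.two_le ?_ ?_ 𝔫 hϖ𝔫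
  · rcases key with ⟨t, ht, hgen, hs⟩ | ⟨h1, h2, u, hu, w, hw, hu₂, hw₁, hdvd, hgen⟩
    · left
      refine ⟨t, ht, hgen, ?_⟩
      rcases hs with ⟨s, hs0, hs𝔫⟩ | ⟨s, hs0, hs𝔫⟩
      · exact Or.inl ⟨s, (hz₂ s).mp hs0, hs𝔫⟩
      · exact Or.inr ⟨s, (hz₁ s).mp hs0, hs𝔫⟩
    · right
      refine ⟨?_, ?_, u, hu, w, hw, (hz₂ u).mp hu₂, (hz₁ w).mp hw₁, hdvd, hgen⟩
      · intro b hb
        exact h1 ((RingHom.mem_ker).mpr ((hz₁ b).mpr ((RingHom.mem_ker).mp hb)))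
      · intro b hb
        exact h2 ((RingHom.mem_ker).mpr ((hz₂ b).mpr ((RingHom.mem_ker).mp hb)))
  · intro b h1 h2
    refine s34df_purity G φ M q hq hqM S ϖB hϖB b ?_ ?_
    · rw [← hr₁c, h1]; rfl
    · rw [← hr₂c, h2]; rfl
  · intro d
    obtain ⟨g₀, hg₀, e₀⟩ := hlift₁ d
    obtain ⟨d', hd'⟩ := htw₁ d
    obtain ⟨g₁, hg₁, e₁⟩ := hlift₂ d'
    obtain ⟨b', hb', z, hzI, hz0, ez⟩ := hβB g₁ hg₁
    refine ⟨⟨_, hαB g₀ hg₀⟩, Subtype.ext ?_, ⟨b', hb'⟩, Subtype.ext ?_⟩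
    · rw [hr₁c, hα₁ g₀ hg₀, e₀]
    · rw [hr₂c, hα₂ g₀ hg₀, e₀, hd', SubmonoidClass.coe_pow, hr₂c, hβ₂ g₁ hg₁ b' hb' z hz0 ez, e₁]
  · intro d
    obtain ⟨g₀, hg₀, e₀⟩ := hlift₂ d
    obtain ⟨d', hd'⟩ := htw₂ d
    obtain ⟨g₁, hg₁, e₁⟩ := hlift₁ d'
    obtain ⟨b', hb', z, hzI, hz0, ez⟩ := hβB g₀ hg₀
    refine ⟨⟨b', hb'⟩, Subtype.ext ?_, ⟨_, hαB g₁ hg₁⟩, Subtype.ext ?_⟩
    · rw [hr₂c, hβ₂ g₀ hg₀ b' hb' z hz0 ez, e₀]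
    · rw [hr₁c, hβ₁ g₀ hg₀ b' hb' z hzI ez, e₀, hd', SubmonoidClass.coe_pow, hr₁c, hα₁ g₁ hg₁, e₁]

end Concrete

section Elem

/-- The uniformiser as an element of the chart ring. -/
abbrev s35gd_unifB : s34x_ring (s34x_infRing (s34m_VV G φ M q hq hqM)) S :=
  s34f_constHom G.A (s34x_infRing (s34m_VV G φ M q hq hqM))
    (s34x_inf_const_mem (s34m_VV G φ M q hq hqM) G.A (s34c_const_mem_VV G φ M q hq hqM)) S G.ϖ

theorem s35gd_coe_unifB :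
    ((s35gd_unifB G φ M q hq hqM S : s34x_ring (s34x_infRing (s34m_VV G φ M q hq hqM)) S) :
      s34m_F K₀ (M * q)) = s34m_unif G (M * q) := rfl

/-- **The refined element-form dichotomy on the chart `S`** (twin of `s34f_Elem`; the conclusion of
`s35gd_df_dichotomy` with `ϖB := s35gd_unifB`). -/
def s35gd_Elem : Prop :=
  ∀ (𝔫 : Ideal (s34x_ring (s34x_infRing (s34m_VV G φ M q hq hqM)) S)) [𝔫.IsPrime],
    s35gd_unifB G φ M q hq hqM S ∈ 𝔫 →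
    (∃ t ∈ 𝔫, (∀ y ∈ 𝔫, ∃ c, c ∉ 𝔫 ∧ ∃ z b, c * y = z * t + b * s35gd_unifB G φ M q hq hqM S) ∧
      ((∃ s, s34df_r2 G φ M q hq hqM S s = 0 ∧ s ∉ 𝔫) ∨
        (∃ s, s34df_r1 G φ M q hq hqM S s = 0 ∧ s ∉ 𝔫))) ∨
    (RingHom.ker (s34df_r1 G φ M q hq hqM S) ≤ 𝔫 ∧ RingHom.ker (s34df_r2 G φ M q hq hqM S) ≤ 𝔫 ∧
      ∃ u ∈ 𝔫, ∃ w ∈ 𝔫, s34df_r2 G φ M q hq hqM S u = 0 ∧ s34df_r1 G φ M q hq hqM S w = 0 ∧
        s35gd_unifB G φ M q hq hqM S ∣ u * w ∧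
        ∀ y ∈ 𝔫, ∃ c, c ∉ 𝔫 ∧ ∃ z z' b,
          c * y = z * u + z' * w + b * s35gd_unifB G φ M q hq hqM S)

/-- **A crossing point with its weak-node presentation**, `Localization.AtPrime` form (the
hypotheses `hm`, `h0` of `NSec.lean` / `FLocal.lean`, plus the component membership of `u`, `w`). -/
def s35gd_CrossAt (𝔫 : Ideal (s34x_ring (s34x_infRing (s34m_VV G φ M q hq hqM)) S))
    [𝔫.IsPrime] : Prop :=
  RingHom.ker (s34df_r1 G φ M q hq hqM S) ≤ 𝔫 ∧ RingHom.ker (s34df_r2 G φ M q hq hqM S) ≤ 𝔫 ∧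
    ∃ u w : s34x_ring (s34x_infRing (s34m_VV G φ M q hq hqM)) S,
      s34df_r2 G φ M q hq hqM S u = 0 ∧ s34df_r1 G φ M q hq hqM S w = 0 ∧
      (∃ β, algebraMap _ (Localization.AtPrime 𝔫) u * algebraMap _ (Localization.AtPrime 𝔫) w =
        algebraMap _ (Localization.AtPrime 𝔫) (s35gd_unifB G φ M q hq hqM S) * β) ∧
      IsLocalRing.maximalIdeal (Localization.AtPrime 𝔫) =
        Ideal.span {algebraMap _ (Localization.AtPrime 𝔫) u,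
          algebraMap _ (Localization.AtPrime 𝔫) w,
          algebraMap _ (Localization.AtPrime 𝔫) (s35gd_unifB G φ M q hq hqM S)}

/-- `ker r₁ = B ∩ ϖ V_∞`. -/
theorem s35gd_r1_eq_zero_iff (b : s34x_ring (s34x_infRing (s34m_VV G φ M q hq hqM)) S) :
    s34df_r1 G φ M q hq hqM S b = 0 ↔ ∃ y ∈ s34m_VV G φ M q hq hqM true,
      (b : s34m_F K₀ (M * q)) = algebraMap K₀ (s34m_F K₀ (M * q)) ((G.ϖ : G.A) : K₀) * y := by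
  rw [s34df_r1_apply, s34m_redInf_eq_zero_iff]
  rfl

/-- `ker r₂ = B ∩ ϖ V_0`. -/
theorem s35gd_r2_eq_zero_iff (b : s34x_ring (s34x_infRing (s34m_VV G φ M q hq hqM)) S) :
    s34df_r2 G φ M q hq hqM S b = 0 ↔ ∃ y ∈ s34m_VV G φ M q hq hqM false,
      (b : s34m_F K₀ (M * q)) = algebraMap K₀ (s34m_F K₀ (M * q)) ((G.ϖ : G.A) : K₀) * y := by
  rw [s34df_r2_apply, s34m_redZero_eq_zero_iff]
  rfl

/-- **From the refined element form to the inputs of `s35f_zero` and of the node package.** -/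
theorem s35gd_smoothAt_or_crossing (h : s35gd_Elem G φ M q hq hqM S)
    (𝔫 : Ideal (s34x_ring (s34x_infRing (s34m_VV G φ M q hq hqM)) S)) [h𝔫 : 𝔫.IsPrime]
    (hϖ𝔫 : s35gd_unifB G φ M q hq hqM S ∈ 𝔫) :
    s35f_SmoothAt G.A (s34m_VV G φ M q hq hqM) (s34c_const_mem_VV G φ M q hq hqM) G.ϖ S 𝔫 ∨
      s35gd_CrossAt G φ M q hq hqM S 𝔫 := by
  rcases h 𝔫 hϖ𝔫 with ⟨t, ht, hgen, hs⟩ | ⟨h1, h2, u, hu, w, hw, hu₂, hw₁, ⟨c, hc⟩, hgen⟩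
  · left
    have hm := s34d_maximalIdeal_eq_span_pair 𝔫 ht hϖ𝔫 hgen
    rcases hs with ⟨s, hs0, hs𝔫⟩ | ⟨s, hs0, hs𝔫⟩
    · refine ⟨t, true, hm, ?_⟩
      intro j hj
      cases j with
      | false => exact ⟨s, (s35gd_r2_eq_zero_iff G φ M q hq hqM S s).mp hs0, hs𝔫⟩
      | true => exact absurd rfl hj
    · refine ⟨t, false, hm, ?_⟩
      intro j hj
      cases j with
      | true => exact ⟨s, (s35gd_r1_eq_zero_iff G φ M q hq hqM S s).mp hs0, hs𝔫⟩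
      | false => exact absurd rfl hj
  · right
    refine ⟨h1, h2, u, w, hu₂, hw₁, ⟨algebraMap _ (Localization.AtPrime 𝔫) c, ?_⟩,
      s34d_maximalIdeal_eq_span_triple 𝔫 hu hw hϖ𝔫 hgen⟩
    rw [← map_mul, ← map_mul, hc]

/-- At a crossing point BOTH components pass through `𝔫`. -/
theorem s35gd_compThrough_of_cross
    (𝔫 : Ideal (s34x_ring (s34x_infRing (s34m_VV G φ M q hq hqM)) S)) [h𝔫 : 𝔫.IsPrime]
    (h : s35gd_CrossAt G φ M q hq hqM S 𝔫) (i : Bool) :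
    s35f_compThrough (s34m_VV G φ M q hq hqM) S
      (algebraMap K₀ (s34m_F K₀ (M * q)) ((G.ϖ : G.A) : K₀)) 𝔫 i := by
  intro b hb
  cases i
  · exact h.2.1 ((RingHom.mem_ker).mpr ((s35gd_r2_eq_zero_iff G φ M q hq hqM S b).mpr hb))
  · exact h.1 ((RingHom.mem_ker).mpr ((s35gd_r1_eq_zero_iff G φ M q hq hqM S b).mpr hb))

end Elem

end Fermat.Agent.Lib.S35
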