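/-
S35 project, package [Geo] (helper4): THE CONCRETE CHART DATA for the three S18-good branches.

For a Gauss datum `G` over a number field `K₀` and a level `M * q`, `q ∤ M`:

* `s35g_ChartData G φ M q hq hqM S` : the level-`M` data attached to a chart `S` of level `M q` —
  EXACTLY the hypothesis block of `s34df_contract_of_hmain` / `s34d_elem_of_hmain`
  (a coordinate `w ∈ V_M` whose reduction is a good coordinate of the special fibre with
  Frobenius-fixed coefficients, S18's `hmain` for the chart ring of `w`, and the chart inclusions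
  `α(B_M) ⊆ B`, `β(B_M) ⊆ B + ϖ O₂`).  Everything the node packages (`s34df_dichotomy`,
  `s35m_node_frob_sq`, `s35n_hKR_concrete`, …) need is derived from it.
* `s35g_BaseData G φ M q hq hqM w` : a base function `w` of level `M q` with the non-[D] facts of
  `s34f_geo_of_base` (`w ≠ 0`, `FFGen`, `w^{±1} ∈ V_∞ ⊓ V_0`, Galois-fixed, (α) for `w^{±1}`) and the
  chart data of its two charts.
* `s35g_base_five`, `s35g_base_t2`, `s35g_base_t3`, `s35g_base_all` : a base function with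
  `s35g_BaseData` on each of the three S18-good branches (`q ≥ 5`: `j`; `q = 3, 2 ∣ M`: `α t₂`;
  `q = 2, 3 ∣ M`: `α t₃`).
* `s35g_dict₁`, `s35g_dict₂`, `s35g_hH` : the dictionaries `s35f_Dict` of the two charts and the
  Čech input for every function, from `s35g_BaseData`.
-/
import Fermat.Agent.Lib.S34.DTwoThree
import Fermat.Agent.Lib.S35.FZero

set_option autoImplicit false
set_option linter.unusedSectionVars false
set_option linter.style.haveILetI false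
set_option synthInstance.maxHeartbeats 400000

noncomputable section

namespace Fermat.Agent.Lib.S35

open ModularCurve AlgebraicCurve HahnSeries Polynomial Fermat.Agent.Lib.FF Fermat.Agent.Lib.S18
  Fermat.Agent.Lib.S37 Fermat.Agent.Lib.S34

local notation "Qbar" => AlgebraicClosure ℚ

section Defs

variable {K₀ : Type} [Field K₀] [CharZero K₀] [Algebra ℚ K₀] {κ : Type} [Field κ]
  (G : s18g_GaussData K₀ κ) (φ : K₀ →+* Qbar) (M q : ℕ) [NeZero M] [NeZero q]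
  (hq : q.Prime) (hqM : ¬ q ∣ M)

local notation "𝓕M" => laurentBaseChange K₀ (modularFunctionFieldFull M)
local notation "hFM" => (fun (f : LaurentSeries K₀)
  (hf : f ∈ laurentBaseChange K₀ (modularFunctionFieldFull M)) => s18g_baseChange_mem_Frac G M hf)

/-- **The level-`M` data of a chart `S` of level `M q`** (the hypothesis block of
`s34df_contract_of_hmain`). -/
def s35g_ChartData (S : Set (Place K₀ (s34m_F K₀ (M * q)))) : Prop :=
  ∃ (hT : s18g_HT κ M) (hdegM : s18g_HDeg K₀ M) (w : ↥𝓕M) (hwV : w ∈ s18g_V G 𝓕M hFM),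
    s34m_HDeg K₀ M q ∧
    s37b_Coord κ q
      ((s18g_redF G M hFM hT hdegM ⟨w, hwV⟩ : ↥(modularFunctionFieldFullC κ M)) :
        LaurentSeries κ) ∧
    (∀ τ : κ ≃+* κ, coeffMap (τ : κ →+* κ)
      ((s18g_redF G M hFM hT hdegM ⟨w, hwV⟩ : ↥(modularFunctionFieldFullC κ M)) :
        LaurentSeries κ) =
      ((s18g_redF G M hFM hT hdegM ⟨w, hwV⟩ : ↥(modularFunctionFieldFullC κ M)) :
        LaurentSeries κ)) ∧
    (letI := s18f_algF G M hT hdegM w hwV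
      ∀ z : ↥(modularFunctionFieldFullC κ M), IsIntegral κ[X] z →
        ∃ (b : ↥𝓕M) (hb : b ∈ s18_ring (L₀ := K₀) (s18g_V G 𝓕M hFM) (s18_chart1 w)),
          s18g_redF G M hFM hT hdegM ⟨b, hb.1⟩ = z) ∧
    (∀ g ∈ (s18_ring (L₀ := K₀) (s34m_Vinf G M) (s18_chart1 w) : Set (s34m_F K₀ M)),
      heckeAlphaBar K₀ M q g ∈ s34x_ring (s34x_infRing (s34m_VV G φ M q hq hqM)) S) ∧
    (∀ g ∈ (s18_ring (L₀ := K₀) (s34m_Vinf G M) (s18_chart1 w) : Set (s34m_F K₀ M)),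
      ∃ b' ∈ s34x_ring (s34x_infRing (s34m_VV G φ M q hq hqM)) S,
      ∃ z, z ∈ s34m_Vinf G (M * q) ∧ z ∈ s34m_Vzero G φ M q hq hqM ∧
        b' - heckeBetaBar K₀ M q g = s34m_unif G (M * q) * z)

variable [IsDiscreteValuationRing G.A]

/-- **A base function of level `M q`** with everything but the local structure. -/
def s35g_BaseData (w : s34m_F K₀ (M * q)) : Prop :=
  w ≠ 0 ∧ FFGen K₀ w ∧
    (∀ i, w ∈ s34m_VV G φ M q hq hqM i) ∧ (∀ i, w⁻¹ ∈ s34m_VV G φ M q hq hqM i) ∧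
    (∀ σ₀ : K₀ ≃ₐ[ℚ] K₀, arithmeticGalois (modularFunctionFieldFull (M * q)) σ₀ • w = w) ∧
    s34f_AlphaW G φ M q hq hqM w ∧ s34f_AlphaW G φ M q hq hqM w⁻¹ ∧
    s35g_ChartData G φ M q hq hqM (s18_chart1 (L₀ := K₀) w) ∧
    s35g_ChartData G φ M q hq hqM (s18_chart2 (L₀ := K₀) w)

end Defs

section Consequences

variable {K₀ : Type} [Field K₀] [CharZero K₀] [Algebra ℚ K₀] {κ : Type} [Field κ]
  (G : s18g_GaussData K₀ κ) (φ : K₀ →+* Qbar) (M q : ℕ) [NeZero M] [NeZero q]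
  (hq : q.Prime) (hqM : ¬ q ∣ M) [IsDiscreteValuationRing G.A]

/-- The dictionary of chart 1 of a base function. -/
theorem s35g_dict₁ (w : s34m_F K₀ (M * q)) (hB : s35g_BaseData G φ M q hq hqM w) :
    s35f_Dict (s34m_VV G φ M q hq hqM) (s18_chart1 (L₀ := K₀) w) := by
  obtain ⟨-, hgen, hwO, -, -, hα, -, -, -⟩ := hB
  haveI := hgen
  obtain ⟨F1, F2, F3⟩ := s34x_dict1 w (s34x_infRing (s34m_VV G φ M q hq hqM))
    ((G.ϖ : G.A) : K₀) (s18g_unifK_ne_zero G)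
    (s34c_hO_inf (s34m_VV G φ M q hq hqM) ((G.ϖ : G.A) : K₀)
      (fun i => s34m_unif_mem_VV G φ M q hq hqM i) (s34c_hU_VV G φ M q hq hqM))
  exact ⟨s34x_isNoetherianRing_ring G (laurentBaseChange K₀ (modularFunctionFieldFull (M * q)))
    w (s34m_VV G φ M q hq hqM) (s34c_const_mem_VV G φ M q hq hqM) hwO hα, F1, F2, F3⟩

/-- The dictionary of chart 2 of a base function. -/
theorem s35g_dict₂ (w : s34m_F K₀ (M * q)) (hB : s35g_BaseData G φ M q hq hqM w) :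
    s35f_Dict (s34m_VV G φ M q hq hqM) (s18_chart2 (L₀ := K₀) w) := by
  obtain ⟨-, hgen, -, hwO', -, -, hα', -, -⟩ := hB
  haveI := hgen
  haveI : FFGen K₀ w⁻¹ := ff_gen_inv
  obtain ⟨F1, F2, F3⟩ := s34x_dict2 w (s34x_infRing (s34m_VV G φ M q hq hqM))
    ((G.ϖ : G.A) : K₀) (s18g_unifK_ne_zero G)
    (s34c_hO_inf (s34m_VV G φ M q hq hqM) ((G.ϖ : G.A) : K₀)
      (fun i => s34m_unif_mem_VV G φ M q hq hqM i) (s34c_hU_VV G φ M q hq hqM))
  exact ⟨s34x_isNoetherianRing_ring G (laurentBaseChange K₀ (modularFunctionFieldFull (M * q)))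
    w⁻¹ (s34m_VV G φ M q hq hqM) (s34c_const_mem_VV G φ M q hq hqM) hwO' hα', F1, F2, F3⟩

/-- The Čech input for every function. -/
theorem s35g_hH (w : s34m_F K₀ (M * q)) (hB : s35g_BaseData G φ M q hq hqM w)
    {f : s34m_F K₀ (M * q)} (hf0 : f ≠ 0) (m : ℕ) :
    ∃ H : Submodule G.A (s34m_F K₀ (M * q)), H.FG ∧
      s34x_lat G.A (s34x_infRing (s34m_VV G φ M q hq hqM))
          (s34x_inf_const_mem (s34m_VV G φ M q hq hqM) G.A (s34c_const_mem_VV G φ M q hq hqM))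
          (s18_chart12 w) (s18_E f m) ≤
        H ⊔ (s34x_lat G.A (s34x_infRing (s34m_VV G φ M q hq hqM))
              (s34x_inf_const_mem (s34m_VV G φ M q hq hqM) G.A (s34c_const_mem_VV G φ M q hq hqM))
              (s18_chart1 w) (s18_E f m) ⊔
          s34x_lat G.A (s34x_infRing (s34m_VV G φ M q hq hqM))
              (s34x_inf_const_mem (s34m_VV G φ M q hq hqM) G.A (s34c_const_mem_VV G φ M q hq hqM))
              (s18_chart2 w) (s18_E f m)) := by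
  obtain ⟨hw0, hgen, hwO, hwO', -, hα, -, -, -⟩ := hB
  haveI := hgen
  exact s34f_hH_w G φ M q hq hqM w hw0 hwO hwO' hα hf0 m

end Consequences

section Instances

variable (M q : ℕ) [NeZero M] [NeZero q] (hq : q.Prime) (hqM : ¬ q ∣ M)
  (K₀ : Type) [Field K₀] [NumberField K₀] (φ : K₀ →+* Qbar)
  (κ : Type) [Field κ] [CharP κ q] [PerfectField κ]
  (G : s18g_GaussData K₀ κ) [IsDiscreteValuationRing G.A] (hπ : Function.Surjective G.π)

local notation "𝓕M" => laurentBaseChange K₀ (modularFunctionFieldFull M)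
local notation "hFM" => (fun (f : LaurentSeries K₀)
  (hf : f ∈ laurentBaseChange K₀ (modularFunctionFieldFull M)) => s18g_baseChange_mem_Frac G M hf)

include hπ in
/-- Chart data of chart 1 of `j`, `q ≥ 5`. -/
theorem s35g_chartData_five_j1 (h5 : 5 ≤ q) :
    s35g_ChartData G φ M q hq hqM (s18_chart1 (L₀ := K₀) (s18g_jF (K := K₀) (M * q))) := by
  haveI : Fact q.Prime := ⟨hq⟩
  haveI : FFGen K₀ (s18g_jF (K := K₀) (M * q)) :=
    s18b_ffGen_jF (M * q) (fun _ b hb hn => s18g_exists_relation (M * q) φ hn b hb)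
  have hT : s18g_HT κ M := s18t_indep_j q M hqM κ
  have hdegM : s18g_HDeg K₀ M := fun _ b hb hn => s18g_exists_relation M φ hn b hb
  have hred1 : s18g_redF G M hFM hT hdegM ⟨s18g_jF (K := K₀) M, s18g_jF_mem_V G M hFM⟩ =
      s18g_jFbar κ M := s18g_redF_jV G M hFM hT hdegM
  refine ⟨hT, hdegM, s18g_jF (K := K₀) M, s18g_jF_mem_V G M hFM, s34r_deg_HDeg φ M q hq hqM,
    ?_, ?_, s34d_hmain_five_j M q hqM h5 K₀ φ κ G hπ, s34d_alpha_lift₁ G φ M q hq hqM,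
    fun g hg => s34d_beta_lift₁ G φ M q hq hqM hg⟩
  · rw [hred1]
    exact s37b_coord_jq κ q
  · intro τ
    rw [hred1]
    exact coeffMap_jqModC _

include hπ in
/-- Chart data of chart 2 of `j`, `q ≥ 5`. -/
theorem s35g_chartData_five_j2 (h5 : 5 ≤ q) :
    s35g_ChartData G φ M q hq hqM (s18_chart2 (L₀ := K₀) (s18g_jF (K := K₀) (M * q))) := by
  haveI : Fact q.Prime := ⟨hq⟩
  haveI : FFGen K₀ (s18g_jF (K := K₀) (M * q)) :=
    s18b_ffGen_jF (M * q) (fun _ b hb hn => s18g_exists_relation (M * q) φ hn b hb)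
  have hT : s18g_HT κ M := s18t_indep_j q M hqM κ
  have hdegM : s18g_HDeg K₀ M := fun _ b hb hn => s18g_exists_relation M φ hn b hb
  have hred1 : s18g_redF G M hFM hT hdegM ⟨s18g_jF (K := K₀) M, s18g_jF_mem_V G M hFM⟩ =
      s18g_jFbar κ M := s18g_redF_jV G M hFM hT hdegM
  have hred2 : s18g_redF G M hFM hT hdegM
      ⟨(s18g_jF (K := K₀) M)⁻¹, s18g_jF_inv_mem_V G M hFM⟩ = (s18g_jFbar κ M)⁻¹ := by
    rw [s18f_redF_inv G M hT hdegM _ (s18g_jF_ne_zero M) (s18g_jF_mem_V G M hFM), hred1]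
  have hcoe : (((s18g_jFbar κ M)⁻¹ : ↥(modularFunctionFieldFullC κ M)) : LaurentSeries κ) =
      (jqModC κ)⁻¹ := rfl
  refine ⟨hT, hdegM, (s18g_jF (K := K₀) M)⁻¹, s18g_jF_inv_mem_V G M hFM,
    s34r_deg_HDeg φ M q hq hqM, ?_, ?_, s34d_hmain_five_inv M q hqM h5 K₀ φ κ G hπ,
    s34d_alpha_lift₂ G φ M q hq hqM, fun g hg => s34d_beta_lift₂ G φ M q hq hqM hg⟩
  · rw [hred2, hcoe]
    exact s37b_coord_inv (s37b_coord_jq κ q)
  · intro τ
    rw [hred2, hcoe, map_inv₀, coeffMap_jqModC]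

include hπ in
/-- **The base function `j`, `q ≥ 5`.** -/
theorem s35g_base_five (h5 : 5 ≤ q) :
    ∃ w : s34m_F K₀ (M * q), s35g_BaseData G φ M q hq hqM w := by
  haveI : Fact q.Prime := ⟨hq⟩
  have hdeg : s18g_HDeg K₀ (M * q) := fun n b hb hn => s18g_exists_relation (M * q) φ hn b hb
  exact ⟨s18g_jF (K := K₀) (M * q), s18g_jF_ne_zero (M * q), s18b_ffGen_jF (M * q) hdeg,
    s34m_jF_mem_VV G φ M q hq hqM, s34m_jF_inv_mem_VV G φ M q hq hqM,
    fun σ₀ => s34f_galois_jF (M * q) σ₀, s34f_alpha_j G φ M q hq hqM,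
    s34f_alpha_inv G φ M q hq hqM, s35g_chartData_five_j1 M q hq hqM K₀ φ κ G hπ h5,
    s35g_chartData_five_j2 M q hq hqM K₀ φ κ G hπ h5⟩

include hπ in
/-- Chart data of chart 1 of `α t_M`, `t_M` with series `t₂` (`q = 3`, `2 ∣ M`). -/
theorem s35g_chartData_t2_1 (hq3 : q = 3) (h2M : 2 ∣ M) (tM : s34m_F K₀ M)
    (htM : (tM : LaurentSeries K₀) = s18u_t2 K₀) [FFGen K₀ tM]
    (hwV : tM ∈ s34m_Vinf G M)
    (hred : s18g_redV G _ (s34m_hF G M) ⟨tM, hwV⟩ = s18u_t2 κ) :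
    s35g_ChartData G φ M q hq hqM (s18_chart1 (L₀ := K₀) (heckeAlphaBar K₀ M q tM)) := by
  haveI : Fact q.Prime := ⟨hq⟩
  haveI : FFGen K₀ (s18g_jF (K := K₀) (M * q)) :=
    s18b_ffGen_jF (M * q) (fun _ b hb hn => s18g_exists_relation (M * q) φ hn b hb)
  have hT : s18g_HT κ M := s18t_indep_j q M hqM κ
  have hdegM : s18g_HDeg K₀ M := fun _ b hb hn => s18g_exists_relation M φ hn b hb
  have htM0 : tM ≠ 0 := by
    intro h0
    apply s18b_t2_ne_zero K₀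
    rw [← htM, h0]; rfl
  have hq2 : q ≠ 2 := by omega
  refine ⟨hT, hdegM, tM, hwV, s34r_deg_HDeg φ M q hq hqM, ?_, ?_,
    s34dt_hmain_t2 M q hqM K₀ φ κ G hπ hT hdegM hq3 h2M tM htM,
    s34e_ch_alpha₁ G φ M q hq hqM tM,
    s34e_ch_beta₁ G φ M q hq hqM htM0
      (fun P => s34e_cusp_hclaim_t2 G φ M q hq hqM hq2 tM htM P)⟩
  · show s37b_Coord κ q (s18g_redV G _ (s34m_hF G M) ⟨tM, hwV⟩)
    rw [hred]
    exact s37b_coord_t2 κ q
  · intro τ
    show coeffMap (τ : κ →+* κ) (s18g_redV G _ (s34m_hF G M) ⟨tM, hwV⟩) =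
      s18g_redV G _ (s34m_hF G M) ⟨tM, hwV⟩
    rw [hred]
    exact s18u_coeffMap_t2 _

include hπ in
/-- Chart data of chart 2 of `α t_M`, `t_M` with series `t₂` (`q = 3`, `2 ∣ M`). -/
theorem s35g_chartData_t2_2 (hq3 : q = 3) (h2M : 2 ∣ M) (tM : s34m_F K₀ M)
    (htM : (tM : LaurentSeries K₀) = s18u_t2 K₀) [FFGen K₀ tM⁻¹]
    (hwV : tM ∈ s34m_Vinf G M) (hwinvV : tM⁻¹ ∈ s34m_Vinf G M)
    (hred : s18g_redV G _ (s34m_hF G M) ⟨tM, hwV⟩ = s18u_t2 κ) :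
    s35g_ChartData G φ M q hq hqM (s18_chart2 (L₀ := K₀) (heckeAlphaBar K₀ M q tM)) := by
  haveI : Fact q.Prime := ⟨hq⟩
  haveI : FFGen K₀ (s18g_jF (K := K₀) (M * q)) :=
    s18b_ffGen_jF (M * q) (fun _ b hb hn => s18g_exists_relation (M * q) φ hn b hb)
  have hT : s18g_HT κ M := s18t_indep_j q M hqM κ
  have hdegM : s18g_HDeg K₀ M := fun _ b hb hn => s18g_exists_relation M φ hn b hb
  have htM0 : tM ≠ 0 := by
    intro h0
    apply s18b_t2_ne_zero K₀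
    rw [← htM, h0]; rfl
  have hq2 : q ≠ 2 := by omega
  have hredinv : ((s18g_redF G M hFM hT hdegM ⟨tM⁻¹, hwinvV⟩ :
      ↥(modularFunctionFieldFullC κ M)) : LaurentSeries κ) = (s18u_t2 κ)⁻¹ := by
    rw [s18f_redF_inv G M hT hdegM tM htM0 hwV hwinvV]
    show (s18g_redV G _ (s34m_hF G M) ⟨tM, hwV⟩)⁻¹ = _
    rw [hred]
  refine ⟨hT, hdegM, tM⁻¹, hwinvV, s34r_deg_HDeg φ M q hq hqM, ?_, ?_,
    s34dt_hmain_t2_inv M q hqM K₀ φ κ G hπ hT hdegM hq3 h2M tM htM,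
    s34e_ch_alpha₂ G φ M q hq hqM tM,
    s34e_ch_beta₂ G φ M q hq hqM htM0
      (fun P => s34e_cusp_hclaim_t2 G φ M q hq hqM hq2 tM htM P)⟩
  · rw [hredinv]
    exact s37b_coord_inv (s37b_coord_t2 κ q)
  · intro τ
    rw [hredinv, map_inv₀, s18u_coeffMap_t2]

include hπ in
/-- Chart data of chart 1 of `α t_M`, `t_M` with series `t₃` (`q = 2`, `3 ∣ M`). -/
theorem s35g_chartData_t3_1 (hq2 : q = 2) (h3M : 3 ∣ M) (tM : s34m_F K₀ M)
    (htM : (tM : LaurentSeries K₀) = s18u_t3 K₀) [FFGen K₀ tM]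
    (hwV : tM ∈ s34m_Vinf G M)
    (hred : s18g_redV G _ (s34m_hF G M) ⟨tM, hwV⟩ = s18u_t3 κ) :
    s35g_ChartData G φ M q hq hqM (s18_chart1 (L₀ := K₀) (heckeAlphaBar K₀ M q tM)) := by
  haveI : Fact q.Prime := ⟨hq⟩
  haveI : FFGen K₀ (s18g_jF (K := K₀) (M * q)) :=
    s18b_ffGen_jF (M * q) (fun _ b hb hn => s18g_exists_relation (M * q) φ hn b hb)
  have hT : s18g_HT κ M := s18t_indep_j q M hqM κ
  have hdegM : s18g_HDeg K₀ M := fun _ b hb hn => s18g_exists_relation M φ hn b hb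
  have htM0 : tM ≠ 0 := by
    intro h0
    apply s18b_t3_ne_zero K₀
    rw [← htM, h0]; rfl
  have hq3 : q ≠ 3 := by omega
  refine ⟨hT, hdegM, tM, hwV, s34r_deg_HDeg φ M q hq hqM, ?_, ?_,
    s34dt_hmain_t3 M q hqM K₀ φ κ G hπ hT hdegM hq2 h3M tM htM,
    s34e_ch_alpha₁ G φ M q hq hqM tM,
    s34e_ch_beta₁ G φ M q hq hqM htM0
      (fun P => s34e_cusp_hclaim_t3 G φ M q hq hqM hq3 tM htM P)⟩
  · show s37b_Coord κ q (s18g_redV G _ (s34m_hF G M) ⟨tM, hwV⟩)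
    rw [hred]
    exact s37b_coord_t3 κ q
  · intro τ
    show coeffMap (τ : κ →+* κ) (s18g_redV G _ (s34m_hF G M) ⟨tM, hwV⟩) =
      s18g_redV G _ (s34m_hF G M) ⟨tM, hwV⟩
    rw [hred]
    exact s18u_coeffMap_t3 _

include hπ in
/-- Chart data of chart 2 of `α t_M`, `t_M` with series `t₃` (`q = 2`, `3 ∣ M`). -/
theorem s35g_chartData_t3_2 (hq2 : q = 2) (h3M : 3 ∣ M) (tM : s34m_F K₀ M)
    (htM : (tM : LaurentSeries K₀) = s18u_t3 K₀) [FFGen K₀ tM⁻¹]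
    (hwV : tM ∈ s34m_Vinf G M) (hwinvV : tM⁻¹ ∈ s34m_Vinf G M)
    (hred : s18g_redV G _ (s34m_hF G M) ⟨tM, hwV⟩ = s18u_t3 κ) :
    s35g_ChartData G φ M q hq hqM (s18_chart2 (L₀ := K₀) (heckeAlphaBar K₀ M q tM)) := by
  haveI : Fact q.Prime := ⟨hq⟩
  haveI : FFGen K₀ (s18g_jF (K := K₀) (M * q)) :=
    s18b_ffGen_jF (M * q) (fun _ b hb hn => s18g_exists_relation (M * q) φ hn b hb)
  have hT : s18g_HT κ M := s18t_indep_j q M hqM κ
  have hdegM : s18g_HDeg K₀ M := fun _ b hb hn => s18g_exists_relation M φ hn b hb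
  have htM0 : tM ≠ 0 := by
    intro h0
    apply s18b_t3_ne_zero K₀
    rw [← htM, h0]; rfl
  have hq3 : q ≠ 3 := by omega
  have hredinv : ((s18g_redF G M hFM hT hdegM ⟨tM⁻¹, hwinvV⟩ :
      ↥(modularFunctionFieldFullC κ M)) : LaurentSeries κ) = (s18u_t3 κ)⁻¹ := by
    rw [s18f_redF_inv G M hT hdegM tM htM0 hwV hwinvV]
    show (s18g_redV G _ (s34m_hF G M) ⟨tM, hwV⟩)⁻¹ = _
    rw [hred]
  refine ⟨hT, hdegM, tM⁻¹, hwinvV, s34r_deg_HDeg φ M q hq hqM, ?_, ?_,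
    s34dt_hmain_t3_inv M q hqM K₀ φ κ G hπ hT hdegM hq2 h3M tM htM,
    s34e_ch_alpha₂ G φ M q hq hqM tM,
    s34e_ch_beta₂ G φ M q hq hqM htM0
      (fun P => s34e_cusp_hclaim_t3 G φ M q hq hqM hq3 tM htM P)⟩
  · rw [hredinv]
    exact s37b_coord_inv (s37b_coord_t3 κ q)
  · intro τ
    rw [hredinv, map_inv₀, s18u_coeffMap_t3]

end Instances

section Branches

variable (K₀ : Type) [Field K₀] [NumberField K₀] (φ : K₀ →+* Qbar)

/-- **The base function `α t₂`, `q = 3`, `2 ∣ M`.** -/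
theorem s35g_base_t2 (M : ℕ) [NeZero M] (hq : Nat.Prime 3) (hqM : ¬ 3 ∣ M) (h2M : 2 ∣ M)
    (κ : Type) [Field κ] [CharP κ 3] [PerfectField κ]
    (G : s18g_GaussData K₀ κ) [IsDiscreteValuationRing G.A] (hπ : Function.Surjective G.π) :
    ∃ w : s34m_F K₀ (M * 3), s35g_BaseData G φ M 3 hq hqM w := by
  obtain ⟨tM, htM, ⟨hwV, hred⟩, hwinvV, hgen, hgeninv, -, hw0, hgenN, hwO, hwO', hfix, hα, hα'⟩ :=
    s34m_base_t2 G φ M 3 hq hqM h2M (by norm_num)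
  haveI := hgen
  haveI := hgeninv
  exact ⟨_, hw0, hgenN, hwO, hwO', hfix, hα, hα',
    s35g_chartData_t2_1 M 3 hq hqM K₀ φ κ G hπ rfl h2M tM htM hwV hred,
    s35g_chartData_t2_2 M 3 hq hqM K₀ φ κ G hπ rfl h2M tM htM hwV hwinvV hred⟩

/-- **The base function `α t₃`, `q = 2`, `3 ∣ M`.** -/
theorem s35g_base_t3 (M : ℕ) [NeZero M] (hq : Nat.Prime 2) (hqM : ¬ 2 ∣ M) (h3M : 3 ∣ M)
    (κ : Type) [Field κ] [CharP κ 2] [PerfectField κ]
    (G : s18g_GaussData K₀ κ) [IsDiscreteValuationRing G.A] (hπ : Function.Surjective G.π) :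
    ∃ w : s34m_F K₀ (M * 2), s35g_BaseData G φ M 2 hq hqM w := by
  obtain ⟨tM, htM, ⟨hwV, hred⟩, hwinvV, hgen, hgeninv, -, hw0, hgenN, hwO, hwO', hfix, hα, hα'⟩ :=
    s34m_base_t3 G φ M 2 hq hqM h3M (by norm_num)
  haveI := hgen
  haveI := hgeninv
  exact ⟨_, hw0, hgenN, hwO, hwO', hfix, hα, hα',
    s35g_chartData_t3_1 M 2 hq hqM K₀ φ κ G hπ rfl h3M tM htM hwV hred,
    s35g_chartData_t3_2 M 2 hq hqM K₀ φ κ G hπ rfl h3M tM htM hwV hwinvV hred⟩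

/-- **A base function with `s35g_BaseData` on all three S18-good branches.** -/
theorem s35g_base_all (M q : ℕ) [NeZero M] [NeZero q] (hq : q.Prime) (hqM : ¬ q ∣ M)
    (h : 5 ≤ q ∨ (q = 3 ∧ 2 ∣ M) ∨ (q = 2 ∧ 3 ∣ M))
    (κ : Type) [Field κ] [CharP κ q] [PerfectField κ]
    (G : s18g_GaussData K₀ κ) [IsDiscreteValuationRing G.A] (hπ : Function.Surjective G.π) :
    ∃ w : s34m_F K₀ (M * q), s35g_BaseData G φ M q hq hqM w := by
  rcases h with h5 | ⟨rfl, h2M⟩ | ⟨rfl, h3M⟩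
  · exact s35g_base_five M q hq hqM K₀ φ κ G hπ h5
  · exact s35g_base_t2 K₀ φ M hq hqM h2M κ G hπ
  · exact s35g_base_t3 K₀ φ M hq hqM h3M κ G hπ

end Branches

end Fermat.Agent.Lib.S35
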