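/-
S35 project, package [M] (helper6), part 2a: `σ² 𝔫 = 𝔫` AT A CROSSING POINT, abstractly
(Mathlib only).

Setting: `B` a commutative ring (chart ring of `X₀(qM)`), `r₁ r₂ : B →+* L'` the two reductions,
`T : B →+* B` (a Frobenius lift) with `r₁ (T b) = Fr (r₁ b)`, `Φ` the `q`-expansion `T ↦ T^q` with
`x ^ q = Φ (Fr x)`.  `Dset ⊆ L'` a `Fr`-stable set of functions of the special fibre of level `M`
all of whose elements `d` have an `α`-lift (`r₁ a = d`, `r₂ a = Φ d`) and a `β`-lift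
(`r₂ b = d`, `r₁ b = Φ d`) (the four Kronecker identities).  `𝔫 ⊇ ker r₁ + ker r₂` a prime.

* `s35m_kronecker_sq` : `T (T a) - a ^ (q * q) ∈ 𝔫` for every `a` with `r₁ a ∈ Dset`;
* `s35m_frob_of_lifts` : (Dedekind overring argument) if `L = Frac D`, `D` Dedekind, `r : B →+* L`,
  every `d ∈ D` has a lift `g` with `T g - g ^ N ∈ 𝔫`, `T (ker r) ⊆ ker r ⊆ 𝔫`, then
  `T b - b ^ N ∈ 𝔫` for EVERY `b ∈ B`: `T` induces the `N`-power map on `B / 𝔫`;
* `s35m_mem_iff_of_frob` : hence `T b ∈ 𝔫 ↔ b ∈ 𝔫` (`N ≠ 0`), `s35m_comap_eq_of_frob`.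
-/
import Mathlib

set_option autoImplicit false

namespace Fermat.Agent.Lib.S35

open IsDedekindDomain

section Kronecker

variable {B L' : Type*} [CommRing B] [CommRing L']

/-- If `x - y ∈ 𝔫` then `x ^ n - y ^ n ∈ 𝔫`. -/
theorem s35m_pow_sub_pow_mem (𝔫 : Ideal B) {x y : B} (h : x - y ∈ 𝔫) (n : ℕ) :
    x ^ n - y ^ n ∈ 𝔫 := by
  obtain ⟨c, hc⟩ := sub_dvd_pow_sub_pow x y n
  rw [hc]
  exact 𝔫.mul_mem_right _ h

/-- **The Kronecker pairs force `T² ≡ Frob_{q²}` at a crossing point**, on lifts of `Dset`. -/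
theorem s35m_kronecker_sq (r₁ r₂ : B →+* L') (T : B →+* B) (Fr Φ : L' → L') (q : ℕ)
    (Dset : Set L') (hpow : ∀ x ∈ Dset, x ^ q = Φ (Fr x)) (hFrD : ∀ x ∈ Dset, Fr x ∈ Dset)
    (hT₁ : ∀ b, r₁ (T b) = Fr (r₁ b))
    (hα : ∀ d ∈ Dset, ∃ a, r₁ a = d ∧ r₂ a = Φ d)
    (hβ : ∀ d ∈ Dset, ∃ b, r₂ b = d ∧ r₁ b = Φ d)
    (𝔫 : Ideal B) (h1 : RingHom.ker r₁ ≤ 𝔫) (h2 : RingHom.ker r₂ ≤ 𝔫)
    (a : B) (ha : r₁ a ∈ Dset) : T (T a) - a ^ (q * q) ∈ 𝔫 := by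
  have hd₁ : Fr (r₁ a) ∈ Dset := hFrD _ ha
  have hd : Fr (Fr (r₁ a)) ∈ Dset := hFrD _ hd₁
  obtain ⟨a', ha'₁, ha'₂⟩ := hα _ hd
  obtain ⟨b, hb₂, hb₁⟩ := hβ _ hd₁
  have e1 : a' - b ^ q ∈ 𝔫 := h2 (by
    rw [RingHom.mem_ker, map_sub, map_pow, ha'₂, hb₂, hpow _ hd₁, sub_self])
  have e2 : b - a ^ q ∈ 𝔫 := h1 (by
    rw [RingHom.mem_ker, map_sub, map_pow, hb₁, hpow _ ha, sub_self])
  have e3 : T (T a) - a' ∈ 𝔫 := h1 (by
    rw [RingHom.mem_ker, map_sub, hT₁, hT₁, ha'₁, sub_self])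
  have e4 : b ^ q - (a ^ q) ^ q ∈ 𝔫 := s35m_pow_sub_pow_mem 𝔫 e2 q
  have : T (T a) - a ^ (q * q) = (T (T a) - a') + (a' - b ^ q) + (b ^ q - (a ^ q) ^ q) := by
    rw [pow_mul]; ring
  rw [this]
  exact 𝔫.add_mem (𝔫.add_mem e3 e1) e4

end Kronecker

section Dedekind

variable {B L D : Type*} [CommRing B] [Field L] [CommRing D] [IsDedekindDomain D]
  [Algebra D L] [IsFractionRing D L]

/-- **Overring argument.**  `L = Frac D`, `D` Dedekind, `r : B →+* L` with every element of `D` in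
its image, `𝔫 ⊇ ker r` a prime of `B`, `T : B →+* B` preserving `ker r`.  If `T g ≡ g ^ N` modulo
`𝔫` for (one, hence every) lift `g` of every element of `D`, then `T b ≡ b ^ N` modulo `𝔫` for every
`b ∈ B`. -/
theorem s35m_frob_of_lifts (r : B →+* L) (T : B →+* B) (hT : ∀ b, r b = 0 → r (T b) = 0)
    (𝔫 : Ideal B) [h𝔫 : 𝔫.IsPrime] (hker : RingHom.ker r ≤ 𝔫) (N : ℕ)
    (hlift : ∀ d : D, ∃ g : B, r g = algebraMap D L d ∧ T g - g ^ N ∈ 𝔫) (b : B) :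
    T b - b ^ N ∈ 𝔫 := by
  classical
  -- membership in `𝔫` only depends on the image under `r`
  have hsub : ∀ {g g' : B}, r g = r g' → g - g' ∈ 𝔫 := by
    intro g g' h
    exact hker (by rw [RingHom.mem_ker, map_sub, h, sub_self])
  have hsubT : ∀ {g g' : B}, r g = r g' → T g - T g' ∈ 𝔫 := by
    intro g g' h
    rw [← map_sub]
    exact hker (hT _ (by rw [map_sub, h, sub_self]))
  have hmem : ∀ {g g' : B}, r g = r g' → g ∈ 𝔫 → g' ∈ 𝔫 := by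
    intro g g' h hg
    have := 𝔫.sub_mem hg (hsub h)
    rwa [sub_sub_cancel] at this
  -- the congruence for every lift of an element of `D`
  have hkey : ∀ (g : B) (d : D), r g = algebraMap D L d → T g - g ^ N ∈ 𝔫 := by
    intro g d hg
    obtain ⟨g₀, hg₀, h₀⟩ := hlift d
    have e : r g = r g₀ := hg.trans hg₀.symm
    have : T g - g ^ N = (T g - T g₀) + (T g₀ - g₀ ^ N) + (g₀ ^ N - g ^ N) := by ring
    rw [this]
    exact 𝔫.add_mem (𝔫.add_mem (hsubT e) h₀) (s35m_pow_sub_pow_mem 𝔫 (hsub e.symm) N)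
  have hl : ∀ d : D, ∃ g : B, r g = algebraMap D L d := fun d => (hlift d).imp fun _ h => h.1
  -- the contraction of `𝔫` to `D`
  let 𝔪 : Ideal D :=
    { carrier := {d | ∀ g : B, r g = algebraMap D L d → g ∈ 𝔫}
      zero_mem' := by
        intro g hg
        rw [map_zero] at hg
        exact hker hg
      add_mem' := by
        intro a b ha hb g hg
        obtain ⟨ga, hga⟩ := hl a
        obtain ⟨gb, hgb⟩ := hl b
        refine hmem (g := ga + gb) ?_ (𝔫.add_mem (ha ga hga) (hb gb hgb))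
        rw [map_add, hga, hgb, hg, map_add]
      smul_mem' := by
        intro c a ha g hg
        obtain ⟨ga, hga⟩ := hl a
        obtain ⟨gc, hgc⟩ := hl c
        refine hmem (g := gc * ga) ?_ (𝔫.mul_mem_left _ (ha ga hga))
        rw [map_mul, hga, hgc, hg, smul_eq_mul, map_mul] }
  have h𝔪' : ∀ (d : D) (g : B), r g = algebraMap D L d → (d ∈ 𝔪 ↔ g ∈ 𝔫) := by
    intro d g hg
    refine ⟨fun h => h g hg, fun h g' hg' => hmem (hg.trans hg'.symm) h⟩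
  have h𝔪prime : 𝔪.IsPrime := by
    refine ⟨?_, ?_⟩
    · intro htop
      have h1 : (1 : D) ∈ 𝔪 := by rw [htop]; exact Submodule.mem_top
      exact h𝔫.ne_top ((Ideal.eq_top_iff_one _).mpr (h1 1 (by rw [map_one, map_one])))
    · intro a b hab
      obtain ⟨ga, hga⟩ := hl a
      obtain ⟨gb, hgb⟩ := hl b
      have : ga * gb ∈ 𝔫 := hab (ga * gb) (by rw [map_mul, hga, hgb, map_mul])
      rcases h𝔫.mem_or_mem this with h | h
      · exact Or.inl ((h𝔪' a ga hga).mpr h)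
      · exact Or.inr ((h𝔪' b gb hgb).mpr h)
  -- `r b` as a fraction with denominator (or numerator) outside `𝔪`
  have hfrac : (∃ s a : D, s ∉ 𝔪 ∧ r b * algebraMap D L s = algebraMap D L a) ∨
      (∃ n d : D, d ∉ 𝔪 ∧ r b * algebraMap D L n = algebraMap D L d) := by
    by_cases hbot : 𝔪 = ⊥
    · left
      obtain ⟨a, s, hs, e⟩ := IsFractionRing.div_surjective (A := D) (r b)
      have hs0 : algebraMap D L s ≠ 0 :=
        IsFractionRing.to_map_ne_zero_of_mem_nonZeroDivisors hs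
      refine ⟨s, a, ?_, ?_⟩
      · intro h
        rw [hbot, Ideal.mem_bot] at h
        rw [h, map_zero] at hs0
        exact hs0 rfl
      · rw [← e]; field_simp
    · let v : HeightOneSpectrum D := ⟨𝔪, h𝔪prime, hbot⟩
      obtain ⟨n, d, h | h⟩ := v.exists_primeCompl_mul_eq_or_mul_eq (r b)
      · exact Or.inl ⟨d, n, d.2, h⟩
      · exact Or.inr ⟨n, d, d.2, h⟩
  rcases hfrac with ⟨s, a, hs, e⟩ | ⟨n, d, hd, e⟩
  · obtain ⟨gs, hgs⟩ := hl s
    obtain ⟨ga, hga⟩ := hl a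
    have hgs𝔫 : gs ∉ 𝔫 := fun h => hs ((h𝔪' s gs hgs).mpr h)
    have e' : r (gs * b) = r ga := by rw [map_mul, hgs, hga, ← e, mul_comm]
    have h1 : gs ^ N * (T b - b ^ N) ∈ 𝔫 := by
      have : gs ^ N * (T b - b ^ N) = -(T gs - gs ^ N) * T b + (T (gs * b) - T ga)
          + (T ga - ga ^ N) + (ga ^ N - (gs * b) ^ N) := by
        rw [map_mul]; ring
      rw [this]
      exact 𝔫.add_mem (𝔫.add_mem (𝔫.add_mem (𝔫.mul_mem_right _ (𝔫.neg_mem (hkey gs s hgs)))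
        (hsubT e')) (hkey ga a hga)) (s35m_pow_sub_pow_mem 𝔫 (hsub e'.symm) N)
    rcases h𝔫.mem_or_mem h1 with h | h
    · exact absurd (h𝔫.mem_of_pow_mem _ h) hgs𝔫
    · exact h
  · obtain ⟨gn, hgn⟩ := hl n
    obtain ⟨gd, hgd⟩ := hl d
    have hgd𝔫 : gd ∉ 𝔫 := fun h => hd ((h𝔪' d gd hgd).mpr h)
    have e' : r (b * gn) = r gd := by rw [map_mul, hgn, hgd, ← e]
    have hTgd : T gd ∉ 𝔫 := by
      intro h
      have h2 : gd ^ N ∈ 𝔫 := by
        have := 𝔫.sub_mem h (hkey gd d hgd)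
        rwa [sub_sub_cancel] at this
      exact hgd𝔫 (h𝔫.mem_of_pow_mem _ h2)
    have hTgn : T gn ∉ 𝔫 := by
      intro h
      have h2 : T (b * gn) ∈ 𝔫 := by rw [map_mul]; exact 𝔫.mul_mem_left _ h
      have h3 := 𝔫.sub_mem h2 (hsubT e')
      rw [sub_sub_cancel] at h3
      exact hTgd h3
    have h1 : T gn * (T b - b ^ N) ∈ 𝔫 := by
      have : T gn * (T b - b ^ N) = (T (b * gn) - T gd) + (T gd - gd ^ N)
          + (gd ^ N - (b * gn) ^ N) - b ^ N * (T gn - gn ^ N) := by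
        rw [map_mul]; ring
      rw [this]
      exact 𝔫.sub_mem (𝔫.add_mem (𝔫.add_mem (hsubT e') (hkey gd d hgd))
        (s35m_pow_sub_pow_mem 𝔫 (hsub e'.symm) N)) (𝔫.mul_mem_left _ (hkey gn n hgn))
    exact (h𝔫.mem_or_mem h1).resolve_left hTgn

end Dedekind

section Iff

variable {B : Type*} [CommRing B]

/-- `T b ≡ b ^ N` modulo a prime `𝔫` (`N ≠ 0`) gives `T b ∈ 𝔫 ↔ b ∈ 𝔫`. -/
theorem s35m_mem_iff_of_frob (T : B → B) (𝔫 : Ideal B) [h𝔫 : 𝔫.IsPrime] {N : ℕ} (hN : N ≠ 0)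
    {b : B} (h : T b - b ^ N ∈ 𝔫) : T b ∈ 𝔫 ↔ b ∈ 𝔫 := by
  constructor
  · intro hb
    have := 𝔫.sub_mem hb h
    rw [sub_sub_cancel] at this
    exact h𝔫.mem_of_pow_mem _ this
  · intro hb
    have := 𝔫.add_mem h (𝔫.pow_mem_of_mem hb N (Nat.pos_of_ne_zero hN))
    rwa [sub_add_cancel] at this

/-- `comap T 𝔫 = 𝔫`. -/
theorem s35m_comap_eq_of_frob (T : B →+* B) (𝔫 : Ideal B) [h𝔫 : 𝔫.IsPrime] {N : ℕ} (hN : N ≠ 0)
    (h : ∀ b, T b - b ^ N ∈ 𝔫) : 𝔫.comap T = 𝔫 := by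
  ext b
  rw [Ideal.mem_comap]
  exact s35m_mem_iff_of_frob T 𝔫 hN (h b)

end Iff

end Fermat.Agent.Lib.S35
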