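/-
S35 project, package [M] (helper6), part 1: THE DECOMPOSITION GROUP ACTS SEMILINEARLY ON THE GAUSS
REDUCTIONS (Frobenius-semilinear version of `Lib/S34/MValSigma.lean` + `MVal.lean`, section Inertia).

`G : s18g_GaussData K κ`, `σ₀ : K ≃+* K` with `σ₀ A ⊆ A` inducing `ψ : κ →+* κ` on the residue field
(`π (σ₀ a) = ψ (π a)`): "`σ₀` lies in the decomposition group of `A` and acts on the residue field
by `ψ`".  For a Frobenius lift `ψ = (x ↦ x ^ q)`; for `σ₀` in the inertia group `ψ = id` (S34).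

* `s35m_sigma_mem_O`, `s35m_red_sigma`: `coeffMap σ₀` preserves the Gauss ring `O = s18g_O G` and
  `red (coeffMap σ₀ f) = coeffMap ψ (red f)`.
* level `N`: `s35m_galois_mem_Vinf`, `s35m_redInf_galois`
  (`red_∞ (τ y) = coeffMap ψ (red_∞ y)`, `τ = arithmeticRingAut σ₀`).
* level `M q`: `s35m_galois_mem_Vzero`, `s35m_redZero_galois`, `s35m_galois_mem_VV`,
  `s35m_galois_mem_VV_iff` (needs `σ₀⁻¹` as well), `s35m_galois_mem_O2_iff`.
For a Frobenius lift take `ψ = frobenius κ q` (`hσπ : π (σ₀ a) = π a ^ q`); recall S37's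
`s37e_pow_char : x ^ q = qExpand κ q (coeffMap (frobenius κ q) x)` in `κ((T))`.
-/
import Fermat.Agent.Lib.S34.MValRed
import Fermat.Agent.Lib.S34.XInf

set_option autoImplicit false
set_option linter.unusedSectionVars false

noncomputable section

namespace Fermat.Agent.Lib.S35

open ModularCurve AlgebraicCurve HahnSeries Fermat.Agent.Lib.FF Fermat.Agent.Lib.S18
  Fermat.Agent.Lib.S34 Fermat.Agent.Lib.S37

local notation "Kb" => AlgebraicClosure ℚ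

/-! ### The Gauss ring -/

section Gauss

variable {K : Type*} [Field K] {κ : Type*} [Field κ] (G : s18g_GaussData K κ)
variable (σ₀ : K ≃+* K) (hσA : ∀ a : K, a ∈ G.A → σ₀ a ∈ G.A)
variable (ψ : κ →+* κ) (hσπ : ∀ a : G.A, G.π (s34m_sigmaA G σ₀ hσA a) = ψ (G.π a))

theorem s35m_coeffMap_injective {R S : Type*} [CommRing R] [CommRing S] (f : R →+* S)
    (hf : Function.Injective f) : Function.Injective (coeffMap f) := by
  intro x y h
  ext k
  have := congrArg (fun z => z.coeff k) h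
  simp only [coeffMap_coeff] at this
  exact hf this

include hσπ in
theorem s35m_rho_sigmaA (P : LaurentSeries G.A) :
    s18g_rho G (coeffMap (s34m_sigmaA G σ₀ hσA) P) = coeffMap ψ (s18g_rho G P) := by
  ext n
  exact hσπ _

include hσπ in
theorem s35m_rho_sigmaA_ne_zero {Q : LaurentSeries G.A} (hQ : s18g_rho G Q ≠ 0) :
    s18g_rho G (coeffMap (s34m_sigmaA G σ₀ hσA) Q) ≠ 0 := by
  rw [s35m_rho_sigmaA G σ₀ hσA ψ hσπ]
  intro h0
  exact hQ (s35m_coeffMap_injective ψ ψ.injective (by rw [h0, map_zero]))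

include hσπ in
/-- `coeffMap σ₀` preserves the Gauss ring. -/
theorem s35m_sigma_mem_O {f : LaurentSeries K} (hf : f ∈ s18g_O G) :
    coeffMap (σ₀ : K →+* K) f ∈ s18g_O G := by
  obtain ⟨P, Q, hQ, h⟩ := hf
  refine ⟨coeffMap (s34m_sigmaA G σ₀ hσA) P, coeffMap (s34m_sigmaA G σ₀ hσA) Q,
    s35m_rho_sigmaA_ne_zero G σ₀ hσA ψ hσπ hQ, ?_⟩
  rw [s34m_iota_sigmaA, s34m_iota_sigmaA, ← h, map_mul]

include hσπ in
/-- **`coeffMap σ₀` is `ψ`-semilinear for the Gauss reduction.** -/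
theorem s35m_red_sigma (f : s18g_O G) :
    s18g_red G ⟨coeffMap (σ₀ : K →+* K) (f : LaurentSeries K),
      s35m_sigma_mem_O G σ₀ hσA ψ hσπ f.2⟩ = coeffMap ψ (s18g_red G f) := by
  obtain ⟨P, Q, hQ, h⟩ := f.2
  rw [s18g_red_eq G f P Q hQ h,
    s18g_red_eq G _ (coeffMap (s34m_sigmaA G σ₀ hσA) P) (coeffMap (s34m_sigmaA G σ₀ hσA) Q)
      (s35m_rho_sigmaA_ne_zero G σ₀ hσA ψ hσπ hQ)
      (by
        show s18g_iota G _ * coeffMap (σ₀ : K →+* K) (f : LaurentSeries K) = _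
        rw [s34m_iota_sigmaA, s34m_iota_sigmaA, ← h, map_mul]),
    s35m_rho_sigmaA G σ₀ hσA ψ hσπ, s35m_rho_sigmaA G σ₀ hσA ψ hσπ, map_div₀]

end Gauss

/-! ### The two valuation rings of level `M q` -/

section Level

variable {K₀ : Type*} [Field K₀] [Algebra ℚ K₀] {κ : Type*} [Field κ] (G : s18g_GaussData K₀ κ)
variable (σ₀ : K₀ ≃ₐ[ℚ] K₀)
  (hσA : ∀ a : K₀, a ∈ G.A → (σ₀ : K₀ ≃+* K₀) a ∈ G.A)
  (ψ : κ →+* κ)
  (hσπ : ∀ a : G.A, G.π (s34m_sigmaA G (σ₀ : K₀ ≃+* K₀) hσA a) = ψ (G.π a))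

include hσπ in
theorem s35m_galois_mem_Vinf (N : ℕ) [NeZero N] {y : s34m_F K₀ N} (hy : y ∈ s34m_Vinf G N) :
    arithmeticRingAut (modularFunctionFieldFull N) σ₀ y ∈ s34m_Vinf G N := by
  rw [s34m_mem_Vinf, coe_arithmeticRingAut_apply]
  exact s35m_sigma_mem_O G (σ₀ : K₀ ≃+* K₀) hσA ψ hσπ hy

include hσπ in
/-- **`red_∞ (τ y) = ψ̃ (red_∞ y)`**, `ψ̃ = coeffMap ψ`. -/
theorem s35m_redInf_galois (N : ℕ) [NeZero N] (y : s34m_Vinf G N) :
    s34m_redInf G N ⟨arithmeticRingAut (modularFunctionFieldFull N) σ₀ (y : s34m_F K₀ N),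
      s35m_galois_mem_Vinf G σ₀ hσA ψ hσπ N y.2⟩ = coeffMap ψ (s34m_redInf G N y) := by
  rw [s34m_redInf_apply, s34m_redInf_apply]
  exact s35m_red_sigma G (σ₀ : K₀ ≃+* K₀) hσA ψ hσπ ⟨((y : s34m_F K₀ N) : LaurentSeries K₀), y.2⟩

variable (φ : K₀ →+* Kb) (M q : ℕ) [NeZero M] [NeZero q] (hq : q.Prime) (hqM : ¬ q ∣ M)

include hσπ in
theorem s35m_galois_mem_Vzero {y : s34m_F K₀ (M * q)} (hy : y ∈ s34m_Vzero G φ M q hq hqM) :
    arithmeticRingAut (modularFunctionFieldFull (M * q)) σ₀ y ∈ s34m_Vzero G φ M q hq hqM := by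
  rw [s34m_mem_Vzero, s34m_al_galois]
  exact s35m_galois_mem_Vinf G σ₀ hσA ψ hσπ (M * q) hy

include hσπ in
/-- **`red_0 (τ y) = ψ̃ (red_0 y)`.** -/
theorem s35m_redZero_galois (y : s34m_Vzero G φ M q hq hqM) :
    s34m_redZero G φ M q hq hqM
        ⟨arithmeticRingAut (modularFunctionFieldFull (M * q)) σ₀ (y : s34m_F K₀ (M * q)),
          s35m_galois_mem_Vzero G σ₀ hσA ψ hσπ φ M q hq hqM y.2⟩ =
      coeffMap ψ (s34m_redZero G φ M q hq hqM y) := by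
  rw [s34m_redZero_apply, s34m_redZero_apply,
    ← s35m_redInf_galois G σ₀ hσA ψ hσπ (M * q) ⟨s34m_al φ M q hq hqM y, y.2⟩]
  exact congrArg (s34m_redInf G (M * q)) (Subtype.ext (s34m_al_galois φ M q hq hqM σ₀ _))

include hσπ in
theorem s35m_galois_mem_VV (i : Bool) {y : s34m_F K₀ (M * q)}
    (hy : y ∈ s34m_VV G φ M q hq hqM i) :
    arithmeticRingAut (modularFunctionFieldFull (M * q)) σ₀ y ∈ s34m_VV G φ M q hq hqM i := by
  cases i
  · exact s35m_galois_mem_Vzero G σ₀ hσA ψ hσπ φ M q hq hqM hy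
  · exact s35m_galois_mem_Vinf G σ₀ hσA ψ hσπ (M * q) hy

end Level

/-! ### Both directions (`σ₀` and `σ₀⁻¹`) -/

section Iff

variable {K₀ : Type*} [Field K₀] [Algebra ℚ K₀] {κ : Type*} [Field κ] (G : s18g_GaussData K₀ κ)
variable (σ₀ : K₀ ≃ₐ[ℚ] K₀)
  (hσA : ∀ a : K₀, a ∈ G.A → (σ₀ : K₀ ≃+* K₀) a ∈ G.A)
  (hσA' : ∀ a : K₀, a ∈ G.A → (σ₀.symm : K₀ ≃+* K₀) a ∈ G.A)
  (ψ : κ ≃+* κ)
  (hσπ : ∀ a : G.A, G.π (s34m_sigmaA G (σ₀ : K₀ ≃+* K₀) hσA a) = ψ (G.π a))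

include hσπ in
/-- The inverse of `σ₀` induces `ψ⁻¹` on the residue field. -/
theorem s35m_symm_res (a : G.A) :
    G.π (s34m_sigmaA G (σ₀.symm : K₀ ≃+* K₀) hσA' a) = ψ.symm (G.π a) := by
  have h := hσπ (s34m_sigmaA G (σ₀.symm : K₀ ≃+* K₀) hσA' a)
  have e : s34m_sigmaA G (σ₀ : K₀ ≃+* K₀) hσA (s34m_sigmaA G (σ₀.symm : K₀ ≃+* K₀) hσA' a) = a := by
    apply Subtype.ext
    show σ₀ (σ₀.symm (a : K₀)) = (a : K₀)
    exact σ₀.apply_symm_apply _
  rw [e] at h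
  rw [h, RingEquiv.symm_apply_apply]

variable (φ : K₀ →+* Kb) (M q : ℕ) [NeZero M] [NeZero q] (hq : q.Prime) (hqM : ¬ q ∣ M)

include hσπ hσA' in
theorem s35m_galois_mem_VV_iff (i : Bool) (y : s34m_F K₀ (M * q)) :
    arithmeticRingAut (modularFunctionFieldFull (M * q)) σ₀ y ∈ s34m_VV G φ M q hq hqM i ↔
      y ∈ s34m_VV G φ M q hq hqM i := by
  constructor
  · intro h
    have h2 := s35m_galois_mem_VV G σ₀.symm hσA' (ψ.symm : κ →+* κ)
      (s35m_symm_res G σ₀ hσA hσA' ψ hσπ) φ M q hq hqM i h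
    have e : arithmeticRingAut (modularFunctionFieldFull (M * q)) σ₀.symm
        (arithmeticRingAut (modularFunctionFieldFull (M * q)) σ₀ y) = y := by
      apply Subtype.ext
      rw [coe_arithmeticRingAut_apply, coe_arithmeticRingAut_apply, coeffMap_coeffMap]
      have : ((σ₀.symm : K₀ →+* K₀).comp (σ₀ : K₀ →+* K₀)) = RingHom.id K₀ :=
        RingHom.ext fun a => σ₀.symm_apply_apply a
      rw [this, coeffMap_id]
    rwa [e] at h2
  · exact fun h => s35m_galois_mem_VV G σ₀ hσA (ψ : κ →+* κ) hσπ φ M q hq hqM i h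

include hσπ hσA' in
/-- `τ` preserves `O₂ = V_∞ ⊓ V_0`. -/
theorem s35m_galois_mem_O2_iff (y : s34m_F K₀ (M * q)) :
    arithmeticRingAut (modularFunctionFieldFull (M * q)) σ₀ y ∈
        s34x_infRing (s34m_VV G φ M q hq hqM) ↔
      y ∈ s34x_infRing (s34m_VV G φ M q hq hqM) := by
  rw [s34x_mem_infRing, s34x_mem_infRing]
  exact forall_congr' fun i => s35m_galois_mem_VV_iff G σ₀ hσA hσA' ψ hσπ φ M q hq hqM i y

end Iff

end Fermat.Agent.Lib.S35
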