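/-
S35 project, package [M] (helper6), part 2b: **`σ² 𝔫 = 𝔫` AT THE CROSSING POINTS OF `X₀(M q)`**,
in the strong form `τ (τ b) ≡ b ^ (q²)` modulo `𝔫` for EVERY `b` in the chart ring `B`
(`τ` = the coefficientwise action of a Frobenius lift `σ₀` at the place over `q`):
"the crossing points are `𝔽_{q²}`-rational and `σ²` is the `q²`-Frobenius of `B / 𝔫`".

Setting = helper8's `s34df_dichotomy` (`Lib/S34/DFibre.lean`): `B = s34x_ring O₂ S` a chart ring of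
level `M q`, `r₁ = red_∞|_B`, `r₂ = red_0|_B`, `Fb ⊇ r₁(B)` a subfield of `κ((T))`, the fraction field
of a Dedekind domain `D` (S18's `D_{M,i}`) all of whose elements are reductions of elements of `BM ⊆ V_M`
with `α(BM) ⊆ B`, `β(BM) ⊆ B + ϖ O₂`; NEW hypothesis `hFrD`: `D` is stable under the coefficientwise
Frobenius `Fr = coeffMap (frobenius κ q)`.

* `s35m_ring_mem_iff`, `s35m_ringAut` : the automorphism of a stable chart ring induced by a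
  semilinear automorphism (generic);
* `s35m_r1_galois`, `s35m_r2_galois` : `r_i (T b) = coeffMap ψ (r_i b)`;
* **`s35m_node_frob_sq`** : `𝔫 ⊇ ker r₁ + ker r₂` prime ⇒ `T (T b) - b ^ (q * q) ∈ 𝔫` for all `b`;
* `s35m_node_mem_iff`, `s35m_node_comap` : `T (T b) ∈ 𝔫 ↔ b ∈ 𝔫`, `comap (T ∘ T) 𝔫 = 𝔫`.
-/
import Fermat.Agent.Lib.S35.MSigma
import Fermat.Agent.Lib.S35.MNodeAbs
import Fermat.Agent.Lib.S34.DFibre
import Fermat.Agent.Lib.S34.FAssembly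
import Fermat.Agent.Lib.S37.ESeries

set_option autoImplicit false
set_option linter.unusedSectionVars false

noncomputable section

namespace Fermat.Agent.Lib.S35

open ModularCurve AlgebraicCurve HahnSeries Fermat.Agent.Lib.FF Fermat.Agent.Lib.S18
  Fermat.Agent.Lib.S34 Fermat.Agent.Lib.S37

local notation "Kb" => AlgebraicClosure ℚ

/-! ### The automorphism of a stable chart ring (generic) -/

section Generic

variable {L₀ 𝓕 : Type*} [Field L₀] [Field 𝓕] [Algebra L₀ 𝓕]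

/-- Chart rings of stable charts are stable (the `mem_iff` part of `s34f_stable_of`). -/
theorem s35m_ring_mem_iff {ι : Type*} (O : ι → ValuationSubring 𝓕) (S : Set (Place L₀ 𝓕))
    (g : SemilinearAut L₀ 𝓕) (hgO : ∀ i, ∀ y : 𝓕, y ∈ O i ↔ g • y ∈ O i)
    (hgS : ∀ Q : Place L₀ 𝓕, Q ∈ S ↔ g • Q ∈ S) (y : 𝓕) :
    y ∈ s34x_ring (s34x_infRing O) S ↔ g • y ∈ s34x_ring (s34x_infRing O) S := by
  have hinvS : ∀ Q : Place L₀ 𝓕, Q ∈ S → g⁻¹ • Q ∈ S := by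
    intro Q hQ
    have := hgS (g⁻¹ • Q)
    rw [smul_inv_smul] at this
    exact this.mpr hQ
  constructor
  · rintro ⟨hO, hS⟩
    refine ⟨(s34x_mem_infRing O _).mpr fun i => (hgO i y).mp ((s34x_mem_infRing O y).mp hO i),
      fun Q hQ => ?_⟩
    rw [s34f_smul_mem_iff]
    exact hS _ (hinvS Q hQ)
  · rintro ⟨hO, hS⟩
    refine ⟨(s34x_mem_infRing O _).mpr fun i => (hgO i y).mpr ((s34x_mem_infRing O _).mp hO i),
      fun Q hQ => ?_⟩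
    have := hS (g • Q) ((hgS Q).mp hQ)
    rw [s34f_smul_mem_iff, inv_smul_smul] at this
    exact this

/-- The ring automorphism of a `g`-stable subring induced by `g`. -/
def s35m_ringAut (R : Subring 𝓕) (g : SemilinearAut L₀ 𝓕) (hmem : ∀ y : 𝓕, y ∈ R ↔ g • y ∈ R) :
    R ≃+* R where
  toFun b := ⟨g • (b : 𝓕), (hmem _).mp b.2⟩
  invFun b := ⟨g⁻¹ • (b : 𝓕), (hmem _).mpr (by rw [smul_inv_smul]; exact b.2)⟩
  left_inv b := Subtype.ext (inv_smul_smul g _)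
  right_inv b := Subtype.ext (smul_inv_smul g _)
  map_mul' a b := Subtype.ext (smul_mul' g (a : 𝓕) (b : 𝓕))
  map_add' a b := Subtype.ext (smul_add g (a : 𝓕) (b : 𝓕))

@[simp]
theorem s35m_coe_ringAut (R : Subring 𝓕) (g : SemilinearAut L₀ 𝓕)
    (hmem : ∀ y : 𝓕, y ∈ R ↔ g • y ∈ R) (b : R) :
    ((s35m_ringAut R g hmem b : R) : 𝓕) = g • (b : 𝓕) := rfl

end Generic

/-! ### The two reductions are semilinear -/

section Concrete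

variable {K₀ : Type*} [Field K₀] [Algebra ℚ K₀] {κ : Type*} [Field κ] (G : s18g_GaussData K₀ κ)
variable (φ : K₀ →+* Kb) (M q : ℕ) [NeZero M] [NeZero q] (hq : q.Prime) (hqM : ¬ q ∣ M)
variable (S : Set (Place K₀ (s34m_F K₀ (M * q))))
variable (σ₀ : K₀ ≃ₐ[ℚ] K₀)
  (hσA : ∀ a : K₀, a ∈ G.A → (σ₀ : K₀ ≃+* K₀) a ∈ G.A)
  (ψ : κ →+* κ)
  (hσπ : ∀ a : G.A, G.π (s34m_sigmaA G (σ₀ : K₀ ≃+* K₀) hσA a) = ψ (G.π a))

local notation "BB" => s34x_ring (s34x_infRing (s34m_VV G φ M q hq hqM)) S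

include hσπ in
/-- `r₁ (T b) = ψ̃ (r₁ b)` for any `T` inducing `τ` on the chart ring. -/
theorem s35m_r1_galois (T : BB → BB)
    (hT : ∀ b : BB, ((T b : BB) : s34m_F K₀ (M * q)) =
      arithmeticRingAut (modularFunctionFieldFull (M * q)) σ₀ (b : s34m_F K₀ (M * q))) (b : BB) :
    s34df_r1 G φ M q hq hqM S (T b) = coeffMap ψ (s34df_r1 G φ M q hq hqM S b) := by
  rw [s34df_r1_apply G φ M q hq hqM S b,
    ← s35m_redInf_galois G σ₀ hσA ψ hσπ (M * q)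
      ⟨(b : s34m_F K₀ (M * q)), ((s34df_mem_O_iff G φ M q hq hqM _).mp b.2.1).1⟩]
  exact s34df_r1_eq G φ M q hq hqM S (T b) _ _ (hT b)

include hσπ in
/-- `r₂ (T b) = ψ̃ (r₂ b)`. -/
theorem s35m_r2_galois (T : BB → BB)
    (hT : ∀ b : BB, ((T b : BB) : s34m_F K₀ (M * q)) =
      arithmeticRingAut (modularFunctionFieldFull (M * q)) σ₀ (b : s34m_F K₀ (M * q))) (b : BB) :
    s34df_r2 G φ M q hq hqM S (T b) = coeffMap ψ (s34df_r2 G φ M q hq hqM S b) := by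
  rw [s34df_r2_apply G φ M q hq hqM S b,
    ← s35m_redZero_galois G σ₀ hσA ψ hσπ φ M q hq hqM
      ⟨(b : s34m_F K₀ (M * q)), ((s34df_mem_O_iff G φ M q hq hqM _).mp b.2.1).2⟩]
  exact s34df_r2_eq G φ M q hq hqM S (T b) _ _ (hT b)

end Concrete

/-! ### The crossing points -/

section Node

variable {K₀ : Type*} [Field K₀] [Algebra ℚ K₀] {κ : Type*} [Field κ] (G : s18g_GaussData K₀ κ)
variable (φ : K₀ →+* Kb) (M q : ℕ) [NeZero M] [NeZero q] (hq : q.Prime) (hqM : ¬ q ∣ M)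
variable (S : Set (Place K₀ (s34m_F K₀ (M * q))))
variable [hqF : Fact q.Prime] [CharP κ q]
variable (Fb : IntermediateField κ (LaurentSeries κ))
  {D : Type*} [CommRing D] [IsDedekindDomain D] [Algebra D Fb] [IsFractionRing D Fb]

local notation "BB" => s34x_ring (s34x_infRing (s34m_VV G φ M q hq hqM)) S

/-- **`σ²` is the `q²`-Frobenius at every crossing point.**  Hypotheses of `s34df_dichotomy` (one
Dedekind ring `D`), `D` stable under the coefficientwise Frobenius, `σ₀` a Frobenius lift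
(`π (σ₀ a) = π a ^ q`), `T : B →+* B` inducing `τ = arithmeticRingAut σ₀`.  Then for every prime
`𝔫 ⊇ ker r₁ + ker r₂` and every `b ∈ B`:  `T (T b) - b ^ (q * q) ∈ 𝔫`. -/
theorem s35m_node_frob_sq
    (hF₁ : ∀ b, s34df_r1 G φ M q hq hqM S b ∈ Fb)
    (BM : Set (s34m_F K₀ M)) (hBMV : ∀ g ∈ BM, g ∈ s34m_Vinf G M)
    (hαB : ∀ g ∈ BM, heckeAlphaBar K₀ M q g ∈ BB)
    (hβB : ∀ g ∈ BM, ∃ b' ∈ BB,
      ∃ z, z ∈ s34m_Vinf G (M * q) ∧ z ∈ s34m_Vzero G φ M q hq hqM ∧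
        b' - heckeBetaBar K₀ M q g = s34m_unif G (M * q) * z)
    (hlift : ∀ d : D, ∃ g, ∃ hg : g ∈ BM,
      s34m_redInf G M ⟨g, hBMV g hg⟩ = ((algebraMap D Fb d : Fb) : LaurentSeries κ))
    (hFrD : ∀ d : D, ∃ d' : D, coeffMap (frobenius κ q)
      ((algebraMap D Fb d : Fb) : LaurentSeries κ) = ((algebraMap D Fb d' : Fb) : LaurentSeries κ))
    (σ₀ : K₀ ≃ₐ[ℚ] K₀) (hσA : ∀ a : K₀, a ∈ G.A → (σ₀ : K₀ ≃+* K₀) a ∈ G.A)
    (hσπ : ∀ a : G.A, G.π (s34m_sigmaA G (σ₀ : K₀ ≃+* K₀) hσA a) = G.π a ^ q)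
    (T : BB →+* BB)
    (hT : ∀ b : BB, ((T b : BB) : s34m_F K₀ (M * q)) =
      arithmeticRingAut (modularFunctionFieldFull (M * q)) σ₀ (b : s34m_F K₀ (M * q)))
    (𝔫 : Ideal BB) [h𝔫 : 𝔫.IsPrime]
    (h1 : RingHom.ker (s34df_r1 G φ M q hq hqM S) ≤ 𝔫)
    (h2 : RingHom.ker (s34df_r2 G φ M q hq hqM S) ≤ 𝔫) (b : BB) :
    T (T b) - b ^ (q * q) ∈ 𝔫 := by
  have hσπ' : ∀ a : G.A, G.π (s34m_sigmaA G (σ₀ : K₀ ≃+* K₀) hσA a) = frobenius κ q (G.π a) :=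
    fun a => (hσπ a).trans (frobenius_def q (G.π a)).symm
  -- the reductions of `α g` and of the correction `b'` of `β g` (as in `s34df_dichotomy`)
  have hα₁ : ∀ g (hg : g ∈ BM), s34df_r1 G φ M q hq hqM S ⟨_, hαB g hg⟩ =
      s34m_redInf G M ⟨g, hBMV g hg⟩ := fun g hg =>
    (s34df_r1_eq G φ M q hq hqM S _ _ (s34m_alpha_mem_Vinf G M q (hBMV g hg)) rfl).trans
      (s34m_redInf_alpha G M q ⟨g, hBMV g hg⟩)
  have hα₂ : ∀ g (hg : g ∈ BM), s34df_r2 G φ M q hq hqM S ⟨_, hαB g hg⟩ =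
      qExpand κ q (s34m_redInf G M ⟨g, hBMV g hg⟩) := fun g hg =>
    (s34df_r2_eq G φ M q hq hqM S _ _ (s34m_alpha_mem_Vzero G φ M q hq hqM (hBMV g hg)) rfl).trans
      (s34m_redZero_alpha G φ M q hq hqM ⟨g, hBMV g hg⟩)
  have hβ₁ : ∀ g (hg : g ∈ BM) (b' : s34m_F K₀ (M * q)) (hb' : b' ∈ BB)
      (z : s34m_F K₀ (M * q)), z ∈ s34m_Vinf G (M * q) →
      b' - heckeBetaBar K₀ M q g = s34m_unif G (M * q) * z →
      s34df_r1 G φ M q hq hqM S ⟨b', hb'⟩ = qExpand κ q (s34m_redInf G M ⟨g, hBMV g hg⟩) := by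
    intro g hg b' hb' z hz e
    rw [s34df_r1_apply, ← s34m_redInf_beta G M q ⟨g, hBMV g hg⟩]
    exact s34df_redInf_congr G M q _ _ hz e
  have hβ₂ : ∀ g (hg : g ∈ BM) (b' : s34m_F K₀ (M * q)) (hb' : b' ∈ BB)
      (z : s34m_F K₀ (M * q)), z ∈ s34m_Vzero G φ M q hq hqM →
      b' - heckeBetaBar K₀ M q g = s34m_unif G (M * q) * z →
      s34df_r2 G φ M q hq hqM S ⟨b', hb'⟩ = s34m_redInf G M ⟨g, hBMV g hg⟩ := by
    intro g hg b' hb' z hz e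
    rw [s34df_r2_apply, ← s34m_redZero_beta G φ M q hq hqM ⟨g, hBMV g hg⟩]
    exact s34df_redZero_congr G φ M q hq hqM _ _ hz e
  -- the Kronecker step on lifts of `D`
  set Dset : Set (LaurentSeries κ) :=
    Set.range fun d : D => ((algebraMap D Fb d : Fb) : LaurentSeries κ) with hDset
  have hkr : ∀ a : BB, s34df_r1 G φ M q hq hqM S a ∈ Dset → T (T a) - a ^ (q * q) ∈ 𝔫 := by
    intro a ha
    refine s35m_kronecker_sq (s34df_r1 G φ M q hq hqM S) (s34df_r2 G φ M q hq hqM S) T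
      (coeffMap (frobenius κ q)) (qExpand κ q) q Dset (fun x _ => s37e_pow_char q x) ?_
      (fun b => s35m_r1_galois G φ M q hq hqM S σ₀ hσA (frobenius κ q) hσπ' T hT b) ?_ ?_
      𝔫 h1 h2 a ha
    · rintro x ⟨d, rfl⟩
      obtain ⟨d', hd'⟩ := hFrD d
      exact ⟨d', hd'.symm⟩
    · rintro x ⟨d, rfl⟩
      obtain ⟨g₀, hg₀, e₀⟩ := hlift d
      exact ⟨⟨_, hαB g₀ hg₀⟩, by rw [hα₁ g₀ hg₀, e₀], by rw [hα₂ g₀ hg₀, e₀]⟩
    · rintro x ⟨d, rfl⟩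
      obtain ⟨g₀, hg₀, e₀⟩ := hlift d
      obtain ⟨b', hb', z, hzI, hz0, ez⟩ := hβB g₀ hg₀
      exact ⟨⟨b', hb'⟩, by rw [hβ₂ g₀ hg₀ b' hb' z hz0 ez, e₀],
        by rw [hβ₁ g₀ hg₀ b' hb' z hzI ez, e₀]⟩
  -- the overring argument
  set r₁ : BB →+* Fb := (s34df_r1 G φ M q hq hqM S).codRestrict Fb hF₁ with hr₁
  have hr₁c : ∀ b, ((r₁ b : Fb) : LaurentSeries κ) = s34df_r1 G φ M q hq hqM S b := fun _ => rfl
  have hr₁0 : ∀ b, r₁ b = 0 ↔ s34df_r1 G φ M q hq hqM S b = 0 := by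
    intro b
    rw [← hr₁c]
    constructor
    · intro h; rw [h]; rfl
    · intro h; exact Subtype.ext h
  refine s35m_frob_of_lifts (D := D) r₁ (T.comp T) ?_ 𝔫 ?_ (q * q) ?_ b
  · intro b hb
    rw [hr₁0] at hb ⊢
    rw [RingHom.comp_apply,
      s35m_r1_galois G φ M q hq hqM S σ₀ hσA (frobenius κ q) hσπ' T hT,
      s35m_r1_galois G φ M q hq hqM S σ₀ hσA (frobenius κ q) hσπ' T hT, hb, map_zero, map_zero]
  · intro b hb
    exact h1 ((hr₁0 b).mp hb)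
  · intro d
    obtain ⟨g₀, hg₀, e₀⟩ := hlift d
    refine ⟨⟨_, hαB g₀ hg₀⟩, Subtype.ext ?_, hkr _ ⟨d, ?_⟩⟩
    · rw [hr₁c, hα₁ g₀ hg₀, e₀]
    · rw [hα₁ g₀ hg₀, e₀]

/-- `T (T b) ∈ 𝔫 ↔ b ∈ 𝔫` at a crossing point. -/
theorem s35m_node_mem_iff
    (hF₁ : ∀ b, s34df_r1 G φ M q hq hqM S b ∈ Fb)
    (BM : Set (s34m_F K₀ M)) (hBMV : ∀ g ∈ BM, g ∈ s34m_Vinf G M)
    (hαB : ∀ g ∈ BM, heckeAlphaBar K₀ M q g ∈ BB)
    (hβB : ∀ g ∈ BM, ∃ b' ∈ BB,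
      ∃ z, z ∈ s34m_Vinf G (M * q) ∧ z ∈ s34m_Vzero G φ M q hq hqM ∧
        b' - heckeBetaBar K₀ M q g = s34m_unif G (M * q) * z)
    (hlift : ∀ d : D, ∃ g, ∃ hg : g ∈ BM,
      s34m_redInf G M ⟨g, hBMV g hg⟩ = ((algebraMap D Fb d : Fb) : LaurentSeries κ))
    (hFrD : ∀ d : D, ∃ d' : D, coeffMap (frobenius κ q)
      ((algebraMap D Fb d : Fb) : LaurentSeries κ) = ((algebraMap D Fb d' : Fb) : LaurentSeries κ))
    (σ₀ : K₀ ≃ₐ[ℚ] K₀) (hσA : ∀ a : K₀, a ∈ G.A → (σ₀ : K₀ ≃+* K₀) a ∈ G.A)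
    (hσπ : ∀ a : G.A, G.π (s34m_sigmaA G (σ₀ : K₀ ≃+* K₀) hσA a) = G.π a ^ q)
    (T : BB →+* BB)
    (hT : ∀ b : BB, ((T b : BB) : s34m_F K₀ (M * q)) =
      arithmeticRingAut (modularFunctionFieldFull (M * q)) σ₀ (b : s34m_F K₀ (M * q)))
    (𝔫 : Ideal BB) [h𝔫 : 𝔫.IsPrime]
    (h1 : RingHom.ker (s34df_r1 G φ M q hq hqM S) ≤ 𝔫)
    (h2 : RingHom.ker (s34df_r2 G φ M q hq hqM S) ≤ 𝔫) (b : BB) :
    T (T b) ∈ 𝔫 ↔ b ∈ 𝔫 :=
  s35m_mem_iff_of_frob (fun b => T (T b)) 𝔫 (Nat.mul_ne_zero hq.ne_zero hq.ne_zero)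
    (s35m_node_frob_sq G φ M q hq hqM S Fb hF₁ BM hBMV hαB hβB hlift hFrD σ₀ hσA hσπ T hT 𝔫 h1 h2 b)

/-- `comap (T ∘ T) 𝔫 = 𝔫` at a crossing point. -/
theorem s35m_node_comap
    (hF₁ : ∀ b, s34df_r1 G φ M q hq hqM S b ∈ Fb)
    (BM : Set (s34m_F K₀ M)) (hBMV : ∀ g ∈ BM, g ∈ s34m_Vinf G M)
    (hαB : ∀ g ∈ BM, heckeAlphaBar K₀ M q g ∈ BB)
    (hβB : ∀ g ∈ BM, ∃ b' ∈ BB,
      ∃ z, z ∈ s34m_Vinf G (M * q) ∧ z ∈ s34m_Vzero G φ M q hq hqM ∧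
        b' - heckeBetaBar K₀ M q g = s34m_unif G (M * q) * z)
    (hlift : ∀ d : D, ∃ g, ∃ hg : g ∈ BM,
      s34m_redInf G M ⟨g, hBMV g hg⟩ = ((algebraMap D Fb d : Fb) : LaurentSeries κ))
    (hFrD : ∀ d : D, ∃ d' : D, coeffMap (frobenius κ q)
      ((algebraMap D Fb d : Fb) : LaurentSeries κ) = ((algebraMap D Fb d' : Fb) : LaurentSeries κ))
    (σ₀ : K₀ ≃ₐ[ℚ] K₀) (hσA : ∀ a : K₀, a ∈ G.A → (σ₀ : K₀ ≃+* K₀) a ∈ G.A)
    (hσπ : ∀ a : G.A, G.π (s34m_sigmaA G (σ₀ : K₀ ≃+* K₀) hσA a) = G.π a ^ q)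
    (T : BB →+* BB)
    (hT : ∀ b : BB, ((T b : BB) : s34m_F K₀ (M * q)) =
      arithmeticRingAut (modularFunctionFieldFull (M * q)) σ₀ (b : s34m_F K₀ (M * q)))
    (𝔫 : Ideal BB) [h𝔫 : 𝔫.IsPrime]
    (h1 : RingHom.ker (s34df_r1 G φ M q hq hqM S) ≤ 𝔫)
    (h2 : RingHom.ker (s34df_r2 G φ M q hq hqM S) ≤ 𝔫) :
    𝔫.comap (T.comp T) = 𝔫 :=
  s35m_comap_eq_of_frob (T.comp T) 𝔫 (Nat.mul_ne_zero hq.ne_zero hq.ne_zero)
    (s35m_node_frob_sq G φ M q hq hqM S Fb hF₁ BM hBMV hαB hβB hlift hFrD σ₀ hσA hσπ T hT 𝔫 h1 h2)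

end Node

end Fermat.Agent.Lib.S35
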