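/-
S35 project, package [M] (helper6), part 3a: THE OPERATOR `P_s(U) = s²U · U^Q / (sU)^{1+Q}` ON A
DISCRETE VALUATION RING, abstractly (Mathlib only; twin of S34's `s34m_second_diff`).

`F` a field, `V` a valuation subring with uniformiser `ϖ` (every `U ≠ 0` is `ϖ ^ n * unit`),
`red : V →+* L` a ring homomorphism to a field, `s : F ≃+* F` with `s V ⊆ V` inducing `Ψ` on `L`
(`red (s y) = Ψ (red y)`), `Φ : L →+* L` with `x ^ Q = Φ (Ψ x)` ("`s` is a `Q`-Frobenius lift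
up to the substitution `Φ`"), `s ϖ = η ϖ` with `η ∈ V^×` and `Φ` fixing `Ψ (red η)` (a constant).

* `s35m_polyHom s Q : F →*₀ F`, `U ↦ s (s U) * U ^ Q / (s U) ^ (1 + Q)`;
* **`s35m_poly_red`** : for `U = ϖ ^ n * u`, `u ∈ V^×`: `P_s U ∈ V^×` and
  `red (P_s U) = ρ / Φ ρ`, `ρ = Ψ (Ψ ū / ū)`, `ū = red u` — EXACTLY (no constants, no vertical part);
* `s35m_poly_red_exists` : the same with the decomposition chosen by the lemma.
(Application: `s = σ²`, `Q = q²`, `Ψ = ψ̃²`, `Φ = (T ↦ T^{q²})`: `P(σ) = (σ² - q²)(σ² - 1)`.)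
-/
import Mathlib

set_option autoImplicit false

noncomputable section

namespace Fermat.Agent.Lib.S35

variable {F : Type*} [Field F] {L : Type*} [Field L]

/-- `P_s(U) = s²U · U^Q / (sU)^{1+Q}`, multiplicatively: the operator `(s - Q)(s - 1)`. -/
def s35m_polyHom (s : F ≃+* F) (Q : ℕ) : F →*₀ F where
  toFun U := s (s U) * U ^ Q / (s U) ^ (1 + Q)
  map_zero' := by simp
  map_one' := by simp
  map_mul' x y := by
    simp only [map_mul, mul_pow]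
    rw [div_mul_div_comm]
    ring

theorem s35m_polyHom_apply (s : F ≃+* F) (Q : ℕ) (U : F) :
    s35m_polyHom s Q U = s (s U) * U ^ Q / (s U) ^ (1 + Q) := rfl

/-- The coercion `Vˣ →* F`. -/
def s35m_unitCoe (V : ValuationSubring F) : (↥V)ˣ →* F :=
  ((V.subtype : ↥V →+* F) : ↥V →* F).comp (Units.coeHom ↥V)

theorem s35m_unitCoe_apply (V : ValuationSubring F) (w : (↥V)ˣ) :
    s35m_unitCoe V w = ((w : ↥V) : F) := rfl

theorem s35m_unitCoe_inv (V : ValuationSubring F) (w : (↥V)ˣ) :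
    (((w⁻¹ : (↥V)ˣ) : ↥V) : F) = ((w : ↥V) : F)⁻¹ := by
  have h := map_inv (s35m_unitCoe V) w
  exact h

/-- A unit of `V` from an element with its inverse in `V`. -/
def s35m_mkUnit (V : ValuationSubring F) (u : F) (hu : u ∈ V) (hu' : u⁻¹ ∈ V) (hu0 : u ≠ 0) :
    (↥V)ˣ where
  val := ⟨u, hu⟩
  inv := ⟨u⁻¹, hu'⟩
  val_inv := Subtype.ext (mul_inv_cancel₀ hu0)
  inv_val := Subtype.ext (inv_mul_cancel₀ hu0)

section Main

variable (V : ValuationSubring F) (red : ↥V →+* L) (s : F ≃+* F) (hs : ∀ y ∈ V, s y ∈ V)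
  (Ψ Φ : L →+* L) (Q : ℕ)

/-- The restriction of `s` to `V`. -/
def s35m_resV : ↥V →+* ↥V where
  toFun y := ⟨s y, hs y y.2⟩
  map_one' := Subtype.ext (map_one s)
  map_mul' a b := Subtype.ext (map_mul s (a : F) (b : F))
  map_zero' := Subtype.ext (map_zero s)
  map_add' a b := Subtype.ext (map_add s (a : F) (b : F))

variable (hred : ∀ y : ↥V, red (s35m_resV V s hs y) = Ψ (red y))
  (hpow : ∀ x : L, x ^ Q = Φ (Ψ x))

/-- `P_s` on the units of `V`. -/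
def s35m_polyUnit (w : (↥V)ˣ) : (↥V)ˣ :=
  Units.map (s35m_resV V s hs : ↥V →* ↥V) (Units.map (s35m_resV V s hs : ↥V →* ↥V) w) * w ^ Q *
    (Units.map (s35m_resV V s hs : ↥V →* ↥V) w ^ (1 + Q))⁻¹

theorem s35m_coe_polyUnit (w : (↥V)ˣ) :
    (((s35m_polyUnit V s hs Q w : (↥V)ˣ) : ↥V) : F) = s35m_polyHom s Q ((w : ↥V) : F) := by
  unfold s35m_polyUnit
  rw [Units.val_mul, Units.val_mul, MulMemClass.coe_mul, MulMemClass.coe_mul, s35m_unitCoe_inv,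
    s35m_polyHom_apply, div_eq_mul_inv]
  rfl

include hred hpow in
theorem s35m_red_polyUnit (w : (↥V)ˣ) :
    red ((s35m_polyUnit V s hs Q w : (↥V)ˣ) : ↥V) =
      Ψ (Ψ (red (w : ↥V)) / red (w : ↥V)) / Φ (Ψ (Ψ (red (w : ↥V)) / red (w : ↥V))) := by
  have hw0 : red (w : ↥V) ≠ 0 := by
    have h : red (w : ↥V) * red ((w⁻¹ : (↥V)ˣ) : ↥V) = 1 := by
      rw [← map_mul, ← Units.val_mul, mul_inv_cancel, Units.val_one, map_one]
    exact left_ne_zero_of_mul_eq_one h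
  have hΨ0 : Ψ (red (w : ↥V)) ≠ 0 := (map_ne_zero Ψ).mpr hw0
  have hΨΨ0 : Ψ (Ψ (red (w : ↥V))) ≠ 0 := (map_ne_zero Ψ).mpr hΨ0
  have hinv : ∀ x : (↥V)ˣ, red ((x⁻¹ : (↥V)ˣ) : ↥V) = (red (x : ↥V))⁻¹ := by
    intro x
    have h : red (x : ↥V) * red ((x⁻¹ : (↥V)ˣ) : ↥V) = 1 := by
      rw [← map_mul, ← Units.val_mul, mul_inv_cancel, Units.val_one, map_one]
    exact eq_inv_of_mul_eq_one_right h
  unfold s35m_polyUnit
  rw [Units.val_mul, Units.val_mul, map_mul, map_mul, hinv, Units.val_pow_eq_pow_val,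
    Units.val_pow_eq_pow_val, map_pow, map_pow, Units.coe_map, Units.coe_map]
  show red (s35m_resV V s hs (s35m_resV V s hs (w : ↥V))) * red (w : ↥V) ^ Q *
      (red (s35m_resV V s hs (w : ↥V)) ^ (1 + Q))⁻¹ = _
  rw [hred, hred, pow_add, pow_one, hpow, hpow, map_div₀, map_div₀]
  have hΦ1 : Φ (Ψ (red (w : ↥V))) ≠ 0 := (map_ne_zero Φ).mpr hΨ0
  have hΦ2 : Φ (Ψ (Ψ (red (w : ↥V)))) ≠ 0 := (map_ne_zero Φ).mpr hΨΨ0
  field_simp

variable (ϖ : F) (hϖ0 : ϖ ≠ 0) (η : F) (hη : η ∈ V) (hη' : η⁻¹ ∈ V) (hsϖ : s ϖ = η * ϖ)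
  (hηΦ : Φ (Ψ (red ⟨η, hη⟩)) = Ψ (red ⟨η, hη⟩))

include hsϖ hϖ0 in
theorem s35m_polyHom_unif : s35m_polyHom s Q ϖ = s η / η ^ Q := by
  have hη0 : η ≠ 0 := by
    rintro rfl
    rw [zero_mul] at hsϖ
    exact hϖ0 ((map_eq_zero s).mp hsϖ)
  rw [s35m_polyHom_apply, hsϖ, map_mul, hsϖ]
  have : s η ≠ 0 := (map_ne_zero s).mpr hη0
  field_simp
  ring

include hred hpow hsϖ hϖ0 hηΦ hη' in
/-- **The reduction of `P_s U`**, `U = ϖ ^ n * u`. -/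
theorem s35m_poly_red (n : ℤ) (u : F) (hu : u ∈ V) (hu' : u⁻¹ ∈ V) (hu0 : u ≠ 0) :
    ∃ hP : s35m_polyHom s Q (ϖ ^ n * u) ∈ V, (s35m_polyHom s Q (ϖ ^ n * u))⁻¹ ∈ V ∧
      red ⟨_, hP⟩ = Ψ (Ψ (red ⟨u, hu⟩) / red ⟨u, hu⟩) / Φ (Ψ (Ψ (red ⟨u, hu⟩) / red ⟨u, hu⟩)) := by
  have hη0 : η ≠ 0 := by
    rintro rfl
    rw [zero_mul] at hsϖ
    exact hϖ0 ((map_eq_zero s).mp hsϖ)
  set ηu : (↥V)ˣ := s35m_mkUnit V η hη hη' hη0 with hηu
  set uu : (↥V)ˣ := s35m_mkUnit V u hu hu' hu0 with huu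
  -- the unit `s η / η ^ Q`
  set a : (↥V)ˣ := Units.map (s35m_resV V s hs : ↥V →* ↥V) ηu * (ηu ^ Q)⁻¹ with ha
  have hacoe : ((a : ↥V) : F) = s35m_polyHom s Q ϖ := by
    rw [s35m_polyHom_unif s Q ϖ hϖ0 η hsϖ, ha, Units.val_mul, MulMemClass.coe_mul,
      s35m_unitCoe_inv, div_eq_mul_inv, Units.val_pow_eq_pow_val]
    rfl
  have hared : red (a : ↥V) = 1 := by
    have hinv : red (((ηu ^ Q)⁻¹ : (↥V)ˣ) : ↥V) = (red ((ηu ^ Q : (↥V)ˣ) : ↥V))⁻¹ := by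
      have h : red ((ηu ^ Q : (↥V)ˣ) : ↥V) * red (((ηu ^ Q)⁻¹ : (↥V)ˣ) : ↥V) = 1 := by
        rw [← map_mul, ← Units.val_mul, mul_inv_cancel, Units.val_one, map_one]
      exact eq_inv_of_mul_eq_one_right h
    have hηb0 : red (ηu : ↥V) ≠ 0 := by
      have h : red (ηu : ↥V) * red ((ηu⁻¹ : (↥V)ˣ) : ↥V) = 1 := by
        rw [← map_mul, ← Units.val_mul, mul_inv_cancel, Units.val_one, map_one]
      exact left_ne_zero_of_mul_eq_one h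
    rw [ha, Units.val_mul, map_mul, hinv, Units.val_pow_eq_pow_val, map_pow, Units.coe_map]
    show red (s35m_resV V s hs (ηu : ↥V)) * _ = 1
    rw [hred, hpow]
    have e : (ηu : ↥V) = ⟨η, hη⟩ := rfl
    rw [e, hηΦ]
    exact mul_inv_cancel₀ ((map_ne_zero Ψ).mpr (by rw [← e]; exact hηb0))
  -- the total unit
  set b : (↥V)ˣ := a ^ n * s35m_polyUnit V s hs Q uu with hb
  have hbcoe : ((b : ↥V) : F) = s35m_polyHom s Q (ϖ ^ n * u) := by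
    rw [map_mul, map_zpow₀, ← hacoe, hb, Units.val_mul, MulMemClass.coe_mul,
      s35m_coe_polyUnit]
    have h1 : (((a ^ n : (↥V)ˣ) : ↥V) : F) = ((a : ↥V) : F) ^ n := map_zpow (s35m_unitCoe V) a n
    rw [h1]
    rfl
  have hbred : red (b : ↥V) =
      Ψ (Ψ (red ⟨u, hu⟩) / red ⟨u, hu⟩) / Φ (Ψ (Ψ (red ⟨u, hu⟩) / red ⟨u, hu⟩)) := by
    have h1 : red ((a ^ n : (↥V)ˣ) : ↥V) = 1 := by
      have h2 : Units.map (red : ↥V →* L) (a ^ n) = 1 := by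
        rw [map_zpow]
        have : Units.map (red : ↥V →* L) a = 1 := Units.ext hared
        rw [this, one_zpow]
      have h3 := congrArg Units.val h2
      exact h3
    rw [hb, Units.val_mul, map_mul, h1, one_mul, s35m_red_polyUnit V red s hs Ψ Φ Q hred hpow uu]
    rfl
  refine ⟨?_, ?_, ?_⟩
  · rw [← hbcoe]; exact (b : ↥V).2
  · rw [← hbcoe, ← s35m_unitCoe_inv]; exact ((b⁻¹ : (↥V)ˣ) : ↥V).2
  · rw [← hbred]
    exact congrArg red (Subtype.ext hbcoe.symm)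

include hred hpow hsϖ hϖ0 hηΦ hη' in
/-- The same with the decomposition `U = ϖ ^ n * u` provided by the DVR structure. -/
theorem s35m_poly_red_exists
    (hdvr : ∀ U : F, U ≠ 0 → ∃ (n : ℤ) (u : F), u ∈ V ∧ u⁻¹ ∈ V ∧ U = ϖ ^ n * u)
    (U : F) (hU : U ≠ 0) :
    ∃ (n : ℤ) (u : F) (hu : u ∈ V), u⁻¹ ∈ V ∧ U = ϖ ^ n * u ∧
      ∃ hP : s35m_polyHom s Q U ∈ V, (s35m_polyHom s Q U)⁻¹ ∈ V ∧
        red ⟨_, hP⟩ =
          Ψ (Ψ (red ⟨u, hu⟩) / red ⟨u, hu⟩) / Φ (Ψ (Ψ (red ⟨u, hu⟩) / red ⟨u, hu⟩)) := by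
  obtain ⟨n, u, hu, hu', rfl⟩ := hdvr U hU
  have hu0 : u ≠ 0 := by
    rintro rfl
    exact hU (mul_zero _)
  exact ⟨n, u, hu, hu', rfl,
    s35m_poly_red V red s hs Ψ Φ Q hred hpow ϖ hϖ0 η hη hη' hsϖ hηΦ n u hu hu' hu0⟩

end Main

end Fermat.Agent.Lib.S35
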