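/-
S35 project, package [M] (helper6), part 3b: **THE REDUCTION OF `P(σ)U` AT THE TWO GAUSS VALUATIONS**
(blueprint v1: "`red_i(P(σ)U) = ρ_i / Φ²ρ_i`, `ρ_i = ψ̃²(ψ̃²Ū_i / Ū_i)` — exactly").

`σ₀` a Frobenius lift (`π (σ₀ a) = π a ^ q`) with `σ₀ A = A`, `τ = arithmeticRingAut σ₀` on
`𝓕 = 𝓕_{Mq}(K₀)`, `s = τ²`, `Q = q²`:
  `P(σ)U := s35m_polyHom (τ.trans τ) (q * q) U = τ⁴U · U^{q²} / (τ²U)^{1 + q²}`.
* `s35m_redVV i` : the reduction `V_i → κ((T))` (`i = true`: `red_∞`, `i = false`: `red_0`);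
* `s35m_unif_unit` : `σ₀ ϖ = c ϖ`, `c ∈ A^×`;
* `s35m_pow_qq` : `x ^ (q * q) = Φ² (ψ̃² x)` in `κ((T))`;
* **`s35m_poly_red_VV`** : for every `U ≠ 0`: `U = ϖ ^ n * u`, `u ∈ V_i^×`, `P(σ)U ∈ V_i^×` and
  `red_i (P(σ)U) = ρ / Φ² ρ`, `ρ = ψ̃² (ψ̃² ū / ū)`, `ū = red_i u`.
-/
import Fermat.Agent.Lib.S35.MSigma
import Fermat.Agent.Lib.S35.MPolyAbs
import Fermat.Agent.Lib.S34.CChart
import Fermat.Agent.Lib.S37.ESeries

set_option autoImplicit false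
set_option linter.unusedSectionVars false

noncomputable section

namespace Fermat.Agent.Lib.S35

open ModularCurve AlgebraicCurve HahnSeries Fermat.Agent.Lib.FF Fermat.Agent.Lib.S18
  Fermat.Agent.Lib.S34 Fermat.Agent.Lib.S37

local notation "Kb" => AlgebraicClosure ℚ

/-! ### Laurent algebra -/

section Laurent

variable {κ : Type*} [Field κ] (q : ℕ) [hqF : Fact q.Prime] [CharP κ q]

/-- `ψ̃²`, the coefficientwise `q²`-Frobenius of `κ((T))`. -/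
def s35m_Psi2 : LaurentSeries κ →+* LaurentSeries κ :=
  (coeffMap (frobenius κ q)).comp (coeffMap (frobenius κ q))

/-- `Φ² = (T ↦ T^{q²})`. -/
def s35m_Phi2 : LaurentSeries κ →+* LaurentSeries κ :=
  (qExpand κ q).comp (qExpand κ q)

theorem s35m_Psi2_apply (x : LaurentSeries κ) :
    s35m_Psi2 q x = coeffMap (frobenius κ q) (coeffMap (frobenius κ q) x) := rfl

theorem s35m_Phi2_apply (x : LaurentSeries κ) :
    s35m_Phi2 q x = qExpand κ q (qExpand κ q x) := rfl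

/-- **`x ^ (q²) = Φ² (ψ̃² x)`.** -/
theorem s35m_pow_qq (x : LaurentSeries κ) : x ^ (q * q) = s35m_Phi2 q (s35m_Psi2 q x) := by
  rw [pow_mul, s37e_pow_char q x, s37e_pow_char q, coeffMap_qExpand, s35m_Phi2_apply,
    s35m_Psi2_apply]

theorem s35m_Phi2_C (a : κ) : s35m_Phi2 q (HahnSeries.C a) = HahnSeries.C a := by
  rw [s35m_Phi2_apply, qExpand_C, qExpand_C]

theorem s35m_Psi2_C (a : κ) :
    s35m_Psi2 q (HahnSeries.C a) = HahnSeries.C (frobenius κ q (frobenius κ q a)) := by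
  rw [s35m_Psi2_apply, HahnSeries.C_apply, coeffMap_single, coeffMap_single, HahnSeries.C_apply]

end Laurent

/-! ### The uniformiser under a decomposition-group element -/

section Unif

variable {K : Type*} [Field K] {κ : Type*} [Field κ] (G : s18g_GaussData K κ)
variable (σ₀ : K ≃+* K) (hσA : ∀ a : K, a ∈ G.A → σ₀ a ∈ G.A)
  (hσA' : ∀ a : K, a ∈ G.A → σ₀.symm a ∈ G.A)
  (ψ : κ →+* κ) (hσπ : ∀ a : G.A, G.π (s34m_sigmaA G σ₀ hσA a) = ψ (G.π a))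

include hσπ in
/-- `σ₀ ϖ = c ϖ` with `c ∈ A`. -/
theorem s35m_unif_dvd : ∃ c : G.A, σ₀ ((G.ϖ : G.A) : K) = (c : K) * ((G.ϖ : G.A) : K) := by
  have h : G.π (s34m_sigmaA G σ₀ hσA G.ϖ) = 0 := by
    rw [hσπ, s18g_pi_unif, map_zero]
  obtain ⟨c, hc⟩ := (G.π_eq_zero_iff _).mp h
  refine ⟨c, ?_⟩
  have := congrArg (fun x : G.A => (x : K)) hc
  simp only [MulMemClass.coe_mul] at this
  rw [mul_comm]
  exact this

include hσπ hσA' in
/-- **`σ₀ ϖ = c ϖ` with `c ∈ A^×`** (`σ₀ A = A`). -/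
theorem s35m_unif_unit :
    ∃ c : K, c ∈ G.A ∧ c⁻¹ ∈ G.A ∧ σ₀ ((G.ϖ : G.A) : K) = c * ((G.ϖ : G.A) : K) := by
  obtain ⟨c, hc⟩ := s35m_unif_dvd G σ₀ hσA ψ hσπ
  -- `σ₀⁻¹ ϖ ∈ A` is not a unit, so `σ₀⁻¹ ϖ = c' ϖ`
  have hϖ0 : ((G.ϖ : G.A) : K) ≠ 0 := s18g_unifK_ne_zero G
  set x : G.A := ⟨σ₀.symm ((G.ϖ : G.A) : K), hσA' _ G.ϖ.2⟩ with hx
  have hx0 : G.π x = 0 := by
    by_contra hne
    -- `x` is a unit of `A`, hence so is `σ₀ x = ϖ`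
    have hndvd : ¬ G.ϖ ∣ x := fun h => hne ((G.π_eq_zero_iff _).mpr h)
    have hψ : ψ (G.π x) ≠ 0 := (map_ne_zero ψ).mpr hne
    rw [← hσπ] at hψ
    apply hψ
    have : s34m_sigmaA G σ₀ hσA x = G.ϖ := by
      apply Subtype.ext
      show σ₀ (σ₀.symm ((G.ϖ : G.A) : K)) = _
      exact σ₀.apply_symm_apply _
    rw [this, s18g_pi_unif]
  obtain ⟨c', hc'⟩ := (G.π_eq_zero_iff _).mp hx0
  have hc'K : σ₀.symm ((G.ϖ : G.A) : K) = ((G.ϖ : G.A) : K) * (c' : K) := by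
    have := congrArg (fun x : G.A => (x : K)) hc'
    simpa only [MulMemClass.coe_mul] using this
  -- apply `σ₀`
  have h1 : ((G.ϖ : G.A) : K) = (c : K) * ((G.ϖ : G.A) : K) * σ₀ (c' : K) := by
    have := congrArg σ₀ hc'K
    rw [σ₀.apply_symm_apply, map_mul, hc] at this
    exact this
  have h2 : (c : K) * σ₀ (c' : K) = 1 := by
    have : ((G.ϖ : G.A) : K) * ((c : K) * σ₀ (c' : K)) = ((G.ϖ : G.A) : K) * 1 := by
      rw [mul_one]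
      conv_rhs => rw [h1]
      ring
    exact mul_left_cancel₀ hϖ0 this
  refine ⟨(c : K), c.2, ?_, hc⟩
  rw [← eq_inv_of_mul_eq_one_right h2]
  exact hσA _ c'.2

end Unif

/-! ### The reductions `red_i`, uniformly in `i : Bool` -/

section Concrete

variable {K₀ : Type*} [Field K₀] [Algebra ℚ K₀] {κ : Type*} [Field κ] (G : s18g_GaussData K₀ κ)
variable (φ : K₀ →+* Kb) (M q : ℕ) [NeZero M] [NeZero q] (hq : q.Prime) (hqM : ¬ q ∣ M)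

/-- `red_i : V_i →+* κ((T))` (`true ↦ red_∞`, `false ↦ red_0`). -/
def s35m_redVV : (i : Bool) → ↥(s34m_VV G φ M q hq hqM i) →+* LaurentSeries κ
  | true => s34m_redInf G (M * q)
  | false => s34m_redZero G φ M q hq hqM

theorem s35m_redVV_true (y : ↥(s34m_VV G φ M q hq hqM true)) :
    s35m_redVV G φ M q hq hqM true y = s34m_redInf G (M * q) y := rfl

theorem s35m_redVV_false (y : ↥(s34m_VV G φ M q hq hqM false)) :
    s35m_redVV G φ M q hq hqM false y = s34m_redZero G φ M q hq hqM y := rfl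

/-- The reduction of a constant. -/
theorem s35m_redVV_const (i : Bool) (a : G.A) :
    s35m_redVV G φ M q hq hqM i
        ⟨algebraMap K₀ (s34m_F K₀ (M * q)) (a : K₀), s34c_const_mem_VV G φ M q hq hqM i a⟩ =
      HahnSeries.C (G.π a) := by
  cases i
  · rw [s35m_redVV_false, s34m_redZero_apply]
    have h := s18g_redV_constV G (laurentBaseChange K₀ (modularFunctionFieldFull (M * q)))
      (s34m_hF G (M * q)) a
    rw [← h]
    exact congrArg (s34m_redInf G (M * q)) (Subtype.ext (AlgEquiv.commutes _ _))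
  · exact s18g_redV_constV G (laurentBaseChange K₀ (modularFunctionFieldFull (M * q)))
      (s34m_hF G (M * q)) a

variable (σ₀ : K₀ ≃ₐ[ℚ] K₀)
  (hσA : ∀ a : K₀, a ∈ G.A → (σ₀ : K₀ ≃+* K₀) a ∈ G.A)
  (ψ : κ →+* κ)
  (hσπ : ∀ a : G.A, G.π (s34m_sigmaA G (σ₀ : K₀ ≃+* K₀) hσA a) = ψ (G.π a))

include hσπ in
/-- **`red_i (τ y) = ψ̃ (red_i y)`**, uniformly in `i`. -/
theorem s35m_redVV_galois (i : Bool) (y : ↥(s34m_VV G φ M q hq hqM i)) :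
    s35m_redVV G φ M q hq hqM i
        ⟨arithmeticRingAut (modularFunctionFieldFull (M * q)) σ₀ (y : s34m_F K₀ (M * q)),
          s35m_galois_mem_VV G σ₀ hσA ψ hσπ φ M q hq hqM i y.2⟩ =
      coeffMap ψ (s35m_redVV G φ M q hq hqM i y) := by
  cases i
  · exact s35m_redZero_galois G σ₀ hσA ψ hσπ φ M q hq hqM y
  · exact s35m_redInf_galois G σ₀ hσA ψ hσπ (M * q) y

end Concrete

/-! ### The reduction of `P(σ)U` -/

section Poly

variable {K₀ : Type*} [Field K₀] [Algebra ℚ K₀] {κ : Type*} [Field κ] (G : s18g_GaussData K₀ κ)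
variable (φ : K₀ →+* Kb) (M q : ℕ) [NeZero M] [NeZero q] (hq : q.Prime) (hqM : ¬ q ∣ M)
variable [hqF : Fact q.Prime] [CharP κ q]
variable (σ₀ : K₀ ≃ₐ[ℚ] K₀)
  (hσA : ∀ a : K₀, a ∈ G.A → (σ₀ : K₀ ≃+* K₀) a ∈ G.A)
  (hσA' : ∀ a : K₀, a ∈ G.A → (σ₀.symm : K₀ ≃+* K₀) a ∈ G.A)
  (hσπ : ∀ a : G.A, G.π (s34m_sigmaA G (σ₀ : K₀ ≃+* K₀) hσA a) = G.π a ^ q)

/-- `τ² = arithmeticRingAut σ₀ ∘ arithmeticRingAut σ₀`. -/
def s35m_tau2 : s34m_F K₀ (M * q) ≃+* s34m_F K₀ (M * q) :=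
  (arithmeticRingAut (modularFunctionFieldFull (M * q)) σ₀).trans
    (arithmeticRingAut (modularFunctionFieldFull (M * q)) σ₀)

theorem s35m_tau2_apply (y : s34m_F K₀ (M * q)) :
    s35m_tau2 M q σ₀ y = arithmeticRingAut (modularFunctionFieldFull (M * q)) σ₀
      (arithmeticRingAut (modularFunctionFieldFull (M * q)) σ₀ y) := rfl

include hσπ hσA' in
/-- **`red_i (P(σ)U) = ρ / Φ²ρ`, `ρ = ψ̃²(ψ̃² ū / ū)`**, for every `U ≠ 0` and both `i`. -/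
theorem s35m_poly_red_VV (i : Bool) (U : s34m_F K₀ (M * q)) (hU : U ≠ 0) :
    ∃ (n : ℤ) (u : s34m_F K₀ (M * q)) (hu : u ∈ s34m_VV G φ M q hq hqM i),
      u⁻¹ ∈ s34m_VV G φ M q hq hqM i ∧ U = s34m_unif G (M * q) ^ n * u ∧
      ∃ hP : s35m_polyHom (s35m_tau2 M q σ₀) (q * q) U ∈ s34m_VV G φ M q hq hqM i,
        (s35m_polyHom (s35m_tau2 M q σ₀) (q * q) U)⁻¹ ∈ s34m_VV G φ M q hq hqM i ∧
        s35m_redVV G φ M q hq hqM i ⟨_, hP⟩ =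
          s35m_Psi2 q (s35m_Psi2 q (s35m_redVV G φ M q hq hqM i ⟨u, hu⟩) /
              s35m_redVV G φ M q hq hqM i ⟨u, hu⟩) /
            s35m_Phi2 q (s35m_Psi2 q (s35m_Psi2 q (s35m_redVV G φ M q hq hqM i ⟨u, hu⟩) /
              s35m_redVV G φ M q hq hqM i ⟨u, hu⟩)) := by
  have hσπ' : ∀ a : G.A, G.π (s34m_sigmaA G (σ₀ : K₀ ≃+* K₀) hσA a) = frobenius κ q (G.π a) :=
    fun a => (hσπ a).trans (frobenius_def q (G.π a)).symm
  -- the unit `η = σ₀²ϖ/ϖ`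
  obtain ⟨c, hcA, hcA', hc⟩ := s35m_unif_unit G (σ₀ : K₀ ≃+* K₀) hσA hσA' (frobenius κ q) hσπ'
  set η₀ : K₀ := (σ₀ : K₀ ≃+* K₀) c * c with hη₀
  have hη₀A : η₀ ∈ G.A := G.A.mul_mem _ _ (hσA c hcA) hcA
  have hη₀A' : η₀⁻¹ ∈ G.A := by
    rw [hη₀, mul_inv, ← map_inv₀]
    exact G.A.mul_mem _ _ (hσA _ hcA') hcA'
  have hs : ∀ y ∈ s34m_VV G φ M q hq hqM i, s35m_tau2 M q σ₀ y ∈ s34m_VV G φ M q hq hqM i :=
    fun y hy => s35m_galois_mem_VV G σ₀ hσA (frobenius κ q) hσπ' φ M q hq hqM i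
      (s35m_galois_mem_VV G σ₀ hσA (frobenius κ q) hσπ' φ M q hq hqM i hy)
  refine s35m_poly_red_exists (s34m_VV G φ M q hq hqM i) (s35m_redVV G φ M q hq hqM i)
    (s35m_tau2 M q σ₀) hs (s35m_Psi2 q) (s35m_Phi2 q) (q * q) ?_ (s35m_pow_qq q)
    (s34m_unif G (M * q)) (s34m_unif_ne_zero G (M * q))
    (algebraMap K₀ (s34m_F K₀ (M * q)) η₀)
    (s34c_const_mem_VV G φ M q hq hqM i ⟨η₀, hη₀A⟩) ?_ ?_ ?_
    (s34m_exists_zpow_VV G φ M q hq hqM i) U hU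
  · intro y
    rw [s35m_Psi2_apply, ← s35m_redVV_galois G φ M q hq hqM σ₀ hσA (frobenius κ q) hσπ' i y,
      ← s35m_redVV_galois G φ M q hq hqM σ₀ hσA (frobenius κ q) hσπ' i]
    rfl
  · rw [← map_inv₀]
    exact s34c_const_mem_VV G φ M q hq hqM i ⟨η₀⁻¹, hη₀A'⟩
  · rw [s35m_tau2_apply, s34m_unif, arithmeticRingAut_algebraMap, arithmeticRingAut_algebraMap,
      ← map_mul]
    congr 1
    show σ₀ (σ₀ ((G.ϖ : G.A) : K₀)) = η₀ * ((G.ϖ : G.A) : K₀)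
    have hc' : σ₀ ((G.ϖ : G.A) : K₀) = c * ((G.ϖ : G.A) : K₀) := hc
    rw [hc', map_mul, hc', hη₀]
    show σ₀ c * (c * _) = σ₀ c * c * _
    ring
  · have e := s35m_redVV_const G φ M q hq hqM i ⟨η₀, hη₀A⟩
    rw [e, s35m_Psi2_C, s35m_Phi2_C]

end Poly

end Fermat.Agent.Lib.S35
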