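/-
S35 project (helper2): `ϖ V_i` is THE maximal ideal of the Gauss valuation rings `V_∞`, `V_0` of
level `M q` — the hypothesis `(hmax)` of helper9's generic smooth-point lemma `s35f_loc_smooth`:
every `y ∈ V_i` is divisible by `ϖ` in `V_i` or is a unit of `V_i`.
-/
import Fermat.Agent.Lib.S34.MVal

set_option autoImplicit false
set_option linter.unusedSectionVars false

noncomputable section

namespace Fermat.Agent.Lib.S35

open ModularCurve AlgebraicCurve HahnSeries Fermat.Agent.Lib.FF Fermat.Agent.Lib.S18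
  Fermat.Agent.Lib.S34

local notation "Kb" => AlgebraicClosure ℚ

variable {K₀ : Type*} [Field K₀] [Algebra ℚ K₀] {κ : Type*} [Field κ] (G : s18g_GaussData K₀ κ)

/-- generic: in a valuation subring `V` containing `ϖ` in which every nonzero element is
`ϖ ^ n * unit`, every element is divisible by `ϖ` or a unit. -/
theorem s35v_hmax_of_zpow {F : Type*} [Field F] (V : ValuationSubring F) (ϖ : F) (hϖ : ϖ ∈ V)
    (hU : ∀ U : F, U ≠ 0 → ∃ (n : ℤ) (u : F), u ∈ V ∧ u⁻¹ ∈ V ∧ U = ϖ ^ n * u)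
    (y : F) (_hy : y ∈ V) : (∃ z ∈ V, y = ϖ * z) ∨ y⁻¹ ∈ V := by
  by_cases hy0 : y = 0
  · exact Or.inl ⟨0, V.zero_mem, by rw [hy0, mul_zero]⟩
  obtain ⟨n, u, hu, hu', e⟩ := hU y hy0
  have hu0 : u ≠ 0 := by
    rintro rfl
    exact hy0 (by rw [e, mul_zero])
  rcases le_or_gt n 0 with hn | hn
  · right
    obtain ⟨k, hk⟩ : ∃ k : ℕ, -n = (k : ℤ) := Int.eq_ofNat_of_zero_le (by omega)
    have : y⁻¹ = ϖ ^ k * u⁻¹ := by
      rw [e, mul_inv, ← zpow_neg, hk, zpow_natCast]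
    rw [this]
    exact V.mul_mem _ _ (pow_mem hϖ k) hu'
  · left
    obtain ⟨k, hk⟩ : ∃ k : ℕ, n - 1 = (k : ℤ) := Int.eq_ofNat_of_zero_le (by omega)
    have hϖ0 : ϖ ≠ 0 := by
      rintro rfl
      apply hy0
      rw [e, zero_zpow n (by omega), zero_mul]
    refine ⟨ϖ ^ k * u, V.mul_mem _ _ (pow_mem hϖ k) hu, ?_⟩
    rw [e, ← mul_assoc, ← zpow_natCast, ← hk, ← zpow_one_add₀ hϖ0]
    congr 2
    omega

/-- **(hmax) for `V_∞` at any level.** -/
theorem s35v_hmax_Vinf (N : ℕ) [NeZero N] (y : s34m_F K₀ N) (hy : y ∈ s34m_Vinf G N) :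
    (∃ z ∈ s34m_Vinf G N,
      y = algebraMap K₀ (s34m_F K₀ N) ((G.ϖ : G.A) : K₀) * z) ∨ y⁻¹ ∈ s34m_Vinf G N :=
  s35v_hmax_of_zpow (s34m_Vinf G N) (s34m_unif G N) (s34m_unif_mem_Vinf G N)
    (fun U hU => s34m_exists_zpow_Vinf G N U hU) y hy

variable (φ : K₀ →+* Kb) (M q : ℕ) [NeZero M] [NeZero q]

/-- **(hmax) for the family `{V_∞, V_0}` of level `M q`**, in the shape of helper9's
`s35f_loc_smooth`. -/
theorem s35v_hmax_VV (hq : q.Prime) (hqM : ¬ q ∣ M) :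
    ∀ i : Bool, ∀ y ∈ s34m_VV G φ M q hq hqM i,
      (∃ z ∈ s34m_VV G φ M q hq hqM i,
        y = algebraMap K₀ (s34m_F K₀ (M * q)) ((G.ϖ : G.A) : K₀) * z) ∨
      y⁻¹ ∈ s34m_VV G φ M q hq hqM i :=
  fun i y hy => s35v_hmax_of_zpow (s34m_VV G φ M q hq hqM i) (s34m_unif G (M * q))
    (s34m_unif_mem_VV G φ M q hq hqM i)
    (fun U hU => s34m_exists_zpow_VV G φ M q hq hqM i U hU) y hy

end Fermat.Agent.Lib.S35
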