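/-
S35 project, package [Geo] (helper4): THE LOCAL DATA AT EVERY CLOSED POINT OF A CHART
(`hloc1` / `hloc2` of `s35f_zero`) from the chart data and the node package.

* `s35g_polyHom_eq_P` : helper6's `s35m_polyHom (s35m_tau2 M q σ₀) (q * q)` IS helper5's
  `s35q_P (arithmeticGalois … σ₀) (q ^ 2)`;
* `s35g_node_mem_iff` : `T (T b) ∈ 𝔫 ↔ b ∈ 𝔫` at every crossing prime of a chart with
  `s35g_ChartData` (`s35m_node_mem_iff` with `D = integralClosure κ[w̄] F̄_M`);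
* `s35g_nodeGen_of_cross` : the local generator contract `s35f_NodeGen` for
  `P(σ) f₀ / x ^ m` at a crossing prime: `Φ` from `s35f_genP` (helper5), `(b, b')` from hKR at
  `U := Φ`, `(b₁, b₁')` from the `x`-part, glued by `s35f_nodeGen_of_frac` (helper9);
* `s35g_hloc` : `s35f_SmoothAt ∨ s35f_NodeGen` at EVERY prime `𝔫 ∋ ϖ` of the chart.

The two outputs of helper8's node package (hKR and the `x`-part) enter as hypotheses `hKR`, `hxKR`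
in the literal shape of the conclusions of `s35n_hKR_concrete` / `s35n_xKR_concrete`.
-/
import Fermat.Agent.Lib.S35.GElem
import Fermat.Agent.Lib.S35.FGenP
import Fermat.Agent.Lib.S35.MNode
import Fermat.Agent.Lib.S35.MPoly
import Fermat.Agent.Lib.S35.VMax

set_option autoImplicit false
set_option linter.unusedSectionVars false
set_option linter.style.haveILetI false
set_option synthInstance.maxHeartbeats 400000

noncomputable section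

namespace Fermat.Agent.Lib.S35

open ModularCurve AlgebraicCurve HahnSeries Polynomial Fermat.Agent.Lib.FF Fermat.Agent.Lib.S18
  Fermat.Agent.Lib.S37 Fermat.Agent.Lib.S34

local notation "Qbar" => AlgebraicClosure ℚ

section Conv

variable {K₀ : Type*} [Field K₀] [Algebra ℚ K₀] (M q : ℕ) [NeZero M] [NeZero q]

/-- helper6's `P(σ)` is helper5's `P(σ)`. -/
theorem s35g_polyHom_eq_P (σ₀ : K₀ ≃ₐ[ℚ] K₀) (U : s34m_F K₀ (M * q)) :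
    s35m_polyHom (s35m_tau2 M q σ₀) (q * q) U =
      s35q_P (arithmeticGalois (modularFunctionFieldFull (M * q)) σ₀) (q ^ 2) U := by
  rw [s35m_polyHom_apply, s35q_P, pow_two]
  rfl

end Conv

section Cross

variable {K₀ : Type} [Field K₀] [CharZero K₀] [Algebra ℚ K₀] {κ : Type} [Field κ]
  (G : s18g_GaussData K₀ κ) (φ : K₀ →+* Qbar) (M q : ℕ) [NeZero M] [NeZero q]
  (hq : q.Prime) (hqM : ¬ q ∣ M) [CharP κ q] [PerfectField κ]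
  (S : Set (Place K₀ (s34m_F K₀ (M * q))))

local notation "𝓕M" => laurentBaseChange K₀ (modularFunctionFieldFull M)
local notation "hFM" => (fun (f : LaurentSeries K₀)
  (hf : f ∈ laurentBaseChange K₀ (modularFunctionFieldFull M)) => s18g_baseChange_mem_Frac G M hf)
local notation "BB" => s34x_ring (s34x_infRing (s34m_VV G φ M q hq hqM)) S

/-- **`T (T b) ∈ 𝔫 ↔ b ∈ 𝔫` at every crossing prime** of a chart with `s35g_ChartData`. -/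
theorem s35g_node_mem_iff (hC : s35g_ChartData G φ M q hq hqM S)
    (σ₀ : K₀ ≃ₐ[ℚ] K₀) (hσA : ∀ a : K₀, a ∈ G.A → (σ₀ : K₀ ≃+* K₀) a ∈ G.A)
    (hσπ : ∀ a : G.A, G.π (s34m_sigmaA G (σ₀ : K₀ ≃+* K₀) hσA a) = G.π a ^ q)
    (T : BB →+* BB)
    (hT : ∀ b : BB, ((T b : BB) : s34m_F K₀ (M * q)) =
      arithmeticRingAut (modularFunctionFieldFull (M * q)) σ₀ (b : s34m_F K₀ (M * q)))
    (𝔫 : Ideal BB) [h𝔫 : 𝔫.IsPrime]
    (h1 : RingHom.ker (s34df_r1 G φ M q hq hqM S) ≤ 𝔫)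
    (h2 : RingHom.ker (s34df_r2 G φ M q hq hqM S) ≤ 𝔫) (b : BB) :
    T (T b) ∈ 𝔫 ↔ b ∈ 𝔫 := by
  obtain ⟨hT', hdegM, w, hwV, hdeg, hcoord, hwtw, hmain, hαB, hβB⟩ := hC
  haveI : Fact q.Prime := ⟨hq⟩
  letI algF := s18f_algF G M hT' hdegM w hwV
  have hA : ∀ p : κ[X], algebraMap κ[X] ↥(modularFunctionFieldFullC κ M) p =
      Polynomial.aeval (s18g_redF G M hFM hT' hdegM ⟨w, hwV⟩) p :=
    s18f_algF_apply G M hT' hdegM w hwV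
  obtain ⟨hDed, hFrac⟩ := s37b_dedekind_of_coord κ q M (s18g_redF G M hFM hT' hdegM ⟨w, hwV⟩)
    hcoord hA
  haveI := hDed
  haveI := hFrac
  have hBMV : ∀ g ∈ (s18_ring (L₀ := K₀) (s34m_Vinf G M) (s18_chart1 w) : Set (s34m_F K₀ M)),
      g ∈ s34m_Vinf G M := fun g hg => hg.1
  have hlift : ∀ d : ↥(integralClosure κ[X] ↥(modularFunctionFieldFullC κ M)), ∃ g,
      ∃ hg : g ∈ (s18_ring (L₀ := K₀) (s34m_Vinf G M) (s18_chart1 w) : Set (s34m_F K₀ M)),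
      s34m_redInf G M ⟨g, hBMV g hg⟩ =
        ((algebraMap ↥(integralClosure κ[X] ↥(modularFunctionFieldFullC κ M))
          ↥(modularFunctionFieldFullC κ M) d : ↥(modularFunctionFieldFullC κ M)) :
          LaurentSeries κ) := by
    intro d
    obtain ⟨b, hb, e⟩ := hmain (d : ↥(modularFunctionFieldFullC κ M)) d.2
    refine ⟨b, hb, ?_⟩
    have h1 := congrArg (fun z : ↥(modularFunctionFieldFullC κ M) => (z : LaurentSeries κ)) e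
    exact h1
  have hFrD : ∀ d : ↥(integralClosure κ[X] ↥(modularFunctionFieldFullC κ M)),
      ∃ d' : ↥(integralClosure κ[X] ↥(modularFunctionFieldFullC κ M)),
      coeffMap (frobenius κ q)
        ((algebraMap ↥(integralClosure κ[X] ↥(modularFunctionFieldFullC κ M))
          ↥(modularFunctionFieldFullC κ M) d : ↥(modularFunctionFieldFullC κ M)) :
          LaurentSeries κ) =
        ((algebraMap ↥(integralClosure κ[X] ↥(modularFunctionFieldFullC κ M))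
          ↥(modularFunctionFieldFullC κ M) d' : ↥(modularFunctionFieldFullC κ M)) :
          LaurentSeries κ) := by
    intro d
    refine ⟨⟨s37e_coeffRingAut M (frobeniusEquiv κ q) d,
      s34df_isIntegral_twist M _ (s18g_redF G M hFM hT' hdegM ⟨w, hwV⟩) (hwtw _) hA d d.2⟩, ?_⟩
    rfl
  exact s35m_node_mem_iff G φ M q hq hqM S (modularFunctionFieldFullC κ M)
    (D := ↥(integralClosure κ[X] ↥(modularFunctionFieldFullC κ M)))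
    (fun b => s34df_hF₁ G φ M q hq hqM S hdeg hT' hdegM b)
    _ hBMV hαB hβB hlift hFrD σ₀ hσA hσπ T hT 𝔫 h1 h2 b

end Cross

section Loc

variable {K₀ : Type} [Field K₀] [CharZero K₀] [Algebra ℚ K₀] {κ : Type} [Field κ]
  (G : s18g_GaussData K₀ κ) (φ : K₀ →+* Qbar) (M q : ℕ) [NeZero M] [NeZero q]
  (hq : q.Prime) (hqM : ¬ q ∣ M) [CharP κ q] [PerfectField κ] [IsDiscreteValuationRing G.A]
  (S : Set (Place K₀ (s34m_F K₀ (M * q))))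

local notation "BB" => s34x_ring (s34x_infRing (s34m_VV G φ M q hq hqM)) S
local notation "gσ" σ₀ => arithmeticGalois (modularFunctionFieldFull (M * q)) σ₀

/-- **The local generator contract at a crossing prime** for `P(σ) f₀ / x ^ m`. -/
theorem s35g_nodeGen_of_cross (hϖ : Irreducible G.ϖ)
    (hC : s35g_ChartData G φ M q hq hqM S)
    (hD : s35f_Dict (s34m_VV G φ M q hq hqM) S)
    (σ₀ : K₀ ≃ₐ[ℚ] K₀) (hσA : ∀ a : K₀, a ∈ G.A → (σ₀ : K₀ ≃+* K₀) a ∈ G.A)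
    (hσA' : ∀ a : K₀, a ∈ G.A → (σ₀.symm : K₀ ≃+* K₀) a ∈ G.A)
    (hσπ : ∀ a : G.A, G.π (s34m_sigmaA G (σ₀ : K₀ ≃+* K₀) hσA a) = G.π a ^ q)
    (hchart : ∀ Q : Place K₀ (s34m_F K₀ (M * q)), Q ∈ S ↔ (gσ σ₀) • Q ∈ S)
    (𝔫 : Ideal BB) [h𝔫 : 𝔫.IsPrime] (hϖ𝔫 : s35gd_unifB G φ M q hq hqM S ∈ 𝔫)
    (h1 : RingHom.ker (s34df_r1 G φ M q hq hqM S) ≤ 𝔫)
    (h2 : RingHom.ker (s34df_r2 G φ M q hq hqM S) ≤ 𝔫)
    (u w : BB) (hu : u ∈ 𝔫) (hw : w ∈ 𝔫) (hdvd : s35gd_unifB G φ M q hq hqM S ∣ u * w)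
    (hgen : ∀ y ∈ 𝔫, ∃ c, c ∉ 𝔫 ∧ ∃ z z' b,
      c * y = z * u + z' * w + b * s35gd_unifB G φ M q hq hqM S)
    (hKR : ∀ U : s34m_F K₀ (M * q), U ≠ 0 →
      ∃ b b' : BB, b ∉ 𝔫 ∧ b' ∉ 𝔫 ∧ ∀ i : Bool, ∃ y ∈ s34m_VV G φ M q hq hqM i,
        s35m_polyHom (s35m_tau2 M q σ₀) (q * q) U * (b' : s34m_F K₀ (M * q)) -
          (b : s34m_F K₀ (M * q)) = s34m_unif G (M * q) * y)
    (f₀ : s34m_F K₀ (M * q)) (hf₀ : f₀ ≠ 0) (m : ℕ) (hm0 : m ≠ 0)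
    (hdiv : ∀ Q : Place K₀ (s34m_F K₀ (M * q)), (m : ℤ) ∣ Q.ord f₀)
    (hdeg : ∀ Q : Place K₀ (s34m_F K₀ (M * q)), Q.ord f₀ ≠ 0 → Q.deg = 1)
    (x : s34m_F K₀ (M * q)) (hx0 : x ≠ 0)
    (hxKR : ∃ b₁ b₁' : BB, b₁ ∉ 𝔫 ∧ b₁' ∉ 𝔫 ∧ ∀ i : Bool, ∃ y ∈ s34m_VV G φ M q hq hqM i,
      x * (b₁' : s34m_F K₀ (M * q)) - (b₁ : s34m_F K₀ (M * q)) = s34m_unif G (M * q) * y) :
    s35f_NodeGen (s34m_VV G φ M q hq hqM) S
      (algebraMap K₀ (s34m_F K₀ (M * q)) ((G.ϖ : G.A) : K₀)) 𝔫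
      (s18_E (s35q_P (gσ σ₀) (q ^ 2) f₀ / x ^ m) m) := by
  haveI : Fact q.Prime := ⟨hq⟩
  obtain ⟨hnoeth, F1, F2, F3⟩ := hD
  haveI := hnoeth
  -- at most one place through `𝔫` has no local equation
  have hm := s34d_maximalIdeal_eq_span_triple 𝔫 hu hw hϖ𝔫 hgen
  have hAA : s34f_AlmostAll (s34x_infRing (s34m_VV G φ M q hq hqM)) S 𝔫 := by
    obtain ⟨c, hc⟩ := hdvd
    exact s34f_almostAll_of_node G.A (s34x_infRing (s34m_VV G φ M q hq hqM))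
      (s34x_inf_const_mem (s34m_VV G φ M q hq hqM) G.A (s34c_const_mem_VV G φ M q hq hqM)) S
      G.ϖ hϖ 𝔫 hϖ𝔫 F1 F2 u w hm ⟨c, hc⟩
  -- the automorphism of the chart ring
  have hσπ' : ∀ a : G.A, G.π (s34m_sigmaA G (σ₀ : K₀ ≃+* K₀) hσA a) =
      frobeniusEquiv κ q (G.π a) := fun a => by
    rw [hσπ a, frobeniusEquiv_apply, frobenius_def]
  have hgO : ∀ i, ∀ y : s34m_F K₀ (M * q),
      y ∈ s34m_VV G φ M q hq hqM i ↔ (gσ σ₀) • y ∈ s34m_VV G φ M q hq hqM i := fun i y =>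
    (s35m_galois_mem_VV_iff G σ₀ hσA hσA' (frobeniusEquiv κ q) hσπ' φ M q hq hqM i y).symm
  have hmem := s35m_ring_mem_iff (s34m_VV G φ M q hq hqM) S (gσ σ₀) hgO hchart
  set T : BB →+* BB := (s35m_ringAut BB (gσ σ₀) hmem).toRingHom with hTdef
  have hT : ∀ b : BB, ((T b : BB) : s34m_F K₀ (M * q)) =
      arithmeticRingAut (modularFunctionFieldFull (M * q)) σ₀ (b : s34m_F K₀ (M * q)) :=
    fun _ => rfl
  have hfixT := s35g_node_mem_iff G φ M q hq hqM S hC σ₀ hσA hσπ T hT 𝔫 h1 h2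
  -- the generator `Φ`
  obtain ⟨Φ, hΦ0, hΦ⟩ := s35f_genP (s34m_VV G φ M q hq hqM) S F3 𝔫 (gσ σ₀)
    (fun y => (hmem y).trans (hmem _)) (fun Q => (hchart Q).trans (hchart _))
    (fun b hb => by
      have e : (⟨(gσ σ₀) • (gσ σ₀) • (b : s34m_F K₀ (M * q)), hb⟩ : BB) = T (T b) :=
        Subtype.ext rfl
      rw [e]
      exact (hfixT b).symm)
    hAA f₀ hf₀ m hm0 hdiv (fun Q _ h => hdeg Q h) (q ^ 2)
  obtain ⟨b, b', hb, hb', hbb⟩ := hKR Φ hΦ0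
  obtain ⟨b₁, b₁', hb₁, hb₁', hbb₁⟩ := hxKR
  refine s35f_nodeGen_of_frac (s34m_VV G φ M q hq hqM) S
    (algebraMap K₀ (s34m_F K₀ (M * q)) ((G.ϖ : G.A) : K₀))
    (fun i => s34m_unif_mem_VV G φ M q hq hqM i) (s35v_hmax_VV G φ M q hq hqM) 𝔫
    (s35q_P (gσ σ₀) (q ^ 2) f₀) x (s35q_P_ne_zero _ _ hf₀) hx0 m hm0
    (fun Q _ => s35i_dvd_ord_P _ _ hf₀ _ hdiv Q)
    (s35q_P (gσ σ₀) (q ^ 2) Φ) (s35q_P_ne_zero _ _ hΦ0) b b' b₁ b₁' hb hb' hb₁ hb₁'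
    (fun Q hQ hth => (hΦ Q hQ hth).ge) (fun i _ => ?_) (fun i _ => hbb₁ i)
  obtain ⟨y, hy, e⟩ := hbb i
  rw [s35g_polyHom_eq_P] at e
  exact ⟨y, hy, e⟩

/-- **The local data at every prime `𝔫 ∋ ϖ` of a chart** (`hloc1` / `hloc2` of `s35f_zero`): a
smooth point on one component, or the local generator contract for `P(σ) f₀ / x ^ m`. -/
theorem s35g_hloc (hϖ : Irreducible G.ϖ)
    (hC : s35g_ChartData G φ M q hq hqM S)
    (hD : s35f_Dict (s34m_VV G φ M q hq hqM) S)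
    (σ₀ : K₀ ≃ₐ[ℚ] K₀) (hσA : ∀ a : K₀, a ∈ G.A → (σ₀ : K₀ ≃+* K₀) a ∈ G.A)
    (hσA' : ∀ a : K₀, a ∈ G.A → (σ₀.symm : K₀ ≃+* K₀) a ∈ G.A)
    (hσπ : ∀ a : G.A, G.π (s34m_sigmaA G (σ₀ : K₀ ≃+* K₀) hσA a) = G.π a ^ q)
    (hchart : ∀ Q : Place K₀ (s34m_F K₀ (M * q)), Q ∈ S ↔ (gσ σ₀) • Q ∈ S)
    (f₀ : s34m_F K₀ (M * q)) (hf₀ : f₀ ≠ 0) (m : ℕ) (hm0 : m ≠ 0)
    (hdiv : ∀ Q : Place K₀ (s34m_F K₀ (M * q)), (m : ℤ) ∣ Q.ord f₀)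
    (hdeg : ∀ Q : Place K₀ (s34m_F K₀ (M * q)), Q.ord f₀ ≠ 0 → Q.deg = 1)
    (x : s34m_F K₀ (M * q)) (hx0 : x ≠ 0)
    (𝔫 : Ideal BB) [h𝔫 : 𝔫.IsPrime] (hϖ𝔫 : s35gd_unifB G φ M q hq hqM S ∈ 𝔫)
    (hKR : RingHom.ker (s34df_r1 G φ M q hq hqM S) ≤ 𝔫 →
      RingHom.ker (s34df_r2 G φ M q hq hqM S) ≤ 𝔫 →
      ∀ U : s34m_F K₀ (M * q), U ≠ 0 →
      ∃ b b' : BB, b ∉ 𝔫 ∧ b' ∉ 𝔫 ∧ ∀ i : Bool, ∃ y ∈ s34m_VV G φ M q hq hqM i,
        s35m_polyHom (s35m_tau2 M q σ₀) (q * q) U * (b' : s34m_F K₀ (M * q)) -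
          (b : s34m_F K₀ (M * q)) = s34m_unif G (M * q) * y)
    (hxKR : RingHom.ker (s34df_r1 G φ M q hq hqM S) ≤ 𝔫 →
      RingHom.ker (s34df_r2 G φ M q hq hqM S) ≤ 𝔫 →
      ∃ b₁ b₁' : BB, b₁ ∉ 𝔫 ∧ b₁' ∉ 𝔫 ∧ ∀ i : Bool, ∃ y ∈ s34m_VV G φ M q hq hqM i,
        x * (b₁' : s34m_F K₀ (M * q)) - (b₁ : s34m_F K₀ (M * q)) = s34m_unif G (M * q) * y) :
    s35f_SmoothAt G.A (s34m_VV G φ M q hq hqM) (s34c_const_mem_VV G φ M q hq hqM) G.ϖ S 𝔫 ∨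
      s35f_NodeGen (s34m_VV G φ M q hq hqM) S
        (algebraMap K₀ (s34m_F K₀ (M * q)) ((G.ϖ : G.A) : K₀)) 𝔫
        (s18_E (s35q_P (gσ σ₀) (q ^ 2) f₀ / x ^ m) m) := by
  have hE := s35g_elem_of_chartData G φ M q hq hqM S hC
  rcases hE 𝔫 hϖ𝔫 with ⟨t, ht, hgen, hs⟩ | ⟨h1, h2, u, hu, w, hw, hu₂, hw₁, hdvd, hgen⟩
  · -- smooth point: reuse helper9's conversion
    rcases s35gd_smoothAt_or_crossing G φ M q hq hqM S hE 𝔫 hϖ𝔫 with hsm | hcr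
    · exact Or.inl hsm
    · -- (both alternatives hold only at a crossing point; use it)
      obtain ⟨h1, h2, -⟩ := hcr
      rcases hs with ⟨s, hs0, hs𝔫⟩ | ⟨s, hs0, hs𝔫⟩
      · exact absurd (h2 ((RingHom.mem_ker).mpr hs0)) hs𝔫
      · exact absurd (h1 ((RingHom.mem_ker).mpr hs0)) hs𝔫
  · exact Or.inr (s35g_nodeGen_of_cross G φ M q hq hqM S hϖ hC hD σ₀ hσA hσA' hσπ hchart 𝔫 hϖ𝔫
      h1 h2 u w hu hw hdvd hgen (hKR h1 h2) f₀ hf₀ m hm0 hdiv hdeg x hx0 (hxKR h1 h2))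

end Loc

end Fermat.Agent.Lib.S35
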