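/-
S35 (row 34), bridging algebra (helper3): from the two geometric inputs

  (NW)  `P(σ) = (σ² - q²)(σ² - 1)` kills the `q`-new part `ker α ⊓ ker β` of the Tate module `Λ`,
  (B3)  the eigenvectors of the newform die under `1 ⊗ α` and `1 ⊗ β`,

to the WEAK LOCAL conclusion of `Lib/S35/Top.lean`.  Everything here is generic linear algebra
(no modular curves): `R` is the base ring (`ℤ_[lam]`), `O'` a flat `R`-algebra, `Λ`, `Λ'` are
`R`-modules, `α β : Λ →ₗ[R] Λ'` the two degeneracy maps, `s : End_R Λ` the Frobenius.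
-/
import Mathlib

set_option autoImplicit false

open scoped TensorProduct

namespace Fermat.Agent.Lib.S35

noncomputable section

section Padic

/-- A ring homomorphism from `ℤ_[p]` to a domain of characteristic zero is injective. -/
theorem s35k_padic_injective (p : ℕ) [Fact p.Prime] {O' : Type} [CommRing O'] [IsDomain O']
    [CharZero O'] (f : ℤ_[p] →+* O') : Function.Injective f := by
  rw [injective_iff_map_eq_zero]
  intro x hx
  by_contra hx0
  have hspec := PadicInt.unitCoeff_spec hx0
  rw [hspec, map_mul, map_pow, map_natCast] at hx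
  rcases mul_eq_zero.mp hx with h | h
  · exact ((PadicInt.unitCoeff hx0).isUnit.map f).ne_zero h
  · have hp : (p : O') ≠ 0 := Nat.cast_ne_zero.mpr (Fact.out : p.Prime).ne_zero
    exact pow_ne_zero _ hp h

/-- A domain of characteristic zero is torsion-free over `ℤ_[p]`, for every algebra structure. -/
theorem s35k_padic_torsionFree (p : ℕ) [Fact p.Prime] (O' : Type) [CommRing O'] [IsDomain O']
    [CharZero O'] [Algebra ℤ_[p] O'] : Module.IsTorsionFree ℤ_[p] O' := by
  have hinj : Function.Injective (algebraMap ℤ_[p] O') := s35k_padic_injective p _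
  apply Module.IsTorsionFree.of_smul_eq_zero
  intro r m h
  rw [Algebra.smul_def] at h
  rcases mul_eq_zero.mp h with h | h
  · left
    exact hinj (by rw [h, map_zero])
  · right; exact h

/-- A domain of characteristic zero is flat over `ℤ_[p]`, for every algebra structure. -/
theorem s35k_padic_flat (p : ℕ) [Fact p.Prime] (O' : Type) [CommRing O'] [IsDomain O']
    [CharZero O'] [Algebra ℤ_[p] O'] : Module.Flat ℤ_[p] O' := by
  have := s35k_padic_torsionFree p O'
  infer_instance

end Padic

section Flat

variable {R : Type} [CommRing R] (O' : Type) [CommRing O'] [Algebra R O']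
  {Λ Λ' : Type} [AddCommGroup Λ] [Module R Λ] [AddCommGroup Λ'] [Module R Λ']

/-- Flat base change commutes with kernels. -/
theorem s35k_ker_baseChange [Module.Flat R O'] (f : Λ →ₗ[R] Λ') (K : Submodule R Λ)
    (hK : K = LinearMap.ker f) :
    LinearMap.ker (f.baseChange O') = LinearMap.range (K.subtype.baseChange O') := by
  subst hK
  exact Module.Flat.ker_lTensor_eq O' O' f

/-- A vector of `O' ⊗ Λ` killed by `1 ⊗ α` and by `1 ⊗ β` comes from `O' ⊗ (ker α ⊓ ker β)`. -/
theorem s35k_mem_range_of_ker [Module.Flat R O'] (α β : Λ →ₗ[R] Λ') (w : O' ⊗[R] Λ)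
    (hα : α.baseChange O' w = 0) (hβ : β.baseChange O' w = 0) :
    w ∈ LinearMap.range
      ((LinearMap.ker α ⊓ LinearMap.ker β).subtype.baseChange O') := by
  have hker := s35k_ker_baseChange O' (α.prod β) (LinearMap.ker α ⊓ LinearMap.ker β)
    (LinearMap.ker_prod α β).symm
  rw [← hker, LinearMap.mem_ker]
  set z := (α.prod β).baseChange O' w with hz
  have h1 : (LinearMap.fst R Λ' Λ').baseChange O' z = 0 := by
    rw [hz, ← LinearMap.comp_apply, ← LinearMap.baseChange_comp, LinearMap.fst_prod]
    exact hα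
  have h2 : (LinearMap.snd R Λ' Λ').baseChange O' z = 0 := by
    rw [hz, ← LinearMap.comp_apply, ← LinearMap.baseChange_comp, LinearMap.snd_prod]
    exact hβ
  have hid : (LinearMap.inl R Λ' Λ' ∘ₗ LinearMap.fst R Λ' Λ'
      + LinearMap.inr R Λ' Λ' ∘ₗ LinearMap.snd R Λ' Λ') = LinearMap.id := by
    apply LinearMap.ext
    rintro ⟨a, b⟩
    simp
  have : z = (LinearMap.id : Λ' × Λ' →ₗ[R] Λ' × Λ').baseChange O' z := by
    rw [LinearMap.baseChange_id]; rfl
  rw [this, ← hid, LinearMap.baseChange_add, LinearMap.add_apply, LinearMap.baseChange_comp,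
    LinearMap.baseChange_comp, LinearMap.comp_apply, LinearMap.comp_apply, h1, h2, map_zero,
    map_zero, add_zero]

end Flat

section New

variable {R : Type} [CommRing R] (O' : Type) [CommRing O'] [Algebra R O']
  {Λ : Type} [AddCommGroup Λ] [Module R Λ]

/-- An `R`-linear relation on a submodule `K ≤ Λ` persists on the image of `O' ⊗ K`. -/
theorem s35k_baseChange_eq_zero_of_mem_range (P : Module.End R Λ) (K : Submodule R Λ)
    (hP : ∀ x ∈ K, P x = 0) (w : O' ⊗[R] Λ)
    (hw : w ∈ LinearMap.range (K.subtype.baseChange O')) : P.baseChange O' w = 0 := by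
  obtain ⟨y, rfl⟩ := hw
  induction y using TensorProduct.induction_on with
  | zero => simp
  | tmul b x =>
    rw [LinearMap.baseChange_tmul, LinearMap.baseChange_tmul, Submodule.subtype_apply,
      hP x x.2, TensorProduct.tmul_zero]
  | add x y hx hy => rw [map_add, map_add, hx, hy, add_zero]

/-- **The endgame**: if `P(s) = (s² - q²)(s² - 1)` kills `K ≤ Λ` and `v ≠ 0` is an eigenvector (for
operators `T i` commuting with `s`) in the image of `O' ⊗ K`, then there is a non-zero eigenvector
`w` with `s² w = q² w` or `s² w = w`. -/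
theorem s35k_weakLocal_of_new (s : Module.End R Λ) (q : ℕ) {ι : Type}
    (T : ι → Module.End R Λ) (c : ι → O') (hcomm : ∀ i, Commute s (T i))
    (K : Submodule R Λ)
    (hNW : ∀ x ∈ K, ((s * s - ((q : R) ^ 2) • (1 : Module.End R Λ)) * (s * s - 1)) x = 0)
    (v : O' ⊗[R] Λ) (hv0 : v ≠ 0) (hv : ∀ i, (T i).baseChange O' v = c i • v)
    (hvK : v ∈ LinearMap.range (K.subtype.baseChange O')) :
    ∃ w : O' ⊗[R] Λ, w ≠ 0 ∧ (∀ i, (T i).baseChange O' w = c i • w) ∧
      (s.baseChange O' (s.baseChange O' w) = (q : O') ^ 2 • w ∨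
        s.baseChange O' (s.baseChange O' w) = w) := by
  have hP := s35k_baseChange_eq_zero_of_mem_range O' _ K hNW v hvK
  set S := s.baseChange O' with hS
  have hPS : ((s * s - ((q : R) ^ 2) • (1 : Module.End R Λ)) * (s * s - 1)).baseChange O'
      = (S * S - ((q : O') ^ 2) • (1 : Module.End O' (O' ⊗[R] Λ))) * (S * S - 1) := by
    rw [LinearMap.baseChange_mul, LinearMap.baseChange_sub, LinearMap.baseChange_sub,
      LinearMap.baseChange_mul, LinearMap.baseChange_smul, LinearMap.baseChange_one]
    congr 2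
    apply LinearMap.ext
    intro x
    rw [LinearMap.smul_apply, LinearMap.smul_apply, Module.End.one_apply,
      algebra_compatible_smul O' ((q : R) ^ 2) x, map_pow, map_natCast]
  rw [hPS] at hP
  have hST : ∀ i, Commute S ((T i).baseChange O') := fun i => by
    show s.baseChange O' * (T i).baseChange O' = (T i).baseChange O' * s.baseChange O'
    rw [← LinearMap.baseChange_mul, ← LinearMap.baseChange_mul, (hcomm i).eq]
  have hSv : ∀ (x : O' ⊗[R] Λ), (∀ i, (T i).baseChange O' x = c i • x) →
      ∀ i, (T i).baseChange O' (S x) = c i • S x := by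
    intro x hx i
    have := congrArg (fun f : Module.End O' (O' ⊗[R] Λ) => f x) (hST i).eq
    simp only [Module.End.mul_apply] at this
    rw [← this, hx i, map_smul]
  by_cases hu : (S * S - 1) v = 0
  · refine ⟨v, hv0, hv, Or.inr ?_⟩
    have := hu
    rw [LinearMap.sub_apply, Module.End.mul_apply, Module.End.one_apply, sub_eq_zero] at this
    exact this
  · refine ⟨(S * S - 1) v, hu, ?_, Or.inl ?_⟩
    · intro i
      rw [LinearMap.sub_apply, Module.End.mul_apply, Module.End.one_apply, map_sub,
        hSv _ (hSv v hv) i, hv i, smul_sub]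
    · rw [Module.End.mul_apply] at hP
      have := hP
      rw [LinearMap.sub_apply, Module.End.mul_apply, LinearMap.smul_apply, Module.End.one_apply,
        sub_eq_zero] at this
      exact this

/-- **The bridge**, with the new part given as the common kernel of two degeneracy maps
`α β : Λ →ₗ[R] Λ'` and `O'` flat over `R`. -/
theorem s35k_weakLocal_of_ker [Module.Flat R O'] {Λ' : Type} [AddCommGroup Λ'] [Module R Λ']
    (α β : Λ →ₗ[R] Λ') (s : Module.End R Λ) (q : ℕ) {ι : Type}
    (T : ι → Module.End R Λ) (c : ι → O') (hcomm : ∀ i, Commute s (T i))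
    (hNW : ∀ x : Λ, α x = 0 → β x = 0 →
      ((s * s - ((q : R) ^ 2) • (1 : Module.End R Λ)) * (s * s - 1)) x = 0)
    (v : O' ⊗[R] Λ) (hv0 : v ≠ 0) (hv : ∀ i, (T i).baseChange O' v = c i • v)
    (hα : α.baseChange O' v = 0) (hβ : β.baseChange O' v = 0) :
    ∃ w : O' ⊗[R] Λ, w ≠ 0 ∧ (∀ i, (T i).baseChange O' w = c i • w) ∧
      (s.baseChange O' (s.baseChange O' w) = (q : O') ^ 2 • w ∨
        s.baseChange O' (s.baseChange O' w) = w) :=
  s35k_weakLocal_of_new O' s q T c hcomm (LinearMap.ker α ⊓ LinearMap.ker β)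
    (fun x hx => hNW x (LinearMap.mem_ker.mp hx.1) (LinearMap.mem_ker.mp hx.2)) v hv0 hv
    (s35k_mem_range_of_ker O' α β v hα hβ)

end New

end

end Fermat.Agent.Lib.S35
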