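/-
S35 project, package [B3] (helper1), part 1: THE PUSH-FORWARDS `α_*, β_* : J₀(M q) → J₀(M)`.

* generic: `s35c_pushPic0 φ hφ hfin hN : Pic0 K F' →+ Pic0 K F` (push-forward of divisor classes
  along a finite embedding `φ : F →ₐ[K] F'` satisfying the norm formula), `s35c_pushPic0_mk`,
  `s35c_principal_of_pushPic0_eq_zero`, equivariance `s35c_pushPic0_smul` under intertwined
  semilinear automorphisms;
* generic Tate functoriality `s35c_TpMap f : s30a_Tp A p →ₗ[ℤ_[p]] s30a_Tp B p` for `f : A →+ B`;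
* modular: `s35c_alphaPush M q hq hqM`, `s35c_betaPush M q hq hqM : JZero (M * q) →+ JZero M`,
  Galois equivariance `s35c_alphaPush_smul`, `s35c_betaPush_smul`;
  `s35c_alphaT`, `s35c_betaT : s30a_TJ (M * q) lam →ₗ[ℤ_[lam]] s30a_TJ M lam` and
  `s35c_alphaT_rho`, `s35c_betaT_rho` (they commute with `s30a_rho`).
-/
import Fermat.Agent.Lib.S29.GSHecke
import Fermat.Agent.Lib.S30.TateGal
import Fermat.Agent.Lib.S37.HInputs
import Fermat.Agent.Lib.S37.WNorm

set_option autoImplicit false
set_option linter.unusedSectionVars false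
set_option linter.style.haveILetI false

noncomputable section

namespace Fermat.Agent.Lib.S35

open ModularCurve AlgebraicCurve Fermat.Agent.Lib.S29 Fermat.Agent.Lib.S30 Fermat.Agent.Lib.S37
  Fermat.Agent.Lib.FF

/-! ### Push-forward on `Pic⁰`, generic -/

section General

variable {K F F' : Type*} [Field K] [Field F] [Field F'] [Algebra K F] [Algebra K F']
variable (φ : F →ₐ[K] F') (hφ : φ.toRingHom.IsIntegral)
variable (hfin : FiniteAlong K φ) (hN : NormFormulaAlong K φ hfin)

/-- push-forward of degree-zero divisors -/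
def s35c_degZeroPush :
    Divisor.degZero (K := K) (F := F') →+ Divisor.degZero (K := K) (F := F) :=
  ((Divisor.pushforwardAlong φ hφ).domRestrict
    (Divisor.degZero (K := K) (F := F'))).codRestrict _
    (fun D => Divisor.pushforwardAlong_mem_degZero φ hφ D.2)

@[simp]
theorem s35c_coe_degZeroPush (D : Divisor.degZero (K := K) (F := F')) :
    (s35c_degZeroPush φ hφ D : Divisor K F) = Divisor.pushforwardAlong φ hφ (D : Divisor K F') :=
  rfl

/-- **push-forward of divisor classes** along a finite embedding with the norm formula. -/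
def s35c_pushPic0 : Pic0 K F' →+ Pic0 K F :=
  QuotientAddGroup.map _ _ (s35c_degZeroPush φ hφ) (by
    rintro ⟨D, hD0⟩ hD
    simp only [AddSubgroup.mem_addSubgroupOf] at hD ⊢
    exact Divisor.isPrincipal_pushforwardAlong φ hφ hfin hN hD)

theorem s35c_pushPic0_mk (D : Divisor.degZero (K := K) (F := F')) :
    s35c_pushPic0 φ hφ hfin hN (Pic0.mk D) = Pic0.mk (s35c_degZeroPush φ hφ D) :=
  rfl

/-- a class dies under the push-forward iff the push-forward of a representing divisor is
principal. -/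
theorem s35c_pushPic0_mk_eq_zero_iff (D : Divisor.degZero (K := K) (F := F')) :
    s35c_pushPic0 φ hφ hfin hN (Pic0.mk D) = 0 ↔
      (Divisor.pushforwardAlong φ hφ (D : Divisor K F')).IsPrincipal := by
  rw [s35c_pushPic0_mk]
  show ((QuotientAddGroup.mk (s35c_degZeroPush φ hφ D) :
      Divisor.degZero (K := K) (F := F) ⧸ _) = 0) ↔ _
  rw [QuotientAddGroup.eq_zero_iff]
  rfl

/-- **equivariance of the push-forward** under intertwined semilinear automorphisms. -/
theorem s35c_pushPic0_smul (g : SemilinearAut K F) (g' : SemilinearAut K F')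
    (h : SemilinearAut.IntertwinesAlong (φ : F →+* F') g g')
    (hdeg : ∀ v : Place K F, v.deg ≠ 0) (x : Pic0 K F') :
    s35c_pushPic0 φ hφ hfin hN (g' • x) = g • s35c_pushPic0 φ hφ hfin hN x := by
  obtain ⟨D, rfl⟩ := Pic0.mk_surjective x
  rw [SemilinearAut.pic0_smul_mk, s35c_pushPic0_mk, s35c_pushPic0_mk,
    SemilinearAut.pic0_smul_mk]
  congr 1
  apply Subtype.ext
  rw [s35c_coe_degZeroPush, SemilinearAut.coe_degZeroSMulHom,
    SemilinearAut.coe_degZeroSMulHom, s35c_coe_degZeroPush]
  exact s29g_pushforwardAlong_smul φ hφ g g' h hdeg _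

end General

/-! ### Functoriality of the Tate module for homomorphisms `A →+ B` -/

section Tate

variable {A B C : Type*} [AddCommGroup A] [AddCommGroup B] [AddCommGroup C]
  {p : ℕ} [hp : Fact p.Prime]

/-- an additive map `A →+ B` acts `ℤ_[p]`-linearly on the Tate modules. -/
def s35c_TpMap (f : A →+ B) : s30a_Tp A p →ₗ[ℤ_[p]] s30a_Tp B p where
  toFun x := ⟨fun n => f ((x : ℕ → A) n), by
    refine ⟨?_, fun n => ?_⟩
    · show f ((x : ℕ → A) 0) = 0
      rw [s30a_zero, map_zero]
    · show p • f ((x : ℕ → A) (n + 1)) = f ((x : ℕ → A) n)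
      rw [← map_nsmul, s30a_succ]⟩
  map_add' x y := by
    refine s30a_ext fun n => ?_
    show f ((x : ℕ → A) n + (y : ℕ → A) n) = f ((x : ℕ → A) n) + f ((y : ℕ → A) n)
    rw [map_add]
  map_smul' a x := by
    refine s30a_ext fun n => ?_
    show f (a.appr n • (x : ℕ → A) n) = a.appr n • f ((x : ℕ → A) n)
    rw [map_nsmul]

@[simp] theorem s35c_TpMap_apply (f : A →+ B) (x : s30a_Tp A p) (n : ℕ) :
    ((s35c_TpMap f x : s30a_Tp B p) : ℕ → B) n = f ((x : ℕ → A) n) := rfl

theorem s35c_TpMap_comp (f : A →+ B) (g : B →+ C) (x : s30a_Tp A p) :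
    s35c_TpMap (p := p) (g.comp f) x = s35c_TpMap g (s35c_TpMap f x) := rfl

/-- a commuting square of additive maps gives a commuting square of Tate modules. -/
theorem s35c_TpMap_comm (f : A →+ B) (a : AddMonoid.End A) (b : AddMonoid.End B)
    (h : ∀ x, f (a x) = b (f x)) (x : s30a_Tp A p) :
    s35c_TpMap f (s30a_map A p a x) = s30a_map B p b (s35c_TpMap f x) := by
  refine s30a_ext fun n => ?_
  show f (a ((x : ℕ → A) n)) = b (f ((x : ℕ → A) n))
  exact h _

/-- an element of the Tate module is killed by `f` iff all its components are. -/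
theorem s35c_TpMap_eq_zero_iff (f : A →+ B) (x : s30a_Tp A p) :
    s35c_TpMap f x = 0 ↔ ∀ n, f ((x : ℕ → A) n) = 0 := by
  constructor
  · intro h n
    have := congrArg (fun y : s30a_Tp B p => (y : ℕ → B) n) h
    exact this
  · intro h
    exact s30a_ext fun n => h n

end Tate

/-! ### The modular instance -/

section Modular

local notation "Kb" => AlgebraicClosure ℚ

variable (M q : ℕ) [NeZero M] [NeZero q] (hq : q.Prime) (hqM : ¬ q ∣ M)

include hq hqM in
/-- `α : F̄(M) → F̄(M q)` is integral. -/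
theorem s35c_alphaIntegral : (heckeAlphaBar Kb M q).toRingHom.IsIntegral :=
  s37h_isIntegral_of_finiteAlong _ (s37w_finite_alpha M q hq hqM)

include hq hqM in
/-- `β : F̄(M) → F̄(M q)` is integral. -/
theorem s35c_betaIntegral : (heckeBetaBar Kb M q).toRingHom.IsIntegral :=
  s37h_isIntegral_of_finiteAlong _ (s37w_finite_beta M q hq hqM)

/-- **`α_* : J₀(M q) → J₀(M)`**. -/
def s35c_alphaPush : JZero (M * q) →+ JZero M :=
  s35c_pushPic0 (heckeAlphaBar Kb M q) (s35c_alphaIntegral M q hq hqM)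
    (s37w_finite_alpha M q hq hqM) (s37h_normFormulaAlong _ (s37w_finite_alpha M q hq hqM))

/-- **`β_* : J₀(M q) → J₀(M)`**. -/
def s35c_betaPush : JZero (M * q) →+ JZero M :=
  s35c_pushPic0 (heckeBetaBar Kb M q) (s35c_betaIntegral M q hq hqM)
    (s37w_finite_beta M q hq hqM) (s37h_normFormulaAlong _ (s37w_finite_beta M q hq hqM))

theorem s35c_alphaPush_mk (D : Divisor.degZero (K := Kb) (F := ffi_F (M * q))) :
    s35c_alphaPush M q hq hqM (Pic0.mk D) =
      Pic0.mk (s35c_degZeroPush (heckeAlphaBar Kb M q) (s35c_alphaIntegral M q hq hqM) D) :=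
  rfl

theorem s35c_betaPush_mk (D : Divisor.degZero (K := Kb) (F := ffi_F (M * q))) :
    s35c_betaPush M q hq hqM (Pic0.mk D) =
      Pic0.mk (s35c_degZeroPush (heckeBetaBar Kb M q) (s35c_betaIntegral M q hq hqM) D) :=
  rfl

/-- a class killed by `α_*` has a representative whose push-forward is principal (for any proof
`hα` of integrality). -/
theorem s35c_principal_of_alphaPush_eq_zero
    (hα : (heckeAlphaBar Kb M q).toRingHom.IsIntegral)
    (D : Divisor.degZero (K := Kb) (F := ffi_F (M * q)))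
    (h : s35c_alphaPush M q hq hqM (Pic0.mk D) = 0) :
    (Divisor.pushforwardAlong (heckeAlphaBar Kb M q) hα (D : Divisor Kb (ffi_F (M * q)))).IsPrincipal :=
  (s35c_pushPic0_mk_eq_zero_iff _ _ _ _ D).mp h

theorem s35c_principal_of_betaPush_eq_zero
    (hβ : (heckeBetaBar Kb M q).toRingHom.IsIntegral)
    (D : Divisor.degZero (K := Kb) (F := ffi_F (M * q)))
    (h : s35c_betaPush M q hq hqM (Pic0.mk D) = 0) :
    (Divisor.pushforwardAlong (heckeBetaBar Kb M q) hβ (D : Divisor Kb (ffi_F (M * q)))).IsPrincipal :=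
  (s35c_pushPic0_mk_eq_zero_iff _ _ _ _ D).mp h

theorem s35c_alphaPush_eq_zero_of_principal
    (hα : (heckeAlphaBar Kb M q).toRingHom.IsIntegral)
    (D : Divisor.degZero (K := Kb) (F := ffi_F (M * q)))
    (h : (Divisor.pushforwardAlong (heckeAlphaBar Kb M q) hα
      (D : Divisor Kb (ffi_F (M * q)))).IsPrincipal) :
    s35c_alphaPush M q hq hqM (Pic0.mk D) = 0 :=
  (s35c_pushPic0_mk_eq_zero_iff _ _ _ _ D).mpr h

theorem s35c_betaPush_eq_zero_of_principal
    (hβ : (heckeBetaBar Kb M q).toRingHom.IsIntegral)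
    (D : Divisor.degZero (K := Kb) (F := ffi_F (M * q)))
    (h : (Divisor.pushforwardAlong (heckeBetaBar Kb M q) hβ
      (D : Divisor Kb (ffi_F (M * q)))).IsPrincipal) :
    s35c_betaPush M q hq hqM (Pic0.mk D) = 0 :=
  (s35c_pushPic0_mk_eq_zero_iff _ _ _ _ D).mpr h

/-- **`α_*` is Galois equivariant.** -/
theorem s35c_alphaPush_smul (σ : s29k_G) (x : JZero (M * q)) :
    s35c_alphaPush M q hq hqM (σ • x) = σ • s35c_alphaPush M q hq hqM x := by
  rw [galois_smul_pic0_def, galois_smul_pic0_def]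
  exact s35c_pushPic0_smul _ _ _ _ _ _ (s29g_alpha_intertwines M q σ)
    (fun v => by rw [s37l_deg_eq_one M v]; exact one_ne_zero) x

/-- **`β_*` is Galois equivariant.** -/
theorem s35c_betaPush_smul (σ : s29k_G) (x : JZero (M * q)) :
    s35c_betaPush M q hq hqM (σ • x) = σ • s35c_betaPush M q hq hqM x := by
  rw [galois_smul_pic0_def, galois_smul_pic0_def]
  exact s35c_pushPic0_smul _ _ _ _ _ _ (s29g_beta_intertwines M q σ)
    (fun v => by rw [s37l_deg_eq_one M v]; exact one_ne_zero) x

variable (lam : ℕ) [Fact lam.Prime]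

/-- **`α_*` on the Tate modules.** -/
def s35c_alphaT : s30a_TJ (M * q) lam →ₗ[ℤ_[lam]] s30a_TJ M lam :=
  s35c_TpMap (s35c_alphaPush M q hq hqM)

/-- **`β_*` on the Tate modules.** -/
def s35c_betaT : s30a_TJ (M * q) lam →ₗ[ℤ_[lam]] s30a_TJ M lam :=
  s35c_TpMap (s35c_betaPush M q hq hqM)

@[simp] theorem s35c_alphaT_coe (x : s30a_TJ (M * q) lam) (n : ℕ) :
    ((s35c_alphaT M q hq hqM lam x : s30a_TJ M lam) : ℕ → JZero M) n =
      s35c_alphaPush M q hq hqM ((x : ℕ → JZero (M * q)) n) := rfl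

@[simp] theorem s35c_betaT_coe (x : s30a_TJ (M * q) lam) (n : ℕ) :
    ((s35c_betaT M q hq hqM lam x : s30a_TJ M lam) : ℕ → JZero M) n =
      s35c_betaPush M q hq hqM ((x : ℕ → JZero (M * q)) n) := rfl

/-- `α_*` commutes with the Galois action on the Tate modules. -/
theorem s35c_alphaT_rho (σ : s29k_G) (x : s30a_TJ (M * q) lam) :
    s35c_alphaT M q hq hqM lam (s30a_rho (M * q) lam σ x) =
      s30a_rho M lam σ (s35c_alphaT M q hq hqM lam x) := by
  refine s30a_ext fun n => ?_
  show s35c_alphaPush M q hq hqM (σ • (x : ℕ → JZero (M * q)) n) =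
    σ • s35c_alphaPush M q hq hqM ((x : ℕ → JZero (M * q)) n)
  exact s35c_alphaPush_smul M q hq hqM σ _

/-- `β_*` commutes with the Galois action on the Tate modules. -/
theorem s35c_betaT_rho (σ : s29k_G) (x : s30a_TJ (M * q) lam) :
    s35c_betaT M q hq hqM lam (s30a_rho (M * q) lam σ x) =
      s30a_rho M lam σ (s35c_betaT M q hq hqM lam x) := by
  refine s30a_ext fun n => ?_
  show s35c_betaPush M q hq hqM (σ • (x : ℕ → JZero (M * q)) n) =
    σ • s35c_betaPush M q hq hqM ((x : ℕ → JZero (M * q)) n)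
  exact s35c_betaPush_smul M q hq hqM σ _

end Modular

end Fermat.Agent.Lib.S35
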