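/-
S35, package [R] (helper5, prefix `s35q_`), part 4: NORM COMPATIBILITY.  The norms along the two
degeneracy maps `α, β : 𝓕_{M,K₀} → 𝓕_{M q,K₀}` commute with the coefficientwise base change
`ι : 𝓕_{·,K₀} → 𝓕_{·,ℚ̄}` for every field `K₀` of characteristic zero with an embedding into `ℚ̄`:

  `ι (Nm_α f) = Nm_ᾱ (ι f)`,  `ι (Nm_β f) = Nm_β̄ (ι f)`.

* `s35q_norm_baseChange_of_span` : generic (a basis downstairs stays independent and spans);
* `s35q_norm_alpha_iota`, `s35q_norm_beta_iota` : the two compatibilities (`β` via Atkin–Lehner);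
* `s35q_normCompat : s35q_NormCompat M q` and the hypothesis-free descent
  `s35q_kummerNW_of_nf'`.
-/
import Mathlib
import Fermat.Agent.Lib.S35.RDesc
import Fermat.Agent.Lib.S34.RDeg
import Fermat.Agent.Lib.S34.MValAL
import Fermat.Agent.Lib.S37.WNorm

set_option autoImplicit false
set_option linter.style.haveILetI false
set_option synthInstance.maxHeartbeats 400000

noncomputable section

namespace Fermat.Agent.Lib.S35

open Module AlgebraicCurve ModularCurve Fermat.Agent.Lib.S18 Fermat.Agent.Lib.FF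
  Fermat.Agent.Lib.S34 Fermat.Agent.Lib.S37 Fermat.Agent.Lib.S28

local notation "Kb" => AlgebraicClosure ℚ

section Generic

variable {F F₁ F₂ F₃ : Type*} [Field F] [Field F₁] [Field F₂] [Field F₃]
  [Algebra F F₁] [Algebra F F₂] [Algebra F₁ F₃] [Algebra F₂ F₃] [Algebra F F₃]
  [IsScalarTower F F₁ F₃] [IsScalarTower F F₂ F₃]

/-- **Norms commute with base change** in a square of fields in which every `F`-independent
family of `F₁` stays `F₂`-independent in `F₃` and `F₃` is spanned over `F₂` by the image of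
`F₁`. -/
theorem s35q_norm_baseChange_of_span [FiniteDimensional F F₁]
    (hli : ∀ (n : ℕ) (b : Fin n → F₁), LinearIndependent F b →
      LinearIndependent F₂ (fun i => algebraMap F₁ F₃ (b i)))
    (hsp : ∀ y : F₃, y ∈ Submodule.span F₂ (Set.range (algebraMap F₁ F₃)))
    (x : F₁) :
    Algebra.norm F₂ (algebraMap F₁ F₃ x) = algebraMap F F₂ (Algebra.norm F x) := by
  classical
  set n := finrank F F₁ with hn
  let b : Basis (Fin n) F F₁ := Module.finBasis F F₁
  have hli' := hli n b b.linearIndependent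
  have hmap : ∀ (c : F) (z : F₁), algebraMap F₁ F₃ (c • z) =
      algebraMap F F₂ c • algebraMap F₁ F₃ z := by
    intro c z
    rw [Algebra.smul_def, Algebra.smul_def, map_mul, ← IsScalarTower.algebraMap_apply,
      ← IsScalarTower.algebraMap_apply]
  have hspan : ⊤ ≤ Submodule.span F₂ (Set.range fun i => algebraMap F₁ F₃ (b i)) := by
    intro y _
    refine Submodule.span_le.mpr ?_ (hsp y)
    rintro _ ⟨x₁, rfl⟩
    rw [← b.sum_repr x₁, map_sum]
    refine Submodule.sum_mem _ fun k _ => ?_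
    rw [hmap]
    exact Submodule.smul_mem _ _ (Submodule.subset_span ⟨k, rfl⟩)
  let b' : Basis (Fin n) F₂ F₃ := Basis.mk hli' hspan
  have hb' : ∀ i, b' i = algebraMap F₁ F₃ (b i) := fun i => by
    simp only [b', Basis.mk_apply]
  rw [Algebra.norm_eq_matrix_det b', Algebra.norm_eq_matrix_det b, RingHom.map_det]
  congr 1
  ext i j
  rw [RingHom.mapMatrix_apply, Matrix.map_apply, Algebra.leftMulMatrix_eq_repr_mul,
    Algebra.leftMulMatrix_eq_repr_mul]
  have hexp : algebraMap F₁ F₃ x * b' j =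
      ∑ k, algebraMap F F₂ (b.repr (x * b j) k) • b' k := by
    rw [hb', ← map_mul]
    conv_lhs => rw [← b.sum_repr (x * b j)]
    rw [map_sum]
    refine Finset.sum_congr rfl fun k _ => ?_
    rw [hb', hmap]
  rw [hexp, map_sum, Finsupp.coe_finsetSum, Finset.sum_apply]
  simp only [map_smul, Basis.repr_self, Finsupp.smul_apply, Finsupp.single_apply, smul_eq_mul,
    mul_ite, mul_one, mul_zero, Finset.sum_ite_eq', Finset.mem_univ, if_true]

end Generic

section Modular

variable {K₀ : Type*} [Field K₀] [Algebra ℚ K₀] (φ : K₀ →+* Kb)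
variable (M q : ℕ) [NeZero M] [NeZero q]

/-- **`ι (Nm_α f) = Nm_ᾱ (ι f)`.** -/
theorem s35q_norm_alpha_iota (hq : q.Prime) (hqM : ¬ q ∣ M) (f : s34m_F K₀ (M * q)) :
    s34m_iota φ M (s35r_normAlong (heckeAlphaBar K₀ M q) f) =
      s35r_normAlong (heckeAlphaBar Kb M q) (s34m_iota φ (M * q) f) := by
  letI i1 : Algebra (s34m_F K₀ M) (s34m_F K₀ (M * q)) := algebraAlong (heckeAlphaBar K₀ M q)
  letI i2 : Algebra (s34m_F K₀ M) (ffi_F M) := (s34m_iota φ M).toAlgebra
  letI i3 : Algebra (s34m_F K₀ (M * q)) (ffi_F (M * q)) := (s34m_iota φ (M * q)).toAlgebra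
  letI i4 : Algebra (ffi_F M) (ffi_F (M * q)) := algebraAlong (heckeAlphaBar Kb M q)
  letI i5 : Algebra (s34m_F K₀ M) (ffi_F (M * q)) :=
    ((heckeAlphaBar Kb M q).toRingHom.comp (s34m_iota φ M)).toAlgebra
  haveI t1 : IsScalarTower (s34m_F K₀ M) (ffi_F M) (ffi_F (M * q)) :=
    IsScalarTower.of_algebraMap_eq fun x => rfl
  haveI t2 : IsScalarTower (s34m_F K₀ M) (s34m_F K₀ (M * q)) (ffi_F (M * q)) :=
    IsScalarTower.of_algebraMap_eq fun x => (s34m_iota_alpha φ M q x).symm
  haveI : FiniteDimensional (s34m_F K₀ M) (s34m_F K₀ (M * q)) := (s34r_deg_le φ M q hq hqM).1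
  have hli : ∀ (n : ℕ) (b : Fin n → s34m_F K₀ (M * q)), LinearIndependent (s34m_F K₀ M) b →
      LinearIndependent (ffi_F M) (fun i => algebraMap (s34m_F K₀ (M * q)) (ffi_F (M * q)) (b i)) :=
    fun n b hb => s34r_deg_indep φ M q b hb
  have hsp : ∀ y : ffi_F (M * q), y ∈ Submodule.span (ffi_F M)
      (Set.range (algebraMap (s34m_F K₀ (M * q)) (ffi_F (M * q)))) := by
    intro y
    letI : Algebra K₀ Kb := φ.toAlgebra
    haveI : Algebra.IsAlgebraic ℚ Kb := s18q_isAlgebraic_bar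
    haveI : Algebra.IsAlgebraic K₀ Kb := s18q_isAlgebraic_toAlgebra φ
    haveI := isScalarTower_along (heckeAlphaBar Kb M q)
    have h1 := s34r_deg_span (K₀ := K₀) (K := Kb) (modularFunctionFieldFull (M * q)) y
    exact Submodule.span_le_restrictScalars Kb (ffi_F M) _ h1
  exact (s35q_norm_baseChange_of_span (F := s34m_F K₀ M) (F₁ := s34m_F K₀ (M * q))
    (F₂ := ffi_F M) (F₃ := ffi_F (M * q)) hli hsp f).symm

/-- **`ι (Nm_β f) = Nm_β̄ (ι f)`** (via the Atkin–Lehner involution). -/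
theorem s35q_norm_beta_iota (hq : q.Prime) (hqM : ¬ q ∣ M) (f : s34m_F K₀ (M * q)) :
    s34m_iota φ M (s35r_normAlong (heckeBetaBar K₀ M q) f) =
      s35r_normAlong (heckeBetaBar Kb M q) (s34m_iota φ (M * q) f) := by
  have h1 : s35r_normAlong (heckeBetaBar K₀ M q) f =
      s35r_normAlong (heckeAlphaBar K₀ M q) (s34m_al φ M q hq hqM f) :=
    s37w_norm_transport (heckeAlphaBar K₀ M q).toRingHom (heckeBetaBar K₀ M q).toRingHom
      (s34m_al φ M q hq hqM).toRingEquiv (fun y => s34m_al_beta φ M q hq hqM y) f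
  have h2 : s35r_normAlong (heckeBetaBar Kb M q) (s34m_iota φ (M * q) f) =
      s35r_normAlong (heckeAlphaBar Kb M q) (s37w_al M q hq hqM (s34m_iota φ (M * q) f)) :=
    s37w_norm_beta_side M q hq hqM _
  rw [h1, h2, s35q_norm_alpha_iota φ M q hq hqM, s34m_iota_al]

/-- **Norm compatibility.** -/
theorem s35q_normCompat (hq : q.Prime) (hqM : ¬ q ∣ M) : s35q_NormCompat M q :=
  fun L₀ _ f₀ => ⟨s35q_norm_alpha_iota (algebraMap ↥L₀ Kb) M q hq hqM f₀,
    s35q_norm_beta_iota (algebraMap ↥L₀ Kb) M q hq hqM f₀⟩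

/-- **Descent to a number field**, hypothesis-free form. -/
theorem s35q_kummerNW_of_nf' (hq : q.Prime) (hqM : ¬ q ∣ M) (m : ℕ) (hNF : s35q_NFKummer M q m)
    (A : ValuationSubring Kb) (hA : A.LiesOverPrime q) (σ : Kb ≃ₐ[ℚ] Kb)
    (hσ : A.IsFrobeniusAt σ q) : s35r_KummerNWmod M q σ m :=
  s35q_kummerNW_of_nf M q hq m (s35q_normCompat M q hq hqM) hNF A hA σ hσ

end Modular

end Fermat.Agent.Lib.S35
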