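/-
S35, package [R] (helper5, prefix `s35q_`), part 5: the bottom of [R].

From the number-field contract `s35q_NFKummer M' q m` (RDesc) at the levels `M' q` which are GOOD
for `q` in the sense of S18 (`q ∤ M'`, and `q ≥ 5`, or `q = 3 ∧ 2 ∣ M'`, or `q = 2 ∧ 3 ∣ M'`):

* `s35q_kummerNW_of_nf_good` : the Kummer form `s35r_KummerNWmod M q σ m` at ALL levels `M q`,
  `q ∤ M`, for every Frobenius lift `σ` at a place over `q` (descent `s35q_kummerNW_of_nf'` +
  change of level `s35r_kummerNW_of_good`);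
* `s35q_NW_jzero` : NEW-WEIGHT on `J₀(M q)[m]`: `α_* z = 0 = β_* z ⟹ (σ² - q²)(σ² - 1) z = 0`
  (with helper1's `s35c_alphaPush`, `s35c_betaPush`);
* `s35q_NW_tate` : NEW-WEIGHT on the Tate module `T_λ J₀(M q)`, `λ ≠ q`, in EXACTLY the shape of
  the hypothesis `hNW` of helper3's `s35k_weakLocal_of_ker` (with `α = s35c_alphaT`,
  `β = s35c_betaT`, `s = s30a_rho (M q) λ σ`).
-/
import Mathlib
import Fermat.Agent.Lib.S35.RNorm
import Fermat.Agent.Lib.S35.B3Push

set_option autoImplicit false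
set_option linter.style.haveILetI false

noncomputable section

namespace Fermat.Agent.Lib.S35

open AlgebraicCurve ModularCurve Fermat.Agent.Lib.S29 Fermat.Agent.Lib.S30 Fermat.Agent.Lib.S37
  Fermat.Agent.Lib.FF

local notation "Kb" => AlgebraicClosure ℚ

/-- The levels `M q` (with `q ∤ M`) at which the geometric inputs of S18 are available in
residue characteristic `q`. -/
def s35q_GoodM (q M : ℕ) : Prop :=
  ¬ q ∣ M ∧ (5 ≤ q ∨ (q = 3 ∧ 2 ∣ M) ∨ (q = 2 ∧ 3 ∣ M))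

/-- **Bottom of [R], Kummer form**: from the number-field contract at the good levels. -/
theorem s35q_kummerNW_of_nf_good (q : ℕ) [NeZero q] (hq : q.Prime) (m : ℕ) (hm : ¬ q ∣ m)
    (h : ∀ (M' : ℕ) [NeZero M'], s35q_GoodM q M' → s35q_NFKummer M' q m)
    (A : ValuationSubring Kb) (hA : A.LiesOverPrime q) (σ : s29k_G)
    (hσ : A.IsFrobeniusAt σ q) (M : ℕ) [NeZero M] (hqM : ¬ q ∣ M) :
    s35r_KummerNWmod M q σ m :=
  s35r_kummerNW_of_good q hq σ m hm
    (fun M' _ hqM' hgood =>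
      s35q_kummerNW_of_nf' M' q hq hqM' m (h M' ⟨hqM', hgood⟩) A hA σ hσ) M hqM

variable (M q : ℕ) [NeZero M] [NeZero q]

/-- **NEW-WEIGHT on `J₀(M q)[m]`**: a class killed by `m`, `α_*` and `β_*` is killed by
`(σ² - q²)(σ² - 1)`, for every Frobenius lift `σ` at a place over `q`. -/
theorem s35q_NW_jzero (hq : q.Prime) (hqM : ¬ q ∣ M) (m : ℕ) (hm : ¬ q ∣ m)
    (h : ∀ (M' : ℕ) [NeZero M'], s35q_GoodM q M' → s35q_NFKummer M' q m)
    (A : ValuationSubring Kb) (hA : A.LiesOverPrime q) (σ : s29k_G)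
    (hσ : A.IsFrobeniusAt σ q) (z : JZero (M * q)) (hz : m • z = 0)
    (h1 : s35c_alphaPush M q hq hqM z = 0) (h2 : s35c_betaPush M q hq hqM z = 0) :
    σ • σ • σ • σ • z - (1 + q ^ 2) • (σ • σ • z) + q ^ 2 • z = 0 := by
  have hm0 : m ≠ 0 := by
    rintro rfl
    exact hm (dvd_zero q)
  obtain ⟨D, rfl⟩ := Pic0.mk_surjective z
  exact s35r_top hq hqM σ m hm0
    (s35q_kummerNW_of_nf_good q hq m hm h A hA σ hσ M hqM) D hz
    (s35c_principal_of_alphaPush_eq_zero M q hq hqM _ D h1)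
    (s35c_principal_of_betaPush_eq_zero M q hq hqM _ D h2)

/-- **NEW-WEIGHT on the Tate module** `T_λ J₀(M q)`, `λ ≠ q`: the common kernel of `α_*` and `β_*`
is killed by `(σ² - q²)(σ² - 1)`, for every Frobenius lift `σ` at a place over `q`. -/
theorem s35q_NW_tate (hq : q.Prime) (hqM : ¬ q ∣ M) (lam : ℕ) [Fact lam.Prime] (hql : q ≠ lam)
    (h : ∀ (M' : ℕ) [NeZero M'], s35q_GoodM q M' → ∀ n : ℕ, s35q_NFKummer M' q (lam ^ n))
    (A : ValuationSubring Kb) (hA : A.LiesOverPrime q) (σ : s29k_G)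
    (hσ : A.IsFrobeniusAt σ q) (x : s30a_TJ (M * q) lam)
    (hα : s35c_alphaT M q hq hqM lam x = 0) (hβ : s35c_betaT M q hq hqM lam x = 0) :
    ((s30a_rho (M * q) lam σ * s30a_rho (M * q) lam σ -
        ((q : ℤ_[lam]) ^ 2) • (1 : Module.End ℤ_[lam] (s30a_TJ (M * q) lam))) *
      (s30a_rho (M * q) lam σ * s30a_rho (M * q) lam σ - 1)) x = 0 := by
  refine s30a_ext fun n => ?_
  have hm : ¬ q ∣ lam ^ n := by
    intro hdvd
    exact hql ((Nat.prime_dvd_prime_iff_eq hq Fact.out).mp (hq.dvd_of_dvd_pow hdvd))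
  have key := s35q_NW_jzero M q hq hqM (lam ^ n) hm (fun M' _ hg => h M' hg n) A hA σ hσ
    ((x : ℕ → JZero (M * q)) n) (s30a_pow_smul x n)
    ((s35c_TpMap_eq_zero_iff _ x).mp hα n) ((s35c_TpMap_eq_zero_iff _ x).mp hβ n)
  have hq2 : ((q : ℤ_[lam]) ^ 2) = ((q ^ 2 : ℕ) : ℤ_[lam]) := by push_cast; rfl
  rw [hq2]
  simp only [Module.End.mul_apply, LinearMap.sub_apply, LinearMap.smul_apply,
    Module.End.one_apply, s30a_sub_apply, s30a_rho_apply, s30a_natCast_smul_apply,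
    s30a_zero_apply, smul_sub]
  rw [← key]
  simp only [add_smul, one_smul]
  abel

end Fermat.Agent.Lib.S35
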