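/-
S35, FINAL ASSEMBLY (helper5, prefix `s35q_`): the WEAK LOCAL contract `s35_WeakLocal` of
`Lib/S35/Top.lean`, hence the S35 statement, from the TWO remaining named inputs

* `s35q_Geo` : the number-field contract `s35q_NFKummer M' q (lam ^ n)` (RDesc) at the levels
  `M' q` which are good for `q` in the sense of S18 (`s35q_GoodM q M'`), all primes `lam ≠ q`;
* `s35q_B3`  : [B3] — for a newform `g` of level `M q` (`q ∤ M`), every vector of
  `O' ⊗ T_lam J₀(M q)` which is an eigenvector for the eigenvalues of `g` (at the good primes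
  `ℓ ∉ S`) is killed by `1 ⊗ α_*` and `1 ⊗ β_*`.

Route: `(s30u_tateDatum (M q) lam).eig` gives a non-zero eigenvector `v`; [B3] puts it into
`O' ⊗ (ker α_* ⊓ ker β_*)` (flatness, `s35k_mem_range_of_ker`); NEW-WEIGHT `s35q_NW_tate` (RGood)
kills `ker α_* ⊓ ker β_*` by `(σ² - q²)(σ² - 1)`; the bridge `s35k_weakLocal_of_ker` concludes.
-/
import Mathlib
import Fermat.Agent.Lib.S35.RGood
import Fermat.Agent.Lib.S35.Bridge
import Fermat.Agent.Lib.S35.Top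

set_option autoImplicit false
set_option linter.style.haveILetI false

open Polynomial
open scoped TensorProduct

noncomputable section

namespace Fermat.Agent.Lib.S35

open AlgebraicCurve ModularCurve Fermat.Agent.Lib.S29 Fermat.Agent.Lib.S30

/-- **(G)** the geometric input: the number-field contract of NEW-WEIGHT at the good levels. -/
def s35q_Geo : Prop :=
  ∀ (q : ℕ) [NeZero q], q.Prime → ∀ (M' : ℕ) [NeZero M'], s35q_GoodM q M' →
    ∀ lam : ℕ, lam.Prime → q ≠ lam → ∀ n : ℕ, s35q_NFKummer M' q (lam ^ n)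

/-- **(B3)** newness: the eigenvectors of a newform of level `M q` in `O' ⊗ T_lam J₀(M q)` die under
`1 ⊗ α_*` and `1 ⊗ β_*`. -/
def s35q_B3 : Prop :=
  ∀ (M q : ℕ) [NeZero M] [NeZero q] (hq : q.Prime) (hqM : ¬ q ∣ M)
    {g : CuspForm (CongruenceSubgroup.Gamma0 (M * q)) 2} (_ : g.IsNewform)
    (lam : ℕ) [Fact lam.Prime] (S : Finset ℕ)
    (O' : Type) [CommRing O'] [IsDomain O'] [IsDiscreteValuationRing O']
    [IsAdicComplete (IsLocalRing.maximalIdeal O') O'] [Finite (IsLocalRing.ResidueField O')]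
    [CharZero O'] [Algebra ℤ_[lam] O'] (_ : (lam : O') ∈ IsLocalRing.maximalIdeal O')
    (chig : CuspForm.heckeAlgebra (M * q) 2 (↑S : Set ℕ) →+* ℂ)
    (_ : ∀ (ℓ : ℕ) (hℓ : ℓ.Prime) (hℓM : ¬ ℓ ∣ M * q) (hℓS : ℓ ∉ (↑S : Set ℕ)),
      chig (CuspForm.heckeAlgebra.T hℓ hℓM hℓS) = ModularFormClass.qCoeff g ℓ)
    (iota : chig.range →+* O')
    (_ : lam ∈ S) (_ : ∀ p : ℕ, p.Prime → p ∣ M * q → p ∈ S)
    (w : O' ⊗[ℤ_[lam]] s30a_TJ (M * q) lam),
    (∀ (ℓ : ℕ) (hℓ : ℓ.Prime) (hℓM : ¬ ℓ ∣ M * q) (hℓS : ℓ ∉ (↑S : Set ℕ)),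
      (s30a_Tz (M * q) lam ⟨ℓ, hℓ⟩).baseChange O' w =
        (iota.comp chig.rangeRestrict) (CuspForm.heckeAlgebra.T hℓ hℓM hℓS) • w) →
    (s35c_alphaT M q hq hqM lam).baseChange O' w = 0 ∧
      (s35c_betaT M q hq hqM lam).baseChange O' w = 0

/-- **WEAK LOCAL from (G) and (B3).** -/
theorem s35q_weakLocal (hG : s35q_Geo) (hB3 : s35q_B3) : s35_WeakLocal := by
  intro M _ g hg lam _ S O' _ _ _ _ _ _ _ hlamO' chig hchig iota hlamS hMS q hq hql hqM hq2 A hA σ hσ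
  obtain ⟨M', hM'⟩ : ∃ M' : ℕ, M = M' * q := ⟨M / q, (Nat.div_mul_cancel hqM).symm⟩
  subst hM'
  have hqM' : ¬ q ∣ M' := by
    intro h
    apply hq2
    rw [sq]
    exact mul_dvd_mul_right h q
  haveI : NeZero q := ⟨hq.ne_zero⟩
  haveI : NeZero M' := ⟨by
    rintro rfl
    exact NeZero.ne (0 * q) (zero_mul q)⟩
  -- the eigenvector
  obtain ⟨v, hv0, hv⟩ := (s30u_tateDatum (M' * q) lam).eig S O' (iota.comp chig.rangeRestrict)
  obtain ⟨hα, hβ⟩ := hB3 M' q hq hqM' hg lam S O' hlamO' chig hchig iota hlamS hMS v hv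
  haveI : Module.Flat ℤ_[lam] O' := s35k_padic_flat lam O'
  -- the bridge
  obtain ⟨w, hw0, hw, hws⟩ := s35k_weakLocal_of_ker (R := ℤ_[lam]) O'
    (s35c_alphaT M' q hq hqM' lam) (s35c_betaT M' q hq hqM' lam)
    ((s30u_tateDatum (M' * q) lam).ρ σ) q
    (ι := {ℓ : ℕ // ∃ hℓ : ℓ.Prime, ¬ ℓ ∣ M' * q ∧ ℓ ∉ (↑S : Set ℕ)})
    (fun i => (s30u_tateDatum (M' * q) lam).T ⟨i.1, i.2.choose⟩)
    (fun i => (iota.comp chig.rangeRestrict)
      (CuspForm.heckeAlgebra.T i.2.choose i.2.choose_spec.1 i.2.choose_spec.2))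
    (fun i => (s30u_tateDatum (M' * q) lam).comm _ σ)
    (fun x hx1 hx2 => s35q_NW_tate M' q hq hqM' lam hql
      (fun M'' _ hgood n => hG q hq M'' hgood lam Fact.out hql n) A hA σ hσ x hx1 hx2)
    v hv0 (fun i => hv i.1 i.2.choose i.2.choose_spec.1 i.2.choose_spec.2) hα hβ
  exact ⟨w, hw0, fun ℓ hℓ hℓM hℓS => hw ⟨ℓ, hℓ, hℓM, hℓS⟩, hws⟩

/-- **The S35 statement from (G) and (B3).** -/
theorem s35q_S35 (hG : s35q_Geo) (hB3 : s35q_B3)
    {M : ℕ} [NeZero M] {g : CuspForm (CongruenceSubgroup.Gamma0 M) 2} (hg : g.IsNewform)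
    (lam : ℕ) [Fact lam.Prime]
    (S : Finset ℕ)
    (O' : Type) [CommRing O'] [IsDomain O'] [IsDiscreteValuationRing O']
    [IsAdicComplete (IsLocalRing.maximalIdeal O') O'] [Finite (IsLocalRing.ResidueField O')]
    [CharZero O'] (hlamO' : (lam : O') ∈ IsLocalRing.maximalIdeal O')
    (chig : CuspForm.heckeAlgebra M 2 (↑S : Set ℕ) →+* ℂ)
    (hchig : ∀ (ℓ : ℕ) (hℓ : ℓ.Prime) (hℓM : ¬ ℓ ∣ M) (hℓS : ℓ ∉ (↑S : Set ℕ)),
      chig (CuspForm.heckeAlgebra.T hℓ hℓM hℓS) = ModularFormClass.qCoeff g ℓ)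
    (iota : chig.range →+* O')
    (hlamS : lam ∈ S) (hMS : ∀ q : ℕ, q.Prime → q ∣ M → q ∈ S) :
    ∃ (O'' : Type) (_ : CommRing O'') (_ : IsDomain O'') (_ : IsDiscreteValuationRing O'')
      (_ : IsAdicComplete (IsLocalRing.maximalIdeal O'') O'') (_ : Finite (IsLocalRing.ResidueField O''))
      (_ : CharZero O'') (_ : Algebra O' O'') (_ : Module.Finite O' O'') (_ : IsLocalHom (algebraMap O' O'')),
      Function.Injective (algebraMap O' O'') ∧
      ∃ ρ : GaloisRepAdic O'',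
        (∀ (ℓ : ℕ) (hℓ : ℓ.Prime) (hℓM : ¬ ℓ ∣ M) (hℓS : ℓ ∉ (↑S : Set ℕ)),
          ∀ A : ValuationSubring (AlgebraicClosure ℚ), A.LiesOverPrime ℓ →
            ∀ σ : AlgebraicClosure ℚ ≃ₐ[ℚ] AlgebraicClosure ℚ, A.IsFrobeniusAt σ ℓ →
              LinearMap.charpoly (ρ.ρ σ) =
                X ^ 2 - C (algebraMap O' O'' ((iota.comp chig.rangeRestrict) (CuspForm.heckeAlgebra.T hℓ hℓM hℓS))) * X
                  + C ((ℓ : O''))) ∧
        (∀ q : ℕ, q.Prime → q ≠ lam → q ∣ M → ¬ q ^ 2 ∣ M →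
          ∀ A : ValuationSubring (AlgebraicClosure ℚ), A.LiesOverPrime q →
            ∀ σ : AlgebraicClosure ℚ ≃ₐ[ℚ] AlgebraicClosure ℚ, A.IsFrobeniusAt σ q →
              LinearMap.charpoly (ρ.ρ σ) = X ^ 2 - C ((q : O'') + 1) * X + C ((q : O'')) ∨
              LinearMap.charpoly (ρ.ρ σ) = X ^ 2 + C ((q : O'') + 1) * X + C ((q : O''))) :=
  s35_of_weakLocal (s35q_weakLocal hG hB3) hg lam S O' hlamO' chig hchig iota hlamS hMS

end Fermat.Agent.Lib.S35
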