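/-
S35 project, package [Final] (helper9, prefix `s35fin_`): FINAL ASSEMBLY OF THE NUMBER-FIELD CONTRACT
`s35q_NFKummer M q m` at the levels `M q` which are good for `q` (twin of `s34f_NFKummer_of_geo`,
`Lib/S34/FFinal.lean`), hence helper5's `s35q_Geo`.

Inputs (all on main):
* helper4 `Geo.lean`      : `s35g_base_all` (base function `w` with `s35g_BaseData`), the two
  dictionaries `s35g_dict₁/₂`, the Čech input `s35g_hH`;
* helper4 `GCross.lean`   : `s35g_hloc` — at every prime `𝔫 ∋ ϖ` of a chart a smooth point on one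
  component or the local generator contract (`GDich`/`GElem` dichotomy, helper5's `s35f_genP`,
  helper6's `MNode`);
* helper8 `MKronG.lean`   : the Kronecker fractions `(b, b')` of `P(σ)Φ` and `(b₁, b₁')` of `x`;
* helper2 `MNorm*`        : the global function `x` with `P(σ) f₀ / x ^ m ≡ 1` (`s35fin_XData`);
* `FZero.lean`            : the generic assembly `s35f_zero`.
-/
import Fermat.Agent.Lib.S35.GCross
import Fermat.Agent.Lib.S35.MKronG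
import Fermat.Agent.Lib.S35.Iface
import Fermat.Agent.Lib.S35.RFinal
import Fermat.Agent.Lib.S34.FFinal

set_option autoImplicit false
set_option linter.unusedSectionVars false
set_option linter.style.haveILetI false
set_option synthInstance.maxHeartbeats 400000

noncomputable section

namespace Fermat.Agent.Lib.S35

open ModularCurve AlgebraicCurve HahnSeries Polynomial Fermat.Agent.Lib.FF Fermat.Agent.Lib.S18
  Fermat.Agent.Lib.S37 Fermat.Agent.Lib.S34 IsLocalRing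

local notation "Qbar" => AlgebraicClosure ℚ

/-! ### The data of the global function `x` -/

section XData

variable {K₀ : Type} [Field K₀] [CharZero K₀] [Algebra ℚ K₀] {κ : Type} [Field κ]
  (G : s18g_GaussData K₀ κ) (φ : K₀ →+* Qbar) (M q : ℕ) [NeZero M] [NeZero q]
  (hq : q.Prime) (hqM : ¬ q ∣ M) [CharP κ q] [PerfectField κ]

/-- **helper2's deliverable**: the global function `x` for `f₀`: `P(σ) f₀ / x ^ m ≡ 1` modulo
`ϖ V_i` for both `i`, and the two reductions of `x` in the shape of helper8's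
`s35n_xKR_of_chartData`. -/
def s35fin_XData (σ₀ : K₀ ≃ₐ[ℚ] K₀) (f₀ : s34m_F K₀ (M * q)) (m : ℕ)
    (x : s34m_F K₀ (M * q)) : Prop :=
  x ≠ 0 ∧ ∃ hx : ∀ i, x ∈ s34m_VV G φ M q hq hqM i,
    (∀ i, ∃ y ∈ s34m_VV G φ M q hq hqM i,
      s35q_P (arithmeticGalois (modularFunctionFieldFull (M * q)) σ₀) (q ^ 2) f₀ / x ^ m - 1 =
        algebraMap K₀ (s34m_F K₀ (M * q)) ((G.ϖ : G.A) : K₀) * y) ∧
    ∃ β₁ W₁ β₂ W₂ : LaurentSeries κ,
      β₁ ∈ modularFunctionFieldFullC κ M ∧ W₁ ∈ modularFunctionFieldFullC κ M ∧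
      β₂ ∈ modularFunctionFieldFullC κ M ∧ W₂ ∈ modularFunctionFieldFullC κ M ∧
      W₁ ≠ 0 ∧ W₂ ≠ 0 ∧ ∃ a₁ a₂ : κ, a₁ ≠ 0 ∧ a₂ ≠ 0 ∧
      (haveI : Fact q.Prime := ⟨hq⟩;
        β₁ ^ m = HahnSeries.C a₁ * (s35m_Psi2 q W₁ / W₁)) ∧
      (haveI : Fact q.Prime := ⟨hq⟩;
        β₂ ^ m = HahnSeries.C a₂ * (s35m_Psi2 q W₂ / W₂)) ∧
      (haveI : Fact q.Prime := ⟨hq⟩;
        s35m_redVV G φ M q hq hqM true ⟨x, hx true⟩ =
          s35m_Psi2 q β₁ / s35m_Phi2 q (s35m_Psi2 q β₁)) ∧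
      (haveI : Fact q.Prime := ⟨hq⟩;
        s35m_redVV G φ M q hq hqM false ⟨x, hx false⟩ =
          s35m_Psi2 q β₂ / s35m_Phi2 q (s35m_Psi2 q β₂))

end XData

/-! ### The number-field contract -/

section Main

variable (M q : ℕ) [NeZero M] [NeZero q] (hq : q.Prime) (hqM : ¬ q ∣ M)

/-- **(W4)**, helper2's global function `x`, for all Gauss data. -/
def s35fin_W4 : Prop :=
  ∀ (K₀ : Type) [Field K₀] [NumberField K₀] (φ : K₀ →+* Qbar)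
    (κ : Type) [Field κ] [CharP κ q] [PerfectField κ]
    (G : s18g_GaussData K₀ κ) [IsDiscreteValuationRing G.A], Function.Surjective G.π →
    (∃ ζ : K₀, IsPrimitiveRoot ζ q) →
    ∀ (σ₀ : K₀ ≃ₐ[ℚ] K₀) (hσA : ∀ a : K₀, a ∈ G.A → (σ₀ : K₀ ≃+* K₀) a ∈ G.A)
      (_ : ∀ a : K₀, a ∈ G.A → (σ₀.symm : K₀ ≃+* K₀) a ∈ G.A)
      (_ : ∀ a : G.A, G.π (s34m_sigmaA G (σ₀ : K₀ ≃+* K₀) hσA a) = G.π a ^ q)
      (f₀ : s34m_F K₀ (M * q)), f₀ ≠ 0 → ∀ m : ℕ, m ≠ 0 →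
      (∃ (c : K₀) (h : ↥(laurentBaseChange K₀ (modularFunctionFieldFull M))),
        s35r_normAlong (heckeAlphaBar K₀ M q) f₀ = algebraMap K₀ _ c * h ^ m) →
      (∃ (c : K₀) (h : ↥(laurentBaseChange K₀ (modularFunctionFieldFull M))),
        s35r_normAlong (heckeBetaBar K₀ M q) f₀ = algebraMap K₀ _ c * h ^ m) →
      ∃ x : s34m_F K₀ (M * q), s35fin_XData G φ M q hq hqM σ₀ f₀ m x

include hq hqM in
/-- **The number-field contract at a good level**, from (W4). -/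
theorem s35fin_NFKummer_of_inputs (hgood : 5 ≤ q ∨ (q = 3 ∧ 2 ∣ M) ∨ (q = 2 ∧ 3 ∣ M))
    (hW4 : s35fin_W4 M q hq hqM)
    (m : ℕ) (hm0 : m ≠ 0) (hqm : ¬ q ∣ m) : s35q_NFKummer M q m := by
  classical
  refine ⟨cyclotomic q ℚ, cyclotomic_ne_zero q ℚ, ?_⟩
  intro K₀ _ _ _ hsplit A₀ _ hqA σ₀ hσiff hσres f₀ hf₀ hdiv hdeg hnα hnβ
  -- the embedding into `ℚ̄`
  haveI : Algebra.IsAlgebraic ℚ K₀ := Algebra.IsAlgebraic.of_finite ℚ K₀
  let φ : K₀ →+* Qbar := (IsAlgClosed.lift (R := ℚ) (S := K₀) (M := Qbar) : K₀ →ₐ[ℚ] Qbar)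
  -- the Gauss datum
  obtain ⟨ϖ, hϖ⟩ := IsDiscreteValuationRing.exists_irreducible A₀
  let G : s18g_GaussData K₀ (ResidueField A₀) := s18g_GaussData.ofResidue A₀ ϖ hϖ
  haveI hdvr : IsDiscreteValuationRing G.A := ‹IsDiscreteValuationRing A₀›
  haveI hchar : CharP (ResidueField A₀) q := s18x_charP_residueField A₀ hq hqA
  haveI hperf : PerfectField (ResidueField A₀) := s18x_perfectField_residue A₀ hq hqA
  have hσA : ∀ a : K₀, a ∈ G.A → (σ₀ : K₀ ≃+* K₀) a ∈ G.A := fun a ha => (hσiff a).mpr ha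
  have hσA' : ∀ a : K₀, a ∈ G.A → (σ₀.symm : K₀ ≃+* K₀) a ∈ G.A := by
    intro a ha
    have := hσiff (σ₀.symm a)
    rw [σ₀.apply_symm_apply] at this
    exact this.mp ha
  have hσπ : ∀ a : G.A, G.π (s34m_sigmaA G (σ₀ : K₀ ≃+* K₀) hσA a) = G.π a ^ q := by
    intro a
    have hsub := hσres (a : K₀) a.2
    obtain ⟨hmem, hmax⟩ := (A₀.mem_nonunits_iff_exists_mem_maximalIdeal).mp hsub
    have e : s34m_sigmaA G (σ₀ : K₀ ≃+* K₀) hσA a - a ^ q =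
        (⟨σ₀ (a : K₀) - (a : K₀) ^ q, hmem⟩ : G.A) := Subtype.ext rfl
    have h0 : G.π (s34m_sigmaA G (σ₀ : K₀ ≃+* K₀) hσA a - a ^ q) = 0 := by
      rw [e]
      exact (residue_eq_zero_iff _).mpr hmax
    rw [map_sub, map_pow, sub_eq_zero] at h0
    exact h0
  -- the root of unity
  have hζ : ∃ ζ : K₀, IsPrimitiveRoot ζ q := by
    haveI : NeZero ((q : ℕ) : K₀) := ⟨Nat.cast_ne_zero.mpr (NeZero.ne q)⟩
    have hsp : (cyclotomic q K₀).Splits := by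
      rw [map_cyclotomic] at hsplit
      exact hsplit
    have hd : (cyclotomic q K₀).degree ≠ 0 := by
      rw [degree_cyclotomic]
      exact_mod_cast (Nat.totient_pos.mpr hq.pos).ne'
    obtain ⟨ζ, hζ⟩ := hsp.exists_eval_eq_zero hd
    exact ⟨ζ, isRoot_cyclotomic_iff.mp hζ⟩
  -- the base function
  obtain ⟨w, hB⟩ := s35g_base_all K₀ φ M q hq hqM hgood (ResidueField A₀) G residue_surjective
  have hD1 := s35g_dict₁ G φ M q hq hqM w hB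
  have hD2 := s35g_dict₂ G φ M q hq hqM w hB
  obtain ⟨hw0, hgen, hwO, hwO', hfix, hα, hα', hC1, hC2⟩ := hB
  set gσ : SemilinearAut K₀ (s34m_F K₀ (M * q)) :=
    arithmeticGalois (modularFunctionFieldFull (M * q)) σ₀ with hgσ
  -- the global function
  obtain ⟨x, hxd⟩ := hW4 K₀ φ (ResidueField A₀) G residue_surjective hζ σ₀ hσA hσA' hσπ f₀ hf₀ m
    hm0 hnα hnβ
  have hx0 : x ≠ 0 := hxd.1
  have hF1 := hxd.2.choose_spec.1
  have hPf0 : s35q_P gσ (q ^ 2) f₀ ≠ 0 := s35q_P_ne_zero gσ (q ^ 2) hf₀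
  have hmA : ((m : K₀))⁻¹ ∈ G.A := s34f_natCast_inv_mem A₀ hq hqA m hqm
  have hmL : (m : K₀) ≠ 0 := Nat.cast_ne_zero.mpr hm0
  have hF0 : s35q_P gσ (q ^ 2) f₀ / x ^ m ≠ 0 := div_ne_zero hPf0 (pow_ne_zero _ hx0)
  -- the local data on a chart
  have hloc : ∀ (S : Set (Place K₀ (s34m_F K₀ (M * q)))), s35g_ChartData G φ M q hq hqM S →
      s35f_Dict (s34m_VV G φ M q hq hqM) S → (∀ Q : Place K₀ (s34m_F K₀ (M * q)),
        Q ∈ S ↔ gσ • Q ∈ S) →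
      ∀ (𝔫 : Ideal (s34x_ring (s34x_infRing (s34m_VV G φ M q hq hqM)) S)) [𝔫.IsMaximal],
        s34x_const (s34x_infRing (s34m_VV G φ M q hq hqM)) S ((G.ϖ : G.A) : K₀)
          (s34x_inf_const_mem (s34m_VV G φ M q hq hqM) G.A (s34c_const_mem_VV G φ M q hq hqM)
            G.ϖ) ∈ 𝔫 →
        s35f_SmoothAt G.A (s34m_VV G φ M q hq hqM) (s34c_const_mem_VV G φ M q hq hqM) G.ϖ S 𝔫 ∨
          s35f_NodeGen (s34m_VV G φ M q hq hqM) S
            (algebraMap K₀ (s34m_F K₀ (M * q)) ((G.ϖ : G.A) : K₀)) 𝔫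
            (s18_E (s35q_P gσ (q ^ 2) f₀ / x ^ m) m) := by
    intro S hC hD hgS 𝔫 h𝔫 hϖ𝔫
    haveI : 𝔫.IsPrime := h𝔫.isPrime
    have hϖ𝔫' : s35gd_unifB G φ M q hq hqM S ∈ 𝔫 := hϖ𝔫
    obtain ⟨-, hx, -, β₁, W₁, β₂, W₂, hβ₁F, hW₁F, hβ₂F, hW₂F, hW₁, hW₂, a₁, a₂, ha₁, ha₂,
      hβ₁, hβ₂, hx₁, hx₂⟩ := hxd
    exact s35g_hloc G φ M q hq hqM S hϖ hC hD σ₀ hσA hσA' hσπ hgS f₀ hf₀ m hm0 hdiv hdeg x hx0
      𝔫 hϖ𝔫'
      (fun h1 h2 U hU => s35n_hKR_of_chartData G φ M q hq hqM S hC σ₀ hσA hσA' hσπ 𝔫 h1 h2 U hU)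
      (fun h1 h2 => s35n_xKR_of_chartData G φ M q hq hqM S hC 𝔫 h1 h2 m hm0 x hx β₁ W₁ β₂ W₂
        hβ₁F hW₁F hβ₂F hW₂F hW₁ hW₂ a₁ a₂ ha₁ ha₂ hβ₁ hβ₂ hx₁ hx₂)
  obtain ⟨x', hx'0, -, hx'⟩ := s35f_zero (ι := Bool) G.A (s34m_VV G φ M q hq hqM)
    (s34c_const_mem_VV G φ M q hq hqM) G.ϖ hϖ
    (fun i => s34f_unif_not_unit_VV G φ M q hq hqM i)
    (fun i y => s34c_hU_VV G φ M q hq hqM i y)
    (s35v_hmax_VV G φ M q hq hqM) w hD1 hD2 (s35q_P gσ (q ^ 2) f₀) x hPf0 hx0 m hm0 hmA hmL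
    (fun Q => s35i_dvd_ord_P gσ (q ^ 2) hf₀ (m : ℤ) hdiv Q) hF1
    (fun 𝔫 _ hϖ𝔫 => hloc _ hC1 hD1 (s34f_chart_stable_of_fixed gσ w (hfix σ₀)) 𝔫 hϖ𝔫)
    (fun 𝔫 _ hϖ𝔫 => hloc _ hC2 hD2 (s34f_chart2_stable_of_fixed gσ w (hfix σ₀)) 𝔫 hϖ𝔫)
    (by
      haveI := hgen
      exact s34f_hH_w G φ M q hq hqM w hw0 hwO hwO' hα hF0 m)
  exact ⟨x * x', mul_ne_zero hx0 hx'0, hx'⟩

end Main

/-- **(G) from (W4).** -/
theorem s35fin_geo_of_W4
    (hW4 : ∀ (M q : ℕ) [NeZero M] [NeZero q] (hq : q.Prime) (hqM : ¬ q ∣ M),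
      (5 ≤ q ∨ (q = 3 ∧ 2 ∣ M) ∨ (q = 2 ∧ 3 ∣ M)) → s35fin_W4 M q hq hqM) : s35q_Geo := by
  intro q _ hq M' _ hgood lam hlam hql n
  obtain ⟨hqM, hbranch⟩ := hgood
  have hqm : ¬ q ∣ lam ^ n := by
    intro hdvd
    exact hql ((Nat.prime_dvd_prime_iff_eq hq hlam).mp (hq.dvd_of_dvd_pow hdvd))
  exact s35fin_NFKummer_of_inputs M' q hq hqM hbranch (hW4 M' q hq hqM hbranch) (lam ^ n)
    (pow_ne_zero n hlam.ne_zero) hqm

end Fermat.Agent.Lib.S35
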