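/-
S35 project, package [M] (helper6), part 4: (FRAC) — **THE RESIDUE FIELDS OF `V_∞` AND `V_0` ARE
CONTAINED IN `F̄_M`** for ALL of `V_i` (S34's `s34df_redInf_mem_fullC` / `_redZero_` only treat
`O₂ = V_∞ ⊓ V_0`).

The element `w = α(j) - β(j)^q ∈ O₂` has `red_∞ w = j̄ - j̄^{q²} ≠ 0` and `red_0 w = 0`; so for
`y ∈ V_∞`, `w^k y ∈ O₂` for `k ≫ 0` and `red_∞ y = red_∞(w^k y) / red_∞(w)^k ∈ F̄_M`.  `V_0` follows
by the Atkin–Lehner involution.

* `s35m_wInf`, `s35m_wInf_mem_VV`, `s35m_redInf_wInf`, `s35m_redZero_wInf`, `s35m_redInf_wInf_ne`;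
* **`s35m_redInf_mem_fullC`** : `red_∞ y ∈ modularFunctionFieldFullC κ M` for every `y ∈ V_∞`;
* **`s35m_redZero_mem_fullC`** : `red_0 y ∈ modularFunctionFieldFullC κ M` for every `y ∈ V_0`;
* `s35m_redVV_mem_fullC` : uniform in `i : Bool`;
* `s35m_mul_pow_mem_O2` : `y ∈ V_∞ ⇒ ∃ k, w^k y ∈ O₂` (every `red_∞ y` is a quotient of reductions of
  elements of `O₂`: `red_∞ y = red_∞(w^k y) / red_∞(w)^k`).
-/
import Fermat.Agent.Lib.S35.MPoly
import Fermat.Agent.Lib.S34.DFibreF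
import Fermat.Agent.Lib.S28.VTrans

set_option autoImplicit false
set_option linter.unusedSectionVars false

noncomputable section

namespace Fermat.Agent.Lib.S35

open ModularCurve AlgebraicCurve HahnSeries Fermat.Agent.Lib.FF Fermat.Agent.Lib.S18
  Fermat.Agent.Lib.S34 Fermat.Agent.Lib.S37 Fermat.Agent.Lib.S28

local notation "Kb" => AlgebraicClosure ℚ

variable {K₀ : Type*} [Field K₀] [Algebra ℚ K₀] {κ : Type*} [Field κ] (G : s18g_GaussData K₀ κ)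
variable (φ : K₀ →+* Kb) (M q : ℕ) [NeZero M] [NeZero q] (hq : q.Prime) (hqM : ¬ q ∣ M)
variable [CharP κ q]

/-- `w = α(j) - β(j)^q`. -/
def s35m_wInf : s34m_F K₀ (M * q) :=
  s18g_jF (K := K₀) (M * q) - s34m_betaJ (K₀ := K₀) M q ^ q

theorem s35m_wInf_mem_VV (i : Bool) :
    s35m_wInf (K₀ := K₀) M q ∈ s34m_VV G φ M q hq hqM i := by
  refine sub_mem (s34m_jF_mem_VV G φ M q hq hqM i) (pow_mem ?_ q)
  cases i
  · exact s34m_betaJ_mem_Vzero G φ M q hq hqM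
  · exact s34m_betaJ_mem_Vinf G M q

include hq in
/-- `red_∞ w = j̄ - j̄^{q²}`. -/
theorem s35m_redInf_wInf :
    s34m_redInf G (M * q) ⟨s35m_wInf (K₀ := K₀) M q, s35m_wInf_mem_VV G φ M q hq hqM true⟩ =
      jqModC κ - jqModC κ ^ (q * q) := by
  have e : (⟨s35m_wInf (K₀ := K₀) M q, s35m_wInf_mem_VV G φ M q hq hqM true⟩ :
      s34m_Vinf G (M * q)) =
      ⟨s18g_jF (K := K₀) (M * q), s34m_jF_mem_Vinf G (M * q)⟩ -
        ⟨s34m_betaJ (K₀ := K₀) M q, s34m_betaJ_mem_Vinf G M q⟩ ^ q := Subtype.ext rfl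
  have e2 : s34m_redInf G (M * q) ⟨s34m_betaJ (K₀ := K₀) M q, s34m_betaJ_mem_Vinf G M q⟩ =
      qExpand κ q (jqModC κ) := by
    have := s34m_redInf_beta G M q ⟨s18g_jF (K := K₀) M, s34m_jF_mem_Vinf G M⟩
    rw [s34m_redInf_jF] at this
    exact this
  rw [e, map_sub, map_pow, s34m_redInf_jF, e2, s34df_qExpand_jqModC q hq, ← pow_mul]

include hq in
/-- `red_0 w = 0`. -/
theorem s35m_redZero_wInf :
    s34m_redZero G φ M q hq hqM
      ⟨s35m_wInf (K₀ := K₀) M q, s35m_wInf_mem_VV G φ M q hq hqM false⟩ = 0 := by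
  have e : (⟨s35m_wInf (K₀ := K₀) M q, s35m_wInf_mem_VV G φ M q hq hqM false⟩ :
      s34m_Vzero G φ M q hq hqM) =
      ⟨heckeAlphaBar K₀ M q (s18g_jF (K := K₀) M),
        s34m_alpha_mem_Vzero G φ M q hq hqM (s34m_jF_mem_Vinf G M)⟩ -
        ⟨s34m_betaJ (K₀ := K₀) M q, s34m_betaJ_mem_Vzero G φ M q hq hqM⟩ ^ q := Subtype.ext rfl
  have e1 := s34m_redZero_alpha G φ M q hq hqM ⟨s18g_jF (K := K₀) M, s34m_jF_mem_Vinf G M⟩
  have e2 : s34m_redZero G φ M q hq hqM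
      ⟨s34m_betaJ (K₀ := K₀) M q, s34m_betaJ_mem_Vzero G φ M q hq hqM⟩ = jqModC κ := by
    have := s34m_redZero_beta G φ M q hq hqM ⟨s18g_jF (K := K₀) M, s34m_jF_mem_Vinf G M⟩
    rw [s34m_redInf_jF] at this
    exact this
  rw [s34m_redInf_jF] at e1
  rw [e, map_sub, map_pow, e1, e2, s34df_qExpand_jqModC q hq, sub_self]

include hq in
/-- `red_∞ w ≠ 0` (`j̄` is transcendental). -/
theorem s35m_redInf_wInf_ne :
    s34m_redInf G (M * q) ⟨s35m_wInf (K₀ := K₀) M q, s35m_wInf_mem_VV G φ M q hq hqM true⟩ ≠ 0 := by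
  rw [s35m_redInf_wInf G φ M q hq hqM]
  intro h0
  have htr := s28v_transcendental_jqModC κ
  apply htr
  refine ⟨Polynomial.X - Polynomial.X ^ (q * q), ?_, ?_⟩
  · intro hp
    have h1 := congrArg (fun p : Polynomial κ => p.coeff 1) hp
    have hqq : q * q ≠ 1 := by
      have := hq.two_le
      nlinarith
    simp only [Polynomial.coeff_sub, Polynomial.coeff_X_one, Polynomial.coeff_X_pow,
      Polynomial.coeff_zero] at h1
    rw [if_neg (fun h => hqq h.symm), sub_zero] at h1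
    exact one_ne_zero h1
  · rw [map_sub, map_pow, Polynomial.aeval_X]
    exact h0

include hq in
/-- For `y ∈ V_∞`, `w^k y ∈ O₂` for some `k`. -/
theorem s35m_mul_pow_mem_O2 (y : s34m_F K₀ (M * q)) (hy : y ∈ s34m_Vinf G (M * q)) :
    ∃ k : ℕ, s35m_wInf (K₀ := K₀) M q ^ k * y ∈ s34m_O2 G φ M q hq hqM := by
  obtain ⟨k, hk⟩ := s34c_hU_VV G φ M q hq hqM false y
  obtain ⟨z, hz, e⟩ := (s34m_redZero_eq_zero_iff G φ M q hq hqM _).mp
    (s35m_redZero_wInf G φ M q hq hqM)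
  have e' : s35m_wInf (K₀ := K₀) M q = s34m_unif G (M * q) * z := e
  refine ⟨k, (s34x_mem_infRing _ _).mpr fun i => ?_⟩
  cases i
  · show _ ∈ s34m_Vzero G φ M q hq hqM
    have : s35m_wInf (K₀ := K₀) M q ^ k * y =
        z ^ k * (algebraMap K₀ (s34m_F K₀ (M * q)) ((G.ϖ : G.A) : K₀) ^ k * y) := by
      rw [e', mul_pow]
      show (algebraMap K₀ (s34m_F K₀ (M * q)) ((G.ϖ : G.A) : K₀)) ^ k * z ^ k * y = _
      ring
    rw [this]
    exact (s34m_Vzero G φ M q hq hqM).mul_mem _ _ (pow_mem hz k) hk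
  · exact (s34m_Vinf G (M * q)).mul_mem _ _
      (pow_mem (s35m_wInf_mem_VV G φ M q hq hqM true) k) hy

include φ hq hqM in
/-- **`red_∞(V_∞) ⊆ F̄_M`.** -/
theorem s35m_redInf_mem_fullC (hdeg : s34m_HDeg K₀ M q) (hT : s18g_HT κ M)
    (hdegM : s18g_HDeg K₀ M) (y : s34m_Vinf G (M * q)) :
    s34m_redInf G (M * q) y ∈ modularFunctionFieldFullC κ M := by
  obtain ⟨k, hk⟩ := s35m_mul_pow_mem_O2 G φ M q hq hqM (y : s34m_F K₀ (M * q)) y.2
  set w : s34m_Vinf G (M * q) :=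
    ⟨s35m_wInf (K₀ := K₀) M q, s35m_wInf_mem_VV G φ M q hq hqM true⟩ with hw
  have hwne : s34m_redInf G (M * q) w ≠ 0 := s35m_redInf_wInf_ne G φ M q hq hqM
  have hwO : s35m_wInf (K₀ := K₀) M q ∈ s34m_O2 G φ M q hq hqM :=
    (s34x_mem_infRing _ _).mpr fun i => s35m_wInf_mem_VV G φ M q hq hqM i
  have h1 : s34m_redInf G (M * q) w ∈ modularFunctionFieldFullC κ M :=
    s34df_redInf_mem_fullC G φ M q hq hqM hdeg hT hdegM _ hwO _
  have h2 : s34m_redInf G (M * q) (w ^ k * y) ∈ modularFunctionFieldFullC κ M :=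
    s34df_redInf_mem_fullC G φ M q hq hqM hdeg hT hdegM _ hk (w ^ k * y).2
  rw [map_mul, map_pow] at h2
  have h3 : s34m_redInf G (M * q) y =
      (s34m_redInf G (M * q) w ^ k)⁻¹ * (s34m_redInf G (M * q) w ^ k * s34m_redInf G (M * q) y) := by
    rw [← mul_assoc, inv_mul_cancel₀ (pow_ne_zero k hwne), one_mul]
  rw [h3]
  exact mul_mem (inv_mem (pow_mem h1 k)) h2

include hq hqM in
/-- **`red_0(V_0) ⊆ F̄_M`.** -/
theorem s35m_redZero_mem_fullC (hdeg : s34m_HDeg K₀ M q) (hT : s18g_HT κ M)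
    (hdegM : s18g_HDeg K₀ M) (y : s34m_Vzero G φ M q hq hqM) :
    s34m_redZero G φ M q hq hqM y ∈ modularFunctionFieldFullC κ M := by
  rw [s34m_redZero_apply]
  exact s35m_redInf_mem_fullC G φ M q hq hqM hdeg hT hdegM _

include hq hqM in
/-- (FRAC), uniformly in `i`. -/
theorem s35m_redVV_mem_fullC (hdeg : s34m_HDeg K₀ M q) (hT : s18g_HT κ M)
    (hdegM : s18g_HDeg K₀ M) (i : Bool) (y : ↥(s34m_VV G φ M q hq hqM i)) :
    s35m_redVV G φ M q hq hqM i y ∈ modularFunctionFieldFullC κ M := by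
  cases i
  · exact s35m_redZero_mem_fullC G φ M q hq hqM hdeg hT hdegM y
  · exact s35m_redInf_mem_fullC G φ M q hq hqM hdeg hT hdegM y

end Fermat.Agent.Lib.S35
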