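/-
S35 project, package [MNorm] (helper2), part 2: THE LAURENT ALGEBRA BEHIND `hf1`.

`L = κ((T))`, `F = coeffMap (frobenius κ q)` (coefficientwise Frobenius), `Φ = qExpand κ q`
(`T ↦ T^q`), `Ψ² = F ∘ F`, `Φ² = Φ ∘ Φ` (helper6's `s35m_Psi2`, `s35m_Phi2`).

* `s35v_alg` : from the two reduced norm relations
    `A * F B = C a * H ^ m`,   `F A * B = C a' * H' ^ m`
  (`A = red_∞ f_∞`, `B = red_0 f_0`, `H, H'` reductions of the level-`M` functions),
  `ρ / Φ² ρ = (e / Φ² e) ^ m` for `ρ = Ψ²(Ψ² A / A)` and `e = Ψ²(F H' / H)`.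
  (Symmetric in `(A, H, a) ↔ (B, H', a')`.)
* `s35v_kron` : `(e * Φ e') / (Φ (Φ e) * Φ e') = e / Φ² e` — the Kronecker quotient.
-/
import Fermat.Agent.Lib.S35.MPoly

set_option autoImplicit false
set_option linter.unusedSectionVars false

noncomputable section

namespace Fermat.Agent.Lib.S35

open ModularCurve HahnSeries Fermat.Agent.Lib.S37

variable {κ : Type*} [Field κ] (q : ℕ) [hqF : Fact q.Prime] [CharP κ q]

/-- `F (C a) = C (a ^ q)`. -/
theorem s35v_frob_C (a : κ) :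
    coeffMap (frobenius κ q) (HahnSeries.C a : LaurentSeries κ) = HahnSeries.C (a ^ q) := by
  rw [HahnSeries.C_apply, coeffMap_single, HahnSeries.C_apply, frobenius_def]

theorem s35v_Psi2_eq (x : LaurentSeries κ) :
    s35m_Psi2 q x = coeffMap (frobenius κ q) (coeffMap (frobenius κ q) x) := rfl

/-- `(F z) ^ q = Φ (Ψ² z)`. -/
theorem s35v_pow_frob (z : LaurentSeries κ) :
    (coeffMap (frobenius κ q) z) ^ q = qExpand κ q (s35m_Psi2 q z) := by
  rw [s37e_pow_char q, s35v_Psi2_eq]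

/-- **The algebra of `hf1`.** -/
theorem s35v_alg (m : ℕ) (A B H H' : LaurentSeries κ) (a a' : κ) (hA : A ≠ 0) (hB : B ≠ 0)
    (h1 : A * coeffMap (frobenius κ q) B = HahnSeries.C a * H ^ m)
    (h2 : coeffMap (frobenius κ q) A * B = HahnSeries.C a' * H' ^ m) :
    s35m_Psi2 q (s35m_Psi2 q A / A) / s35m_Phi2 q (s35m_Psi2 q (s35m_Psi2 q A / A)) =
      (s35m_Psi2 q (coeffMap (frobenius κ q) H' / H) /
        s35m_Phi2 q (s35m_Psi2 q (coeffMap (frobenius κ q) H' / H))) ^ m := by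
  set Fr := coeffMap (frobenius κ q) with hFr
  have hFB : Fr B ≠ 0 := (map_ne_zero Fr).mpr hB
  have hFA : Fr A ≠ 0 := (map_ne_zero Fr).mpr hA
  -- non-vanishing of the constants and of `H`, `H'`
  have hl1 : HahnSeries.C a * H ^ m ≠ 0 := by rw [← h1]; exact mul_ne_zero hA hFB
  have hl2 : HahnSeries.C a' * H' ^ m ≠ 0 := by rw [← h2]; exact mul_ne_zero hFA hB
  have hCa : (HahnSeries.C a : LaurentSeries κ) ≠ 0 := left_ne_zero_of_mul hl1
  have hCa' : (HahnSeries.C a' : LaurentSeries κ) ≠ 0 := left_ne_zero_of_mul hl2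
  have hHm : H ^ m ≠ 0 := right_ne_zero_of_mul hl1
  -- apply `F` to the second relation
  have h3 : s35m_Psi2 q A * Fr B = HahnSeries.C (a' ^ q) * (Fr H') ^ m := by
    have := congrArg Fr h2
    rw [map_mul, map_mul, map_pow, hFr, s35v_frob_C] at this
    exact this
  -- divide
  have h4 : s35m_Psi2 q A / A = HahnSeries.C (a' ^ q / a) * (Fr H' / H) ^ m := by
    rw [← mul_div_mul_right (s35m_Psi2 q A) A hFB, h3, h1, mul_div_mul_comm, div_pow,
      map_div₀ (HahnSeries.C : κ →+* LaurentSeries κ)]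
  -- apply `Ψ²`
  set d : κ := (a' ^ q / a) with hd
  have hCd : (HahnSeries.C d : LaurentSeries κ) ≠ 0 := by
    intro h0
    have h5 : s35m_Psi2 q A / A = 0 := by rw [h4, h0, zero_mul]
    exact div_ne_zero ((map_ne_zero (s35m_Psi2 q)).mpr hA) hA h5
  set e := s35m_Psi2 q (Fr H' / H) with he
  have h5 : s35m_Psi2 q (s35m_Psi2 q A / A) =
      HahnSeries.C (frobenius κ q (frobenius κ q d)) * e ^ m := by
    rw [h4, map_mul, map_pow, s35m_Psi2_C]
  have hCd2 : (HahnSeries.C (frobenius κ q (frobenius κ q d)) : LaurentSeries κ) ≠ 0 := by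
    rw [← s35m_Psi2_C]
    exact (map_ne_zero (s35m_Psi2 q)).mpr hCd
  rw [h5, map_mul, map_pow, s35m_Phi2_C, div_pow, mul_div_mul_left _ _ hCd2]

/-- the Kronecker quotient. -/
theorem s35v_kron (e e' : LaurentSeries κ) (he' : e' ≠ 0) :
    (e * qExpand κ q e') / (qExpand κ q (qExpand κ q e) * qExpand κ q e') =
      e / s35m_Phi2 q e := by
  rw [s35m_Phi2_apply, mul_div_mul_right _ _ ((map_ne_zero (qExpand κ q)).mpr he')]

theorem s35v_kron' (e e' : LaurentSeries κ) (he' : e' ≠ 0) :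
    (qExpand κ q e' * e) / (qExpand κ q e' * qExpand κ q (qExpand κ q e)) =
      e / s35m_Phi2 q e := by
  rw [s35m_Phi2_apply, mul_div_mul_left _ _ ((map_ne_zero (qExpand κ q)).mpr he')]

end Fermat.Agent.Lib.S35
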