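/-
S35 project, package [MNorm] (helper2), part 1: A RELATIONAL CALCULUS FOR THE GAUSS REDUCTIONS.

`s35v_Red V r y s` : "`y ∈ V` and `r y = s`" for a valuation subring `V` of a field and a ring
homomorphism `r : V →+* R` into a field.  Closed under `1`, `*`, `^`, and — when the kernel of `r`
consists of non-units (`s35v_Ker`) — under `⁻¹`, `/`, `^ (n : ℤ)`.

Instances: `V_∞` of any level `N` (`s35v_RedI`), the family `{V_∞, V_0}` of level `M q`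
(`s35v_RedV i`), with the rules
* constants (`s35v_RedI_const`, `s35v_RedV_const`),
* Frobenius lifts `τ = arithmeticRingAut σ₀` (`s35v_RedI_tau`, `s35v_RedV_tau`; helper6's MSigma),
* the Kronecker identities for `α`, `β` (`s35v_RedV_alpha`, `s35v_RedV_beta`),
* `s35v_RedV_sub_one`: `Red y 1 → y - 1 ∈ ϖ V_i`.
-/
import Fermat.Agent.Lib.S35.MPoly
import Fermat.Agent.Lib.S35.VMax

set_option autoImplicit false
set_option linter.unusedSectionVars false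

noncomputable section

namespace Fermat.Agent.Lib.S35

open ModularCurve AlgebraicCurve HahnSeries Fermat.Agent.Lib.FF Fermat.Agent.Lib.S18
  Fermat.Agent.Lib.S34 Fermat.Agent.Lib.S37

local notation "Kb" => AlgebraicClosure ℚ

/-! ### The generic calculus -/

section Generic

variable {E : Type*} [Field E] {R : Type*} [Field R] (V : ValuationSubring E) (r : V →+* R)

/-- `y ∈ V` and `r y = s`. -/
def s35v_Red (y : E) (s : R) : Prop := ∃ h : y ∈ V, r ⟨y, h⟩ = s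

/-- the kernel of `r` consists of non-units of `V`. -/
def s35v_Ker : Prop := ∀ y : V, r y ≠ 0 → ((y : E))⁻¹ ∈ V

variable {V r}

theorem s35v_Red.mem {y : E} {s : R} (h : s35v_Red V r y s) : y ∈ V := h.1

theorem s35v_Red.of_mem {y : E} (h : y ∈ V) : s35v_Red V r y (r ⟨y, h⟩) := ⟨h, rfl⟩

theorem s35v_Red.congr {y z : E} {s t : R} (h : s35v_Red V r y s) (e : y = z) (e' : s = t) :
    s35v_Red V r z t := by
  subst e; subst e'; exact h

theorem s35v_Red.unique {y : E} {s t : R} (h : s35v_Red V r y s) (h' : s35v_Red V r y t) :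
    s = t := by
  obtain ⟨h1, e1⟩ := h
  obtain ⟨h2, e2⟩ := h'
  rw [← e1, ← e2]

theorem s35v_Red.one : s35v_Red V r 1 1 := ⟨V.one_mem, map_one r⟩

theorem s35v_Red.zero : s35v_Red V r 0 0 := ⟨V.zero_mem, map_zero r⟩

theorem s35v_Red.mul {y z : E} {s t : R} (hy : s35v_Red V r y s) (hz : s35v_Red V r z t) :
    s35v_Red V r (y * z) (s * t) := by
  obtain ⟨h1, e1⟩ := hy
  obtain ⟨h2, e2⟩ := hz
  refine ⟨V.mul_mem _ _ h1 h2, ?_⟩
  rw [← e1, ← e2, ← map_mul]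
  rfl

theorem s35v_Red.add {y z : E} {s t : R} (hy : s35v_Red V r y s) (hz : s35v_Red V r z t) :
    s35v_Red V r (y + z) (s + t) := by
  obtain ⟨h1, e1⟩ := hy
  obtain ⟨h2, e2⟩ := hz
  refine ⟨V.add_mem _ _ h1 h2, ?_⟩
  rw [← e1, ← e2, ← map_add]
  rfl

theorem s35v_Red.neg {y : E} {s : R} (hy : s35v_Red V r y s) : s35v_Red V r (-y) (-s) := by
  obtain ⟨h1, e1⟩ := hy
  refine ⟨V.neg_mem _ h1, ?_⟩
  rw [← e1, ← map_neg]
  rfl

theorem s35v_Red.sub {y z : E} {s t : R} (hy : s35v_Red V r y s) (hz : s35v_Red V r z t) :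
    s35v_Red V r (y - z) (s - t) := by
  rw [sub_eq_add_neg, sub_eq_add_neg]
  exact hy.add hz.neg

theorem s35v_Red.pow {y : E} {s : R} (hy : s35v_Red V r y s) (n : ℕ) :
    s35v_Red V r (y ^ n) (s ^ n) := by
  induction n with
  | zero => rw [pow_zero, pow_zero]; exact s35v_Red.one
  | succ k ih => rw [pow_succ, pow_succ]; exact ih.mul hy

theorem s35v_Red.inv (hk : s35v_Ker V r) {y : E} {s : R} (hy : s35v_Red V r y s) (hs : s ≠ 0) :
    s35v_Red V r y⁻¹ s⁻¹ := by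
  obtain ⟨h1, e1⟩ := hy
  have h2 : y⁻¹ ∈ V := hk ⟨y, h1⟩ (by rw [e1]; exact hs)
  refine ⟨h2, ?_⟩
  have hy0 : y ≠ 0 := by
    rintro rfl
    apply hs
    rw [← e1]
    exact map_zero r
  have hm : r ⟨y⁻¹, h2⟩ * r ⟨y, h1⟩ = 1 := by
    rw [← map_mul]
    have : (⟨y⁻¹, h2⟩ : V) * ⟨y, h1⟩ = 1 := Subtype.ext (inv_mul_cancel₀ hy0)
    rw [this, map_one]
  rw [e1] at hm
  exact eq_inv_of_mul_eq_one_left hm

theorem s35v_Red.div (hk : s35v_Ker V r) {y z : E} {s t : R} (hy : s35v_Red V r y s)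
    (hz : s35v_Red V r z t) (ht : t ≠ 0) : s35v_Red V r (y / z) (s / t) := by
  rw [div_eq_mul_inv, div_eq_mul_inv]
  exact hy.mul (hz.inv hk ht)

theorem s35v_Red.zpow (hk : s35v_Ker V r) {y : E} {s : R} (hy : s35v_Red V r y s) (hs : s ≠ 0)
    (n : ℤ) : s35v_Red V r (y ^ n) (s ^ n) := by
  cases n with
  | ofNat k => rw [Int.ofNat_eq_natCast, zpow_natCast, zpow_natCast]; exact hy.pow k
  | negSucc k =>
    rw [zpow_negSucc, zpow_negSucc]
    exact (hy.pow (k + 1)).inv hk (pow_ne_zero _ hs)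

/-- a unit of `V` has non-zero reduction. -/
theorem s35v_Red.ne_zero {y : E} {s : R} (hy : s35v_Red V r y s) (hy0 : y ≠ 0) (hinv : y⁻¹ ∈ V) :
    s ≠ 0 := by
  obtain ⟨h1, e1⟩ := hy
  intro hs
  have hm : r ⟨y⁻¹, hinv⟩ * r ⟨y, h1⟩ = 1 := by
    rw [← map_mul]
    have : (⟨y⁻¹, hinv⟩ : V) * ⟨y, h1⟩ = 1 := Subtype.ext (inv_mul_cancel₀ hy0)
    rw [this, map_one]
  rw [e1, hs, mul_zero] at hm
  exact zero_ne_one hm

theorem s35v_Red.inv_mem (hk : s35v_Ker V r) {y : E} {s : R} (hy : s35v_Red V r y s)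
    (hs : s ≠ 0) : y⁻¹ ∈ V := (hy.inv hk hs).mem

end Generic

/-! ### `V_∞` at any level -/

section LevelN

variable {K₀ : Type*} [Field K₀] [Algebra ℚ K₀] {κ : Type*} [Field κ] (G : s18g_GaussData K₀ κ)

/-- `red_∞` of level `N` in relational form. -/
abbrev s35v_RedI (N : ℕ) [NeZero N] (y : s34m_F K₀ N) (s : LaurentSeries κ) : Prop :=
  s35v_Red (s34m_Vinf G N) (s34m_redInf G N) y s

theorem s35v_redInf_unif (N : ℕ) [NeZero N] :
    s34m_redInf G N ⟨s34m_unif G N, s34m_unif_mem_Vinf G N⟩ = 0 :=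
  (s34m_redInf_eq_zero_iff G N _).mpr ⟨1, (s34m_Vinf G N).one_mem, (mul_one _).symm⟩

theorem s35v_kerI (N : ℕ) [NeZero N] : s35v_Ker (s34m_Vinf G N) (s34m_redInf G N) := by
  intro y hy
  rcases s35v_hmax_Vinf G N (y : s34m_F K₀ N) y.2 with ⟨z, hz, e⟩ | h
  · exact absurd ((s34m_redInf_eq_zero_iff G N y).mpr ⟨z, hz, e⟩) hy
  · exact h

theorem s35v_const_mem_Vinf (N : ℕ) [NeZero N] (a : G.A) :
    algebraMap K₀ (s34m_F K₀ N) (a : K₀) ∈ s34m_Vinf G N :=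
  (s18g_algebraMap_mem_V_iff G _ (s34m_hF G N) _).mpr a.2

/-- constants. -/
theorem s35v_RedI_const (N : ℕ) [NeZero N] (a : G.A) :
    s35v_RedI G N (algebraMap K₀ (s34m_F K₀ N) (a : K₀)) (HahnSeries.C (G.π a)) := by
  refine ⟨s35v_const_mem_Vinf G N a, ?_⟩
  rw [s34m_redInf_apply, ← s18g_red_C G a]
  exact congrArg (s18g_red G) (Subtype.ext
    (s18g_coe_algebraMap (laurentBaseChange K₀ (modularFunctionFieldFull N)) (a : K₀)))

/-- `Red y 1 → y - 1 ∈ ϖ V`. -/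
theorem s35v_RedI_sub_one (N : ℕ) [NeZero N] {y : s34m_F K₀ N} (hy : s35v_RedI G N y 1) :
    ∃ z ∈ s34m_Vinf G N, y - 1 = s34m_unif G N * z := by
  obtain ⟨h, e⟩ := hy.sub (s35v_Red.one (V := s34m_Vinf G N) (r := s34m_redInf G N))
  rw [sub_self] at e
  exact (s34m_redInf_eq_zero_iff G N _).mp e

variable (σ₀ : K₀ ≃ₐ[ℚ] K₀)
  (hσA : ∀ a : K₀, a ∈ G.A → (σ₀ : K₀ ≃+* K₀) a ∈ G.A)
  (ψ : κ →+* κ)
  (hσπ : ∀ a : G.A, G.π (s34m_sigmaA G (σ₀ : K₀ ≃+* K₀) hσA a) = ψ (G.π a))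

include hσπ in
/-- `τ = arithmeticRingAut σ₀` is `ψ`-semilinear. -/
theorem s35v_RedI_tau (N : ℕ) [NeZero N] {y : s34m_F K₀ N} {s : LaurentSeries κ}
    (hy : s35v_RedI G N y s) :
    s35v_RedI G N (arithmeticRingAut (modularFunctionFieldFull N) σ₀ y) (coeffMap ψ s) := by
  obtain ⟨h, e⟩ := hy
  refine ⟨s35m_galois_mem_Vinf G σ₀ hσA ψ hσπ N h, ?_⟩
  rw [← e]
  exact s35m_redInf_galois G σ₀ hσA ψ hσπ N ⟨y, h⟩

end LevelN

/-! ### The family `{V_∞, V_0}` of level `M q` -/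

section LevelMq

variable {K₀ : Type*} [Field K₀] [Algebra ℚ K₀] {κ : Type*} [Field κ] (G : s18g_GaussData K₀ κ)
variable (φ : K₀ →+* Kb) (M q : ℕ) [NeZero M] [NeZero q] (hq : q.Prime) (hqM : ¬ q ∣ M)

/-- `red_i` of level `M q` in relational form (`true ↦ ∞`, `false ↦ 0`). -/
abbrev s35v_RedV (i : Bool) (y : s34m_F K₀ (M * q)) (s : LaurentSeries κ) : Prop :=
  s35v_Red (s34m_VV G φ M q hq hqM i) (s35m_redVV G φ M q hq hqM i) y s

theorem s35v_kerV (i : Bool) :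
    s35v_Ker (s34m_VV G φ M q hq hqM i) (s35m_redVV G φ M q hq hqM i) := by
  intro y hy
  rcases s35v_hmax_VV G φ M q hq hqM i (y : s34m_F K₀ (M * q)) y.2 with ⟨z, hz, e⟩ | h
  · exfalso
    apply hy
    cases i
    · exact (s34m_redZero_eq_zero_iff G φ M q hq hqM y).mpr ⟨z, hz, e⟩
    · exact (s34m_redInf_eq_zero_iff G (M * q) y).mpr ⟨z, hz, e⟩
  · exact h

/-- constants. -/
theorem s35v_RedV_const (i : Bool) (a : G.A) :
    s35v_RedV G φ M q hq hqM i (algebraMap K₀ (s34m_F K₀ (M * q)) (a : K₀))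
      (HahnSeries.C (G.π a)) := by
  exact ⟨s34c_const_mem_VV G φ M q hq hqM i a, s35m_redVV_const G φ M q hq hqM i a⟩

/-- `Red y 1 → y - 1 ∈ ϖ V_i`, in the shape of `hf1` of `s34x_zero_inf`. -/
theorem s35v_RedV_sub_one (i : Bool) {y : s34m_F K₀ (M * q)}
    (hy : s35v_RedV G φ M q hq hqM i y 1) :
    ∃ z ∈ s34m_VV G φ M q hq hqM i,
      y - 1 = algebraMap K₀ (s34m_F K₀ (M * q)) ((G.ϖ : G.A) : K₀) * z := by
  obtain ⟨h, e⟩ := hy.sub (s35v_Red.one (V := s34m_VV G φ M q hq hqM i)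
    (r := s35m_redVV G φ M q hq hqM i))
  rw [sub_self] at e
  cases i
  · exact (s34m_redZero_eq_zero_iff G φ M q hq hqM _).mp e
  · exact (s34m_redInf_eq_zero_iff G (M * q) _).mp e

/-! #### the Kronecker identities -/

/-- `α` : `(red_∞, red_0)(α r) = (r̄, Φ r̄)`. -/
theorem s35v_RedV_alpha {y : s34m_F K₀ M} {s : LaurentSeries κ} (hy : s35v_RedI G M y s)
    (i : Bool) :
    s35v_RedV G φ M q hq hqM i (heckeAlphaBar K₀ M q y)
      (if i then s else qExpand κ q s) := by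
  obtain ⟨h, e⟩ := hy
  cases i
  · refine ⟨s34m_alpha_mem_Vzero G φ M q hq hqM h, ?_⟩
    rw [← e]
    exact s34m_redZero_alpha G φ M q hq hqM ⟨y, h⟩
  · refine ⟨s34m_alpha_mem_Vinf G M q h, ?_⟩
    rw [← e]
    exact s34m_redInf_alpha G M q ⟨y, h⟩

/-- `β` : `(red_∞, red_0)(β r) = (Φ r̄, r̄)`. -/
theorem s35v_RedV_beta {y : s34m_F K₀ M} {s : LaurentSeries κ} (hy : s35v_RedI G M y s)
    (i : Bool) :
    s35v_RedV G φ M q hq hqM i (heckeBetaBar K₀ M q y)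
      (if i then qExpand κ q s else s) := by
  obtain ⟨h, e⟩ := hy
  cases i
  · refine ⟨s34m_beta_mem_Vzero G φ M q hq hqM h, ?_⟩
    rw [← e]
    exact s34m_redZero_beta G φ M q hq hqM ⟨y, h⟩
  · refine ⟨s34m_beta_mem_Vinf G M q h, ?_⟩
    rw [← e]
    exact s34m_redInf_beta G M q ⟨y, h⟩

variable (σ₀ : K₀ ≃ₐ[ℚ] K₀)
  (hσA : ∀ a : K₀, a ∈ G.A → (σ₀ : K₀ ≃+* K₀) a ∈ G.A)
  (ψ : κ →+* κ)
  (hσπ : ∀ a : G.A, G.π (s34m_sigmaA G (σ₀ : K₀ ≃+* K₀) hσA a) = ψ (G.π a))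

include hσπ in
/-- `τ = arithmeticRingAut σ₀` is `ψ`-semilinear for both reductions. -/
theorem s35v_RedV_tau (i : Bool) {y : s34m_F K₀ (M * q)} {s : LaurentSeries κ}
    (hy : s35v_RedV G φ M q hq hqM i y s) :
    s35v_RedV G φ M q hq hqM i (arithmeticRingAut (modularFunctionFieldFull (M * q)) σ₀ y)
      (coeffMap ψ s) := by
  obtain ⟨h, e⟩ := hy
  refine ⟨s35m_galois_mem_VV G σ₀ hσA ψ hσπ φ M q hq hqM i h, ?_⟩
  rw [← e]
  exact s35m_redVV_galois G φ M q hq hqM σ₀ hσA ψ hσπ i ⟨y, h⟩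

end LevelMq

end Fermat.Agent.Lib.S35
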