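/-
S35 project, package [MNorm] (helper2), part 3: THE GLOBAL FUNCTION `x` AND `hf1`, from the two
REDUCED NORM RELATIONS.

Setting: helper6's `MPoly` (`σ₀` a Frobenius lift with `σ₀ A = A`, `τ = arithmeticRingAut σ₀`).
For `h₁, h₁' ∈ 𝓕_M` (units of the Gauss valuation ring `V_M`) put, with `τ = τ_M`,
  `w = τ h₁' / h₁`,  `w' = τ h₁ / h₁'`,
  **`x = s35v_x = α(τ² w) · β(τ² w') / (β((τ w)^q) · α((τ w')^q))`**
(helper4's explicit Kronecker lift: `(τ w)^q = (τ⁻¹ (τ² w))^q` lifts `Φ (red (τ² w))`).  Then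
  `red_∞ x = e_∞ / Φ² e_∞`, `red_0 x = e_0 / Φ² e_0`, `e_∞ = Ψ²(F H' / H)`, `e_0 = Ψ²(F H / H')`
(`s35v_x_red`), and if `A = red_∞ f_∞`, `B = red_0 f_0` satisfy the reduced norm relations
  `A · F B = a · H^m`,  `F A · B = a' · H'^m`
then `red_i (P(σ) f / x^m) = 1` for both `i` (`s35v_hf1_red`), i.e. `hf1` of `s34x_zero_inf`
(`s35v_RedV_sub_one`).
-/
import Fermat.Agent.Lib.S35.VRed
import Fermat.Agent.Lib.S35.MNormAlg

set_option autoImplicit false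
set_option linter.unusedSectionVars false

noncomputable section

namespace Fermat.Agent.Lib.S35

open ModularCurve AlgebraicCurve HahnSeries Fermat.Agent.Lib.FF Fermat.Agent.Lib.S18
  Fermat.Agent.Lib.S34 Fermat.Agent.Lib.S37

local notation "Kb" => AlgebraicClosure ℚ

variable {K₀ : Type*} [Field K₀] [Algebra ℚ K₀] {κ : Type*} [Field κ] (G : s18g_GaussData K₀ κ)
variable (φ : K₀ →+* Kb) (M q : ℕ) [NeZero M] [NeZero q] (hq : q.Prime) (hqM : ¬ q ∣ M)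

/-! ### Kronecker lifts -/

/-- `(red_∞, red_0)` of `α y₁ · β y₂ / (β y₁' · α y₂')` for lifts `y₁, y₁', y₂, y₂'` of
`e, Φ e, e', Φ e'`. -/
theorem s35v_kron_red [hqF : Fact q.Prime] [CharP κ q] (i : Bool)
    {y₁ y₁' y₂ y₂' : s34m_F K₀ M} {e e' : LaurentSeries κ}
    (h1 : s35v_RedI G M y₁ e) (h1' : s35v_RedI G M y₁' (qExpand κ q e))
    (h2 : s35v_RedI G M y₂ e') (h2' : s35v_RedI G M y₂' (qExpand κ q e'))
    (he : e ≠ 0) (he' : e' ≠ 0) :
    s35v_RedV G φ M q hq hqM i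
      (heckeAlphaBar K₀ M q y₁ * heckeBetaBar K₀ M q y₂ /
        (heckeBetaBar K₀ M q y₁' * heckeAlphaBar K₀ M q y₂'))
      (if i then e / s35m_Phi2 q e else e' / s35m_Phi2 q e') := by
  have hk := s35v_kerV G φ M q hq hqM
  have hΦe : qExpand κ q e ≠ 0 := (map_ne_zero _).mpr he
  have hΦe' : qExpand κ q e' ≠ 0 := (map_ne_zero _).mpr he'
  have hΦΦe : qExpand κ q (qExpand κ q e) ≠ 0 := (map_ne_zero _).mpr hΦe
  have hΦΦe' : qExpand κ q (qExpand κ q e') ≠ 0 := (map_ne_zero _).mpr hΦe'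
  cases i
  · -- `V_0`
    have a1 := s35v_RedV_alpha G φ M q hq hqM h1 false
    have b2 := s35v_RedV_beta G φ M q hq hqM h2 false
    have b1 := s35v_RedV_beta G φ M q hq hqM h1' false
    have a2 := s35v_RedV_alpha G φ M q hq hqM h2' false
    simp only [Bool.false_eq_true, if_false] at a1 b2 b1 a2 ⊢
    exact ((a1.mul b2).div (hk false) (b1.mul a2) (mul_ne_zero hΦe hΦΦe')).congr rfl
      (s35v_kron' q e' e he)
  · -- `V_∞`
    have a1 := s35v_RedV_alpha G φ M q hq hqM h1 true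
    have b2 := s35v_RedV_beta G φ M q hq hqM h2 true
    have b1 := s35v_RedV_beta G φ M q hq hqM h1' true
    have a2 := s35v_RedV_alpha G φ M q hq hqM h2' true
    simp only [if_true] at a1 b2 b1 a2 ⊢
    exact ((a1.mul b2).div (hk true) (b1.mul a2) (mul_ne_zero hΦΦe hΦe')).congr rfl
      (s35v_kron q e e' he')

/-! ### The function `x` -/

section X

variable [hqF : Fact q.Prime] [CharP κ q]
variable (σ₀ : K₀ ≃ₐ[ℚ] K₀)
  (hσA : ∀ a : K₀, a ∈ G.A → (σ₀ : K₀ ≃+* K₀) a ∈ G.A)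
  (hσπ : ∀ a : G.A, G.π (s34m_sigmaA G (σ₀ : K₀ ≃+* K₀) hσA a) = G.π a ^ q)

/-- `τ² (τ h' / h)`, the lift of `e = Ψ²(F H' / H)`. -/
def s35v_y (h h' : s34m_F K₀ M) : s34m_F K₀ M :=
  arithmeticRingAut (modularFunctionFieldFull M) σ₀
    (arithmeticRingAut (modularFunctionFieldFull M) σ₀
      (arithmeticRingAut (modularFunctionFieldFull M) σ₀ h' / h))

/-- `(τ (τ h' / h)) ^ q`, the lift of `Φ e`. -/
def s35v_z (h h' : s34m_F K₀ M) : s34m_F K₀ M :=
  (arithmeticRingAut (modularFunctionFieldFull M) σ₀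
    (arithmeticRingAut (modularFunctionFieldFull M) σ₀ h' / h)) ^ q

/-- **The global function `x`.** -/
def s35v_x (h h' : s34m_F K₀ M) : s34m_F K₀ (M * q) :=
  heckeAlphaBar K₀ M q (s35v_y M σ₀ h h') * heckeBetaBar K₀ M q (s35v_y M σ₀ h' h) /
    (heckeBetaBar K₀ M q (s35v_z M q σ₀ h h') * heckeAlphaBar K₀ M q (s35v_z M q σ₀ h' h))

/-- the reduction `e = Ψ²(F H' / H)`. -/
def s35v_e (H H' : LaurentSeries κ) : LaurentSeries κ :=
  s35m_Psi2 q (coeffMap (frobenius κ q) H' / H)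

theorem s35v_e_ne_zero {H H' : LaurentSeries κ} (hH : H ≠ 0) (hH' : H' ≠ 0) :
    s35v_e q H H' ≠ 0 :=
  (map_ne_zero _).mpr (div_ne_zero ((map_ne_zero _).mpr hH') hH)

include hσπ in
theorem s35v_hσπ' :
    ∀ a : G.A, G.π (s34m_sigmaA G (σ₀ : K₀ ≃+* K₀) hσA a) = frobenius κ q (G.π a) :=
  fun a => (hσπ a).trans (frobenius_def q (G.π a)).symm

include hσπ in
theorem s35v_y_red {h h' : s34m_F K₀ M} {H H' : LaurentSeries κ}
    (hh : s35v_RedI G M h H) (hh' : s35v_RedI G M h' H') (hH : H ≠ 0) :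
    s35v_RedI G M (s35v_y M σ₀ h h') (s35v_e q H H') := by
  have hσπ' := s35v_hσπ' G q σ₀ hσA hσπ
  have t := fun {y : s34m_F K₀ M} {s : LaurentSeries κ} (hy : s35v_RedI G M y s) =>
    s35v_RedI_tau G σ₀ hσA (frobenius κ q) hσπ' M hy
  exact t (t ((t hh').div (s35v_kerI G M) hh hH))

include hσπ in
theorem s35v_z_red {h h' : s34m_F K₀ M} {H H' : LaurentSeries κ}
    (hh : s35v_RedI G M h H) (hh' : s35v_RedI G M h' H') (hH : H ≠ 0) :
    s35v_RedI G M (s35v_z M q σ₀ h h') (qExpand κ q (s35v_e q H H')) := by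
  have hσπ' := s35v_hσπ' G q σ₀ hσA hσπ
  have t := fun {y : s34m_F K₀ M} {s : LaurentSeries κ} (hy : s35v_RedI G M y s) =>
    s35v_RedI_tau G σ₀ hσA (frobenius κ q) hσπ' M hy
  exact ((t ((t hh').div (s35v_kerI G M) hh hH)).pow q).congr rfl (s35v_pow_frob q _)

include hσπ in
/-- **`red_∞ x = e_∞ / Φ² e_∞`, `red_0 x = e_0 / Φ² e_0`.** -/
theorem s35v_x_red (i : Bool) {h h' : s34m_F K₀ M} {H H' : LaurentSeries κ}
    (hh : s35v_RedI G M h H) (hh' : s35v_RedI G M h' H') (hH : H ≠ 0) (hH' : H' ≠ 0) :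
    s35v_RedV G φ M q hq hqM i (s35v_x M q σ₀ h h')
      (if i then s35v_e q H H' / s35m_Phi2 q (s35v_e q H H')
        else s35v_e q H' H / s35m_Phi2 q (s35v_e q H' H)) :=
  s35v_kron_red G φ M q hq hqM i (s35v_y_red G M q σ₀ hσA hσπ hh hh' hH)
    (s35v_z_red G M q σ₀ hσA hσπ hh hh' hH) (s35v_y_red G M q σ₀ hσA hσπ hh' hh hH')
    (s35v_z_red G M q σ₀ hσA hσπ hh' hh hH') (s35v_e_ne_zero q hH hH') (s35v_e_ne_zero q hH' hH)

theorem s35v_x_red_ne_zero (i : Bool) {H H' : LaurentSeries κ} (hH : H ≠ 0) (hH' : H' ≠ 0) :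
    (if i then s35v_e q H H' / s35m_Phi2 q (s35v_e q H H')
        else s35v_e q H' H / s35m_Phi2 q (s35v_e q H' H)) ≠ 0 := by
  cases i
  · simp only [Bool.false_eq_true, if_false]
    exact div_ne_zero (s35v_e_ne_zero q hH' hH) ((map_ne_zero _).mpr (s35v_e_ne_zero q hH' hH))
  · simp only [if_true]
    exact div_ne_zero (s35v_e_ne_zero q hH hH') ((map_ne_zero _).mpr (s35v_e_ne_zero q hH hH'))

include hσπ in
/-- **`hf1` from the reduced norm relations.**  `Pf` stands for `P(σ) f`; `A = red_∞ f_∞`,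
`B = red_0 f_0` (`f = ϖ^{a_∞} f_∞ = ϖ^{a_0} f_0`), `ρ(A) = Ψ²(Ψ² A / A)` (helper6's
`s35m_poly_red_VV`). -/
theorem s35v_hf1_red (m : ℕ) (Pf : s34m_F K₀ (M * q)) (A B H H' : LaurentSeries κ) (a a' : κ)
    (hA : A ≠ 0) (hB : B ≠ 0) (hH : H ≠ 0) (hH' : H' ≠ 0)
    (hPI : s35v_RedV G φ M q hq hqM true Pf
      (s35m_Psi2 q (s35m_Psi2 q A / A) / s35m_Phi2 q (s35m_Psi2 q (s35m_Psi2 q A / A))))
    (hP0 : s35v_RedV G φ M q hq hqM false Pf
      (s35m_Psi2 q (s35m_Psi2 q B / B) / s35m_Phi2 q (s35m_Psi2 q (s35m_Psi2 q B / B))))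
    {h h' : s34m_F K₀ M} (hh : s35v_RedI G M h H) (hh' : s35v_RedI G M h' H')
    (R1 : A * coeffMap (frobenius κ q) B = HahnSeries.C a * H ^ m)
    (R2 : coeffMap (frobenius κ q) A * B = HahnSeries.C a' * H' ^ m) (i : Bool) :
    s35v_RedV G φ M q hq hqM i (Pf / s35v_x M q σ₀ h h' ^ m) 1 := by
  have hx := s35v_x_red G φ M q hq hqM σ₀ hσA hσπ i hh hh' hH hH'
  have hx0 := s35v_x_red_ne_zero q i hH hH'
  have hk := s35v_kerV G φ M q hq hqM i
  cases i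
  · simp only [Bool.false_eq_true, if_false] at hx hx0
    refine (hP0.div hk (hx.pow m) (pow_ne_zero m hx0)).congr rfl ?_
    rw [s35v_alg q m B A H' H a' a hB hA (by rw [mul_comm]; exact R2) (by rw [mul_comm]; exact R1)]
    exact div_self (pow_ne_zero m hx0)
  · simp only [if_true] at hx hx0
    refine (hPI.div hk (hx.pow m) (pow_ne_zero m hx0)).congr rfl ?_
    rw [s35v_alg q m A B H H' a a' hA hB R1 R2]
    exact div_self (pow_ne_zero m hx0)

end X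

end Fermat.Agent.Lib.S35
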