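/-
S35 (open-ended project), package [NORM] (helper7), part 1: THE NORM PRODUCT FORMULA OVER `K₀`.

`K₀` a field of characteristic `0` with `φ : K₀ →+* ℚ̄`, containing a primitive `q`-th root of unity
`ζ`; `𝓕_N = s34m_F K₀ N`; `α, β : 𝓕_M → 𝓕_{Mq}` the degeneracy maps, `w = s34m_al` the
Atkin–Lehner involution over `K₀` (`w α = β`).  The `q + 1` embeddings of `𝓕_{Mq}` over `α 𝓕_M`
into `K₀((T))` (with `𝓕_M → K₀((T))`, `y ↦ y(T^q)`) are `f ↦ f(T^q)` and `f ↦ (w f)(ζ^i T)`,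
`i < q`; hence `[𝓕_{Mq} : α 𝓕_M] = q + 1` (`s35nm_finrank_alpha`) and

  `Nm_α(f)(T^q) = f(T^q) · ∏_{i<q} (w f)(ζ^i T)`        (`s35nm_norm`),
  `Nm_β(f)(T^q) = (w f)(T^q) · ∏_{i<q} f(ζ^i T)`        (`s35nm_norm'`).

This is S37's `WNorm` (over `ℚ̄`) redone over `K₀`, where the Gauss valuation lives.
-/
import Fermat.Agent.Lib.S34.MValRed
import Fermat.Agent.Lib.S34.RDeg
import Fermat.Agent.Lib.S37.WNorm
import Fermat.Agent.Lib.S18.GAlpha
import Fermat.Prelude.Thm_ModularCurve_coeff_jqModC_neg_one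

set_option autoImplicit false
set_option linter.unusedSectionVars false
set_option linter.style.haveILetI false
set_option synthInstance.maxHeartbeats 400000

noncomputable section

namespace Fermat.Agent.Lib.S35

open ModularCurve AlgebraicCurve Fermat.Agent.Lib.FF Fermat.Agent.Lib.S18 Fermat.Agent.Lib.S28
  Fermat.Agent.Lib.S37 Fermat.Agent.Lib.S34

local notation "Kb" => AlgebraicClosure ℚ

variable {K₀ : Type*} [Field K₀] [Algebra ℚ K₀] (φ : K₀ →+* Kb)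
variable (M q : ℕ) [NeZero M] [NeZero q]

/-- The base embedding `𝓕_M → K₀((T))`, `y ↦ y(T^q)`. -/
def s35nm_base : s34m_F K₀ M →+* LaurentSeries K₀ :=
  (qExpand K₀ q).comp (algebraMap (s34m_F K₀ M) (LaurentSeries K₀))

theorem s35nm_base_apply (y : s34m_F K₀ M) :
    s35nm_base (K₀ := K₀) M q y = qExpand K₀ q (y : LaurentSeries K₀) := rfl

/-- The `q + 1` embeddings of `𝓕_{Mq}` into `K₀((T))`. -/
def s35nm_emb (hq : q.Prime) (hqM : ¬ q ∣ M) (ζ : K₀ˣ) :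
    Option (Fin q) → (s34m_F K₀ (M * q) →+* LaurentSeries K₀)
  | none => (qExpand K₀ q).comp (algebraMap (s34m_F K₀ (M * q)) (LaurentSeries K₀))
  | some i => (s28m_tw (ζ ^ (i : ℕ))).comp
      ((algebraMap (s34m_F K₀ (M * q)) (LaurentSeries K₀)).comp
        (s34m_al φ M q hq hqM : s34m_F K₀ (M * q) →+* s34m_F K₀ (M * q)))

theorem s35nm_emb_none (hq : q.Prime) (hqM : ¬ q ∣ M) (ζ : K₀ˣ) (f : s34m_F K₀ (M * q)) :
    s35nm_emb φ M q hq hqM ζ none f = qExpand K₀ q (f : LaurentSeries K₀) := rfl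

theorem s35nm_emb_some (hq : q.Prime) (hqM : ¬ q ∣ M) (ζ : K₀ˣ) (i : Fin q)
    (f : s34m_F K₀ (M * q)) :
    s35nm_emb φ M q hq hqM ζ (some i) f =
      s28m_tw (ζ ^ (i : ℕ))
        ((s34m_al φ M q hq hqM f : s34m_F K₀ (M * q)) : LaurentSeries K₀) := rfl

/-- All the embeddings restrict to `y ↦ y(T^q)` on `α 𝓕_M`. -/
theorem s35nm_emb_alpha (hq : q.Prime) (hqM : ¬ q ∣ M) (ζ : K₀ˣ) (hζ : ζ ^ q = 1)
    (i : Option (Fin q)) (y : s34m_F K₀ M) :
    s35nm_emb φ M q hq hqM ζ i (heckeAlphaBar K₀ M q y) = s35nm_base M q y := by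
  cases i with
  | none => rw [s35nm_emb_none, coe_heckeAlphaBar, s35nm_base_apply]
  | some i =>
    rw [s35nm_emb_some, s34m_al_alpha, coe_heckeBetaBar, s35nm_base_apply, s28m_tw_qExpand]
    rw [← pow_mul, mul_comm, pow_mul, hζ, one_pow]

/-- The values at `β(j) = j(T^q)`. -/
theorem s35nm_emb_none_beta_j (hq : q.Prime) (hqM : ¬ q ∣ M) (ζ : K₀ˣ) :
    s35nm_emb φ M q hq hqM ζ none (heckeBetaBar K₀ M q (s18g_jF (K := K₀) M)) =
      qExpand K₀ q (qExpand K₀ q (jqModC K₀)) := by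
  rw [s35nm_emb_none, coe_heckeBetaBar, s18g_coe_jF]

theorem s35nm_emb_some_beta_j (hq : q.Prime) (hqM : ¬ q ∣ M) (ζ : K₀ˣ) (i : Fin q) :
    s35nm_emb φ M q hq hqM ζ (some i) (heckeBetaBar K₀ M q (s18g_jF (K := K₀) M)) =
      s28m_tw (ζ ^ (i : ℕ)) (jqModC K₀) := by
  rw [s35nm_emb_some, s34m_al_beta, coe_heckeAlphaBar, s18g_coe_jF]

theorem s35nm_coeff_none (hq : q.Prime) :
    (qExpand K₀ q (qExpand K₀ q (jqModC K₀))).coeff (-1 : ℤ) = 0 := by
  apply qExpand_coeff_of_not_dvd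
  intro h
  have h1 : ((q : ℤ)) ∣ 1 := by
    obtain ⟨c, hc⟩ := h
    exact ⟨-c, by linarith⟩
  have h2 : (q : ℤ) = 1 := Int.eq_one_of_dvd_one (by positivity) h1
  have h3 : q = 1 := by exact_mod_cast h2
  exact hq.one_lt.ne' h3

theorem s35nm_coeff_some (ζ : K₀ˣ) (i : ℕ) :
    (s28m_tw (ζ ^ i) (jqModC K₀)).coeff (-1 : ℤ) = (((ζ ^ i)⁻¹ : K₀ˣ) : K₀) := by
  rw [s28m_tw_coeff, ModularCurve.coeff_jqModC_neg_one, mul_one, zpow_neg_one]

/-- The `q + 1` embeddings are pairwise distinct. -/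
theorem s35nm_emb_injective (hq : q.Prime) (hqM : ¬ q ∣ M) (ζ : K₀ˣ)
    (hζ : IsPrimitiveRoot (ζ : K₀) q) : Function.Injective (s35nm_emb φ M q hq hqM ζ) := by
  have hζ' : IsPrimitiveRoot ζ q := IsPrimitiveRoot.of_map_of_injective (f := Units.coeHom K₀)
    (by simpa using hζ) Units.val_injective
  intro a b hab
  have hv := RingHom.congr_fun hab (heckeBetaBar K₀ M q (s18g_jF (K := K₀) M))
  have hc : (s35nm_emb φ M q hq hqM ζ a (heckeBetaBar K₀ M q (s18g_jF (K := K₀) M))).coeff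
      (-1 : ℤ) =
      (s35nm_emb φ M q hq hqM ζ b (heckeBetaBar K₀ M q (s18g_jF (K := K₀) M))).coeff (-1 : ℤ) := by
    rw [hv]
  cases a with
  | none =>
    cases b with
    | none => rfl
    | some j =>
      exfalso
      rw [s35nm_emb_none_beta_j, s35nm_emb_some_beta_j, s35nm_coeff_none q hq, s35nm_coeff_some] at hc
      exact Units.ne_zero _ hc.symm
  | some i =>
    cases b with
    | none =>
      exfalso
      rw [s35nm_emb_none_beta_j, s35nm_emb_some_beta_j, s35nm_coeff_none q hq, s35nm_coeff_some] at hc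
      exact Units.ne_zero _ hc
    | some j =>
      rw [s35nm_emb_some_beta_j, s35nm_emb_some_beta_j, s35nm_coeff_some, s35nm_coeff_some] at hc
      have h1 : ζ ^ (i : ℕ) = ζ ^ (j : ℕ) := inv_injective (Units.ext hc)
      have h2 : (i : ℕ) = (j : ℕ) := hζ'.pow_inj i.2 j.2 h1
      exact congrArg some (Fin.ext h2)

/-! ### The degree of `α` over `K₀` -/

include φ in
/-- **`[𝓕_{Mq,K₀} : α 𝓕_{M,K₀}] = q + 1`** (when `K₀ ∋ ζ_q`). -/
theorem s35nm_finrank_alpha (hq : q.Prime) (hqM : ¬ q ∣ M) (ζ : K₀ˣ)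
    (hζ : IsPrimitiveRoot (ζ : K₀) q) :
    letI := algebraAlong (heckeAlphaBar K₀ M q)
    Module.Finite (s34m_F K₀ M) (s34m_F K₀ (M * q)) ∧
      Module.finrank (s34m_F K₀ M) (s34m_F K₀ (M * q)) = q + 1 := by
  letI := algebraAlong (heckeAlphaBar K₀ M q)
  obtain ⟨hfin, hle⟩ := s34r_deg_le φ M q hq hqM
  refine ⟨hfin, le_antisymm hle ?_⟩
  haveI := hfin
  have hpow : ζ ^ q = 1 := by
    apply Units.ext
    rw [Units.val_pow_eq_pow_val, hζ.pow_eq_one, Units.val_one]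
  letI : Algebra (s34m_F K₀ M) (LaurentSeries K₀) := (s35nm_base (K₀ := K₀) M q).toAlgebra
  -- the embeddings as algebra homomorphisms
  let τ : Option (Fin q) → (s34m_F K₀ (M * q) →ₐ[s34m_F K₀ M] LaurentSeries K₀) := fun i =>
    { s35nm_emb φ M q hq hqM ζ i with
      commutes' := fun y => s35nm_emb_alpha φ M q hq hqM ζ hpow i y }
  have hτinj : Function.Injective τ := by
    intro a b hab
    apply s35nm_emb_injective φ M q hq hqM ζ hζ
    refine RingHom.ext fun f => ?_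
    exact AlgHom.congr_fun hab f
  have h1 : Nat.card (Option (Fin q)) ≤
      Nat.card (s34m_F K₀ (M * q) →ₐ[s34m_F K₀ M] LaurentSeries K₀) :=
    Nat.card_le_card_of_injective τ hτinj
  haveI : Module.Free (s34m_F K₀ M) (s34m_F K₀ (M * q)) := Module.Free.of_divisionRing _ _
  have h2 := card_algHom_le_finrank (s34m_F K₀ M) (s34m_F K₀ (M * q)) (LaurentSeries K₀)
  have h3 : Nat.card (Option (Fin q)) = q + 1 := by
    rw [Nat.card_eq_fintype_card, Fintype.card_option, Fintype.card_fin]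
  omega

/-! ### The norm product formula over `K₀` -/

/-- **Norm product formula** for `α : 𝓕_M → 𝓕_{Mq}` over `K₀`:
`Nm_α(f)(T^q) = f(T^q) · ∏_{i<q} (w f)(ζ^i T)`. -/
theorem s35nm_norm (hq : q.Prime) (hqM : ¬ q ∣ M) (ζ : K₀ˣ) (hζ : IsPrimitiveRoot (ζ : K₀) q)
    (f : s34m_F K₀ (M * q)) :
    letI := algebraAlong (heckeAlphaBar K₀ M q)
    qExpand K₀ q ((Algebra.norm (s34m_F K₀ M) f : s34m_F K₀ M) : LaurentSeries K₀) =
      qExpand K₀ q (f : LaurentSeries K₀) *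
        s37e_prodTw q ζ ((s34m_al φ M q hq hqM f : s34m_F K₀ (M * q)) : LaurentSeries K₀) := by
  letI := algebraAlong (heckeAlphaBar K₀ M q)
  obtain ⟨hfin, hrank⟩ := s35nm_finrank_alpha φ M q hq hqM ζ hζ
  haveI := hfin
  haveI : CharZero K₀ := algebraRat.charZero K₀
  haveI : CharZero (s34m_F K₀ M) :=
    charZero_of_injective_algebraMap (algebraMap K₀ (s34m_F K₀ M)).injective
  have hpow : ζ ^ q = 1 := by
    apply Units.ext
    rw [Units.val_pow_eq_pow_val, hζ.pow_eq_one, Units.val_one]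
  have key := s37w_norm_eq_prod_of_embeddings (K := s34m_F K₀ M) (L := s34m_F K₀ (M * q))
    (s35nm_base (K₀ := K₀) M q) (s35nm_emb φ M q hq hqM ζ)
    (fun i => RingHom.ext fun y => s35nm_emb_alpha φ M q hq hqM ζ hpow i y)
    (s35nm_emb_injective φ M q hq hqM ζ hζ)
    (by rw [hrank]; simp) f
  rw [Fintype.prod_option] at key
  rw [← s35nm_base_apply, key, s35nm_emb_none]
  congr 1
  unfold s37e_prodTw
  rw [← Fin.prod_univ_eq_prod_range (fun b => s28m_tw (ζ ^ b)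
    ((s34m_al φ M q hq hqM f : s34m_F K₀ (M * q)) : LaurentSeries K₀))]
  rfl

/-- `Nm_β(f) = Nm_α(w f)`. -/
theorem s35nm_norm_beta_side (hq : q.Prime) (hqM : ¬ q ∣ M) (f : s34m_F K₀ (M * q)) :
    @Algebra.norm (s34m_F K₀ M) (s34m_F K₀ (M * q)) _ _ (algebraAlong (heckeBetaBar K₀ M q)) f =
      @Algebra.norm (s34m_F K₀ M) (s34m_F K₀ (M * q)) _ _ (algebraAlong (heckeAlphaBar K₀ M q))
        (s34m_al φ M q hq hqM f) :=
  s37w_norm_transport (heckeAlphaBar K₀ M q).toRingHom (heckeBetaBar K₀ M q).toRingHom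
    (s34m_al φ M q hq hqM).toRingEquiv (fun y => s34m_al_beta φ M q hq hqM y) f

/-- **Norm product formula** for `β : 𝓕_M → 𝓕_{Mq}` over `K₀`:
`Nm_β(f)(T^q) = (w f)(T^q) · ∏_{i<q} f(ζ^i T)`. -/
theorem s35nm_norm' (hq : q.Prime) (hqM : ¬ q ∣ M) (ζ : K₀ˣ) (hζ : IsPrimitiveRoot (ζ : K₀) q)
    (f : s34m_F K₀ (M * q)) :
    letI := algebraAlong (heckeBetaBar K₀ M q)
    qExpand K₀ q ((Algebra.norm (s34m_F K₀ M) f : s34m_F K₀ M) : LaurentSeries K₀) =
      qExpand K₀ q ((s34m_al φ M q hq hqM f : s34m_F K₀ (M * q)) : LaurentSeries K₀) *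
        s37e_prodTw q ζ (f : LaurentSeries K₀) := by
  have h := s35nm_norm φ M q hq hqM ζ hζ (s34m_al φ M q hq hqM f)
  rw [s34m_al_al] at h
  show qExpand K₀ q ((@Algebra.norm (s34m_F K₀ M) (s34m_F K₀ (M * q)) _ _
    (algebraAlong (heckeBetaBar K₀ M q)) f : s34m_F K₀ M) : LaurentSeries K₀) = _
  rw [s35nm_norm_beta_side φ M q hq hqM f]
  exact h

end Fermat.Agent.Lib.S35
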