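/-
S35 (open-ended project), package [NORM] (helper7), part 2: REDUCTION OF NORMS.

`N = M q`, `q ∤ M`, `K₀ ∋ ζ_q` with Gauss datum `G` (residue field `κ` of characteristic `q`),
`V_∞`, `V_0 = w V_∞` the two Gauss valuation rings of `𝓕_{Mq}`, `red_∞`, `red_0 = red_∞ ∘ w`.
For `f` a unit of `V_∞ ⊓ V_0`:

  `Nm_α f ∈ V_M^×`,  `red_M (Nm_α f) = red_∞ f · Fr (red_0 f)`       (`s35nm_red_norm_alpha`),
  `Nm_β f ∈ V_M^×`,  `red_M (Nm_β f) = Fr (red_∞ f) · red_0 f`       (`s35nm_red_norm_beta`),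

`Fr` = coefficientwise Frobenius `coeffMap (frobenius κ q)`.  (On the special fibre `α` is an
isomorphism on the component `C_∞` and the Frobenius on `C_0`; `β` the other way round.)

Proof: the norm product formula `Nm_α(f)(T^q) = f(T^q) ∏_{i<q} (w f)(ζ^i T)` of `NormProd`, the
twist `T ↦ ζ^i T` reduces to the identity (`ζ̄ = 1`), and `h^q = (Fr h)(T^q)` in characteristic `q`.
-/
import Fermat.Agent.Lib.S35.NormProd
import Fermat.Agent.Lib.S37.ENorm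

set_option autoImplicit false
set_option linter.unusedSectionVars false
set_option linter.style.haveILetI false
set_option synthInstance.maxHeartbeats 400000

noncomputable section

namespace Fermat.Agent.Lib.S35

open ModularCurve AlgebraicCurve Fermat.Agent.Lib.FF Fermat.Agent.Lib.S18 Fermat.Agent.Lib.S28
  Fermat.Agent.Lib.S37 Fermat.Agent.Lib.S34

local notation "Kb" => AlgebraicClosure ℚ

variable {K₀ : Type*} [Field K₀] [Algebra ℚ K₀] {κ : Type*} [Field κ] (G : s18g_GaussData K₀ κ)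

/-! ### Twists and the Gauss ring -/

/-- `ι` commutes with twists by units of `A`. -/
theorem s35nm_iota_tw (c : (↥G.A)ˣ) (P : LaurentSeries G.A) :
    s18g_iota G (s28m_tw c P) =
      s28m_tw (Units.map (G.A.subtype : ↥G.A →* K₀) c) (s18g_iota G P) :=
  s28m_coeffMap_tw G.A.subtype c P

/-- `ρ` commutes with twists by units of `A`. -/
theorem s35nm_rho_tw (c : (↥G.A)ˣ) (P : LaurentSeries G.A) :
    s18g_rho G (s28m_tw c P) = s28m_tw (Units.map (G.π : ↥G.A →* κ) c) (s18g_rho G P) :=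
  s28m_coeffMap_tw G.π c P

/-- A twist by a unit `c` of `A` with `c̄ = 1` preserves the Gauss ring and commutes with the
reduction. -/
theorem s35nm_tw_mem_O (c : (↥G.A)ˣ) (hc : G.π (c : ↥G.A) = 1) {y : LaurentSeries K₀}
    (hy : y ∈ s18g_O G) :
    ∃ h : s28m_tw (Units.map (G.A.subtype : ↥G.A →* K₀) c) y ∈ s18g_O G,
      s18g_red G ⟨_, h⟩ = s18g_red G ⟨y, hy⟩ := by
  obtain ⟨P, Q, hQ, hPQ⟩ := (s18g_mem_O_iff G).mp hy
  have hc1 : Units.map (G.π : ↥G.A →* κ) c = 1 := Units.ext hc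
  have hQ' : s18g_rho G (s28m_tw c Q) ≠ 0 := by
    rw [s35nm_rho_tw, hc1, s28m_tw_one]; exact hQ
  have hPQ' : s18g_iota G (s28m_tw c Q) *
      s28m_tw (Units.map (G.A.subtype : ↥G.A →* K₀) c) y = s18g_iota G (s28m_tw c P) := by
    rw [s35nm_iota_tw, s35nm_iota_tw, ← map_mul, hPQ]
  have hmem : s28m_tw (Units.map (G.A.subtype : ↥G.A →* K₀) c) y ∈ s18g_O G :=
    (s18g_mem_O_iff G).mpr ⟨s28m_tw c P, s28m_tw c Q, hQ', hPQ'⟩
  refine ⟨hmem, ?_⟩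
  have e1 := s18g_red_eq G ⟨_, hmem⟩ (s28m_tw c P) (s28m_tw c Q) hQ' hPQ'
  have e2 := s18g_red_eq G ⟨y, hy⟩ P Q hQ hPQ
  rw [e1, e2, s35nm_rho_tw, s35nm_rho_tw, hc1, s28m_tw_one, s28m_tw_one]

/-- Products in the Gauss ring: if every factor lies in `O` with reduction `r`, the product lies in
`O` with reduction `r ^ card`. -/
theorem s35nm_prod_mem_O {ι : Type*} (s : Finset ι) (f : ι → LaurentSeries K₀) (r : LaurentSeries κ)
    (hf : ∀ b ∈ s, ∃ h : f b ∈ s18g_O G, s18g_red G ⟨f b, h⟩ = r) :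
    ∃ h : ∏ b ∈ s, f b ∈ s18g_O G, s18g_red G ⟨_, h⟩ = r ^ s.card := by
  classical
  induction s using Finset.induction_on with
  | empty =>
    refine ⟨by rw [Finset.prod_empty]; exact (s18g_O G).one_mem, ?_⟩
    rw [Finset.card_empty, pow_zero]
    have : (⟨∏ b ∈ (∅ : Finset ι), f b, by rw [Finset.prod_empty]; exact (s18g_O G).one_mem⟩ :
        s18g_O G) = 1 := Subtype.ext (by
      show ∏ b ∈ (∅ : Finset ι), f b = 1
      exact Finset.prod_empty)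
    rw [this, map_one]
  | insert a s ha ih =>
    obtain ⟨h1, e1⟩ := hf a (Finset.mem_insert_self a s)
    obtain ⟨h2, e2⟩ := ih (fun b hb => hf b (Finset.mem_insert_of_mem hb))
    have hmem : ∏ b ∈ insert a s, f b ∈ s18g_O G := by
      rw [Finset.prod_insert ha]; exact (s18g_O G).mul_mem h1 h2
    refine ⟨hmem, ?_⟩
    have : (⟨∏ b ∈ insert a s, f b, hmem⟩ : s18g_O G) = ⟨f a, h1⟩ * ⟨∏ b ∈ s, f b, h2⟩ :=
      Subtype.ext (by
        show ∏ b ∈ insert a s, f b = f a * ∏ b ∈ s, f b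
        exact Finset.prod_insert ha)
    rw [this, map_mul, e1, e2, Finset.card_insert_of_notMem ha, pow_succ']

/-- **The product `∏_{b<q} y(ζ^b T)` reduces to `ȳ^q`** (`ζ^q = 1`, residue characteristic `q`). -/
theorem s35nm_prodTw_mem_O (q : ℕ) [hq : Fact q.Prime] [CharP κ q] (ζ : K₀ˣ) (hζ : ζ ^ q = 1)
    {y : LaurentSeries K₀} (hy : y ∈ s18g_O G) :
    ∃ h : s37e_prodTw q ζ y ∈ s18g_O G, s18g_red G ⟨_, h⟩ = (s18g_red G ⟨y, hy⟩) ^ q := by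
  set ζA : (↥G.A)ˣ := s37e_unitOfRoot G.A hq.out.pos ζ hζ with hζA
  have hmap : Units.map (G.A.subtype : ↥G.A →* K₀) ζA = ζ := s37e_map_unitOfRoot G.A hq.out.pos ζ hζ
  have hζAq : ζA ^ q = 1 := by
    apply Units.ext
    apply Subtype.ext
    have : ((ζ ^ q : K₀ˣ) : K₀) = 1 := by rw [hζ, Units.val_one]
    simpa [hζA] using this
  have h := s35nm_prod_mem_O G (Finset.range q) (fun b => s28m_tw (ζ ^ b) y) (s18g_red G ⟨y, hy⟩)
    (fun b _ => by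
      have hb : G.π ((ζA ^ b : (↥G.A)ˣ) : ↥G.A) = 1 :=
        s37e_map_zeta q (ζA ^ b) (by rw [← pow_mul, mul_comm, pow_mul, hζAq, one_pow]) G.π
      have := s35nm_tw_mem_O G (ζA ^ b) hb hy
      rw [map_pow, hmap] at this
      exact this)
  rw [Finset.card_range] at h
  exact h

/-! ### The norms along `α` and `β` -/

variable (φ : K₀ →+* Kb) (M q : ℕ) [NeZero M] [NeZero q]

/-- The norm `𝓕_{Mq} → 𝓕_M` along `α`. -/
def s35nm_normAlpha : s34m_F K₀ (M * q) →* s34m_F K₀ M :=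
  @Algebra.norm (s34m_F K₀ M) (s34m_F K₀ (M * q)) _ _ (algebraAlong (heckeAlphaBar K₀ M q))

/-- The norm `𝓕_{Mq} → 𝓕_M` along `β`. -/
def s35nm_normBeta : s34m_F K₀ (M * q) →* s34m_F K₀ M :=
  @Algebra.norm (s34m_F K₀ M) (s34m_F K₀ (M * q)) _ _ (algebraAlong (heckeBetaBar K₀ M q))

theorem s35nm_normBeta_eq (hq : q.Prime) (hqM : ¬ q ∣ M) (f : s34m_F K₀ (M * q)) :
    s35nm_normBeta M q f = s35nm_normAlpha M q (s34m_al φ M q hq hqM f) :=
  s35nm_norm_beta_side φ M q hq hqM f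

theorem s35nm_normAlpha_inv (f : s34m_F K₀ (M * q)) (hf : f ≠ 0) :
    s35nm_normAlpha M q f⁻¹ = (s35nm_normAlpha M q f)⁻¹ := by
  apply eq_inv_of_mul_eq_one_left
  rw [← map_mul, inv_mul_cancel₀ hf, map_one]

variable [Fact q.Prime] [CharP κ q]

/-- **Reduction of the norm along `α`**, assuming the norm is Gauss-integral. -/
theorem s35nm_red_normAlpha_of_mem (hq : q.Prime) (hqM : ¬ q ∣ M) (ζ : K₀ˣ)
    (hζ : IsPrimitiveRoot (ζ : K₀) q) (f : s34m_F K₀ (M * q))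
    (hfI : f ∈ s34m_Vinf G (M * q)) (hf0 : f ∈ s34m_Vzero G φ M q hq hqM)
    (hN : s35nm_normAlpha M q f ∈ s34m_Vinf G M) :
    s34m_redInf G M ⟨s35nm_normAlpha M q f, hN⟩ =
      s34m_redInf G (M * q) ⟨f, hfI⟩ *
        coeffMap (frobenius κ q) (s34m_redZero G φ M q hq hqM ⟨f, hf0⟩) := by
  have hpow : ζ ^ q = 1 := by
    apply Units.ext
    rw [Units.val_pow_eq_pow_val, hζ.pow_eq_one, Units.val_one]
  have hprod := s35nm_norm φ M q hq hqM ζ hζ f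
  -- the three factors in the Gauss ring
  have hfO : ((f : s34m_F K₀ (M * q)) : LaurentSeries K₀) ∈ s18g_O G := hfI
  have hwO : ((s34m_al φ M q hq hqM f : s34m_F K₀ (M * q)) : LaurentSeries K₀) ∈ s18g_O G := hf0
  have hgO : ((s35nm_normAlpha M q f : s34m_F K₀ M) : LaurentSeries K₀) ∈ s18g_O G := hN
  obtain ⟨hP, eP⟩ := s35nm_prodTw_mem_O G q ζ hpow hwO
  have e1 := s34m_red_qExpand G q ⟨_, hgO⟩
  have e2 := s34m_red_qExpand G q ⟨_, hfO⟩
  have e3 : (⟨qExpand K₀ q ((s35nm_normAlpha M q f : s34m_F K₀ M) : LaurentSeries K₀),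
      s34m_qExpand_mem_O G q hgO⟩ : s18g_O G) =
      ⟨qExpand K₀ q ((f : s34m_F K₀ (M * q)) : LaurentSeries K₀), s34m_qExpand_mem_O G q hfO⟩ *
        ⟨_, hP⟩ := Subtype.ext hprod
  have e4 := congrArg (s18g_red G) e3
  rw [map_mul, eP] at e4
  have e1' : s18g_red G ⟨qExpand K₀ q ((s35nm_normAlpha M q f : s34m_F K₀ M) : LaurentSeries K₀),
      s34m_qExpand_mem_O G q hgO⟩ = qExpand κ q (s18g_red G ⟨_, hgO⟩) := e1
  have e2' : s18g_red G ⟨qExpand K₀ q ((f : s34m_F K₀ (M * q)) : LaurentSeries K₀),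
      s34m_qExpand_mem_O G q hfO⟩ = qExpand κ q (s18g_red G ⟨_, hfO⟩) := e2
  rw [e1', e2', s37e_pow_char q (s18g_red G ⟨_, hwO⟩), ← map_mul] at e4
  exact s34m_qExpand_injective κ q e4

/-! ### Units -/

omit [NeZero q] [Fact q.Prime] [CharP κ q] in
/-- A unit of `V_∞` has non-zero reduction. -/
theorem s35nm_redInf_ne_zero (N : ℕ) [NeZero N] {y : s34m_F K₀ N} (hy : y ∈ s34m_Vinf G N)
    (hy' : y⁻¹ ∈ s34m_Vinf G N) (h0 : y ≠ 0) : s34m_redInf G N ⟨y, hy⟩ ≠ 0 := by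
  intro h
  have h1 : (⟨y, hy⟩ : s34m_Vinf G N) * ⟨y⁻¹, hy'⟩ = 1 := Subtype.ext (mul_inv_cancel₀ h0)
  have h2 := congrArg (s34m_redInf G N) h1
  rw [map_mul, h, zero_mul, map_one] at h2
  exact zero_ne_one h2

omit [NeZero q] [Fact q.Prime] [CharP κ q] in
/-- An element of `V_∞` with non-zero reduction is a unit of `V_∞`. -/
theorem s35nm_inv_mem_of_redInf_ne_zero (N : ℕ) [NeZero N] {y : s34m_F K₀ N}
    (hy : y ∈ s34m_Vinf G N) (h : s34m_redInf G N ⟨y, hy⟩ ≠ 0) : y⁻¹ ∈ s34m_Vinf G N := by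
  have h0 : y ≠ 0 := by
    rintro rfl
    apply h
    have : (⟨0, hy⟩ : s34m_Vinf G N) = 0 := rfl
    rw [this, map_zero]
  rcases (s34m_Vinf G N).mem_or_inv_mem y⁻¹ with h1 | h1
  · exact h1
  · -- `y` is not a unit: write `y = ϖ ^ n u`
    obtain ⟨n, u, hu, hu', e⟩ := s34m_exists_zpow_Vinf G N y h0
    have hu0 : u ≠ 0 := by
      rintro rfl
      rw [mul_zero] at e
      exact h0 e
    rcases le_or_gt n 0 with hn | hn
    · -- `y⁻¹ = ϖ ^ (-n) u⁻¹`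
      have e' : y⁻¹ = s34m_unif G N ^ (-n).toNat * u⁻¹ := by
        rw [e, mul_inv, ← zpow_neg, ← zpow_natCast, Int.toNat_of_nonneg (by omega)]
      rw [e']
      exact mul_mem (pow_mem (s34m_unif_mem_Vinf G N) _) hu'
    · exfalso
      apply h
      rw [s34m_redInf_eq_zero_iff]
      refine ⟨s34m_unif G N ^ (n - 1).toNat * u,
        mul_mem (pow_mem (s34m_unif_mem_Vinf G N) _) hu, ?_⟩
      show y = _
      rw [e, ← mul_assoc, ← pow_succ', ← zpow_natCast]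
      congr 2
      push_cast
      rw [Int.toNat_of_nonneg (by omega)]
      ring

omit [NeZero M] [NeZero q] in
/-- The coefficientwise Frobenius is injective. -/
theorem s35nm_frob_ne_zero {x : LaurentSeries κ} (hx : x ≠ 0) :
    coeffMap (frobenius κ q) x ≠ 0 := by
  intro h
  have := s37e_pow_char q x
  rw [h, map_zero] at this
  exact hx (pow_eq_zero_iff (Fact.out : q.Prime).ne_zero |>.mp this)

/-- Unit case, one direction: if `f` is a unit of `V_∞ ⊓ V_0` and `Nm_α f ∈ V_M`, then `Nm_α f` is a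
unit of `V_M`. -/
theorem s35nm_normAlpha_inv_mem (hq : q.Prime) (hqM : ¬ q ∣ M) (ζ : K₀ˣ)
    (hζ : IsPrimitiveRoot (ζ : K₀) q) (f : s34m_F K₀ (M * q)) (hf : f ≠ 0)
    (hfI : f ∈ s34m_Vinf G (M * q)) (hfI' : f⁻¹ ∈ s34m_Vinf G (M * q))
    (hf0 : f ∈ s34m_Vzero G φ M q hq hqM) (hf0' : f⁻¹ ∈ s34m_Vzero G φ M q hq hqM)
    (hN : s35nm_normAlpha M q f ∈ s34m_Vinf G M) :
    (s35nm_normAlpha M q f)⁻¹ ∈ s34m_Vinf G M := by
  apply s35nm_inv_mem_of_redInf_ne_zero G M hN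
  rw [s35nm_red_normAlpha_of_mem G φ M q hq hqM ζ hζ f hfI hf0 hN]
  apply mul_ne_zero
  · exact s35nm_redInf_ne_zero G (M * q) hfI hfI' hf
  · apply s35nm_frob_ne_zero
    rw [s34m_redZero_apply]
    refine s35nm_redInf_ne_zero G (M * q) _ ?_ ((map_ne_zero _).mpr hf)
    show (s34m_al φ M q hq hqM f)⁻¹ ∈ s34m_Vinf G (M * q)
    rw [← map_inv₀]
    exact hf0'

/-- **The norm along `α` of a unit of `V_∞ ⊓ V_0` is a unit of `V_M`.** -/
theorem s35nm_normAlpha_unit (hq : q.Prime) (hqM : ¬ q ∣ M) (ζ : K₀ˣ)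
    (hζ : IsPrimitiveRoot (ζ : K₀) q) (f : s34m_F K₀ (M * q)) (hf : f ≠ 0)
    (hfI : f ∈ s34m_Vinf G (M * q)) (hfI' : f⁻¹ ∈ s34m_Vinf G (M * q))
    (hf0 : f ∈ s34m_Vzero G φ M q hq hqM) (hf0' : f⁻¹ ∈ s34m_Vzero G φ M q hq hqM) :
    s35nm_normAlpha M q f ∈ s34m_Vinf G M ∧ (s35nm_normAlpha M q f)⁻¹ ∈ s34m_Vinf G M := by
  rcases (s34m_Vinf G M).mem_or_inv_mem (s35nm_normAlpha M q f) with h | h
  · exact ⟨h, s35nm_normAlpha_inv_mem G φ M q hq hqM ζ hζ f hf hfI hfI' hf0 hf0' h⟩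
  · rw [← s35nm_normAlpha_inv M q f hf] at h
    have h' := s35nm_normAlpha_inv_mem G φ M q hq hqM ζ hζ f⁻¹ (inv_ne_zero hf) hfI'
      (by rw [inv_inv]; exact hfI) hf0' (by rw [inv_inv]; exact hf0) h
    rw [s35nm_normAlpha_inv M q f hf] at h h'
    rw [inv_inv] at h'
    exact ⟨h', h⟩

/-- **REDUCTION OF THE NORM ALONG `α`** (`[NORM]`, `α`-half): for a unit `f` of `V_∞ ⊓ V_0`,
`Nm_α f` is a unit of `V_M` and `red_M (Nm_α f) = red_∞ f · Fr (red_0 f)`. -/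
theorem s35nm_red_norm_alpha (hq : q.Prime) (hqM : ¬ q ∣ M) (ζ : K₀ˣ)
    (hζ : IsPrimitiveRoot (ζ : K₀) q) (f : s34m_F K₀ (M * q)) (hf : f ≠ 0)
    (hfI : f ∈ s34m_Vinf G (M * q)) (hfI' : f⁻¹ ∈ s34m_Vinf G (M * q))
    (hf0 : f ∈ s34m_Vzero G φ M q hq hqM) (hf0' : f⁻¹ ∈ s34m_Vzero G φ M q hq hqM) :
    ∃ hN : s35nm_normAlpha M q f ∈ s34m_Vinf G M,
      (s35nm_normAlpha M q f)⁻¹ ∈ s34m_Vinf G M ∧
      s34m_redInf G M ⟨s35nm_normAlpha M q f, hN⟩ =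
        s34m_redInf G (M * q) ⟨f, hfI⟩ *
          coeffMap (frobenius κ q) (s34m_redZero G φ M q hq hqM ⟨f, hf0⟩) := by
  obtain ⟨h1, h2⟩ := s35nm_normAlpha_unit G φ M q hq hqM ζ hζ f hf hfI hfI' hf0 hf0'
  exact ⟨h1, h2, s35nm_red_normAlpha_of_mem G φ M q hq hqM ζ hζ f hfI hf0 h1⟩

/-! Kernel hygiene: the definitional unfolding `y ∈ V_0 ↔ w y ∈ V_∞` is only ever used with `y` a
variable (the kernel is slow on it for composite `y`). -/

omit [NeZero M] [NeZero q] [Fact q.Prime] [CharP κ q] in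
theorem s35nm_redInf_congr (N : ℕ) [NeZero N] {x x' : s34m_F K₀ N} (e : x = x')
    (h : x ∈ s34m_Vinf G N) (h' : x' ∈ s34m_Vinf G N) :
    s34m_redInf G N ⟨x, h⟩ = s34m_redInf G N ⟨x', h'⟩ := by
  subst e
  rfl

omit [Fact q.Prime] [CharP κ q] in
theorem s35nm_redZero_eq (hq : q.Prime) (hqM : ¬ q ∣ M) (y : s34m_F K₀ (M * q))
    (hy : y ∈ s34m_Vzero G φ M q hq hqM) (h : s34m_al φ M q hq hqM y ∈ s34m_Vinf G (M * q)) :
    s34m_redZero G φ M q hq hqM ⟨y, hy⟩ = s34m_redInf G (M * q) ⟨s34m_al φ M q hq hqM y, h⟩ :=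
  s34m_redZero_apply G φ M q hq hqM ⟨y, hy⟩

omit [Fact q.Prime] [CharP κ q] in
/-- `red_0 (w f) = red_∞ f`. -/
theorem s35nm_redZero_al (hq : q.Prime) (hqM : ¬ q ∣ M) (f : s34m_F K₀ (M * q))
    (hfI : f ∈ s34m_Vinf G (M * q))
    (h : s34m_al φ M q hq hqM f ∈ s34m_Vzero G φ M q hq hqM) :
    s34m_redZero G φ M q hq hqM ⟨s34m_al φ M q hq hqM f, h⟩ = s34m_redInf G (M * q) ⟨f, hfI⟩ :=
  (s35nm_redZero_eq G φ M q hq hqM (s34m_al φ M q hq hqM f) h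
    ((s34m_mem_Vzero G φ M q hq hqM _).mp h)).trans
    (s35nm_redInf_congr G (M * q) (s34m_al_al φ M q hq hqM f) _ hfI)

/-- **REDUCTION OF THE NORM ALONG `β`** (`[NORM]`, `β`-half): for a unit `f` of `V_∞ ⊓ V_0`,
`Nm_β f` is a unit of `V_M` and `red_M (Nm_β f) = Fr (red_∞ f) · red_0 f`. -/
theorem s35nm_red_norm_beta (hq : q.Prime) (hqM : ¬ q ∣ M) (ζ : K₀ˣ)
    (hζ : IsPrimitiveRoot (ζ : K₀) q) (f : s34m_F K₀ (M * q)) (hf : f ≠ 0)
    (hfI : f ∈ s34m_Vinf G (M * q)) (hfI' : f⁻¹ ∈ s34m_Vinf G (M * q))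
    (hf0 : f ∈ s34m_Vzero G φ M q hq hqM) (hf0' : f⁻¹ ∈ s34m_Vzero G φ M q hq hqM) :
    ∃ hN : s35nm_normBeta M q f ∈ s34m_Vinf G M,
      (s35nm_normBeta M q f)⁻¹ ∈ s34m_Vinf G M ∧
      s34m_redInf G M ⟨s35nm_normBeta M q f, hN⟩ =
        coeffMap (frobenius κ q) (s34m_redInf G (M * q) ⟨f, hfI⟩) *
          s34m_redZero G φ M q hq hqM ⟨f, hf0⟩ := by
  have hg0 : s34m_al φ M q hq hqM f ≠ 0 := (map_ne_zero _).mpr hf
  have hgI : s34m_al φ M q hq hqM f ∈ s34m_Vinf G (M * q) :=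
    (s34m_mem_Vzero G φ M q hq hqM f).mp hf0
  have hgI' : (s34m_al φ M q hq hqM f)⁻¹ ∈ s34m_Vinf G (M * q) := by
    rw [← map_inv₀]; exact (s34m_mem_Vzero G φ M q hq hqM f⁻¹).mp hf0'
  have hgZ : s34m_al φ M q hq hqM f ∈ s34m_Vzero G φ M q hq hqM :=
    (s34m_al_mem_Vinf_iff G φ M q hq hqM f).mpr hfI
  have hgZ' : (s34m_al φ M q hq hqM f)⁻¹ ∈ s34m_Vzero G φ M q hq hqM := by
    rw [← map_inv₀]; exact (s34m_al_mem_Vinf_iff G φ M q hq hqM f⁻¹).mpr hfI'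
  obtain ⟨h1, h2, h3⟩ := s35nm_red_norm_alpha G φ M q hq hqM ζ hζ (s34m_al φ M q hq hqM f)
    hg0 hgI hgI' hgZ hgZ'
  rw [s35nm_redZero_al G φ M q hq hqM f hfI hgZ] at h3
  have e : s35nm_normBeta M q f = s35nm_normAlpha M q (s34m_al φ M q hq hqM f) :=
    s35nm_normBeta_eq φ M q hq hqM f
  have hN : s35nm_normBeta M q f ∈ s34m_Vinf G M := by rw [e]; exact h1
  refine ⟨hN, by rw [e]; exact h2, ?_⟩
  rw [s35nm_redInf_congr G M e hN h1, h3, mul_comm, s35nm_redZero_eq G φ M q hq hqM f hf0 hgI]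

/-! ### Compatibility with the base change `K₀ → ℚ̄` -/

omit [Fact q.Prime] [CharP κ q] in
/-- `coeffMap` commutes with `prodTw`. -/
theorem s35nm_coeffMap_prodTw {R S : Type*} [CommRing R] [CommRing S] (g : R →+* S) (n : ℕ)
    (ζ : Rˣ) (y : LaurentSeries R) :
    coeffMap g (s37e_prodTw n ζ y) = s37e_prodTw n (Units.map (g : R →* S) ζ) (coeffMap g y) := by
  unfold s37e_prodTw
  rw [map_prod]
  refine Finset.prod_congr rfl fun b _ => ?_
  rw [s28m_coeffMap_tw, map_pow]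

omit [Fact q.Prime] [CharP κ q] in
/-- **The norm along `α` commutes with the base change `ι : 𝓕_{K₀} → 𝓕_{ℚ̄}`.** -/
theorem s35nm_iota_normAlpha (hq : q.Prime) (hqM : ¬ q ∣ M) (ζ : K₀ˣ)
    (hζ : IsPrimitiveRoot (ζ : K₀) q) (f : s34m_F K₀ (M * q)) :
    s34m_iota φ M (s35nm_normAlpha M q f) =
      @Algebra.norm (ffi_F M) (ffi_F (M * q)) _ _ (algebraAlong (heckeAlphaBar Kb M q))
        (s34m_iota φ (M * q) f) := by
  have hζ' : IsPrimitiveRoot ((Units.map (φ : K₀ →* Kb) ζ : Kbˣ) : Kb) q := by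
    have : ((Units.map (φ : K₀ →* Kb) ζ : Kbˣ) : Kb) = φ (ζ : K₀) := rfl
    rw [this]
    exact hζ.map_of_injective φ.injective
  have h1 := s35nm_norm φ M q hq hqM ζ hζ f
  have h2 := s37w_norm M q hq hqM (Units.map (φ : K₀ →* Kb) ζ) hζ' (s34m_iota φ (M * q) f)
  apply Subtype.ext
  apply s34m_qExpand_injective Kb q
  rw [h2, s18q_map_coe, ← ffb_coeffMap_qExpand]
  show coeffMap φ (qExpand K₀ q ((@Algebra.norm (s34m_F K₀ M) (s34m_F K₀ (M * q)) _ _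
    (algebraAlong (heckeAlphaBar K₀ M q)) f : s34m_F K₀ M) : LaurentSeries K₀)) = _
  rw [h1, map_mul, ffb_coeffMap_qExpand, s35nm_coeffMap_prodTw, ← s34m_iota_al, s18q_map_coe,
    s18q_map_coe]

omit [Fact q.Prime] [CharP κ q] in
/-- **The norm along `β` commutes with the base change `ι : 𝓕_{K₀} → 𝓕_{ℚ̄}`.** -/
theorem s35nm_iota_normBeta (hq : q.Prime) (hqM : ¬ q ∣ M) (ζ : K₀ˣ)
    (hζ : IsPrimitiveRoot (ζ : K₀) q) (f : s34m_F K₀ (M * q)) :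
    s34m_iota φ M (s35nm_normBeta M q f) =
      @Algebra.norm (ffi_F M) (ffi_F (M * q)) _ _ (algebraAlong (heckeBetaBar Kb M q))
        (s34m_iota φ (M * q) f) := by
  rw [s35nm_normBeta_eq φ M q hq hqM f, s35nm_iota_normAlpha φ M q hq hqM ζ hζ,
    s37w_norm_beta_side M q hq hqM, s34m_iota_al]

end Fermat.Agent.Lib.S35
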