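/-
S35, package [R] (helper5, prefix `s35r_`), part 1: from `Pic⁰` to the KUMMER FORM of NEW-WEIGHT.

`F/K` a function field with a semilinear automorphism `g`, `φ₁ φ₂ : F₀ → F` two finite embeddings
of a second function field with the norm formula.  The Kummer form

  `s35r_KummerNW φ₁ φ₂ g m Q` : every `f ≠ 0` in `F` whose divisor is divisible by `m` and whose two
      norms to `F₀` are (constant) × (`m`-th power) satisfies
      `g⁴f · f ^ Q = c · x ^ m · (g²f) ^ (1 + Q)`   for some constant `c` and some `x ∈ F`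

implies: every class `z ∈ Pic⁰(F)[m]` represented by `D` with `φ₁_* D`, `φ₂_* D` principal is killed
by `g⁴ - (1 + Q) g² + Q = (g² - Q)(g² - 1)`  (`s35r_poly_of_kummer`).
Modular instance: `s35r_KummerNWmod M q σ m` (`φ₁ = α`, `φ₂ = β : F̄(M) → F̄(M q)`, `Q = q²`) and
`s35r_top`.
-/
import Mathlib
import Fermat.Prelude.Def_ModularCurve_ArithmeticGalois
import Fermat.Prelude.Def_ModularCurve_HeckeOperator
import Fermat.Agent.Lib.FF.FFBasicPlace
import Fermat.Agent.Lib.S37.LBase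

set_option autoImplicit false
set_option linter.style.haveILetI false

noncomputable section

namespace Fermat.Agent.Lib.S35

open AlgebraicCurve ModularCurve Fermat.Agent.Lib.FF Fermat.Agent.Lib.S37

section Generic

variable {K F F₀ : Type*} [Field K] [Field F] [Field F₀] [Algebra K F] [Algebra K F₀]

/-- the norm of `f` along the embedding `φ`. -/
def s35r_normAlong (φ : F₀ →ₐ[K] F) (f : F) : F₀ :=
  letI := algebraAlong φ
  Algebra.norm F₀ f

/-- **Kummer form** of "`(g² - Q)(g² - 1)` kills the part of `Pic⁰(F)[m]` which dies under `φ₁_*`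
and `φ₂_*`". -/
def s35r_KummerNW (φ₁ φ₂ : F₀ →ₐ[K] F) (g : SemilinearAut K F) (m Q : ℕ) : Prop :=
  ∀ f : F, f ≠ 0 → (∀ P : Place K F, (m : ℤ) ∣ P.ord f) →
    (∃ (c : K) (h : F₀), s35r_normAlong φ₁ f = algebraMap K F₀ c * h ^ m) →
    (∃ (c : K) (h : F₀), s35r_normAlong φ₂ f = algebraMap K F₀ c * h ^ m) →
    ∃ (c : K) (x : F),
      (g • g • g • g • f) * f ^ Q = algebraMap K F c * x ^ m * (g • g • f) ^ (1 + Q)

/-- The order of `g • f` at `v` is the order of `f` at `g⁻¹ • v`. -/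
theorem s35r_ord_smul (g : SemilinearAut K F) (v : Place K F) (f : F) :
    v.ord (g • f) = (g⁻¹ • v).ord f := by
  have h := SemilinearAut.ord_smul g (g⁻¹ • v) f
  rwa [smul_inv_smul] at h

theorem s35r_smul_ne_zero (g : SemilinearAut K F) {f : F} (hf : f ≠ 0) : g • f ≠ 0 := by
  intro h
  apply hf
  have := congrArg (g⁻¹ • ·) h
  simpa using this

/-- If `m • D = div f`, then `m • (g • D) = div (g • f)`. -/
theorem s35r_div_smul (g : SemilinearAut K F) (m : ℤ) (D : Divisor K F) (f : F)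
    (hD : ∀ v : Place K F, m * D v = v.ord f) (v : Place K F) :
    m * (g • D) v = v.ord (g • f) := by
  rw [s35r_ord_smul, SemilinearAut.divisor_smul_apply, hD]

/-- if `m D = div f` and `φ_* D = div h`, then the norm of `f` along `φ` is `c h ^ m`. -/
theorem s35r_norm_of_pushforward (φ : F₀ →ₐ[K] F) (hφ : φ.toRingHom.IsIntegral)
    (hfin : FiniteAlong K φ) (hN : NormFormulaAlong K φ hfin)
    (hconst : ∀ u : F₀, u ≠ 0 → (∀ v : Place K F₀, v.ord u = 0) → ∃ c : K, u = algebraMap K F₀ c)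
    (m : ℕ) (D : Divisor K F) {f : F} (hf : f ≠ 0)
    (hfD : ∀ v : Place K F, (m : ℤ) * D v = v.ord f)
    (hD : (Divisor.pushforwardAlong φ hφ D).IsPrincipal) :
    ∃ (c : K) (h : F₀), s35r_normAlong φ f = algebraMap K F₀ c * h ^ m := by
  obtain ⟨h, hh, hhD⟩ := hD
  have hnf : s35r_normAlong φ f ≠ 0 := by
    letI := algebraAlong φ
    haveI : Module.Finite F₀ F := hfin
    exact Algebra.norm_ne_zero_iff.mpr hf
  -- the divisor of the norm
  have h1 : ∀ v : Place K F₀, v.ord (s35r_normAlong φ f) = (m : ℤ) * v.ord h := by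
    intro v
    have h2 := s37l_normFormulaAlong_apply φ hφ hfin hN hf (D := m • D)
      (fun w => by rw [Finsupp.smul_apply, nsmul_eq_mul]; exact hfD w) v
    rw [map_nsmul, Finsupp.smul_apply, nsmul_eq_mul, hhD v] at h2
    exact h2.symm
  obtain ⟨c, hc⟩ := hconst (s35r_normAlong φ f * (h ^ m)⁻¹)
    (mul_ne_zero hnf (inv_ne_zero (pow_ne_zero m hh))) (fun v => by
      rw [v.ord_mul hnf (inv_ne_zero (pow_ne_zero m hh)), v.ord_inv, h1 v, ← zpow_natCast h m,
        v.ord_zpow]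
      ring)
  refine ⟨c, h, ?_⟩
  rw [← hc, inv_mul_cancel_right₀ (pow_ne_zero m hh)]

/-- **From the Kummer form to `Pic⁰`.** -/
theorem s35r_poly_of_kummer (φ₁ φ₂ : F₀ →ₐ[K] F) (hφ₁ : φ₁.toRingHom.IsIntegral)
    (hφ₂ : φ₂.toRingHom.IsIntegral) (hfin₁ : FiniteAlong K φ₁) (hfin₂ : FiniteAlong K φ₂)
    (hN₁ : NormFormulaAlong K φ₁ hfin₁) (hN₂ : NormFormulaAlong K φ₂ hfin₂)
    (hconst : ∀ u : F₀, u ≠ 0 → (∀ v : Place K F₀, v.ord u = 0) → ∃ c : K, u = algebraMap K F₀ c)
    (g : SemilinearAut K F) (m : ℕ) (hm : m ≠ 0) (Q : ℕ) (h : s35r_KummerNW φ₁ φ₂ g m Q)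
    (D : Divisor.degZero (K := K) (F := F)) (hz : m • Pic0.mk D = 0)
    (h1 : (Divisor.pushforwardAlong φ₁ hφ₁ (D : Divisor K F)).IsPrincipal)
    (h2 : (Divisor.pushforwardAlong φ₂ hφ₂ (D : Divisor K F)).IsPrincipal) :
    g • g • g • g • Pic0.mk D - (1 + Q) • (g • g • Pic0.mk D) + Q • Pic0.mk D = 0 := by
  -- `m • D` is principal
  have hmD : Pic0.mk (m • D) = 0 := by
    rw [← hz]
    exact map_nsmul (QuotientAddGroup.mk' _) m D
  have hmD' : ((m • D : Divisor.degZero (K := K) (F := F)) : Divisor K F) ∈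
      Divisor.principal (K := K) (F := F) := by
    have := (QuotientAddGroup.eq_zero_iff (m • D)).mp hmD
    exact this
  obtain ⟨f, hf, hfD⟩ := hmD'
  have hfD' : ∀ v : Place K F, (m : ℤ) * (D : Divisor K F) v = v.ord f := by
    intro v
    rw [← hfD v, AddSubgroupClass.coe_nsmul, Finsupp.smul_apply, nsmul_eq_mul]
  -- the Kummer form
  obtain ⟨c, x, hcx⟩ := h f hf (fun P => ⟨_, (hfD' P).symm⟩)
    (s35r_norm_of_pushforward φ₁ hφ₁ hfin₁ hN₁ hconst m _ hf hfD' h1)
    (s35r_norm_of_pushforward φ₂ hφ₂ hfin₂ hN₂ hconst m _ hf hfD' h2)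
  have hgf : g • f ≠ 0 := s35r_smul_ne_zero g hf
  have hg2f : g • g • f ≠ 0 := s35r_smul_ne_zero g hgf
  have hg3f : g • g • g • f ≠ 0 := s35r_smul_ne_zero g hg2f
  have hg4f : g • g • g • g • f ≠ 0 := s35r_smul_ne_zero g hg3f
  have hlhs : (g • g • g • g • f) * f ^ Q ≠ 0 := mul_ne_zero hg4f (pow_ne_zero Q hf)
  have hc : algebraMap K F c ≠ 0 := by
    intro h0
    rw [h0, zero_mul, zero_mul] at hcx
    exact hlhs hcx
  have hx : x ≠ 0 := by
    intro h0
    rw [h0, zero_pow hm, mul_zero, zero_mul] at hcx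
    exact hlhs hcx
  -- the divisor `g⁴ D - (1 + Q) g² D + Q D` is the divisor of `x`
  have key : ∀ v : Place K F,
      ((g • g • g • g • (D : Divisor K F)) - (1 + Q) • (g • g • (D : Divisor K F)) +
        Q • (D : Divisor K F)) v = v.ord x := by
    intro v
    have e1 := congrArg v.ord hcx
    have d2 := s35r_div_smul g m _ _ (s35r_div_smul g m _ _ hfD') v
    have d4 := s35r_div_smul g m _ _ (s35r_div_smul g m _ _
      (s35r_div_smul g m _ _ (s35r_div_smul g m _ _ hfD'))) v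
    rw [v.ord_mul hg4f (pow_ne_zero Q hf),
      v.ord_mul (mul_ne_zero hc (pow_ne_zero m hx)) (pow_ne_zero (1 + Q) hg2f),
      v.ord_mul hc (pow_ne_zero m hx), ff_ord_algebraMap, zero_add, ← zpow_natCast x m,
      v.ord_zpow, ← zpow_natCast (g • g • f) (1 + Q), v.ord_zpow, ← zpow_natCast f Q, v.ord_zpow,
      ← d4, ← d2, ← hfD' v] at e1
    have hm' : (m : ℤ) ≠ 0 := by exact_mod_cast hm
    have e2 : (m : ℤ) * ((g • g • g • g • (D : Divisor K F)) v -
        ((1 + Q : ℕ) : ℤ) * (g • g • (D : Divisor K F)) v + (Q : ℤ) * (D : Divisor K F) v) =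
        (m : ℤ) * v.ord x := by
      push_cast at e1 ⊢
      linarith
    have e3 := mul_left_cancel₀ hm' e2
    rw [Finsupp.add_apply, Finsupp.sub_apply, Finsupp.smul_apply, Finsupp.smul_apply,
      nsmul_eq_mul, nsmul_eq_mul]
    exact e3
  -- conclusion
  have hE : g • g • g • g • Pic0.mk D - (1 + Q) • (g • g • Pic0.mk D) + Q • Pic0.mk D =
      Pic0.mk (SemilinearAut.degZeroSMulHom g (SemilinearAut.degZeroSMulHom g
          (SemilinearAut.degZeroSMulHom g (SemilinearAut.degZeroSMulHom g D))) -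
        (1 + Q) • SemilinearAut.degZeroSMulHom g (SemilinearAut.degZeroSMulHom g D) + Q • D) := by
    rw [SemilinearAut.pic0_smul_mk, SemilinearAut.pic0_smul_mk, SemilinearAut.pic0_smul_mk,
      SemilinearAut.pic0_smul_mk]
    rfl
  rw [hE]
  refine (QuotientAddGroup.eq_zero_iff _).mpr ?_
  show ((SemilinearAut.degZeroSMulHom g (SemilinearAut.degZeroSMulHom g
          (SemilinearAut.degZeroSMulHom g (SemilinearAut.degZeroSMulHom g D))) -
        (1 + Q) • SemilinearAut.degZeroSMulHom g (SemilinearAut.degZeroSMulHom g D) + Q • D :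
          Divisor.degZero (K := K) (F := F)) : Divisor K F) ∈
      Divisor.principal (K := K) (F := F)
  refine ⟨x, hx, fun v => ?_⟩
  rw [← key v]
  rfl

end Generic

end Fermat.Agent.Lib.S35
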