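/-
S35 (open-ended project), package [NORM] (helper7), part 3: REDUCTION OF NORMS, GENERAL FORM.

A non-zero `f ∈ 𝓕_{Mq}` has in general DIFFERENT vertical valuations on the two components:
`f = ϖ^a u = ϖ^b v`, `u ∈ V_∞^×`, `v ∈ V_0^×`.  Then

  `Nm_α f = ϖ^(a + q b) W`,  `W ∈ V_M^×`,  `red_M W = red_∞ u · Fr (red_0 v)`   (`s35nm_red_norm_alpha_gen`),
  `Nm_β f = ϖ^(q a + b) W'`, `W' ∈ V_M^×`, `red_M W' = Fr (red_∞ u) · red_0 v`  (`s35nm_red_norm_beta_gen`).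

Also: `s35nm_normAlpha/_normBeta` are (by `rfl`) helper5's `s35r_normAlong` along `α`/`β`.
-/
import Fermat.Agent.Lib.S35.NormRed
import Fermat.Agent.Lib.S35.RTop

set_option autoImplicit false
set_option linter.unusedSectionVars false
set_option linter.style.haveILetI false
set_option synthInstance.maxHeartbeats 400000

noncomputable section

namespace Fermat.Agent.Lib.S35

open ModularCurve AlgebraicCurve Fermat.Agent.Lib.FF Fermat.Agent.Lib.S18 Fermat.Agent.Lib.S28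
  Fermat.Agent.Lib.S37 Fermat.Agent.Lib.S34

local notation "Kb" => AlgebraicClosure ℚ

variable {K₀ : Type*} [Field K₀] [Algebra ℚ K₀] {κ : Type*} [Field κ] (G : s18g_GaussData K₀ κ)

/-! ### `prodTw` algebra -/

theorem s35nm_prodTw_mul {R : Type*} [CommRing R] (n : ℕ) (ζ : Rˣ) (x y : LaurentSeries R) :
    s37e_prodTw n ζ (x * y) = s37e_prodTw n ζ x * s37e_prodTw n ζ y := by
  unfold s37e_prodTw
  rw [← Finset.prod_mul_distrib]
  exact Finset.prod_congr rfl fun b _ => map_mul _ _ _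

theorem s35nm_prodTw_C {R : Type*} [CommRing R] (n : ℕ) (ζ : Rˣ) (c : R) :
    s37e_prodTw n ζ (HahnSeries.C c : LaurentSeries R) = (HahnSeries.C c) ^ n := by
  unfold s37e_prodTw
  rw [Finset.prod_congr rfl fun b _ => s28m_tw_C (ζ ^ b) c, Finset.prod_const, Finset.card_range]

/-- `prodTw` of a constant integer power. -/
theorem s35nm_prodTw_C_zpow (n : ℕ) (ζ : K₀ˣ) (c : K₀) (a : ℤ) :
    s37e_prodTw n ζ ((HahnSeries.C c : LaurentSeries K₀) ^ a) = ((HahnSeries.C c) ^ a) ^ n := by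
  unfold s37e_prodTw
  rw [Finset.prod_congr rfl fun b _ => by rw [map_zpow₀, s28m_tw_C], Finset.prod_const,
    Finset.card_range]

/-! ### Series of `ϖ^a u` -/

theorem s35nm_coe_unif_zpow_mul (N : ℕ) [NeZero N] (a : ℤ) (u : s34m_F K₀ N) :
    ((s34m_unif G N ^ a * u : s34m_F K₀ N) : LaurentSeries K₀) =
      (HahnSeries.C ((G.ϖ : G.A) : K₀)) ^ a * (u : LaurentSeries K₀) := by
  have h1 : ((s34m_unif G N ^ a * u : s34m_F K₀ N) : LaurentSeries K₀) =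
      ((s34m_unif G N ^ a : s34m_F K₀ N) : LaurentSeries K₀) * (u : LaurentSeries K₀) := rfl
  have h2 : ((s34m_unif G N ^ a : s34m_F K₀ N) : LaurentSeries K₀) =
      ((s34m_unif G N : s34m_F K₀ N) : LaurentSeries K₀) ^ a :=
    map_zpow₀ (laurentBaseChange K₀ (modularFunctionFieldFull N)).val _ a
  rw [h1, h2, s34m_coe_unif]

theorem s35nm_C_unif_ne_zero : (HahnSeries.C ((G.ϖ : G.A) : K₀) : LaurentSeries K₀) ≠ 0 := by
  intro h
  have h1 : (HahnSeries.C ((G.ϖ : G.A) : K₀) : LaurentSeries K₀) = HahnSeries.C (0 : K₀) := by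
    rw [h, map_zero]
  exact s18g_unifK_ne_zero G (HahnSeries.C_injective h1)

variable (φ : K₀ →+* Kb) (M q : ℕ) [NeZero M] [NeZero q]

/-- `s35nm_normAlpha` is helper5's `s35r_normAlong` along `α`. -/
theorem s35nm_normAlpha_eq_normAlong (f : s34m_F K₀ (M * q)) :
    s35nm_normAlpha M q f = s35r_normAlong (heckeAlphaBar K₀ M q) f := rfl

/-- `s35nm_normBeta` is helper5's `s35r_normAlong` along `β`. -/
theorem s35nm_normBeta_eq_normAlong (f : s34m_F K₀ (M * q)) :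
    s35nm_normBeta M q f = s35r_normAlong (heckeBetaBar K₀ M q) f := rfl

/-- **The series identity for the unit part of the norm.** -/
theorem s35nm_norm_series_gen (hq : q.Prime) (hqM : ¬ q ∣ M) (ζ : K₀ˣ)
    (hζ : IsPrimitiveRoot (ζ : K₀) q) (f u v : s34m_F K₀ (M * q)) (a b : ℤ) (W : s34m_F K₀ M)
    (ea : f = s34m_unif G (M * q) ^ a * u) (eb : f = s34m_unif G (M * q) ^ b * v)
    (eW : s35nm_normAlpha M q f = s34m_unif G M ^ (a + q * b) * W) :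
    qExpand K₀ q (W : LaurentSeries K₀) =
      qExpand K₀ q (u : LaurentSeries K₀) *
        s37e_prodTw q ζ ((s34m_al φ M q hq hqM v : s34m_F K₀ (M * q)) : LaurentSeries K₀) := by
  have h := s35nm_norm φ M q hq hqM ζ hζ f
  have h' : qExpand K₀ q ((s35nm_normAlpha M q f : s34m_F K₀ M) : LaurentSeries K₀) =
      qExpand K₀ q (f : LaurentSeries K₀) *
        s37e_prodTw q ζ ((s34m_al φ M q hq hqM f : s34m_F K₀ (M * q)) : LaurentSeries K₀) := h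
  have hal : s34m_al φ M q hq hqM f = s34m_unif G (M * q) ^ b * s34m_al φ M q hq hqM v := by
    rw [eb, map_mul, map_zpow₀, s34m_al_unif]
  rw [eW, hal, s35nm_coe_unif_zpow_mul, s35nm_coe_unif_zpow_mul] at h'
  rw [ea, s35nm_coe_unif_zpow_mul] at h'
  rw [map_mul, map_mul, map_zpow₀, map_zpow₀, qExpand_C, s35nm_prodTw_mul,
    s35nm_prodTw_C_zpow] at h'
  have hne := s35nm_C_unif_ne_zero G
  have e1 : ((HahnSeries.C ((G.ϖ : G.A) : K₀) : LaurentSeries K₀) ^ b) ^ q =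
      (HahnSeries.C ((G.ϖ : G.A) : K₀) : LaurentSeries K₀) ^ ((q : ℤ) * b) := by
    rw [← zpow_natCast, ← zpow_mul, mul_comm]
  rw [e1, zpow_add₀ hne] at h'
  have hne1 := zpow_ne_zero a hne
  have hne2 := zpow_ne_zero ((q : ℤ) * b) hne
  have h'' : (HahnSeries.C ((G.ϖ : G.A) : K₀) : LaurentSeries K₀) ^ a *
      (HahnSeries.C ((G.ϖ : G.A) : K₀) : LaurentSeries K₀) ^ ((q : ℤ) * b) *
        qExpand K₀ q (W : LaurentSeries K₀) =
      (HahnSeries.C ((G.ϖ : G.A) : K₀) : LaurentSeries K₀) ^ a *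
      (HahnSeries.C ((G.ϖ : G.A) : K₀) : LaurentSeries K₀) ^ ((q : ℤ) * b) *
        (qExpand K₀ q (u : LaurentSeries K₀) *
          s37e_prodTw q ζ ((s34m_al φ M q hq hqM v : s34m_F K₀ (M * q)) : LaurentSeries K₀)) := by
    rw [h']; ring
  exact mul_left_cancel₀ (mul_ne_zero hne1 hne2) h''

variable [Fact q.Prime] [CharP κ q]

/-- **Reduction from a series identity**: `W(T^q) = u(T^q) ∏_{i<q} y(ζ^i T)` with `W ∈ V_M`,
`u, y ∈ V_∞` gives `red_M W = red_∞ u · Fr (red_∞ y)`. -/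
theorem s35nm_red_of_series (ζ : K₀ˣ) (hζ : ζ ^ q = 1) (W : s34m_F K₀ M) (u y : s34m_F K₀ (M * q))
    (hW : W ∈ s34m_Vinf G M) (hu : u ∈ s34m_Vinf G (M * q)) (hy : y ∈ s34m_Vinf G (M * q))
    (hprod : qExpand K₀ q (W : LaurentSeries K₀) =
      qExpand K₀ q (u : LaurentSeries K₀) * s37e_prodTw q ζ (y : LaurentSeries K₀)) :
    s34m_redInf G M ⟨W, hW⟩ =
      s34m_redInf G (M * q) ⟨u, hu⟩ * coeffMap (frobenius κ q) (s34m_redInf G (M * q) ⟨y, hy⟩) := by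
  have hfO : ((u : s34m_F K₀ (M * q)) : LaurentSeries K₀) ∈ s18g_O G := hu
  have hwO : ((y : s34m_F K₀ (M * q)) : LaurentSeries K₀) ∈ s18g_O G := hy
  have hgO : ((W : s34m_F K₀ M) : LaurentSeries K₀) ∈ s18g_O G := hW
  obtain ⟨hP, eP⟩ := s35nm_prodTw_mem_O G q ζ hζ hwO
  have e1 := s34m_red_qExpand G q ⟨_, hgO⟩
  have e2 := s34m_red_qExpand G q ⟨_, hfO⟩
  have e3 : (⟨qExpand K₀ q ((W : s34m_F K₀ M) : LaurentSeries K₀),
      s34m_qExpand_mem_O G q hgO⟩ : s18g_O G) =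
      ⟨qExpand K₀ q ((u : s34m_F K₀ (M * q)) : LaurentSeries K₀), s34m_qExpand_mem_O G q hfO⟩ *
        ⟨_, hP⟩ := Subtype.ext hprod
  have e4 := congrArg (s18g_red G) e3
  rw [map_mul, eP] at e4
  have e1' : s18g_red G ⟨qExpand K₀ q ((W : s34m_F K₀ M) : LaurentSeries K₀),
      s34m_qExpand_mem_O G q hgO⟩ = qExpand κ q (s18g_red G ⟨_, hgO⟩) := e1
  have e2' : s18g_red G ⟨qExpand K₀ q ((u : s34m_F K₀ (M * q)) : LaurentSeries K₀),
      s34m_qExpand_mem_O G q hfO⟩ = qExpand κ q (s18g_red G ⟨_, hfO⟩) := e2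
  rw [e1', e2', s37e_pow_char q (s18g_red G ⟨_, hwO⟩), ← map_mul] at e4
  exact s34m_qExpand_injective κ q e4

/-- General reduction formula, assuming the unit part `W` of the norm is Gauss-integral. -/
theorem s35nm_red_gen_of_mem (hq : q.Prime) (hqM : ¬ q ∣ M) (ζ : K₀ˣ)
    (hζ : IsPrimitiveRoot (ζ : K₀) q) (f u v : s34m_F K₀ (M * q)) (a b : ℤ) (W : s34m_F K₀ M)
    (hu : u ∈ s34m_Vinf G (M * q)) (hv : v ∈ s34m_Vzero G φ M q hq hqM)
    (ea : f = s34m_unif G (M * q) ^ a * u) (eb : f = s34m_unif G (M * q) ^ b * v)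
    (eW : s35nm_normAlpha M q f = s34m_unif G M ^ (a + q * b) * W) (hW : W ∈ s34m_Vinf G M) :
    s34m_redInf G M ⟨W, hW⟩ =
      s34m_redInf G (M * q) ⟨u, hu⟩ *
        coeffMap (frobenius κ q) (s34m_redZero G φ M q hq hqM ⟨v, hv⟩) := by
  have hpow : ζ ^ q = 1 := by
    apply Units.ext
    rw [Units.val_pow_eq_pow_val, hζ.pow_eq_one, Units.val_one]
  have hy : s34m_al φ M q hq hqM v ∈ s34m_Vinf G (M * q) :=
    (s34m_mem_Vzero G φ M q hq hqM v).mp hv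
  rw [s35nm_redZero_eq G φ M q hq hqM v hv hy]
  exact s35nm_red_of_series G M q ζ hpow W u _ hW hu hy
    (s35nm_norm_series_gen G φ M q hq hqM ζ hζ f u v a b W ea eb eW)

/-- If moreover `u`, `v` are units, `W` is a unit as soon as it is integral. -/
theorem s35nm_gen_inv_mem (hq : q.Prime) (hqM : ¬ q ∣ M) (ζ : K₀ˣ)
    (hζ : IsPrimitiveRoot (ζ : K₀) q) (f u v : s34m_F K₀ (M * q)) (hf : f ≠ 0) (a b : ℤ)
    (W : s34m_F K₀ M)
    (hu : u ∈ s34m_Vinf G (M * q)) (hu' : u⁻¹ ∈ s34m_Vinf G (M * q))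
    (hv : v ∈ s34m_Vzero G φ M q hq hqM) (hv' : v⁻¹ ∈ s34m_Vzero G φ M q hq hqM)
    (ea : f = s34m_unif G (M * q) ^ a * u) (eb : f = s34m_unif G (M * q) ^ b * v)
    (eW : s35nm_normAlpha M q f = s34m_unif G M ^ (a + q * b) * W) (hW : W ∈ s34m_Vinf G M) :
    W⁻¹ ∈ s34m_Vinf G M := by
  have hu0 : u ≠ 0 := by
    rintro rfl
    rw [mul_zero] at ea
    exact hf ea
  have hv0 : v ≠ 0 := by
    rintro rfl
    rw [mul_zero] at eb
    exact hf eb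
  apply s35nm_inv_mem_of_redInf_ne_zero G M hW
  rw [s35nm_red_gen_of_mem G φ M q hq hqM ζ hζ f u v a b W hu hv ea eb eW hW]
  apply mul_ne_zero
  · exact s35nm_redInf_ne_zero G (M * q) hu hu' hu0
  · apply s35nm_frob_ne_zero
    have hy : s34m_al φ M q hq hqM v ∈ s34m_Vinf G (M * q) :=
      (s34m_mem_Vzero G φ M q hq hqM v).mp hv
    have hy' : (s34m_al φ M q hq hqM v)⁻¹ ∈ s34m_Vinf G (M * q) := by
      rw [← map_inv₀]; exact (s34m_mem_Vzero G φ M q hq hqM v⁻¹).mp hv'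
    rw [s35nm_redZero_eq G φ M q hq hqM v hv hy]
    exact s35nm_redInf_ne_zero G (M * q) hy hy' ((map_ne_zero _).mpr hv0)

/-- **REDUCTION OF THE NORM ALONG `α`, GENERAL FORM** (`(NRα)`): if `f = ϖ^a u = ϖ^b v` with
`u ∈ V_∞^×`, `v ∈ V_0^×`, then `Nm_α f = ϖ^(a + q b) W` with `W ∈ V_M^×` and
`red_M W = red_∞ u · Fr (red_0 v)`. -/
theorem s35nm_red_norm_alpha_gen (hq : q.Prime) (hqM : ¬ q ∣ M) (ζ : K₀ˣ)
    (hζ : IsPrimitiveRoot (ζ : K₀) q) (f u v : s34m_F K₀ (M * q)) (hf : f ≠ 0) (a b : ℤ)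
    (hu : u ∈ s34m_Vinf G (M * q)) (hu' : u⁻¹ ∈ s34m_Vinf G (M * q))
    (hv : v ∈ s34m_Vzero G φ M q hq hqM) (hv' : v⁻¹ ∈ s34m_Vzero G φ M q hq hqM)
    (ea : f = s34m_unif G (M * q) ^ a * u) (eb : f = s34m_unif G (M * q) ^ b * v) :
    ∃ W : s34m_F K₀ M, ∃ hW : W ∈ s34m_Vinf G M, W⁻¹ ∈ s34m_Vinf G M ∧
      s35nm_normAlpha M q f = s34m_unif G M ^ (a + q * b) * W ∧
      s34m_redInf G M ⟨W, hW⟩ =
        s34m_redInf G (M * q) ⟨u, hu⟩ *
          coeffMap (frobenius κ q) (s34m_redZero G φ M q hq hqM ⟨v, hv⟩) := by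
  have hϖ : s34m_unif G M ^ (a + q * b) ≠ 0 := zpow_ne_zero _ (s34m_unif_ne_zero G M)
  set W : s34m_F K₀ M := (s34m_unif G M ^ (a + q * b))⁻¹ * s35nm_normAlpha M q f with hWdef
  have eW : s35nm_normAlpha M q f = s34m_unif G M ^ (a + q * b) * W := by
    rw [hWdef, mul_inv_cancel_left₀ hϖ]
  have hWmem : W ∈ s34m_Vinf G M := by
    rcases (s34m_Vinf G M).mem_or_inv_mem W with h | h
    · exact h
    · -- apply the unit lemma to `f⁻¹`
      have ea' : f⁻¹ = s34m_unif G (M * q) ^ (-a) * u⁻¹ := by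
        rw [ea, mul_inv, zpow_neg]
      have eb' : f⁻¹ = s34m_unif G (M * q) ^ (-b) * v⁻¹ := by
        rw [eb, mul_inv, zpow_neg]
      have eW' : s35nm_normAlpha M q f⁻¹ = s34m_unif G M ^ (-a + q * -b) * W⁻¹ := by
        rw [s35nm_normAlpha_inv M q f hf, eW, mul_inv, ← zpow_neg]
        congr 2
        ring
      have := s35nm_gen_inv_mem G φ M q hq hqM ζ hζ f⁻¹ u⁻¹ v⁻¹ (inv_ne_zero hf) (-a) (-b) W⁻¹
        hu' (by rw [inv_inv]; exact hu) hv' (by rw [inv_inv]; exact hv) ea' eb' eW' h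
      rw [inv_inv] at this
      exact this
  exact ⟨W, hWmem,
    s35nm_gen_inv_mem G φ M q hq hqM ζ hζ f u v hf a b W hu hu' hv hv' ea eb eW hWmem, eW,
    s35nm_red_gen_of_mem G φ M q hq hqM ζ hζ f u v a b W hu hv ea eb eW hWmem⟩

/-- **REDUCTION OF THE NORM ALONG `β`, GENERAL FORM** (`(NRβ)`): if `f = ϖ^a u = ϖ^b v` with
`u ∈ V_∞^×`, `v ∈ V_0^×`, then `Nm_β f = ϖ^(q a + b) W` with `W ∈ V_M^×` and
`red_M W = Fr (red_∞ u) · red_0 v`. -/
theorem s35nm_red_norm_beta_gen (hq : q.Prime) (hqM : ¬ q ∣ M) (ζ : K₀ˣ)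
    (hζ : IsPrimitiveRoot (ζ : K₀) q) (f u v : s34m_F K₀ (M * q)) (hf : f ≠ 0) (a b : ℤ)
    (hu : u ∈ s34m_Vinf G (M * q)) (hu' : u⁻¹ ∈ s34m_Vinf G (M * q))
    (hv : v ∈ s34m_Vzero G φ M q hq hqM) (hv' : v⁻¹ ∈ s34m_Vzero G φ M q hq hqM)
    (ea : f = s34m_unif G (M * q) ^ a * u) (eb : f = s34m_unif G (M * q) ^ b * v) :
    ∃ W : s34m_F K₀ M, ∃ hW : W ∈ s34m_Vinf G M, W⁻¹ ∈ s34m_Vinf G M ∧
      s35nm_normBeta M q f = s34m_unif G M ^ (q * a + b) * W ∧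
      s34m_redInf G M ⟨W, hW⟩ =
        coeffMap (frobenius κ q) (s34m_redInf G (M * q) ⟨u, hu⟩) *
          s34m_redZero G φ M q hq hqM ⟨v, hv⟩ := by
  -- `w f = ϖ^b (w v) = ϖ^a (w u)` with `w v ∈ V_∞^×`, `w u ∈ V_0^×`
  have hg0 : s34m_al φ M q hq hqM f ≠ 0 := (map_ne_zero _).mpr hf
  have hyI : s34m_al φ M q hq hqM v ∈ s34m_Vinf G (M * q) :=
    (s34m_mem_Vzero G φ M q hq hqM v).mp hv
  have hyI' : (s34m_al φ M q hq hqM v)⁻¹ ∈ s34m_Vinf G (M * q) := by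
    rw [← map_inv₀]; exact (s34m_mem_Vzero G φ M q hq hqM v⁻¹).mp hv'
  have hxZ : s34m_al φ M q hq hqM u ∈ s34m_Vzero G φ M q hq hqM :=
    (s34m_al_mem_Vinf_iff G φ M q hq hqM u).mpr hu
  have hxZ' : (s34m_al φ M q hq hqM u)⁻¹ ∈ s34m_Vzero G φ M q hq hqM := by
    rw [← map_inv₀]; exact (s34m_al_mem_Vinf_iff G φ M q hq hqM u⁻¹).mpr hu'
  have ea' : s34m_al φ M q hq hqM f = s34m_unif G (M * q) ^ b * s34m_al φ M q hq hqM v := by
    rw [eb, map_mul, map_zpow₀, s34m_al_unif]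
  have eb' : s34m_al φ M q hq hqM f = s34m_unif G (M * q) ^ a * s34m_al φ M q hq hqM u := by
    rw [ea, map_mul, map_zpow₀, s34m_al_unif]
  obtain ⟨W, hW, hW', e1, e2⟩ := s35nm_red_norm_alpha_gen G φ M q hq hqM ζ hζ
    (s34m_al φ M q hq hqM f) (s34m_al φ M q hq hqM v) (s34m_al φ M q hq hqM u) hg0 b a
    hyI hyI' hxZ hxZ' ea' eb'
  refine ⟨W, hW, hW', ?_, ?_⟩
  · rw [s35nm_normBeta_eq φ M q hq hqM f, e1, add_comm]
  · rw [e2, s35nm_redZero_al G φ M q hq hqM u hu hxZ, mul_comm,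
      s35nm_redZero_eq G φ M q hq hqM v hv hyI]

end Fermat.Agent.Lib.S35
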