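/-
S35 (open-ended project), package [NORM] (helper7), part 4: THE REDUCED NORM RELATIONS.

From `Nm_α f₀ = c₁ h₁^m`, `Nm_β f₀ = c₂ h₂^m` (`c_j ∈ K₀`, `h_j ∈ 𝓕_M`) and `f₀ = ϖ^a u = ϖ^b v`
(`u ∈ V_∞^×`, `v ∈ V_0^×`):  there are Gauss units `h, h' ∈ V_M^×` and `c, c' ∈ κ^×` with

  `red_∞ u · Fr (red_0 v) = c · (red_M h)^m`,   `Fr (red_∞ u) · red_0 v = c' · (red_M h')^m`

(`s35nm_reduced_relations`) — the inputs `R1`, `R2` of helper2's `s35v_hf1_red`.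

Gauss bookkeeping at one level (`s35nm_unit_of_norm_eq`): `c h^m = ϖ^n W`, `W ∈ V^×` ⇒
`W = c' h'^m` with `c' ∈ A^×`, `h' ∈ V^×`.
-/
import Fermat.Agent.Lib.S35.NormGen
import Fermat.Agent.Lib.S35.VRed

set_option autoImplicit false
set_option linter.unusedSectionVars false
set_option linter.style.haveILetI false
set_option synthInstance.maxHeartbeats 400000

noncomputable section

namespace Fermat.Agent.Lib.S35

open ModularCurve AlgebraicCurve Fermat.Agent.Lib.FF Fermat.Agent.Lib.S18 Fermat.Agent.Lib.S28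
  Fermat.Agent.Lib.S37 Fermat.Agent.Lib.S34

local notation "Kb" => AlgebraicClosure ℚ

variable {K₀ : Type*} [Field K₀] [Algebra ℚ K₀] {κ : Type*} [Field κ] (G : s18g_GaussData K₀ κ)

section LevelN

variable (N : ℕ) [NeZero N]

/-- A positive power of `ϖ` is not a unit of `V`. -/
theorem s35nm_zpow_pos_not_unit (e : ℤ) (he : 0 < e) (h : s34m_unif G N ^ e ∈ s34m_Vinf G N)
    (h' : (s34m_unif G N ^ e)⁻¹ ∈ s34m_Vinf G N) : False := by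
  have hne : s34m_unif G N ^ e ≠ 0 := zpow_ne_zero _ (s34m_unif_ne_zero G N)
  apply s35nm_redInf_ne_zero G N h h' hne
  rw [s34m_redInf_eq_zero_iff]
  obtain ⟨k, hk⟩ : ∃ k : ℕ, e - 1 = (k : ℤ) := Int.eq_ofNat_of_zero_le (by omega)
  refine ⟨s34m_unif G N ^ k, pow_mem (s34m_unif_mem_Vinf G N) k, ?_⟩
  show s34m_unif G N ^ e = _
  rw [← zpow_natCast, ← hk, ← zpow_one_add₀ (s34m_unif_ne_zero G N)]
  congr 1
  omega

/-- A power of `ϖ` which is a unit of `V` is trivial. -/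
theorem s35nm_zpow_unit_eq_zero (e : ℤ) (h : s34m_unif G N ^ e ∈ s34m_Vinf G N)
    (h' : (s34m_unif G N ^ e)⁻¹ ∈ s34m_Vinf G N) : e = 0 := by
  rcases lt_trichotomy e 0 with he | he | he
  · exfalso
    refine s35nm_zpow_pos_not_unit G N (-e) (by omega) ?_ ?_
    · rw [zpow_neg]; exact h'
    · rw [zpow_neg, inv_inv]; exact h
  · exact he
  · exact (s35nm_zpow_pos_not_unit G N e he h h').elim

/-- **Gauss bookkeeping**: if `c h^m = ϖ^n W` with `W` a unit of `V`, then `W = c' h'^m` with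
`c'` a unit of `A` and `h'` a unit of `V`. -/
theorem s35nm_unit_of_norm_eq (c : K₀) (h : s34m_F K₀ N) (m : ℕ) (hm : m ≠ 0) (n : ℤ)
    (W : s34m_F K₀ N) (hW : W ∈ s34m_Vinf G N) (hW' : W⁻¹ ∈ s34m_Vinf G N) (hW0 : W ≠ 0)
    (e : algebraMap K₀ (s34m_F K₀ N) c * h ^ m = s34m_unif G N ^ n * W) :
    ∃ (c' : G.A) (h' : s34m_F K₀ N), G.π c' ≠ 0 ∧ h' ∈ s34m_Vinf G N ∧ h'⁻¹ ∈ s34m_Vinf G N ∧
      h' ≠ 0 ∧ W = algebraMap K₀ (s34m_F K₀ N) (c' : K₀) * h' ^ m := by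
  have hϖ := s34m_unif_ne_zero G N
  have hrhs : s34m_unif G N ^ n * W ≠ 0 := mul_ne_zero (zpow_ne_zero _ hϖ) hW0
  have hc : c ≠ 0 := by
    rintro rfl
    rw [map_zero, zero_mul] at e
    exact hrhs e.symm
  have hh : h ≠ 0 := by
    rintro rfl
    rw [zero_pow hm, mul_zero] at e
    exact hrhs e.symm
  obtain ⟨k, h', hh', hh'inv, eh⟩ := s34m_exists_zpow_Vinf G N h hh
  have hh'0 : h' ≠ 0 := by
    rintro rfl
    rw [mul_zero] at eh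
    exact hh eh
  have hcF : algebraMap K₀ (s34m_F K₀ N) c ≠ 0 := (map_ne_zero _).mpr hc
  obtain ⟨j, u₀, hu₀, hu₀', ec⟩ := s34m_exists_zpow_Vinf G N _ hcF
  -- `u₀` is a constant
  set c₀ : K₀ := (((G.ϖ : G.A) : K₀) ^ j)⁻¹ * c with hc₀
  have hu₀eq : u₀ = algebraMap K₀ (s34m_F K₀ N) c₀ := by
    rw [hc₀, map_mul, map_inv₀, map_zpow₀, ec]
    show u₀ = (s34m_unif G N ^ j)⁻¹ * (s34m_unif G N ^ j * u₀)
    rw [inv_mul_cancel_left₀ (zpow_ne_zero _ hϖ)]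
  have hc₀A : c₀ ∈ G.A :=
    (s18g_algebraMap_mem_V_iff G _ (s34m_hF G N) c₀).mp (by rw [← hu₀eq]; exact hu₀)
  have hc₀A' : c₀⁻¹ ∈ G.A :=
    (s18g_algebraMap_mem_V_iff G _ (s34m_hF G N) c₀⁻¹).mp (by
      rw [map_inv₀, ← hu₀eq]; exact hu₀')
  have hu₀0 : u₀ ≠ 0 := by
    rintro rfl
    rw [mul_zero] at ec
    exact hcF ec
  have hc₀0 : c₀ ≠ 0 := by
    rintro h0
    rw [h0, map_zero] at hu₀eq
    exact hu₀0 hu₀eq
  have hπ : G.π ⟨c₀, hc₀A⟩ ≠ 0 := by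
    intro h0
    have h1 : (⟨c₀, hc₀A⟩ : G.A) * ⟨c₀⁻¹, hc₀A'⟩ = 1 := Subtype.ext (mul_inv_cancel₀ hc₀0)
    have h2 := congrArg G.π h1
    rw [map_mul, h0, zero_mul, map_one] at h2
    exact zero_ne_one h2
  -- the unit `W' = u₀ h'^m`
  set W' : s34m_F K₀ N := u₀ * h' ^ m with hW'def
  have hW'mem : W' ∈ s34m_Vinf G N := mul_mem hu₀ (pow_mem hh' m)
  have hW'inv : W'⁻¹ ∈ s34m_Vinf G N := by
    rw [hW'def, mul_inv, ← inv_pow]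
    exact mul_mem hu₀' (pow_mem hh'inv m)
  have hW'0 : W' ≠ 0 := mul_ne_zero hu₀0 (pow_ne_zero _ hh'0)
  -- compare exponents
  have e1 : s34m_unif G N ^ (j + k * m) * W' = s34m_unif G N ^ n * W := by
    rw [← e, ec, eh, hW'def, mul_pow, zpow_add₀ hϖ, zpow_mul, zpow_natCast]
    ring
  have e2 : s34m_unif G N ^ (n - (j + k * m)) = W' * W⁻¹ := by
    rw [zpow_sub₀ hϖ, div_eq_iff (zpow_ne_zero _ hϖ)]
    have h1 : s34m_unif G N ^ n = s34m_unif G N ^ (j + k * m) * W' * W⁻¹ := by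
      rw [e1, mul_assoc, mul_inv_cancel₀ hW0, mul_one]
    rw [h1]
    ring
  have hz : n - (j + k * m) = 0 := by
    apply s35nm_zpow_unit_eq_zero G N
    · rw [e2]; exact mul_mem hW'mem hW'
    · rw [e2, mul_inv, inv_inv]; exact mul_mem hW'inv hW
  rw [hz, zpow_zero] at e2
  have e3 : W = W' := by
    have := congrArg (· * W) e2
    simp only [one_mul, mul_assoc, inv_mul_cancel₀ hW0, mul_one] at this
    exact this
  exact ⟨⟨c₀, hc₀A⟩, h', hπ, hh', hh'inv, hh'0, by rw [e3, hW'def, hu₀eq]⟩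

end LevelN

section LevelMq

variable (φ : K₀ →+* Kb) (M q : ℕ) [NeZero M] [NeZero q] [Fact q.Prime] [CharP κ q]

/-- The reduced relation for one norm: `ϖ^n W = c h^m`, `W ∈ V_M^×` with `red_M W = R ≠ 0` gives
`R = C c' · H^m` with `H ≠ 0` the reduction of a Gauss unit `h'`. -/
theorem s35nm_reduced_of_unit (c : K₀) (h : s34m_F K₀ M) (m : ℕ) (hm : m ≠ 0) (n : ℤ)
    (W : s34m_F K₀ M) (hW : W ∈ s34m_Vinf G M) (hW' : W⁻¹ ∈ s34m_Vinf G M) (R : LaurentSeries κ)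
    (hR : s34m_redInf G M ⟨W, hW⟩ = R) (hR0 : R ≠ 0)
    (e : algebraMap K₀ (s34m_F K₀ M) c * h ^ m = s34m_unif G M ^ n * W) :
    ∃ (h' : s34m_F K₀ M) (H : LaurentSeries κ) (c' : κ), s35v_RedI G M h' H ∧ H ≠ 0 ∧ c' ≠ 0 ∧
      R = HahnSeries.C c' * H ^ m := by
  have hW0 : W ≠ 0 := by
    rintro rfl
    apply hR0
    rw [← hR]
    have : (⟨0, hW⟩ : s34m_Vinf G M) = 0 := rfl
    rw [this, map_zero]
  obtain ⟨c', h', hπ, hh', hh'inv, hh'0, eW⟩ :=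
    s35nm_unit_of_norm_eq G M c h m hm n W hW hW' hW0 e
  refine ⟨h', s34m_redInf G M ⟨h', hh'⟩, G.π c', ⟨hh', rfl⟩,
    s35nm_redInf_ne_zero G M hh' hh'inv hh'0, hπ, ?_⟩
  have h1 : s35v_RedI G M W R := ⟨hW, hR⟩
  have h2 : s35v_RedI G M W (HahnSeries.C (G.π c') * s34m_redInf G M ⟨h', hh'⟩ ^ m) :=
    ((s35v_RedI_const G M c').mul ((s35v_Red.of_mem hh').pow m)).congr eW.symm rfl
  exact h1.unique h2

/-- **THE REDUCED NORM RELATIONS** (`R1`, `R2` of `s35v_hf1_red`). -/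
theorem s35nm_reduced_relations (hq : q.Prime) (hqM : ¬ q ∣ M) (ζ : K₀ˣ)
    (hζ : IsPrimitiveRoot (ζ : K₀) q) (f₀ : s34m_F K₀ (M * q)) (hf₀ : f₀ ≠ 0) (m : ℕ) (hm : m ≠ 0)
    (hnα : ∃ (c : K₀) (h : s34m_F K₀ M),
      s35r_normAlong (heckeAlphaBar K₀ M q) f₀ = algebraMap K₀ _ c * h ^ m)
    (hnβ : ∃ (c : K₀) (h : s34m_F K₀ M),
      s35r_normAlong (heckeBetaBar K₀ M q) f₀ = algebraMap K₀ _ c * h ^ m)
    (a b : ℤ) (u v : s34m_F K₀ (M * q))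
    (hu : u ∈ s34m_Vinf G (M * q)) (hu' : u⁻¹ ∈ s34m_Vinf G (M * q))
    (hv : v ∈ s34m_Vzero G φ M q hq hqM) (hv' : v⁻¹ ∈ s34m_Vzero G φ M q hq hqM)
    (ea : f₀ = s34m_unif G (M * q) ^ a * u) (eb : f₀ = s34m_unif G (M * q) ^ b * v) :
    ∃ (h h' : s34m_F K₀ M) (H H' : LaurentSeries κ) (c c' : κ),
      s35v_RedI G M h H ∧ s35v_RedI G M h' H' ∧ H ≠ 0 ∧ H' ≠ 0 ∧ c ≠ 0 ∧ c' ≠ 0 ∧
      s34m_redInf G (M * q) ⟨u, hu⟩ ≠ 0 ∧ s34m_redZero G φ M q hq hqM ⟨v, hv⟩ ≠ 0 ∧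
      s34m_redInf G (M * q) ⟨u, hu⟩ *
          coeffMap (frobenius κ q) (s34m_redZero G φ M q hq hqM ⟨v, hv⟩) =
        HahnSeries.C c * H ^ m ∧
      coeffMap (frobenius κ q) (s34m_redInf G (M * q) ⟨u, hu⟩) *
          s34m_redZero G φ M q hq hqM ⟨v, hv⟩ =
        HahnSeries.C c' * H' ^ m := by
  have hu0 : u ≠ 0 := by
    rintro rfl
    rw [mul_zero] at ea
    exact hf₀ ea
  have hv0 : v ≠ 0 := by
    rintro rfl
    rw [mul_zero] at eb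
    exact hf₀ eb
  have hA : s34m_redInf G (M * q) ⟨u, hu⟩ ≠ 0 := s35nm_redInf_ne_zero G (M * q) hu hu' hu0
  have hB : s34m_redZero G φ M q hq hqM ⟨v, hv⟩ ≠ 0 := by
    have hy : s34m_al φ M q hq hqM v ∈ s34m_Vinf G (M * q) :=
      (s34m_mem_Vzero G φ M q hq hqM v).mp hv
    have hy' : (s34m_al φ M q hq hqM v)⁻¹ ∈ s34m_Vinf G (M * q) := by
      rw [← map_inv₀]; exact (s34m_mem_Vzero G φ M q hq hqM v⁻¹).mp hv'
    rw [s35nm_redZero_eq G φ M q hq hqM v hv hy]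
    exact s35nm_redInf_ne_zero G (M * q) hy hy' ((map_ne_zero _).mpr hv0)
  obtain ⟨W₁, hW₁, hW₁', eN₁, eR₁⟩ := s35nm_red_norm_alpha_gen G φ M q hq hqM ζ hζ f₀ u v hf₀ a b
    hu hu' hv hv' ea eb
  obtain ⟨W₂, hW₂, hW₂', eN₂, eR₂⟩ := s35nm_red_norm_beta_gen G φ M q hq hqM ζ hζ f₀ u v hf₀ a b
    hu hu' hv hv' ea eb
  obtain ⟨c₁, h₁, e₁⟩ := hnα
  obtain ⟨c₂, h₂, e₂⟩ := hnβ
  rw [← s35nm_normAlpha_eq_normAlong, eN₁] at e₁
  rw [← s35nm_normBeta_eq_normAlong, eN₂] at e₂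
  obtain ⟨h, H, c, hh, hH, hc, r1⟩ := s35nm_reduced_of_unit G M c₁ h₁ m hm _ W₁ hW₁ hW₁' _ eR₁
    (mul_ne_zero hA (s35nm_frob_ne_zero q hB)) e₁.symm
  obtain ⟨h', H', c', hh', hH', hc', r2⟩ := s35nm_reduced_of_unit G M c₂ h₂ m hm _ W₂ hW₂ hW₂' _ eR₂
    (mul_ne_zero (s35nm_frob_ne_zero q hA) hB) e₂.symm
  exact ⟨h, h', H, H', c, c', hh, hh', hH, hH', hc, hc', hA, hB, r1, r2⟩

end LevelMq

end Fermat.Agent.Lib.S35
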