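/-
S35 project, package [Final] (helper9, prefix `s35fx_`): THE GLOBAL FUNCTION `x` — the input
`s35fin_W4` of `Final.lean` from helper7's reduced norm relations (`NormUnit.lean`), helper2's
`s35v_x` / `s35v_hf1_red` (`MNormX.lean`) and helper6's `s35m_poly_red_VV` (`MPoly.lean`); hence
`s35fx_geo : s35q_Geo`.
-/
import Fermat.Agent.Lib.S35.Final
import Fermat.Agent.Lib.S35.NormUnit
import Fermat.Agent.Lib.S35.MNormX
import Fermat.Agent.Lib.S35.MFrac
import Fermat.Agent.Lib.S37.EFrob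

set_option autoImplicit false
set_option linter.unusedSectionVars false
set_option linter.style.haveILetI false
set_option synthInstance.maxHeartbeats 400000

noncomputable section

namespace Fermat.Agent.Lib.S35

open ModularCurve AlgebraicCurve HahnSeries Polynomial Fermat.Agent.Lib.FF Fermat.Agent.Lib.S18
  Fermat.Agent.Lib.S37 Fermat.Agent.Lib.S34 IsLocalRing

local notation "Qbar" => AlgebraicClosure ℚ

section Alg

variable {κ : Type*} [Field κ] (q : ℕ) [hqF : Fact q.Prime] [CharP κ q]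

/-- From the two reduced norm relations: `(ψ̃ H' / H) ^ m = C (a / a' ^ q) · Ψ²A / A`. -/
theorem s35fx_alg (m : ℕ) (A B H H' : LaurentSeries κ) (a a' : κ) (hA : A ≠ 0) (hB : B ≠ 0)
    (hH : H ≠ 0) (ha' : a' ≠ 0)
    (h1 : A * coeffMap (frobenius κ q) B = HahnSeries.C a * H ^ m)
    (h2 : coeffMap (frobenius κ q) A * B = HahnSeries.C a' * H' ^ m) :
    (coeffMap (frobenius κ q) H' / H) ^ m =
      HahnSeries.C (a / a' ^ q) * (s35m_Psi2 q A / A) := by
  set Fr := coeffMap (frobenius κ q) with hFr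
  have h3 : s35m_Psi2 q A * Fr B = HahnSeries.C (a' ^ q) * (Fr H') ^ m := by
    have := congrArg Fr h2
    rw [map_mul, map_mul, map_pow, hFr, s35v_frob_C] at this
    exact this
  have hCa' : (HahnSeries.C (a' ^ q) : LaurentSeries κ) ≠ 0 :=
    (map_ne_zero (HahnSeries.C : κ →+* LaurentSeries κ)).mpr (pow_ne_zero q ha')
  have hHm : H ^ m ≠ 0 := pow_ne_zero m hH
  rw [div_pow, map_div₀ (HahnSeries.C : κ →+* LaurentSeries κ)]
  rw [div_mul_div_comm, div_eq_div_iff hHm (mul_ne_zero hCa' hA)]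
  linear_combination (-A) * h3 + (s35m_Psi2 q A) * h1

end Alg

section W4

variable (M q : ℕ) [NeZero M] [NeZero q] (hq : q.Prime) (hqM : ¬ q ∣ M)

include hq hqM in
/-- **(W4)**: the global function `x` for every `f₀` whose two norms are constant times an `m`-th
power. -/
theorem s35fx_W4 : s35fin_W4 M q hq hqM := by
  intro K₀ _ _ φ κ _ _ _ G _ hπ hζ σ₀ hσA hσA' hσπ f₀ hf₀ m hm0 hnα hnβ
  haveI : Fact q.Prime := ⟨hq⟩
  obtain ⟨ζ₀, hζ₀⟩ := hζ
  have hζne : ζ₀ ≠ 0 := hζ₀.ne_zero (NeZero.ne q)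
  have hT : s18g_HT κ M := s18t_indep_j q M hqM κ
  have hdegM : s18g_HDeg K₀ M := fun _ b hb hn => s18g_exists_relation M φ hn b hb
  have hdeg : s34m_HDeg K₀ M q := s34r_deg_HDeg φ M q hq hqM
  -- the two decompositions of `f₀` and the reductions of `P(σ) f₀`
  obtain ⟨a, u, hu, hu', ea, hPu, -, eu⟩ :=
    s35m_poly_red_VV G φ M q hq hqM σ₀ hσA hσA' hσπ true f₀ hf₀
  obtain ⟨b, v, hv, hv', eb, hPv, -, ev⟩ :=
    s35m_poly_red_VV G φ M q hq hqM σ₀ hσA hσA' hσπ false f₀ hf₀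
  -- the reduced norm relations
  obtain ⟨h, h', H, H', c, c', hh, hh', hH, hH', hc, hc', hA, hB, R1, R2⟩ :=
    s35nm_reduced_relations G φ M q hq hqM (Units.mk0 ζ₀ hζne) hζ₀ f₀ hf₀ m hm0 hnα hnβ a b u v
      hu hu' hv hv' ea eb
  set A : LaurentSeries κ := s34m_redInf G (M * q) ⟨u, hu⟩ with hAdef
  set B : LaurentSeries κ := s34m_redZero G φ M q hq hqM ⟨v, hv⟩ with hBdef
  set gσ : SemilinearAut K₀ (s34m_F K₀ (M * q)) :=
    arithmeticGalois (modularFunctionFieldFull (M * q)) σ₀ with hgσ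
  have hPeq : s35m_polyHom (s35m_tau2 M q σ₀) (q * q) f₀ = s35q_P gσ (q ^ 2) f₀ :=
    s35g_polyHom_eq_P M q σ₀ f₀
  -- the function `x`
  set x : s34m_F K₀ (M * q) := s35v_x M q σ₀ h h' with hxdef
  have hxred := fun i => s35v_x_red G φ M q hq hqM σ₀ hσA hσπ i hh hh' hH hH'
  have hxr0 := fun i => s35v_x_red_ne_zero q i hH hH'
  have hx : ∀ i, x ∈ s34m_VV G φ M q hq hqM i := fun i => (hxred i).mem
  have hx0 : x ≠ 0 := by
    intro h0
    have h1 := hxred true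
    rw [← hxdef, h0] at h1
    exact hxr0 true (h1.unique s35v_Red.zero)
  -- `hF1`
  have hPI : s35v_RedV G φ M q hq hqM true (s35q_P gσ (q ^ 2) f₀)
      (s35m_Psi2 q (s35m_Psi2 q A / A) / s35m_Phi2 q (s35m_Psi2 q (s35m_Psi2 q A / A))) := by
    rw [← hPeq]
    exact ⟨hPu, eu⟩
  have hP0 : s35v_RedV G φ M q hq hqM false (s35q_P gσ (q ^ 2) f₀)
      (s35m_Psi2 q (s35m_Psi2 q B / B) / s35m_Phi2 q (s35m_Psi2 q (s35m_Psi2 q B / B))) := by
    rw [← hPeq]
    exact ⟨hPv, ev⟩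
  have hF1 : ∀ i, ∃ y ∈ s34m_VV G φ M q hq hqM i,
      s35q_P gσ (q ^ 2) f₀ / x ^ m - 1 =
        algebraMap K₀ (s34m_F K₀ (M * q)) ((G.ϖ : G.A) : K₀) * y := fun i =>
    s35v_RedV_sub_one G φ M q hq hqM i
      (s35v_hf1_red G φ M q hq hqM σ₀ hσA hσπ m _ A B H H' c c' hA hB hH hH' hPI hP0 hh hh' R1 R2 i)
  -- membership in `F̄_M`
  have hHF : H ∈ modularFunctionFieldFullC κ M := by
    obtain ⟨h1, e1⟩ := hh
    rw [← e1]
    exact s18g_redV_mem_fullC G M (s34m_hF G M) hT hdegM ⟨h, h1⟩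
  have hH'F : H' ∈ modularFunctionFieldFullC κ M := by
    obtain ⟨h1, e1⟩ := hh'
    rw [← e1]
    exact s18g_redV_mem_fullC G M (s34m_hF G M) hT hdegM ⟨h', h1⟩
  have hAF : A ∈ modularFunctionFieldFullC κ M :=
    s35m_redInf_mem_fullC G φ M q hq hqM hdeg hT hdegM ⟨u, hu⟩
  have hBF : B ∈ modularFunctionFieldFullC κ M :=
    s35m_redZero_mem_fullC G φ M q hq hqM hdeg hT hdegM ⟨v, hv⟩
  refine ⟨x, hx0, hx, hF1, coeffMap (frobenius κ q) H' / H, A, coeffMap (frobenius κ q) H / H', B,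
    div_mem (s37e_coeffMap_mem_fullC M _ hH'F) hHF, hAF,
    div_mem (s37e_coeffMap_mem_fullC M _ hHF) hH'F, hBF, hA, hB, c / c' ^ q, c' / c ^ q,
    div_ne_zero hc (pow_ne_zero q hc'), div_ne_zero hc' (pow_ne_zero q hc), ?_, ?_, ?_, ?_⟩
  · exact s35fx_alg q m A B H H' c c' hA hB hH hc' R1 R2
  · exact s35fx_alg q m B A H' H c' c hB hA hH' hc (by rw [mul_comm]; exact R2)
      (by rw [mul_comm]; exact R1)
  · obtain ⟨h1, e1⟩ := hxred true
    exact e1
  · obtain ⟨h1, e1⟩ := hxred false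
    exact e1

/-- **(G)**: the geometric input of S35. -/
theorem s35fx_geo : s35q_Geo :=
  s35fin_geo_of_W4 fun M q _ _ hq hqM _ => s35fx_W4 M q hq hqM

end W4

end Fermat.Agent.Lib.S35
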