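/-
S35, block (PAR), part 1 (helper3): the MONODROMY LEMMA at `i∞`.

If `A : ℍ → ℂ` is continuous, `A ^ n = G` where `G` has leading exponent `n * E` in
`q_N = e^{2πiz/N}`, and `A (z + m) = ω • A z` for all `z`, then `ω = e^{2πi m E / N}`:
the `n`-th root of a function with a pole/zero of order divisible by `n` at the cusp has no
monodromy other than the one forced by `q_N ^ E`.
-/
import Fermat.Agent.Lib.FF.CuspsExp

set_option autoImplicit false

open UpperHalfPlane hiding I
open Filter Topology Complex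

open scoped Real

namespace Fermat.Agent.Lib.S35

open Fermat.Agent.Lib.FF

theorem s35p_continuous_qpow (N : ℕ) (n : ℤ) : Continuous (ffc_qpow N n) := by
  unfold ffc_qpow
  have : Continuous fun z : ℍ => (2 * π * I * n * (z : ℂ) / N) :=
    (continuous_const.mul UpperHalfPlane.continuous_coe).div_const _
  exact Complex.continuous_exp.comp this

theorem s35p_continuous_vadd (z : ℍ) : Continuous fun s : ℝ => s +ᵥ z := by
  refine continuous_induced_rng.mpr ?_
  have : ((↑) : ℍ → ℂ) ∘ (fun s : ℝ => s +ᵥ z) = fun s : ℝ => (s : ℂ) + (z : ℂ) := by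
    funext s
    simp [coe_vadd]
  rw [this]
  exact (Complex.continuous_ofReal).add continuous_const

/-- The set of `n`-th roots of `c` is discrete. -/
theorem s35p_isDiscrete_roots {n : ℕ} (hn : n ≠ 0) (c : ℂ) : IsDiscrete {u : ℂ | u ^ n = c} := by
  apply Set.Finite.isDiscrete
  apply Set.Finite.subset (Polynomial.nthRoots n c).toFinset.finite_toSet
  intro u hu
  rw [Finset.mem_coe, Multiset.mem_toFinset, Polynomial.mem_nthRoots (Nat.pos_of_ne_zero hn)]
  exact hu

/-- **The monodromy lemma.** -/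
theorem s35p_monodromy {N : ℕ} {n : ℕ} (hn : n ≠ 0) {A G : ℍ → ℂ}
    (hA : Continuous A) (hAG : ∀ z, A z ^ n = G z) {E : ℤ} (hG : ffc_HasExp N G (n * E))
    {m : ℤ} {ω : ℂ} (hper : ∀ z : ℍ, A ((m : ℝ) +ᵥ z) = ω * A z) :
    ω = cexp (2 * π * I * E * m / N) := by
  rw [ffc_hasExp_iff] at hG
  obtain ⟨c, hc, hlim⟩ := hG
  -- `V := A q^{-E}`, `V ^ n → c`
  set V : ℍ → ℂ := fun z => A z * ffc_qpow N (-E) z with hV
  have hVc : Continuous V := hA.mul (s35p_continuous_qpow N (-E))
  have hVn : ∀ z, V z ^ n = G z * ffc_qpow N (-(n * E)) z := by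
    intro z
    rw [hV]
    simp only
    rw [mul_pow, hAG]
    congr 1
    -- `qpow (-E) ^ n = qpow (-(n E))`
    rw [ffc_qpow, ffc_qpow, ← Complex.exp_nat_mul]
    congr 1
    push_cast
    ring
  set ω' : ℂ := ω * cexp (2 * π * I * (-E : ℤ) * (m : ℝ) / N) with hω'
  have hVper : ∀ z : ℍ, V ((m : ℝ) +ᵥ z) = ω' * V z := by
    intro z
    rw [hV]
    simp only
    rw [hper, ffc_qpow_vadd, hω']
    ring
  -- `R := V ^ n / c → 1`
  set R : ℍ → ℂ := fun z => V z ^ n / c with hR
  have hRlim : Tendsto R atImInfty (𝓝 1) := by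
    have h1 : Tendsto (fun z : ℍ => V z ^ n) atImInfty (𝓝 c) := by
      refine hlim.congr fun z => ?_
      rw [hVn]
    have h2 := h1.div_const c
    rw [div_self hc] at h2
    exact h2
  have hRc : Continuous R := (hVc.pow n).div_const c
  -- eventually `R` is in the ball of radius `1/2` around `1`
  have hball : ∀ᶠ z in atImInfty, R z ∈ Metric.ball (1 : ℂ) (1 / 2) :=
    hRlim.eventually (Metric.ball_mem_nhds 1 (by norm_num))
  have hslit : ∀ w : ℂ, w ∈ Metric.ball (1 : ℂ) (1 / 2) → w ∈ slitPlane := by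
    intro w hw
    rw [Metric.mem_ball, dist_eq_norm] at hw
    rw [mem_slitPlane_iff]
    left
    have h1 : |(w - 1).re| ≤ ‖w - 1‖ := Complex.abs_re_le_norm _
    have h2 : (w - 1).re = w.re - 1 := by simp
    rw [h2] at h1
    have := abs_lt.mp (lt_of_le_of_lt h1 hw)
    linarith [this.1]
  -- the principal `n`-th root of `R`
  set ρ : ℍ → ℂ := fun z => cexp (Complex.log (R z) / n) with hρ
  have hρn : ∀ z, R z ≠ 0 → ρ z ^ n = R z := by
    intro z hz
    rw [hρ]
    simp only
    rw [← Complex.exp_nat_mul, mul_div_cancel₀ _ (Nat.cast_ne_zero.mpr hn), Complex.exp_log hz]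
  have hρlim : Tendsto ρ atImInfty (𝓝 1) := by
    have h1 : ContinuousAt (fun w : ℂ => cexp (Complex.log w / n)) 1 := by
      have : ContinuousAt Complex.log (1 : ℂ) :=
        continuousAt_clog (by simp [mem_slitPlane_iff])
      exact Complex.continuous_exp.continuousAt.comp (this.div_const _)
    have h2 := h1.tendsto.comp hRlim
    simpa [hρ, Function.comp_def] using h2
  -- the key identity: for `Im z` large, `ω' = ρ (m + z) / ρ z`
  have hkey : ∀ᶠ z in atImInfty, ω' = ρ ((m : ℝ) +ᵥ z) / ρ z := by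
    rw [Filter.eventually_iff, atImInfty_mem] at hball
    obtain ⟨Y, hY⟩ := hball
    rw [Filter.eventually_iff, atImInfty_mem]
    refine ⟨Y, fun z₀ hz₀ => ?_⟩
    show ω' = ρ ((m : ℝ) +ᵥ z₀) / ρ z₀
    -- the path `s ↦ s + z₀`
    have hpath : ∀ s : ℝ, R (s +ᵥ z₀) ∈ Metric.ball (1 : ℂ) (1 / 2) := by
      intro s
      apply hY
      show Y ≤ (s +ᵥ z₀).im
      rw [vadd_im]
      exact hz₀
    have hRne : ∀ s : ℝ, R (s +ᵥ z₀) ≠ 0 := fun s => slitPlane_ne_zero (hslit _ (hpath s))
    have hρne : ∀ s : ℝ, ρ (s +ᵥ z₀) ≠ 0 := fun s => Complex.exp_ne_zero _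
    set U : ℝ → ℂ := fun s => V (s +ᵥ z₀) / ρ (s +ᵥ z₀) with hU
    have hUn : ∀ s, U s ^ n = c := by
      intro s
      rw [hU]
      simp only
      rw [div_pow, hρn _ (hRne s), hR]
      simp only
      have hVne : V (s +ᵥ z₀) ^ n ≠ 0 := by
        intro h0
        apply hRne s
        rw [hR]
        simp only
        rw [h0, zero_div]
      field_simp
    have hUc : Continuous U := by
      have h1 : Continuous fun s : ℝ => V (s +ᵥ z₀) := hVc.comp (s35p_continuous_vadd z₀)
      have h2 : Continuous fun s : ℝ => R (s +ᵥ z₀) := hRc.comp (s35p_continuous_vadd z₀)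
      have h3 : Continuous fun s : ℝ => Complex.log (R (s +ᵥ z₀)) :=
        h2.clog fun s => hslit _ (hpath s)
      have h4 : Continuous fun s : ℝ => ρ (s +ᵥ z₀) :=
        Complex.continuous_exp.comp (h3.div_const _)
      exact h1.div h4 hρne
    have hconst : U (m : ℝ) = U 0 :=
      (isPreconnected_univ (α := ℝ)).constant_of_mapsTo (s35p_isDiscrete_roots hn c)
        hUc.continuousOn (fun s _ => hUn s) (Set.mem_univ _) (Set.mem_univ _)
    rw [hU] at hconst
    simp only [zero_vadd] at hconst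
    rw [hVper] at hconst
    have hV0 : V z₀ ≠ 0 := by
      intro h0
      have := hRne 0
      rw [zero_vadd, hR] at this
      simp only at this
      rw [h0, zero_pow hn, zero_div] at this
      exact this rfl
    have hρ0 : ρ z₀ ≠ 0 := Complex.exp_ne_zero _
    have hρm : ρ ((m : ℝ) +ᵥ z₀) ≠ 0 := Complex.exp_ne_zero _
    field_simp at hconst ⊢
    exact hconst
  -- pass to the limit
  have hlim1 : Tendsto (fun z : ℍ => ρ ((m : ℝ) +ᵥ z) / ρ z) atImInfty (𝓝 (1 / 1)) :=
    (hρlim.comp (ffc_tendsto_vadd (m : ℝ))).div hρlim one_ne_zero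
  have hlim2 : Tendsto (fun _ : ℍ => ω') atImInfty (𝓝 (1 / 1)) :=
    hlim1.congr' (hkey.mono fun z hz => hz.symm)
  have hω1 : ω' = 1 := by
    have := tendsto_nhds_unique tendsto_const_nhds hlim2
    rw [this, div_one]
  -- conclude
  rw [hω'] at hω1
  have hexp : cexp (2 * π * I * (-E : ℤ) * (m : ℝ) / N) * cexp (2 * π * I * E * m / N) = 1 := by
    rw [← Complex.exp_add]
    have : 2 * (π : ℂ) * I * ((-E : ℤ) : ℂ) * ((m : ℝ) : ℂ) / N + 2 * π * I * E * m / N = 0 := by
      push_cast
      ring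
    rw [this, Complex.exp_zero]
  calc ω = ω * (cexp (2 * π * I * (-E : ℤ) * (m : ℝ) / N) * cexp (2 * π * I * E * m / N)) := by
        rw [hexp, mul_one]
    _ = cexp (2 * π * I * E * m / N) := by rw [← mul_assoc, hω1, one_mul]

end Fermat.Agent.Lib.S35
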