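/-
S35, block (PAR), part 2 (helper3): **the Kummer classes `κ_n(x)` are PARABOLIC.**

For `x ∈ Pic⁰(F)[p]` (`F = K(X₀(N))`, bridge `φ = s29bp_phi ι N`), the Kummer character
`s29m_kappaC hB x : Γ₀(N) → ℤ/p` vanishes on every `γ` with `trace² = 4`.

Proof.  `γ = ± δ T^m δ⁻¹`.  `x = [D]`, `div h = p • D`, `φ h = a / b` with `a, b ∈ ffm_R N`
(`Γ₀(N)`-invariant, moderate growth at all cusps), `A` holomorphic with `A^p = a b^{p-1}`,
`A (γ τ) = ζ^{κ(γ)} A τ`.  The valuation `ffm_ordInf ∘ (δ⁻¹ • ·) ∘ φ` on `F` is `m₀ · ord_v` for a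
place `v`, so the order at `i∞` of `δ⁻¹ • φ h` is `m₀ p D(v)`; `T^m`-invariance gives
`N ∣ m m₀` (uniformizer at `v`) and `N ∣ m ord(δ⁻¹ • b)`.  The monodromy lemma (ParMono) applied to
`A ∘ δ` then gives `ζ^{κ(γ)} = 1`.
-/
import Fermat.Agent.Lib.S35.ParMono
import Fermat.Agent.Lib.S29.KBridge
import Fermat.Agent.Lib.S29.RRoot
import Fermat.Agent.Lib.FF.CuspsModelInf
import Fermat.Agent.Lib.Period.Parabolic

set_option autoImplicit false
set_option linter.unusedSectionVars false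

open AlgebraicCurve WithZero

namespace Fermat.Agent.Lib.S35

open Fermat.Agent.Lib.FF Fermat.Agent.Lib.S18 Fermat.Agent.Lib.S29 Fermat.Agent.Lib.Period
open UpperHalfPlane hiding I
open Complex CongruenceSubgroup ModularCurve ModularGroup
open scoped MatrixGroups Manifold

noncomputable section

section Arith

variable {N : ℕ} [NeZero N]

/-- A stabilised element is stabilised by all integer powers. -/
theorem s35p_zpow_smul_eq {G X : Type*} [Group G] [MulAction G X] {g : G} {x : X}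
    (h : g • x = x) (k : ℤ) : g ^ k • x = x := by
  have : g ∈ MulAction.stabilizer G x := h
  exact Subgroup.zpow_mem _ this k

/-- **Width divisibility**: if `x ∈ ffm_E N` is `T ^ m`-invariant then `N ∣ m * ord_∞ x`. -/
theorem s35p_dvd_mul_ord (x : ffm_E N) (hx : x ≠ 0) (m : ℤ)
    (hTx : (T : SL(2, ℤ)) ^ m • x = x) :
    (N : ℤ) ∣ m * ffi_ord (ffm_ordInf N) x := by
  have hN : N ≠ 0 := NeZero.ne N
  set h : ℕ := Int.gcd m N with hh
  have hhN : h ∣ N := by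
    have : (h : ℤ) ∣ (N : ℤ) := Int.gcd_dvd_right m N
    exact_mod_cast this
  have hhm : (h : ℤ) ∣ m := Int.gcd_dvd_left m N
  -- `T ^ h` fixes `x`
  have hTh : (T : SL(2, ℤ)) ^ h • x = x := by
    have hbez : (h : ℤ) = m * Int.gcdA m N + N * Int.gcdB m N := Int.gcd_eq_gcd_ab m N
    rw [← zpow_natCast, hbez, zpow_add, zpow_mul, zpow_mul, mul_smul]
    have h1 : ((T : SL(2, ℤ)) ^ (N : ℤ)) ^ Int.gcdB m N • x = x := by
      apply s35p_zpow_smul_eq
      rw [zpow_natCast]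
      exact ffc_T_pow_smul_E x
    rw [h1]
    exact s35p_zpow_smul_eq hTx _
  have hdvd := (ffc_isOrdInf N).dvd hN h hhN x hx hTh
  obtain ⟨k, hk⟩ := hhN
  have h0 : h ≠ 0 := fun h0 => hN (by rw [hk, h0, zero_mul])
  have hNh : N / h = k := by rw [hk, Nat.mul_div_cancel_left _ (Nat.pos_of_ne_zero h0)]
  rw [hNh] at hdvd
  obtain ⟨c, hc⟩ := hdvd
  obtain ⟨d, hd⟩ := hhm
  refine ⟨d * c, ?_⟩
  rw [hc, hd, hk]
  push_cast
  ring

end Arith

section Main

variable {K : Type*} [Field K] [Algebra ℚ K] (ι : K →+* ℂ) {N p : ℕ} [NeZero N] [NeZero p]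

/-- `-γ` and `γ` act in the same way on the model ring. -/
theorem s35p_neg_smul_R (γ : SL(2, ℤ)) (f : ffm_R N) : (-γ) • f = γ • f := by
  ext z
  rw [ffm_smul_apply, ffm_smul_apply]
  have : (-γ)⁻¹ = -γ⁻¹ := by
    rw [inv_eq_iff_eq_inv, ← neg_inv, inv_inv]
  rw [this, ModularGroup.SL_neg_smul]

theorem s35p_neg_smul_E (γ : SL(2, ℤ)) (x : ffm_E N) : (-γ) • x = γ • x := by
  obtain ⟨a, b, -, rfl⟩ := IsFractionRing.div_surjective (A := ffm_R N) x
  rw [smul_div₀', smul_div₀', ffm_smul_algebraMap, ffm_smul_algebraMap, ffm_smul_algebraMap,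
    ffm_smul_algebraMap, s35p_neg_smul_R, s35p_neg_smul_R]

/-- The valuation on `F = K(X₀(N))` attached to the cusp `δ ∞`. -/
def s35p_cuspVal (δ : SL(2, ℤ)) : Valuation ↥(s29bp_FK K N) ℤᵐ⁰ :=
  (ffm_ordInf N).comap
    ((MulSemiringAction.toRingHom SL(2, ℤ) (ffm_E N) δ⁻¹).comp (s29bp_phi ι N))

theorem s35p_cuspVal_apply (δ : SL(2, ℤ)) (f : ↥(s29bp_FK K N)) :
    s35p_cuspVal ι δ f = ffm_ordInf N (δ⁻¹ • s29bp_phi ι N f) := rfl

/-- The cusp valuation is a positive multiple of the order function of a place. -/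
theorem s35p_cuspVal_place (δ : SL(2, ℤ)) :
    ∃ (v : Place K ↥(s29bp_FK K N)) (m₀ : ℤ), 0 < m₀ ∧ ∀ f : ↥(s29bp_FK K N), f ≠ 0 →
      ffi_ord (ffm_ordInf N) (δ⁻¹ • s29bp_phi ι N f) = m₀ * v.ord f := by
  have hN : N ≠ 0 := NeZero.ne N
  refine s29m_place_of_valuation (s35p_cuspVal ι δ) ?_ ?_
  · intro c
    rw [s35p_cuspVal_apply, s29bp_phi_const_smul, s29bp_phi_const]
    by_cases hc : ι c = 0
    · rw [hc, map_zero, map_zero]
      exact zero_le
    · exact le_of_eq ((ffc_isOrdInf N).const hN hc)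
  · refine ⟨(s29bp_jK K N)⁻¹, ?_, ?_⟩
    · have h0 : s29bp_phi ι N (s29bp_jK K N) ≠ 0 := by
        rw [s29bp_phi_j]
        apply ffc_algebraMap_ne_zero
        intro h0
        have h1 : ffg_jR N = ffc_J N := Subtype.ext rfl
        exact ffc_J_ne_zero hN (h1 ▸ h0)
      exact inv_ne_zero (fun h => h0 (by rw [h, map_zero]))
    · rw [s35p_cuspVal_apply, map_inv₀, smul_inv'', s29bp_phi_j_smul, s29bp_phi_j]
      have h1 : ffg_jR N = ffc_J N := Subtype.ext rfl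
      rw [h1]
      have hJ0 := ffc_algebraMap_ne_zero (ffc_J_ne_zero (N := N) hN)
      apply ffc_val_lt_one_of_ord_pos _ (inv_ne_zero hJ0)
      rw [ffc_ord_inv, (ffc_isOrdInf N).ord_J hN, neg_neg]
      exact_mod_cast Nat.pos_of_ne_zero hN

end Main

section Kappa

variable {K : Type*} [Field K] [Algebra ℚ K] (ι : K →+* ℂ) {N p : ℕ} [NeZero N] [NeZero p]

set_option maxHeartbeats 1600000 in
/-- **(PAR)** The Kummer character of a `p`-torsion class is a parabolic homomorphism. -/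
theorem s35p_kappaC_parabolic (hB : s29m_BridgeHyp K N p (s29bp_phi ι N))
    (y : Pic0.torsion K ↥(s29bp_FK K N) p) :
    ModularCurve.Period.IsParabolicHom (Gamma0 N) (s29m_kappaC hB y) := by
  classical
  have hN : N ≠ 0 := NeZero.ne N
  have hp : p ≠ 0 := NeZero.ne p
  intro γ hγtr
  -- 1. the data `y = [D]`, `div h = p • D`
  obtain ⟨D, hDy⟩ := Pic0.mk_surjective (y : Pic0 K ↥(s29bp_FK K N))
  have hx : (p : ℤ) • (y : Pic0 K ↥(s29bp_FK K N)) = 0 := Pic0.mem_torsion.mp y.2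
  have h1 : Pic0.mk ((p : ℤ) • D) = (0 : Pic0 K ↥(s29bp_FK K N)) := by
    rw [← hx, ← hDy]; rfl
  have h2 : ((p : ℤ) • D) ∈ (Divisor.principal (K := K) (F := ↥(s29bp_FK K N))).addSubgroupOf
      (Divisor.degZero (K := K) (F := ↥(s29bp_FK K N))) := (QuotientAddGroup.eq_zero_iff _).mp h1
  obtain ⟨h, hh, hDh⟩ := h2
  have hD : ∀ v : Place K ↥(s29bp_FK K N), v.ord h = (p : ℤ) * (D : Divisor K ↥(s29bp_FK K N)) v := by
    intro v
    rw [← hDh v]
    simp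
  -- 2. `φ h = a / b`
  obtain ⟨a', b', hb', -, hab⟩ := s29bp_exists_frac ι N h
  set a : ffm_R N := s29bp_psi ι N a' with ha
  set b : ffm_R N := s29bp_psi ι N b' with hb
  have hb0 : b ≠ 0 := by
    intro h0
    apply hb'
    apply s29bp_psi_injective ι N
    rw [← hb, h0, map_zero]
  have hbE : algebraMap (ffm_R N) (ffm_E N) b ≠ 0 := ffc_algebraMap_ne_zero hb0
  have hφh : s29bp_phi ι N h ≠ 0 := (map_ne_zero (s29bp_phi ι N)).mpr hh
  have ha0 : a ≠ 0 := by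
    intro h0
    rw [h0, map_zero] at hab
    exact (mul_ne_zero hφh hbE) hab
  have habE : s29bp_phi ι N h =
      algebraMap (ffm_R N) (ffm_E N) a / algebraMap (ffm_R N) (ffm_E N) b := by
    rw [eq_div_iff hbE, hab]
  have hainv : ∀ γ ∈ Gamma0 N, γ • a = a := fun γ hγ => s29bp_psi_smul ι N hγ a'
  have hbinv : ∀ γ ∈ Gamma0 N, γ • b = b := fun γ hγ => s29bp_psi_smul ι N hγ b'
  have hbinv' : ∀ γ : SL(2, ℤ), γ ∈ Gamma0 N → ∀ z : ℍ, (b : ℍ → ℂ) (γ • z) = (b : ℍ → ℂ) z :=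
    fun γ hγ z => ffc_apply_smul_of_smul_eq (hbinv γ hγ) z
  have hainv' : ∀ γ : SL(2, ℤ), γ ∈ Gamma0 N → ∀ z : ℍ, (a : ℍ → ℂ) (γ • z) = (a : ℍ → ℂ) z :=
    fun γ hγ z => ffc_apply_smul_of_smul_eq (hainv γ hγ) z
  -- 3. the holomorphic root `A`
  have hord : ∀ τ : ℍ, ∃ m n : ℕ, analyticOrderAt ((a : ℍ → ℂ) ∘ ofComplex) (τ : ℂ) = (m : ℕ∞) ∧
      analyticOrderAt ((b : ℍ → ℂ) ∘ ofComplex) (τ : ℂ) = (n : ℕ∞) ∧ (p : ℤ) ∣ (m : ℤ) - n := by
    intro τ
    obtain ⟨m, hm, hm'⟩ := s29m_exists_order a ha0 τ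
    obtain ⟨n, hn, hn'⟩ := s29m_exists_order b hb0 τ
    refine ⟨m, n, hm, hn, ?_⟩
    obtain ⟨k, hk⟩ := hB.ord h hh D hD τ
    rw [habE, map_div₀, hm', hn', ← WithZero.exp_sub, WithZero.exp_inj] at hk
    exact ⟨-k, by linarith⟩
  obtain ⟨A, hA, hAp⟩ := s29r_exists_root_ratio hp a.2.mdiff b.2.mdiff hord
  -- 4. the function-level description of `κ`
  have habM : s29m_inclE N (s29bp_phi ι N h) * s29m_ofFun (b : ℍ → ℂ) b.2.mdiff =
      s29m_ofFun (a : ℍ → ℂ) a.2.mdiff := by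
    have h4 := congrArg (s29m_inclE N) hab
    rw [map_mul, s29m_inclE_algebraMap, s29m_inclE_algebraMap] at h4
    exact h4
  have hspec := s29m_kappaC_fun_spec hB y D hDy h hh hD a.2.mdiff b.2.mdiff hA
    (s29m_ne_zero_of_R b hb0) habM hbinv' hAp γ
  set e : ZMod p := s29m_kappaC hB y (Additive.ofMul γ) with he
  set ω : ℂ := cexp (2 * Real.pi * I / p) ^ e.val with hω
  -- it suffices to show `ω = 1`
  suffices hω1 : ω = 1 by
    have hprim : IsPrimitiveRoot (cexp (2 * Real.pi * I / p)) p := Complex.isPrimitiveRoot_exp p hp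
    have hval : e.val = 0 := by
      have hlt : e.val < p := ZMod.val_lt e
      by_contra hne
      exact hprim.pow_ne_one_of_pos_of_lt hne hlt hω1
    exact (ZMod.val_eq_zero e).mp hval
  -- 5. `γ = ± δ T^m δ⁻¹`
  obtain ⟨δ, m, hγδ⟩ := pmP_exists_conj_of_trace_sq (γ : SL(2, ℤ)) hγtr
  -- the conjugate acts on `ℍ` like `γ`
  have hact : ∀ z : ℍ, (δ * T ^ m * δ⁻¹) • z = (γ : SL(2, ℤ)) • z := by
    intro z
    rcases hγδ with h | h
    · rw [← h]
    · rw [← h, ModularGroup.SL_neg_smul]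
  have hactE : ∀ x : ffm_E N, (δ * T ^ m * δ⁻¹) • x = (γ : SL(2, ℤ)) • x := by
    intro x
    rcases hγδ with h | h
    · rw [← h]
    · rw [← h, s35p_neg_smul_E]
  -- 6. the cusp valuation
  obtain ⟨v, m₀, hm₀, hval⟩ := s35p_cuspVal_place ι (N := N) δ
  -- invariance under `T ^ m` of `δ⁻¹ • φ f`
  have hTinv : ∀ f : ↥(s29bp_FK K N), (T : SL(2, ℤ)) ^ m • (δ⁻¹ • s29bp_phi ι N f) =
      δ⁻¹ • s29bp_phi ι N f := by
    intro f
    have h1 : (T : SL(2, ℤ)) ^ m • (δ⁻¹ • s29bp_phi ι N f) =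
        δ⁻¹ • ((δ * T ^ m * δ⁻¹) • s29bp_phi ι N f) := by
      rw [← mul_smul, ← mul_smul]
      congr 1
      group
    rw [h1, hactE, hB.inv f γ γ.2]
  -- `N ∣ m * m₀`
  obtain ⟨π₁, hπ₁0, hπ₁⟩ := ff_exists_ord_eq_one v
  have hNm₀ : (N : ℤ) ∣ m * m₀ := by
    have hne : δ⁻¹ • s29bp_phi ι N π₁ ≠ 0 := by
      rw [smul_ne_zero_iff_ne]
      exact (map_ne_zero (s29bp_phi ι N)).mpr hπ₁0
    have := s35p_dvd_mul_ord (δ⁻¹ • s29bp_phi ι N π₁) hne m (hTinv π₁)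
    rw [hval π₁ hπ₁0, hπ₁, mul_one] at this
    exact this
  -- the translates `ã = δ⁻¹ • a`, `b̃ = δ⁻¹ • b`
  set at' : ffm_R N := δ⁻¹ • a with hat'
  set bt' : ffm_R N := δ⁻¹ • b with hbt'
  have hat0 : at' ≠ 0 := by rw [hat', smul_ne_zero_iff_ne]; exact ha0
  have hbt0 : bt' ≠ 0 := by rw [hbt', smul_ne_zero_iff_ne]; exact hb0
  have hatE := ffc_algebraMap_ne_zero hat0
  have hbtE := ffc_algebraMap_ne_zero hbt0
  set ea : ℤ := ffi_ord (ffm_ordInf N) (algebraMap (ffm_R N) (ffm_E N) at') with hea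
  set eb : ℤ := ffi_ord (ffm_ordInf N) (algebraMap (ffm_R N) (ffm_E N) bt') with heb
  -- `ea - eb = m₀ * p * D v`
  have hdiff : ea - eb = m₀ * ((p : ℤ) * (D : Divisor K ↥(s29bp_FK K N)) v) := by
    have h1 := hval h hh
    rw [hD v, habE, smul_div₀', ffm_smul_algebraMap, ffm_smul_algebraMap,
      ffc_ord_div _ hatE hbtE] at h1
    exact h1
  -- `N ∣ m * eb`
  have hNeb : (N : ℤ) ∣ m * eb := by
    have h1 : (T : SL(2, ℤ)) ^ m • algebraMap (ffm_R N) (ffm_E N) bt' =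
        algebraMap (ffm_R N) (ffm_E N) bt' := by
      rw [hbt', ← ffm_smul_algebraMap, ← mul_smul]
      have h2 : (T : SL(2, ℤ)) ^ m * δ⁻¹ = δ⁻¹ * (δ * T ^ m * δ⁻¹) := by group
      rw [h2, mul_smul, hactE, ffm_smul_algebraMap, hbinv γ γ.2]
    exact s35p_dvd_mul_ord _ hbtE m h1
  -- 7. the monodromy lemma for `Ã = A ∘ δ`
  set E' : ℤ := m₀ * (D : Divisor K ↥(s29bp_FK K N)) v + eb with hE'
  have hG : ffc_HasExp N (fun z : ℍ => (at' : ℍ → ℂ) z * (bt' : ℍ → ℂ) z ^ (p - 1))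
      ((p : ℤ) * E') := by
    have h1 := ffm_hasExp N hat0
    have h2 := ffm_hasExp N hbt0
    have h3 : ffc_HasExp N (fun z : ℍ => (bt' : ℍ → ℂ) z ^ (p - 1))
        (((p - 1 : ℕ) : ℤ) * ffm_expInf N bt') := by
      induction (p - 1) with
      | zero =>
        simp only [pow_zero, Nat.cast_zero, zero_mul]
        exact ffc_hasExp_one N
      | succ k ih =>
        have := ih.mul h2
        rw [show ((k + 1 : ℕ) : ℤ) * ffm_expInf N bt' = (k : ℤ) * ffm_expInf N bt' +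
          ffm_expInf N bt' by push_cast; ring]
        exact this.congr fun z => by simp [pow_succ]
    have h4 := h1.mul h3
    have hexp : ffm_expInf N at' + ((p - 1 : ℕ) : ℤ) * ffm_expInf N bt' = (p : ℤ) * E' := by
      have e1 : ffm_expInf N at' = ea := rfl
      have e2 : ffm_expInf N bt' = eb := rfl
      have e3 : ((p - 1 : ℕ) : ℤ) = (p : ℤ) - 1 := by
        have : 1 ≤ p := Nat.one_le_iff_ne_zero.mpr hp
        push_cast [Nat.cast_sub this]
        ring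
      rw [e1, e2, e3, hE']
      linear_combination hdiff
    rw [hexp] at h4
    exact h4
  have hAt : Continuous fun z : ℍ => A (δ • z) := by
    have hδ : MDiff (fun τ : ℍ => ((δ : SL(2, ℤ)) : GL (Fin 2) ℝ) • τ) :=
      UpperHalfPlane.mdifferentiable_smul (by simp)
    exact (hA.comp hδ).continuous
  have hApow : ∀ z : ℍ, A (δ • z) ^ p = (at' : ℍ → ℂ) z * (bt' : ℍ → ℂ) z ^ (p - 1) := by
    intro z
    rw [hAp, hat', hbt', ffm_smul_apply, ffm_smul_apply, inv_inv]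
  have hper : ∀ z : ℍ, A (δ • ((m : ℝ) +ᵥ z)) = ω * A (δ • z) := by
    intro z
    have h1 : δ • ((m : ℝ) +ᵥ z) = (δ * T ^ m * δ⁻¹) • (δ • z) := by
      rw [← mul_smul, inv_mul_cancel_right, mul_smul, UpperHalfPlane.modular_T_zpow_smul]
    rw [h1, hact, hspec]
  have hmono := s35p_monodromy hp hAt hApow hG hper
  -- 8. `N ∣ E' * m`
  have hNE : (N : ℤ) ∣ E' * m := by
    rw [hE', add_mul]
    apply dvd_add
    · obtain ⟨c, hc⟩ := hNm₀
      exact ⟨c * (D : Divisor K ↥(s29bp_FK K N)) v, by linear_combination (D : Divisor K ↥(s29bp_FK K N)) v * hc⟩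
    · rw [mul_comm]; exact hNeb
  obtain ⟨c, hc⟩ := hNE
  rw [hmono]
  have : 2 * (Real.pi : ℂ) * I * (E' : ℂ) * (m : ℂ) / (N : ℂ) = (c : ℂ) * (2 * Real.pi * I) := by
    have hN' : (N : ℂ) ≠ 0 := Nat.cast_ne_zero.mpr hN
    have hc' : (E' : ℂ) * (m : ℂ) = (N : ℂ) * (c : ℂ) := by exact_mod_cast hc
    rw [mul_assoc (2 * (Real.pi : ℂ) * I), hc']
    field_simp
  rw [this]
  exact Complex.exp_int_mul_two_pi_mul_I c

end Kappa

end

end Fermat.Agent.Lib.S35
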