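/-
S35, block (PAR), part 3 (helper3): **the `p`-adic Kummer classes `κ_∞(x)` are PARABOLIC.**

`s35p_kappa_parabolic` : `s30k_kappa N n x : Γ₀(N) → ℤ/n` is parabolic for `x ∈ J₀(N)(ℚ̄)[n]`;
`s35p_kinf_parabolic`  : `s30u_kinf N p x : Γ₀(N) → ℤ_p` is parabolic for `x ∈ T_p J₀(N)`.
-/
import Fermat.Agent.Lib.S35.Par
import Fermat.Agent.Lib.S30.TateKinf

set_option autoImplicit false
set_option linter.unusedSectionVars false

open AlgebraicCurve ModularCurve CongruenceSubgroup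

namespace Fermat.Agent.Lib.S35

open Fermat.Agent.Lib.S29 Fermat.Agent.Lib.S30

noncomputable section

/-- `κ_n(x)` is parabolic for every `x ∈ J₀(N)(ℚ̄)[n]`. -/
theorem s35p_kappa_parabolic (N n : ℕ) [NeZero N] [NeZero n] (x : s29k_Jp N n) :
    ModularCurve.Period.IsParabolicHom (Gamma0 N) (s30k_kappa N n x) :=
  s35p_kappaC_parabolic (RingHom.id ℂ) (s30k_hB N n) (s30k_ct N n x)

/-- `κ_∞(x)` is parabolic for every `x ∈ T_p J₀(N)`. -/
theorem s35p_kinf_parabolic (N : ℕ) [NeZero N] (p : ℕ) [Fact p.Prime] (x : s30a_TJ N p) :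
    ModularCurve.Period.IsParabolicHom (Gamma0 N) (s30u_kinf N p x) := by
  intro γ hγ
  apply PadicInt.ext_of_toZModPow.mp
  intro k
  rw [s30u_kinf_spec, map_zero]
  exact s35p_kappa_parabolic N (p ^ k) _ γ hγ

end

end Fermat.Agent.Lib.S35
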