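/-
S35 project, package [B3] (helper1), part 2: **`α_*`, `β_*` ARE HECKE EQUIVARIANT ON THE TATE
MODULES** for all primes `ℓ ∤ M q lam`, by the Frobenius subtraction trick (no geometry):

for a Frobenius element `σ` at `ℓ`, Eichler–Shimura at both levels gives
`σ² - T_ℓ σ + ℓ = 0` on `T_lam J₀(M q)` and `σ² - T'_ℓ σ + ℓ = 0` on `T_lam J₀(M)`; a Galois
equivariant map `f` between them satisfies `(T'_ℓ f - f T_ℓ) σ = 0`, and `σ` is invertible.

* `s35c_hecke_of_frobQuad` : the abstract lemma;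
* `s35c_alphaT_hecke`, `s35c_betaT_hecke` : `f ∘ T_ℓ = T'_ℓ ∘ f` for `f = alphaT, betaT`;
* `s35c_alphaT_eigen`, `s35c_betaT_eigen` : after base change to any `ℤ_[lam]`-algebra, `f` maps
  `T_ℓ`-eigenvectors to `T'_ℓ`-eigenvectors with the same eigenvalue.
-/
import Fermat.Agent.Lib.S35.B3Push
import Fermat.Agent.Lib.S30.TateHecke
import Fermat.Agent.Lib.Frobenius.Exists

set_option autoImplicit false
set_option linter.unusedSectionVars false
set_option linter.style.haveILetI false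

noncomputable section

namespace Fermat.Agent.Lib.S35

open ModularCurve AlgebraicCurve Fermat.Agent.Lib.S29 Fermat.Agent.Lib.S30
open scoped TensorProduct

section Abstract

variable {R : Type*} [CommRing R]
  {Λ Λ' : Type*} [AddCommGroup Λ] [Module R Λ] [AddCommGroup Λ'] [Module R Λ']

/-- **Frobenius subtraction**: a linear map intertwining two invertible operators which satisfy
quadratic relations `r² - T r + ℓ = 0`, `r'² - T' r' + ℓ = 0` intertwines `T` and `T'`. -/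
theorem s35c_hecke_of_frobQuad (f : Λ →ₗ[R] Λ') (r ri T : Module.End R Λ)
    (r' T' : Module.End R Λ') (ℓ : R) (hri : r * ri = 1)
    (hf : ∀ x, f (r x) = r' (f x))
    (hq : r * r - T * r + ℓ • (1 : Module.End R Λ) = 0)
    (hq' : r' * r' - T' * r' + ℓ • (1 : Module.End R Λ') = 0) (x : Λ) :
    f (T x) = T' (f x) := by
  -- the identity `(T' f - f T) r = 0`
  have key : ∀ y : Λ, f (T (r y)) = T' (f (r y)) := by
    intro y
    have h1 := congrArg (fun g : Module.End R Λ => f (g y)) hq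
    have h2 := congrArg (fun g : Module.End R Λ' => g (f y)) hq'
    simp only [LinearMap.add_apply, LinearMap.sub_apply, Module.End.mul_apply,
      LinearMap.smul_apply, Module.End.one_apply, LinearMap.zero_apply, map_add, map_sub,
      map_smul, map_zero] at h1 h2
    rw [hf, hf] at h1
    -- h1 : r' (r' (f y)) - f (T (r y)) + ℓ • f y = 0
    -- h2 : r' (r' (f y)) - T' (r' (f y)) + ℓ • f y = 0
    have h3 : f (T (r y)) = r' (r' (f y)) + ℓ • f y := by
      rw [← sub_eq_zero, ← neg_eq_zero, ← h1]; abel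
    have h4 : T' (r' (f y)) = r' (r' (f y)) + ℓ • f y := by
      rw [← sub_eq_zero, ← neg_eq_zero, ← h2]; abel
    rw [h3, hf, h4]
  have hx : x = r (ri x) := by
    have := congrArg (fun g : Module.End R Λ => g x) hri
    simpa using this.symm
  rw [hx]
  exact key (ri x)

/-- base change of an intertwining relation to eigenvectors. -/
theorem s35c_eigen_of_hecke (𝒪 : Type*) [CommRing 𝒪] [Algebra R 𝒪] (f : Λ →ₗ[R] Λ')
    (T : Module.End R Λ) (T' : Module.End R Λ') (h : ∀ x, f (T x) = T' (f x))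
    (a : 𝒪) (w : 𝒪 ⊗[R] Λ) (hw : T.baseChange 𝒪 w = a • w) :
    T'.baseChange 𝒪 (f.baseChange 𝒪 w) = a • f.baseChange 𝒪 w := by
  have h1 : (T'.baseChange 𝒪) ∘ₗ (f.baseChange 𝒪) = (f.baseChange 𝒪) ∘ₗ (T.baseChange 𝒪) := by
    rw [← LinearMap.baseChange_comp, ← LinearMap.baseChange_comp]
    congr 1
    exact LinearMap.ext fun x => (h x).symm
  have h2 := congrArg (fun g => g w) h1
  simp only [LinearMap.comp_apply] at h2
  rw [h2, hw, map_smul]

end Abstract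

section Modular

variable (M q : ℕ) [NeZero M] [NeZero q] (hq : q.Prime) (hqM : ¬ q ∣ M)
variable (lam : ℕ) [Fact lam.Prime]

include hq hqM in
/-- a prime not dividing `M q lam` does not divide `M lam`. -/
theorem s35c_not_dvd_of_not_dvd {ℓ : ℕ} (hℓ : ¬ ℓ ∣ M * q * lam) : ¬ ℓ ∣ M * lam := by
  intro h
  apply hℓ
  obtain ⟨c, hc⟩ := h
  exact ⟨c * q, by rw [mul_right_comm, hc]; ring⟩

/-- abstract form of the two equivariances below. -/
theorem s35c_TpMap_hecke (f : JZero (M * q) →+ JZero M)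
    (hf : ∀ (σ : s29k_G) (x : JZero (M * q)), f (σ • x) = σ • f x)
    (ℓ : Nat.Primes) (hℓ : ¬ (ℓ : ℕ) ∣ M * q * lam) (x : s30a_TJ (M * q) lam) :
    s35c_TpMap (p := lam) f (s30a_Tz (M * q) lam ℓ x) =
      s30a_Tz M lam ℓ (s35c_TpMap (p := lam) f x) := by
  obtain ⟨A, σ, hA, hσ⟩ := Fermat.Agent.Lib.Frobenius.exists_isFrobeniusAt (ℓ : ℕ) ℓ.2
  have hℓ' : ¬ (ℓ : ℕ) ∣ M * lam := by
    intro h
    apply hℓ
    obtain ⟨c, hc⟩ := h
    exact ⟨c * q, by rw [mul_right_comm, hc]; ring⟩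
  refine s35c_hecke_of_frobQuad (s35c_TpMap (p := lam) f) (s30a_rho (M * q) lam σ)
    (s30a_rho (M * q) lam σ⁻¹) (s30a_Tz (M * q) lam ℓ) (s30a_rho M lam σ) (s30a_Tz M lam ℓ)
    (((ℓ : ℕ) : ℤ_[lam])) ?_ ?_
    (s30a_Tz_frobQuad (M * q) lam ℓ hℓ A hA σ hσ)
    (s30a_Tz_frobQuad M lam ℓ hℓ' A hA σ hσ) x
  · rw [← map_mul, mul_inv_cancel, map_one]
  · intro y
    refine s30a_ext fun n => ?_
    show f (σ • (y : ℕ → JZero (M * q)) n) = σ • f ((y : ℕ → JZero (M * q)) n)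
    exact hf σ _

/-- **`α_*` is Hecke equivariant** on the Tate modules, for `ℓ ∤ M q lam`. -/
theorem s35c_alphaT_hecke (ℓ : Nat.Primes) (hℓ : ¬ (ℓ : ℕ) ∣ M * q * lam)
    (x : s30a_TJ (M * q) lam) :
    s35c_alphaT M q hq hqM lam (s30a_Tz (M * q) lam ℓ x) =
      s30a_Tz M lam ℓ (s35c_alphaT M q hq hqM lam x) :=
  s35c_TpMap_hecke M q lam _ (s35c_alphaPush_smul M q hq hqM) ℓ hℓ x

/-- **`β_*` is Hecke equivariant** on the Tate modules, for `ℓ ∤ M q lam`. -/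
theorem s35c_betaT_hecke (ℓ : Nat.Primes) (hℓ : ¬ (ℓ : ℕ) ∣ M * q * lam)
    (x : s30a_TJ (M * q) lam) :
    s35c_betaT M q hq hqM lam (s30a_Tz (M * q) lam ℓ x) =
      s30a_Tz M lam ℓ (s35c_betaT M q hq hqM lam x) :=
  s35c_TpMap_hecke M q lam _ (s35c_betaPush_smul M q hq hqM) ℓ hℓ x

variable (𝒪 : Type*) [CommRing 𝒪] [Algebra ℤ_[lam] 𝒪]

/-- `α_*` maps eigenvectors of `T_ℓ` at level `M q` to eigenvectors of `T_ℓ` at level `M`. -/
theorem s35c_alphaT_eigen (ℓ : Nat.Primes) (hℓ : ¬ (ℓ : ℕ) ∣ M * q * lam) (a : 𝒪)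
    (w : 𝒪 ⊗[ℤ_[lam]] s30a_TJ (M * q) lam)
    (hw : (s30a_Tz (M * q) lam ℓ).baseChange 𝒪 w = a • w) :
    (s30a_Tz M lam ℓ).baseChange 𝒪 ((s35c_alphaT M q hq hqM lam).baseChange 𝒪 w) =
      a • (s35c_alphaT M q hq hqM lam).baseChange 𝒪 w :=
  s35c_eigen_of_hecke 𝒪 _ _ _ (s35c_alphaT_hecke M q hq hqM lam ℓ hℓ) a w hw

/-- `β_*` maps eigenvectors of `T_ℓ` at level `M q` to eigenvectors of `T_ℓ` at level `M`. -/
theorem s35c_betaT_eigen (ℓ : Nat.Primes) (hℓ : ¬ (ℓ : ℕ) ∣ M * q * lam) (a : 𝒪)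
    (w : 𝒪 ⊗[ℤ_[lam]] s30a_TJ (M * q) lam)
    (hw : (s30a_Tz (M * q) lam ℓ).baseChange 𝒪 w = a • w) :
    (s30a_Tz M lam ℓ).baseChange 𝒪 ((s35c_betaT M q hq hqM lam).baseChange 𝒪 w) =
      a • (s35c_betaT M q hq hqM lam).baseChange 𝒪 w :=
  s35c_eigen_of_hecke 𝒪 _ _ _ (s35c_betaT_hecke M q hq hqM lam ℓ hℓ) a w hw

end Modular

end Fermat.Agent.Lib.S35
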