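/-
S35 project, package [B3] (helper1), part 4: **characters of the Hecke algebra and cusp forms.**

* `s35c_exists_form_of_char` : every ring homomorphism `χ : heckeAlgebra N 2 S →+* ℂ` is the
  system of eigenvalues of a non-zero cusp form `h ∈ S₂(Γ₀(N))`:
  `T_ℓ h = χ(T_ℓ) h` for all primes `ℓ ∤ N`, `ℓ ∉ S`
  (`s30e_exists_eigenvector` on the lattice `H(ℤ)` + S21 + Hecke equivariance of the period pairing);
* `s35c_iota_injective` : a ring homomorphism `iota : chig.range →+* O'` (`chig` a character of a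
  Hecke algebra with values in `ℂ`, `O'` a domain of characteristic zero) is injective
  (the range is integral over `ℤ`, S22);
* `s35c_char_descend` : a character `χ' : heckeAlgebra N 2 S →+* O'` with
  `χ'(T_ℓ) = iota (chig (T_ℓ at level N₁))` descends to a character with values in `ℂ` taking the
  values `chig (T_ℓ)`  (all primes of `N` in `S`, so that the algebra is generated by the `T_ℓ`).
-/
import Fermat.Agent.Lib.S30.EigLattice

set_option autoImplicit false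
set_option linter.unusedSectionVars false
set_option linter.style.haveILetI false

open ModularFormClass ModularCurve ModularCurve.Period CongruenceSubgroup
open scoped MatrixGroups
open Matrix

noncomputable section

namespace Fermat.Agent.Lib.S35

open Fermat.Agent.Lib.S29 Fermat.Agent.Lib.S30

section Occurs

variable {N : ℕ} [NeZero N]

/-- **Every character of the Hecke algebra occurs in `S₂(Γ₀(N))`.** -/
theorem s35c_exists_form_of_char (S : Set ℕ) (χ : CuspForm.heckeAlgebra N 2 S →+* ℂ) :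
    ∃ h : CuspForm (Gamma0 N) 2, h ≠ 0 ∧
      ∀ (ℓ : ℕ) (hℓ : ℓ.Prime) (hℓN : ¬ ℓ ∣ N) (hℓS : ℓ ∉ S),
        CuspForm.heckeTLin 2 hℓ hℓN h = χ (CuspForm.heckeAlgebra.T hℓ hℓN hℓS) • h := by
  classical
  set b := Module.finBasis ℤ (s29s_M N) with hb
  obtain ⟨w, hw0, hw⟩ := s30e_exists_eigenvector b S ℂ χ
  -- the parabolic homomorphism with coordinates `w`
  set ψ : Additive (Gamma0 N) →+ ℂ := ∑ j, w j • s29s_castB b ℂ j with hψ
  have hψ0 : ψ ≠ 0 := by
    intro h0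
    apply hw0
    have hli := s29s_castB_linearIndependent_complex b
    rw [Fintype.linearIndependent_iff] at hli
    funext j
    exact hli w h0 j
  have hψpar : ψ ∈ parabolicHoms ℂ (Gamma0 N) ℂ := by
    rw [hψ]
    refine Submodule.sum_mem _ fun j _ => Submodule.smul_mem _ _ ?_
    exact s29s_cast_isParabolic ℂ (b j).2.1
  -- `ψ` is a period pairing
  have hS21 := Fermat.Agent.S21.result N
  rw [← hS21.2] at hψpar
  obtain ⟨⟨f₁, f₂⟩, hf⟩ := hψpar
  -- eigen-equation for `ψ`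
  have heigψ : ∀ (ℓ : ℕ) (hℓ : ℓ.Prime) (hℓN : ¬ ℓ ∣ N) (hℓS : ℓ ∉ S),
      (haveI : Fact ℓ.Prime := ⟨hℓ⟩; s29h_heckeHom N ℓ ℂ ψ) =
        χ (CuspForm.heckeAlgebra.T hℓ hℓN hℓS) • ψ := by
    intro ℓ hℓ hℓN hℓS
    haveI : Fact ℓ.Prime := ⟨hℓ⟩
    rw [hψ, s29s_heckeHom_sum_castB, hw ℓ hℓ hℓN hℓS, Finset.smul_sum]
    refine Finset.sum_congr rfl fun i _ => ?_
    rw [Pi.smul_apply, smul_eq_mul, mul_smul]
  -- transport to the pair `(f₁, f₂)`
  have hpair : ∀ (ℓ : ℕ) (hℓ : ℓ.Prime) (hℓN : ¬ ℓ ∣ N) (hℓS : ℓ ∉ S),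
      (CuspForm.heckeTLin 2 hℓ hℓN f₁, CuspForm.heckeTLin 2 hℓ hℓN f₂) =
        χ (CuspForm.heckeAlgebra.T hℓ hℓN hℓS) • (f₁, f₂) := by
    intro ℓ hℓ hℓN hℓS
    haveI : Fact ℓ.Prime := ⟨hℓ⟩
    apply hS21.1
    rw [← s30e_heckeHom_periodHomPair hℓ hℓN, map_smul, hf]
    exact heigψ ℓ hℓ hℓN hℓS
  have hne : (f₁, f₂) ≠ (0 : CuspForm (Gamma0 N) 2 × CuspForm (Gamma0 N) 2) := by
    intro h0
    apply hψ0
    rw [← hf, h0, map_zero]
  by_cases h1 : f₁ = 0
  · have h2 : f₂ ≠ 0 := fun h2 => hne (by rw [h1, h2]; rfl)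
    exact ⟨f₂, h2, fun ℓ hℓ hℓN hℓS => congrArg Prod.snd (hpair ℓ hℓ hℓN hℓS)⟩
  · exact ⟨f₁, h1, fun ℓ hℓ hℓN hℓS => congrArg Prod.fst (hpair ℓ hℓ hℓN hℓS)⟩

end Occurs

section Descend

variable {N₁ : ℕ} [NeZero N₁] {S : Set ℕ}
  (chig : CuspForm.heckeAlgebra N₁ 2 S →+* ℂ)
  {O' : Type*} [CommRing O'] [IsDomain O'] [CharZero O'] (iota : chig.range →+* O')

/-- the values of a character of the Hecke algebra are integral over `ℤ`. -/
theorem s35c_isIntegral_range (x : chig.range) : IsIntegral ℤ x := by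
  haveI : Module.Finite ℤ (CuspForm.heckeAlgebra N₁ 2 S) := Fermat.Agent.S22.result N₁ 2 S
  obtain ⟨t, ht⟩ := chig.rangeRestrict_surjective x
  have hT : IsIntegral ℤ t := IsIntegral.of_finite ℤ t
  rw [← ht]
  exact hT.map chig.rangeRestrict.toIntAlgHom

/-- **`iota` is injective.** -/
theorem s35c_iota_injective : Function.Injective iota := by
  haveI : Algebra.IsIntegral ℤ chig.range := ⟨fun x => s35c_isIntegral_range chig x⟩
  rw [injective_iff_map_eq_zero]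
  intro x hx
  have hker : RingHom.ker iota = ⊥ := by
    apply Ideal.eq_bot_of_comap_eq_bot (R := ℤ)
    rw [eq_bot_iff]
    intro n hn
    rw [Ideal.mem_comap, RingHom.mem_ker, eq_intCast, map_intCast] at hn
    have : n = 0 := by exact_mod_cast hn
    rw [this]
    exact Ideal.zero_mem _
  have : x ∈ RingHom.ker iota := hx
  rw [hker] at this
  exact this

variable {N : ℕ} [NeZero N]

/-- **Descent of a character from `O'` to `ℂ`.** -/
theorem s35c_char_descend (hNS : ∀ p : ℕ, p.Prime → p ∣ N → p ∈ S)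
    (c : ℕ → chig.range)
    (χ' : CuspForm.heckeAlgebra N 2 S →+* O')
    (hχ' : ∀ (ℓ : ℕ) (hℓ : ℓ.Prime) (hℓN : ¬ ℓ ∣ N) (hℓS : ℓ ∉ S),
      χ' (CuspForm.heckeAlgebra.T hℓ hℓN hℓS) = iota (c ℓ)) :
    ∃ χ : CuspForm.heckeAlgebra N 2 S →+* ℂ,
      ∀ (ℓ : ℕ) (hℓ : ℓ.Prime) (hℓN : ¬ ℓ ∣ N) (hℓS : ℓ ∉ S),
        χ (CuspForm.heckeAlgebra.T hℓ hℓN hℓS) = (c ℓ : ℂ) := by
  have hinj := s35c_iota_injective chig iota
  have hrange : ∀ x : CuspForm.heckeAlgebra N 2 S, χ' x ∈ iota.range := by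
    rintro ⟨x, hx⟩
    induction hx using Algebra.adjoin_induction with
    | mem t ht =>
      rcases ht with ⟨ℓ, hℓ, hℓN, hℓS, rfl⟩ | ⟨p, hpN, hp, hpS, rfl⟩
      · exact ⟨c ℓ, (hχ' ℓ hℓ hℓN hℓS).symm⟩
      · exact absurd (hNS p hp hpN) hpS
    | algebraMap z =>
      refine ⟨(z : chig.range), ?_⟩
      have h1 : (⟨algebraMap ℤ (Module.End ℂ (CuspForm (Gamma0 N) 2)) z,
          Subalgebra.algebraMap_mem _ z⟩ : CuspForm.heckeAlgebra N 2 S) =
          ((z : ℤ) : CuspForm.heckeAlgebra N 2 S) := by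
        apply Subtype.ext
        simp
      rw [h1, map_intCast, map_intCast]
    | add s t hs ht ihs iht =>
      have h1 : (⟨s + t, Subalgebra.add_mem _ hs ht⟩ : CuspForm.heckeAlgebra N 2 S) =
          ⟨s, hs⟩ + ⟨t, ht⟩ := rfl
      rw [h1, map_add]
      exact Subring.add_mem _ ihs iht
    | mul s t hs ht ihs iht =>
      have h1 : (⟨s * t, Subalgebra.mul_mem _ hs ht⟩ : CuspForm.heckeAlgebra N 2 S) =
          ⟨s, hs⟩ * ⟨t, ht⟩ := rfl
      rw [h1, map_mul]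
      exact Subring.mul_mem _ ihs iht
  obtain ⟨h', hh'⟩ := s30e_exists_lift χ' iota hinj hrange
  refine ⟨(Subring.subtype _).comp h', fun ℓ hℓ hℓN hℓS => ?_⟩
  have h1 : h' (CuspForm.heckeAlgebra.T hℓ hℓN hℓS) = c ℓ := by
    apply hinj
    rw [hh', hχ' ℓ hℓ hℓN hℓS]
  show ((h' (CuspForm.heckeAlgebra.T hℓ hℓN hℓS) : chig.range) : ℂ) = _
  rw [h1]

end Descend

end Fermat.Agent.Lib.S35
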