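/-
S35 project, package [B3] (helper1), part 5: **(PAR) ⇒ (CONV)**, the converse of Eichler–Shimura on
the Tate module from the parabolicity of the Kummer classes.

* `s35c_Par`    : (PAR) at finite level — `κ_n(x) = s30k_kappa N n x ∈ Hom(Γ₀(N), ℤ/n)` is parabolic
                  for every `n`-torsion point `x` of `J₀(N)` (helper3's analytic input);
* `s35c_ParInf` : (PAR) at infinite level — `κ_∞(x) = s30u_kinf N p x ∈ Hom(Γ₀(N), ℤ_p)` is
                  parabolic for every `x ∈ T_p J₀(N)`; `s35c_parInf_of_par`;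
* `s35c_Conv`   : (CONV) — a non-zero joint eigenvector of the good Hecke operators in
                  `O' ⊗ T_p J₀(N)` (all primes of `N` in `S`) defines a character
                  `heckeAlgebra N 2 S →+* O'` with the eigenvalues as values;
* `s35c_conv_of_parInf`, `s35c_conv_of_par` : (PAR) ⇒ (CONV).

Proof.  `ψ := κ_∞(x) : Γ₀(N) → ℤ_p` has a finitely generated torsion-free image, so
`ψ = Σ ω_j · cast(χ_j)` with `ω_j ∈ ℤ_p` and `χ_j ∈ Hom(Γ₀(N), ℤ)` vanishing wherever `ψ` does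
(`s35c_exists_decomp`, the proof of `intL_exists_decomp` with `ℂ` replaced by any domain of
characteristic zero); by (PAR) the `χ_j` lie in the lattice `H(ℤ) = s29s_M N`, and
`κ_∞ ∘ ι = cast` + injectivity of `κ_∞` give `x = Σ ω_j • ι(χ_j)` (`s35c_mem_span_iota`).  Hence the
images `ι(b_i)` of a `ℤ`-basis of `H(ℤ)` form a `ℤ_p`-BASIS of `T_p J₀(N)`, in which `T_ℓ` has the
integer matrix `s29s_heckeMat b ℓ`; the coordinates `v ∈ O'^r` of an eigenvector `w` are a joint
eigenvector of these matrices (`s35c_eigen_coords`), and the character is `u ↦` the scalar by which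
`Θ(u)` (`s30e_exists_Theta`) acts on `v` (`s35c_exists_character`, `Algebra.adjoin` induction).
-/
import Fermat.Agent.Lib.S30.EigTate
import Fermat.Agent.Lib.S30.TateKinf
import Fermat.Agent.Lib.S30.EigLattice

set_option autoImplicit false
set_option linter.unusedSectionVars false
set_option linter.style.haveILetI false

open ModularFormClass CongruenceSubgroup ModularCurve ModularCurve.Period
open scoped TensorProduct
open Matrix

noncomputable section

namespace Fermat.Agent.Lib.S35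

open Fermat.Agent.Lib.S29 Fermat.Agent.Lib.S30 Fermat.Agent.Lib.Integral

section Abstract

variable {G : Type*} [Group G]

/-- The image of a hom from a finitely generated group is a finite `ℤ`-module. -/
theorem s35c_finite_range [Group.FG G] {A : Type*} [AddCommGroup A] (ψ : Additive G →+ A) :
    Module.Finite ℤ (AddMonoidHom.range ψ).toIntSubmodule := by
  have h1 : (AddMonoidHom.range ψ).FG := by
    rw [← AddGroup.fg_iff_addSubgroup_fg]
    exact AddGroup.fg_of_surjective (f := ψ.rangeRestrict) ψ.rangeRestrict_surjective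
  rw [Module.Finite.iff_fg, Submodule.fg_iff_addSubgroup_fg]
  simpa using h1

/-- Decomposition of a hom `ψ : G → A` (`G` finitely generated, `A` a domain of characteristic
zero) as a finite `A`-combination of `ℤ`-valued homs, each vanishing wherever `ψ` does. -/
theorem s35c_exists_decomp [Group.FG G] {A : Type*} [CommRing A] [IsDomain A] [CharZero A]
    (ψ : Additive G →+ A) :
    ∃ (n : ℕ) (ω : Fin n → A) (χ : Fin n → (Additive G →+ ℤ)),
      (∀ g, ψ g = ∑ j, ω j * (χ j g : A)) ∧ (∀ j g, ψ g = 0 → χ j g = 0) := by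
  classical
  set R : Submodule ℤ A := (AddMonoidHom.range ψ).toIntSubmodule with hR
  have : Module.Finite ℤ R := s35c_finite_range ψ
  have : Module.Free ℤ R := Module.free_of_finite_type_torsion_free'
  let b := Module.finBasis ℤ R
  -- `ψ` as a map into `R`
  let ψR : Additive G →+ R :=
    { toFun := fun g => ⟨ψ g, ⟨g, rfl⟩⟩
      map_zero' := by ext; simp
      map_add' := fun x y => by ext; simp }
  refine ⟨Module.finrank ℤ R, fun j => (b j : A),
    fun j => (b.coord j).toAddMonoidHom.comp ψR, ?_, ?_⟩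
  · intro g
    have h := b.sum_repr (ψR g)
    have h2 := congrArg (fun x : R => (x : A)) h
    simp only [Submodule.coe_sum, Submodule.coe_smul] at h2
    have h3 : ((ψR g : R) : A) = ψ g := rfl
    rw [← h3, ← h2]
    refine Finset.sum_congr rfl fun j _ => ?_
    rw [zsmul_eq_mul, mul_comm]
    rfl
  · intro j g hg
    have : ψR g = 0 := by ext; exact hg
    simp [this]

end Abstract

/-! ### The Tate module is spanned by the lattice -/

section Span

variable (N : ℕ) [NeZero N] (p : ℕ) [Fact p.Prime]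

/-- If `κ_∞ x` is parabolic, `x` lies in the `ℤ_[p]`-span of `ι (H(ℤ))`. -/
theorem s35c_mem_span_iota (x : s30a_TJ N p)
    (hx : IsParabolicHom (Gamma0 N) (s30u_kinf N p x)) :
    x ∈ Submodule.span ℤ_[p] (Set.range (s30i_iota N p)) := by
  have : Group.FG (Gamma0 N) := Fermat.Agent.Lib.ES.groupFG_Gamma0 N
  obtain ⟨n, ω, χ, hsum, hvan⟩ := s35c_exists_decomp (s30u_kinf N p x)
  have hχM : ∀ j, χ j ∈ s29s_M N := fun j =>
    s29h_mem_Hpar_of_parabolic (fun γ hγ => hvan j _ (hx γ hγ))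
  have hx' : x = ∑ j, ω j • s30i_iota N p ⟨χ j, hχM j⟩ := by
    apply s30u_kinf_injective N p
    rw [map_sum]
    simp_rw [map_smul, s30u_kinf_iota]
    refine AddMonoidHom.ext fun γ => ?_
    rw [hsum γ, AddMonoidHom.finsetSum_apply]
    refine Finset.sum_congr rfl fun j _ => ?_
    rfl
  rw [hx']
  exact Submodule.sum_mem _ fun j _ => Submodule.smul_mem _ _ (Submodule.subset_span ⟨_, rfl⟩)

variable {N p} in
/-- The span of `ι (H(ℤ))` is the span of the images of a basis. -/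
theorem s35c_span_iota_le {r : ℕ} (b : Module.Basis (Fin r) ℤ ↥(s29s_M N)) :
    Submodule.span ℤ_[p] (Set.range (s30i_iota N p)) ≤
      Submodule.span ℤ_[p] (Set.range fun i => s30i_iota N p (b i)) := by
  rw [Submodule.span_le]
  rintro _ ⟨φ, rfl⟩
  rw [← b.sum_repr φ, map_sum]
  refine Submodule.sum_mem _ fun i _ => ?_
  rw [map_zsmul, ← Int.cast_smul_eq_zsmul ℤ_[p]]
  exact Submodule.smul_mem _ _ (Submodule.subset_span ⟨i, rfl⟩)

end Span

/-! ### Coordinates of an eigenvector -/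

section Coords

variable {R A V : Type*} [CommRing R] [CommRing A] [Algebra R A] [AddCommGroup V] [Module R V]
  {r : ℕ}

theorem s35c_sum_tmul_basis (B : Module.Basis (Fin r) R V) (w : A ⊗[R] V) :
    w = ∑ i, (B.baseChange A).repr w i ⊗ₜ[R] B i := by
  conv_lhs => rw [← (B.baseChange A).sum_repr w]
  refine Finset.sum_congr rfl fun i _ => ?_
  rw [Module.Basis.baseChange_apply, TensorProduct.smul_tmul', smul_eq_mul, mul_one]

theorem s35c_repr_sum_tmul (B : Module.Basis (Fin r) R V) (u : Fin r → A) :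
    (B.baseChange A).equivFun (∑ i, u i ⊗ₜ[R] B i) = u := by
  have h : ∑ i, u i ⊗ₜ[R] B i = ∑ i, u i • (B.baseChange A) i := by
    refine Finset.sum_congr rfl fun i _ => ?_
    rw [Module.Basis.baseChange_apply, TensorProduct.smul_tmul', smul_eq_mul, mul_one]
  rw [h, ← Module.Basis.equivFun_symm_apply, LinearEquiv.apply_symm_apply]

/-- The coordinates of an eigenvector of `T ⊗ 1` form an eigenvector of the matrix of `T`. -/
theorem s35c_eigen_coords (B : Module.Basis (Fin r) R V) (T : Module.End R V)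
    (t : Matrix (Fin r) (Fin r) R) (hT : ∀ j, T (B j) = ∑ i, t i j • B i)
    (w : A ⊗[R] V) (a : A) (hw : T.baseChange A w = a • w) :
    (t.map (algebraMap R A)) *ᵥ (fun i => (B.baseChange A).repr w i) =
      a • fun i => (B.baseChange A).repr w i := by
  set v : Fin r → A := fun i => (B.baseChange A).repr w i with hv
  have h1 : w = ∑ i, v i ⊗ₜ[R] B i := s35c_sum_tmul_basis B w
  have h2 : T.baseChange A w = ∑ i, ((t.map (algebraMap R A)) *ᵥ v) i ⊗ₜ[R] B i := by
    conv_lhs => rw [h1]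
    exact s30e_baseChange_sum T B t hT v
  have h3 : a • w = ∑ i, (a • v) i ⊗ₜ[R] B i := by
    conv_lhs => rw [h1]
    rw [Finset.smul_sum]
    refine Finset.sum_congr rfl fun i _ => ?_
    rw [TensorProduct.smul_tmul', Pi.smul_apply]
  have h4 := congrArg (B.baseChange A).equivFun (h2.symm.trans (hw.trans h3))
  rw [s35c_repr_sum_tmul, s35c_repr_sum_tmul] at h4
  exact h4

end Coords

/-! ### The character of an eigenvector of the Hecke matrices -/

section Character

variable {N : ℕ} [NeZero N] {r : ℕ} (S : Set ℕ) (hNS : ∀ ℓ : ℕ, ℓ.Prime → ℓ ∣ N → ℓ ∈ S)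
  {O' : Type*} [CommRing O'] [IsDomain O']
  (Φ : CuspForm.heckeAlgebra N 2 S →+* Matrix (Fin r) (Fin r) O')
  (v : Fin r → O')

omit [NeZero N] in
theorem s35c_smul_vec_injective {v : Fin r → O'} (hv : v ≠ 0) {a a' : O'} (h : a • v = a' • v) :
    a = a' := by
  obtain ⟨i, hi⟩ := Function.ne_iff.mp hv
  have h1 := congrFun h i
  rw [Pi.smul_apply, Pi.smul_apply, smul_eq_mul, smul_eq_mul] at h1
  exact mul_right_cancel₀ hi h1

include hNS in
/-- If the generators `T_ℓ` act on `v` by scalars, so does every element of the Hecke algebra. -/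
theorem s35c_exists_scalar
    (hgen : ∀ (ℓ : ℕ) (hℓ : ℓ.Prime) (hℓN : ¬ ℓ ∣ N) (hℓS : ℓ ∉ S),
      ∃ a : O', Φ (CuspForm.heckeAlgebra.T hℓ hℓN hℓS) *ᵥ v = a • v)
    (u : CuspForm.heckeAlgebra N 2 S) : ∃ a : O', Φ u *ᵥ v = a • v := by
  obtain ⟨u, hu⟩ := u
  induction hu using Algebra.adjoin_induction with
  | mem x hx =>
    rcases hx with ⟨ℓ, hℓ, hℓN, hℓS, rfl⟩ | ⟨q, hqN, hq, hqS, rfl⟩
    · exact hgen ℓ hℓ hℓN hℓS
    · exact absurd (hNS q hq hqN) hqS
  | algebraMap n =>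
    refine ⟨(n : O'), ?_⟩
    have h1 : (⟨algebraMap ℤ _ n, Subalgebra.algebraMap_mem _ n⟩ : CuspForm.heckeAlgebra N 2 S) =
        ((n : ℤ) : CuspForm.heckeAlgebra N 2 S) := by
      apply Subtype.ext
      show algebraMap ℤ _ n = _
      rw [eq_intCast]
      rfl
    rw [h1, map_intCast, Matrix.intCast_mulVec]
  | add x y hx hy ihx ihy =>
    obtain ⟨a, ha⟩ := ihx
    obtain ⟨a', ha'⟩ := ihy
    refine ⟨a + a', ?_⟩
    have h1 : (⟨x + y, Subalgebra.add_mem _ hx hy⟩ : CuspForm.heckeAlgebra N 2 S) =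
        ⟨x, hx⟩ + ⟨y, hy⟩ := rfl
    rw [h1, map_add, Matrix.add_mulVec, ha, ha', add_smul]
  | mul x y hx hy ihx ihy =>
    obtain ⟨a, ha⟩ := ihx
    obtain ⟨a', ha'⟩ := ihy
    refine ⟨a * a', ?_⟩
    have h1 : (⟨x * y, Subalgebra.mul_mem _ hx hy⟩ : CuspForm.heckeAlgebra N 2 S) =
        ⟨x, hx⟩ * ⟨y, hy⟩ := rfl
    rw [h1, map_mul, ← Matrix.mulVec_mulVec, ha', Matrix.mulVec_smul, ha, smul_smul, mul_comm]

include hNS in
/-- **The character of a joint eigenvector of the Hecke matrices.** -/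
theorem s35c_exists_character (hv : v ≠ 0)
    (hgen : ∀ (ℓ : ℕ) (hℓ : ℓ.Prime) (hℓN : ¬ ℓ ∣ N) (hℓS : ℓ ∉ S),
      ∃ a : O', Φ (CuspForm.heckeAlgebra.T hℓ hℓN hℓS) *ᵥ v = a • v) :
    ∃ χ : CuspForm.heckeAlgebra N 2 S →+* O', ∀ u, Φ u *ᵥ v = χ u • v := by
  choose f hf using s35c_exists_scalar S hNS Φ v hgen
  have huniq : ∀ u a, Φ u *ᵥ v = a • v → f u = a := fun u a h =>
    s35c_smul_vec_injective hv ((hf u).symm.trans h)
  refine ⟨{ toFun := f, map_one' := ?_, map_mul' := ?_, map_zero' := ?_, map_add' := ?_ }, hf⟩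
  · apply huniq
    rw [map_one, Matrix.one_mulVec, one_smul]
  · intro x y
    apply huniq
    rw [map_mul, ← Matrix.mulVec_mulVec, hf y, Matrix.mulVec_smul, hf x, smul_smul, mul_comm]
  · apply huniq
    rw [map_zero, Matrix.zero_mulVec, zero_smul]
  · intro x y
    apply huniq
    rw [map_add, Matrix.add_mulVec, hf, hf, add_smul]

end Character

/-! ### (PAR) ⇒ (CONV) -/

/-- **(PAR)**, finite level: the Kummer classes `κ_n(x) ∈ Hom(Γ₀(N), ℤ/n)` of the `n`-torsion
points of `J₀(N)` are parabolic. -/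
def s35c_Par : Prop :=
  ∀ (N : ℕ) [NeZero N] (n : ℕ) [NeZero n] (x : s29k_Jp N n),
    IsParabolicHom (Gamma0 N) (s30k_kappa N n x)

/-- **(PAR)**, infinite level: the values of the ruler `κ_∞` on the Tate module are parabolic. -/
def s35c_ParInf : Prop :=
  ∀ (N : ℕ) [NeZero N] (p : ℕ) [Fact p.Prime] (x : s30a_TJ N p),
    IsParabolicHom (Gamma0 N) (s30u_kinf N p x)

theorem s35c_parInf_of_par (h : s35c_Par) : s35c_ParInf := by
  intro N _ p _ x γ hγ
  apply PadicInt.ext_of_toZModPow.mp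
  intro k
  rw [s30u_kinf_spec, map_zero]
  exact h N (p ^ k) _ γ hγ

/-- **(CONV)**, the converse of Eichler–Shimura on the Tate module: a non-zero joint eigenvector of
the good Hecke operators in `O' ⊗ T_p J₀(N)` defines a character of the Hecke algebra. -/
def s35c_Conv : Prop :=
  ∀ (N : ℕ) [NeZero N] (p : ℕ) [Fact p.Prime] (S : Set ℕ)
    (_ : ∀ ℓ : ℕ, ℓ.Prime → ℓ ∣ N → ℓ ∈ S)
    (O' : Type) [CommRing O'] [IsDomain O'] [CharZero O'] [Algebra ℤ_[p] O'] (c : ℕ → O')
    (w : O' ⊗[ℤ_[p]] s30a_TJ N p) (_ : w ≠ 0)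
    (_ : ∀ (ℓ : ℕ) (hℓ : ℓ.Prime), ¬ ℓ ∣ N → ℓ ∉ S →
      (s30a_Tz N p ⟨ℓ, hℓ⟩).baseChange O' w = c ℓ • w),
    ∃ χ : CuspForm.heckeAlgebra N 2 S →+* O',
      ∀ (ℓ : ℕ) (hℓ : ℓ.Prime) (hℓN : ¬ ℓ ∣ N) (hℓS : ℓ ∉ S),
        χ (CuspForm.heckeAlgebra.T hℓ hℓN hℓS) = c ℓ

/-- **(PAR) ⇒ (CONV).** -/
theorem s35c_conv_of_parInf (hpar : s35c_ParInf) : s35c_Conv := by
  intro N _ p _ S hNS O' _ _ _ _ c w hw0 hw
  classical
  let b := Module.finBasis ℤ ↥(s29s_M N)
  set r := Module.finrank ℤ ↥(s29s_M N) with hr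
  have hli : LinearIndependent ℤ_[p] (fun i => s30i_iota N p (b i)) :=
    s30e_iota_linearIndependent N p (s30u_kinf N p) (s30u_kinf_spec N p) b
  have hsp : ⊤ ≤ Submodule.span ℤ_[p] (Set.range fun i => s30i_iota N p (b i)) := fun x _ =>
    s35c_span_iota_le b (s35c_mem_span_iota N p x (hpar N p x))
  let B : Module.Basis (Fin r) ℤ_[p] (s30a_TJ N p) := Module.Basis.mk hli hsp
  have hB : ∀ i, B i = s30i_iota N p (b i) := fun i => Module.Basis.mk_apply hli hsp i
  set v : Fin r → O' := fun i => (B.baseChange O').repr w i with hv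
  have hv0 : v ≠ 0 := by
    intro h
    apply hw0
    rw [s35c_sum_tmul_basis B w]
    refine Finset.sum_eq_zero fun i _ => ?_
    have h1 : (B.baseChange O').repr w i = 0 := congrFun h i
    rw [h1, TensorProduct.zero_tmul]
  -- the Hecke matrices
  obtain ⟨Θ, -, hΘ⟩ := s30e_exists_Theta b S
  let Φ : CuspForm.heckeAlgebra N 2 S →+* Matrix (Fin r) (Fin r) O' :=
    ((Int.castRingHom O').mapMatrix (m := Fin r)).comp Θ
  have hgen : ∀ (ℓ : ℕ) (hℓ : ℓ.Prime) (hℓN : ¬ ℓ ∣ N) (hℓS : ℓ ∉ S),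
      Φ (CuspForm.heckeAlgebra.T hℓ hℓN hℓS) *ᵥ v = c ℓ • v := by
    intro ℓ hℓ hℓN hℓS
    have : Fact ℓ.Prime := ⟨hℓ⟩
    have hΘT : Θ (CuspForm.heckeAlgebra.T hℓ hℓN hℓS) = s29s_heckeMat b ℓ := by
      apply Matrix.map_injective (Int.cast_injective (α := ℂ))
      show (Θ _).map (Int.cast : ℤ → ℂ) = (s29s_heckeMat b ℓ).map (Int.cast : ℤ → ℂ)
      rw [hΘ, CuspForm.heckeAlgebra.coe_T, s30e_rhoC_heckeT]
    have hT : ∀ j, s30a_Tz N p ⟨ℓ, hℓ⟩ (B j) =
        ∑ i, ((s29s_heckeMat b ℓ).map (Int.cast : ℤ → ℤ_[p])) i j • B i := by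
      intro j
      simp_rw [hB]
      rw [← s30e_iota_hecke_Tz N p ℓ hℓ hℓN (b j)]
      have h1 : s29h_heckeHpar N ℓ ℤ ℤ (b j) = ∑ i, s29s_heckeMat b ℓ i j • b i := by
        have h := b.sum_repr (s29h_heckeHpar N ℓ ℤ ℤ (b j))
        rw [← h]
        refine Finset.sum_congr rfl fun i _ => ?_
        rw [s29s_heckeMat, LinearMap.toMatrix_apply]
      rw [h1, map_sum]
      refine Finset.sum_congr rfl fun i _ => ?_
      rw [map_zsmul, Matrix.map_apply]
      exact (Int.cast_smul_eq_zsmul ℤ_[p] _ _).symm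
    have h2 := s35c_eigen_coords B (s30a_Tz N p ⟨ℓ, hℓ⟩) _ hT w (c ℓ) (hw ℓ hℓ hℓN hℓS)
    have hmat : ((s29s_heckeMat b ℓ).map (Int.cast : ℤ → ℤ_[p])).map (algebraMap ℤ_[p] O') =
        (s29s_heckeMat b ℓ).map (Int.cast : ℤ → O') := by
      ext i j
      simp
    rw [hmat] at h2
    show ((Int.castRingHom O').mapMatrix (Θ (CuspForm.heckeAlgebra.T hℓ hℓN hℓS))) *ᵥ v = c ℓ • v
    rw [hΘT]
    exact h2
  obtain ⟨χ, hχ⟩ := s35c_exists_character S hNS Φ v hv0
    (fun ℓ hℓ hℓN hℓS => ⟨c ℓ, hgen ℓ hℓ hℓN hℓS⟩)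
  exact ⟨χ, fun ℓ hℓ hℓN hℓS =>
    s35c_smul_vec_injective hv0 ((hχ _).symm.trans (hgen ℓ hℓ hℓN hℓS))⟩

theorem s35c_conv_of_par (hpar : s35c_Par) : s35c_Conv :=
  s35c_conv_of_parInf (s35c_parInf_of_par hpar)

end Fermat.Agent.Lib.S35
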