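/-
S35 project, package [B3] (helper1), part 3 (B3-E(b)): **from a common eigenvector of the good
Hecke operators to a normalised eigenform.**

`s35c_exists_eigenform` : if `0 ≠ h ∈ S₂(Γ₀(N))` satisfies `T_ℓ h = c ℓ • h` for all primes
`ℓ ∤ N`, `ℓ ∉ S`, then there is a normalised eigenform `g'` of level `N` (Prelude's
`CuspForm.IsNormalizedEigenform`: full Euler product, `a_1 = 1`) with `a_ℓ(g') = c ℓ` for all those
`ℓ`.  (The joint eigenspace is stable under the full commutative Hecke algebra; a common eigenvector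
of the latter is normalised by helper2's `Lib/Hecke/Eigenform.lean`.)
-/
import Fermat.Agent.Lib.Hecke.Lifting

set_option autoImplicit false
set_option linter.unusedSectionVars false

open ModularFormClass

namespace Fermat.Agent.Lib.S35

open Fermat.Agent.Lib.QCoeff Fermat.Agent.Lib.Eigenform Fermat.Agent.Lib.Lifting
  Fermat.Agent.Lib.CommEigen

variable {N : ℕ} [NeZero N]

local notation "Γ₀(" N ")" => CongruenceSubgroup.Gamma0 N

/-- The joint eigenspace of the good Hecke operators `T_ℓ`, `ℓ ∤ N`, `ℓ ∉ S`. -/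
def s35c_eigenspace (N : ℕ) [NeZero N] (S : Set ℕ) (c : ℕ → ℂ) :
    Submodule ℂ (CuspForm Γ₀(N) 2) where
  carrier := {f | ∀ (ℓ : ℕ) (hℓ : ℓ.Prime) (hℓN : ¬ ℓ ∣ N), ℓ ∉ S →
    CuspForm.heckeTLin 2 hℓ hℓN f = c ℓ • f}
  zero_mem' := fun ℓ hℓ hℓN _ => by rw [map_zero, smul_zero]
  add_mem' := fun {f g} hf hg ℓ hℓ hℓN hℓS => by
    rw [map_add, hf ℓ hℓ hℓN hℓS, hg ℓ hℓ hℓN hℓS, smul_add]
  smul_mem' := fun a f hf ℓ hℓ hℓN hℓS => by
    rw [map_smul, hf ℓ hℓ hℓN hℓS, smul_comm]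

theorem s35c_mem_eigenspace {S : Set ℕ} {c : ℕ → ℂ} {f : CuspForm Γ₀(N) 2} :
    f ∈ s35c_eigenspace N S c ↔ ∀ (ℓ : ℕ) (hℓ : ℓ.Prime) (hℓN : ¬ ℓ ∣ N), ℓ ∉ S →
      CuspForm.heckeTLin 2 hℓ hℓN f = c ℓ • f := Iff.rfl

/-- the joint eigenspace is stable under the full Hecke algebra. -/
theorem s35c_eigenspace_stable (S : Set ℕ) (c : ℕ → ℂ) (a : TT N) (f : CuspForm Γ₀(N) 2)
    (hf : f ∈ s35c_eigenspace N S c) :
    (a : Module.End ℂ (CuspForm Γ₀(N) 2)) f ∈ s35c_eigenspace N S c := by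
  intro ℓ hℓ hℓN hℓS
  have hcomm : (CuspForm.heckeAlgebra.T hℓ hℓN (Set.notMem_empty ℓ) : TT N) * a =
      a * CuspForm.heckeAlgebra.T hℓ hℓN (Set.notMem_empty ℓ) := mul_comm _ _
  have h1 := congrArg (fun t : TT N => (t : Module.End ℂ (CuspForm Γ₀(N) 2)) f) hcomm
  simp only [MulMemClass.coe_mul, CuspForm.heckeAlgebra.coe_T, Module.End.mul_apply] at h1
  rw [h1, hf ℓ hℓ hℓN hℓS, map_smul]

/-- **From a joint eigenvector of the good Hecke operators to a normalised eigenform.** -/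
theorem s35c_exists_eigenform (S : Set ℕ) (c : ℕ → ℂ) (h : CuspForm Γ₀(N) 2) (hh : h ≠ 0)
    (heig : ∀ (ℓ : ℕ) (hℓ : ℓ.Prime) (hℓN : ¬ ℓ ∣ N), ℓ ∉ S →
      CuspForm.heckeTLin 2 hℓ hℓN h = c ℓ • h) :
    ∃ g' : CuspForm Γ₀(N) 2, g'.IsNormalizedEigenform ∧
      ∀ ℓ : ℕ, ℓ.Prime → ¬ ℓ ∣ N → ℓ ∉ S → qCoeff ⇑g' ℓ = c ℓ := by
  have hfd : FiniteDimensional ℂ (CuspForm Γ₀(N) 2) := finiteDimensional
  set W := s35c_eigenspace N S c with hW
  have : Nontrivial W := ⟨⟨⟨h, heig⟩, 0, fun h0 => hh (congrArg Subtype.val h0)⟩⟩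
  set ρ : TT N →+* Module.End ℂ (CuspForm Γ₀(N) 2) := (TT N).val.toRingHom with hρ
  have hρa : ∀ a : TT N, ρ a = (a : Module.End ℂ (CuspForm Γ₀(N) 2)) := fun a => rfl
  have hstab : ∀ (a : TT N) (w : CuspForm Γ₀(N) 2), w ∈ W → ρ a w ∈ W := fun a w hw =>
    s35c_eigenspace_stable S c a w hw
  obtain ⟨v, hv0, hv⟩ := exists_common_eigenvector (restrictHom ρ W hstab)
  have hv' : ∀ a : TT N, ∃ e : ℂ, ρ a (v : CuspForm Γ₀(N) 2) = e • (v : CuspForm Γ₀(N) 2) := by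
    intro a
    obtain ⟨e, he⟩ := hv a
    refine ⟨e, ?_⟩
    have := congrArg (fun x : W => (x : CuspForm Γ₀(N) 2)) he
    simpa using this
  have hv0' : (v : CuspForm Γ₀(N) 2) ≠ 0 := fun h0 => hv0 (Subtype.ext h0)
  obtain ⟨ψ, hψ⟩ := exists_eigencharacter ρ (v : CuspForm Γ₀(N) 2) hv0' hv'
  have hev : IsEigenvector (v : CuspForm Γ₀(N) 2) (lamOf N ψ) := by
    constructor
    · intro p hp hpN
      have := hψ (CuspForm.heckeAlgebra.T hp hpN (Set.notMem_empty p))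
      simp only [lamOf, dif_pos hp, dif_neg hpN]
      exact this
    · intro p hp hpN
      have := hψ (CuspForm.heckeAlgebra.U hp hpN (Set.notMem_empty p))
      simp only [lamOf, dif_pos hp, dif_pos hpN]
      exact this
  obtain ⟨g', hg', -, hgl⟩ := exists_normalized hev hv0'
  refine ⟨g', hg', fun ℓ hℓ hℓN hℓS => ?_⟩
  rw [hgl ℓ hℓ]
  have h1 := hev.heckeT ℓ hℓ hℓN
  have h2 := v.2 ℓ hℓ hℓN hℓS
  rw [h1] at h2
  exact smul_left_injective ℂ hv0' h2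

end Fermat.Agent.Lib.S35
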