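/-
S35 project (helper6): copy of the never-landed S31 package [LEVEL], `T`-side, needed by `ESmo.lean`.

For a rank-two `GaloisRepAdic` over a local ring `T`:
* `s35el_exists_levelT` : for every `n` a finite Galois-stable level `L` such that the traces of two
  elements of `G_ℚ` which agree on `L` are congruent modulo `𝔪_T ^ n`;
* `s35el_charpoly_eq`, `s35el_sq_eq` : Cayley–Hamilton in rank two, in `LinearMap` form;
* `s35el_trace_pow_rec` : the Lucas recurrence for `j ↦ tr (f ^ j)`;
* `s35el_trace_frob`, `s35el_det_frob` : trace and determinant of a Frobenius element for a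
  `HeckeGaloisRepDatum`.
-/
import Mathlib
import Fermat.Prelude.Def_CuspForm_HeckeGaloisRepDatum

set_option autoImplicit false

open Polynomial IsLocalRing

namespace Fermat.Agent.Lib.S35

section Algebra

variable {R : Type*} [CommRing R] {M : Type*} [AddCommGroup M] [Module R M]

/-- the trace of an endomorphism of a finite free module with image in `I • ⊤` lies in `I`. -/
theorem s35el_trace_mem [Module.Free R M] [Module.Finite R M] (I : Ideal R) (f : Module.End R M)
    (hf : ∀ v : M, f v ∈ I • (⊤ : Submodule R M)) : LinearMap.trace R M f ∈ I := by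
  classical
  set b := Module.Free.chooseBasis R M with hb
  rw [LinearMap.trace_eq_matrix_trace R b f, Matrix.trace]
  refine I.sum_mem fun i _ => ?_
  rw [Matrix.diag_apply, LinearMap.toMatrix_apply]
  have hx := hf (b i)
  refine Submodule.smul_induction_on hx ?_ ?_
  · intro a ha w _
    rw [map_smul, Finsupp.smul_apply, smul_eq_mul]
    exact I.mul_mem_right _ ha
  · intro x y hx hy
    rw [map_add, Finsupp.add_apply]
    exact I.add_mem hx hy

/-- a linear map preserves `I • ⊤`. -/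
theorem s35el_map_mem_smul_top (f : Module.End R M) (I : Ideal R) {x : M}
    (hx : x ∈ I • (⊤ : Submodule R M)) : f x ∈ I • (⊤ : Submodule R M) := by
  refine Submodule.smul_induction_on hx ?_ ?_
  · intro a ha w _
    rw [map_smul]
    exact Submodule.smul_mem_smul ha Submodule.mem_top
  · intro x y hx hy
    rw [map_add]
    exact Submodule.add_mem _ hx hy

/-- the characteristic polynomial of an endomorphism of a free module of rank two. -/
theorem s35el_charpoly_eq [Module.Free R M] [Module.Finite R M] [Nontrivial R]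
    (h2 : Module.finrank R M = 2) (f : Module.End R M) :
    LinearMap.charpoly f = X ^ 2 - C (LinearMap.trace R M f) * X + C (LinearMap.det f) := by
  classical
  have b : Module.Basis (Fin 2) R M := Module.finBasisOfFinrankEq R M h2
  rw [← LinearMap.charpoly_toMatrix f b, Matrix.charpoly_fin_two,
    LinearMap.trace_eq_matrix_trace R b f, ← LinearMap.det_toMatrix b f]

/-- **Cayley–Hamilton in rank two.** -/
theorem s35el_sq_eq [Module.Free R M] [Module.Finite R M] [Nontrivial R]
    (h2 : Module.finrank R M = 2) (f : Module.End R M) :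
    f * f = LinearMap.trace R M f • f - LinearMap.det f • (1 : Module.End R M) := by
  have h := LinearMap.aeval_self_charpoly f
  rw [s35el_charpoly_eq h2 f] at h
  simp only [map_add, map_sub, map_pow, map_mul, aeval_X, aeval_C,
    Algebra.algebraMap_eq_smul_one] at h
  rw [pow_two] at h
  have h' : f * f = LinearMap.trace R M f • (1 : Module.End R M) * f
      - LinearMap.det f • (1 : Module.End R M) := by
    rw [eq_sub_iff_add_eq, ← sub_eq_zero]
    rw [← h]; abel
  rw [h', smul_mul_assoc, one_mul]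

/-- the Lucas recurrence for the traces of the powers. -/
theorem s35el_trace_pow_rec [Module.Free R M] [Module.Finite R M] [Nontrivial R]
    (h2 : Module.finrank R M = 2) (f : Module.End R M) (j : ℕ) :
    LinearMap.trace R M (f ^ (j + 2)) =
      LinearMap.trace R M f * LinearMap.trace R M (f ^ (j + 1))
        - LinearMap.det f * LinearMap.trace R M (f ^ j) := by
  have h : f ^ (j + 2) = LinearMap.trace R M f • f ^ (j + 1) - LinearMap.det f • f ^ j := by
    rw [pow_add, pow_two, s35el_sq_eq h2 f, mul_sub, mul_smul_comm, mul_smul_comm, mul_one,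
      ← pow_succ]
  rw [h, map_sub, map_smul, map_smul, smul_eq_mul, smul_eq_mul]

theorem s35el_trace_pow_zero [Module.Free R M] [Module.Finite R M] [Nontrivial R]
    (h2 : Module.finrank R M = 2) (f : Module.End R M) :
    LinearMap.trace R M (f ^ 0) = 2 := by
  rw [pow_zero, LinearMap.trace_one, h2]; norm_num

theorem s35el_trace_pow_one (f : Module.End R M) :
    LinearMap.trace R M (f ^ 1) = LinearMap.trace R M f := by
  rw [pow_one]

/-- trace and determinant from the characteristic polynomial in rank two. -/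
theorem s35el_trace_det_of_charpoly [Module.Free R M] [Module.Finite R M] [Nontrivial R]
    (h2 : Module.finrank R M = 2) (f : Module.End R M) (a d : R)
    (h : LinearMap.charpoly f = X ^ 2 - C a * X + C d) :
    LinearMap.trace R M f = a ∧ LinearMap.det f = d := by
  rw [s35el_charpoly_eq h2 f] at h
  have h1 := congrArg (fun P : R[X] => P.coeff 1) h
  have h0 := congrArg (fun P : R[X] => P.coeff 0) h
  simp only [coeff_add, coeff_sub, coeff_X_pow, coeff_C_mul, coeff_X_one, coeff_C_succ,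
    coeff_X_zero, coeff_C_zero, mul_one, mul_zero] at h1 h0
  norm_num at h1 h0
  exact ⟨h1, h0⟩

end Algebra

section Galois

abbrev s35el_G : Type := AlgebraicClosure ℚ ≃ₐ[ℚ] AlgebraicClosure ℚ

/-- every finite level is contained in a finite Galois-stable level. -/
theorem s35el_exists_stable (L₁ : IntermediateField ℚ (AlgebraicClosure ℚ))
    (h : FiniteDimensional ℚ L₁) :
    ∃ L : IntermediateField ℚ (AlgebraicClosure ℚ), FiniteDimensional ℚ L ∧
      (∀ σ : s35el_G, ∀ y ∈ L, σ y ∈ L) ∧ L₁ ≤ L := by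
  set L : IntermediateField ℚ (AlgebraicClosure ℚ) :=
    IntermediateField.normalClosure ℚ L₁ (AlgebraicClosure ℚ) with hL
  have hle : L₁ ≤ L := IntermediateField.le_normalClosure L₁
  haveI : IsAlgClosure ℚ (AlgebraicClosure ℚ) := AlgebraicClosure.instIsAlgClosure ℚ
  haveI : Normal ℚ (AlgebraicClosure ℚ) := IsAlgClosure.normal ℚ (AlgebraicClosure ℚ)
  have hnorm : Normal ℚ L := normalClosure.normal ℚ L₁ (AlgebraicClosure ℚ)
  refine ⟨L, normalClosure.is_finiteDimensional ℚ L₁ (AlgebraicClosure ℚ),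
    fun σ y hy => ?_, hle⟩
  have h1 := IntermediateField.normal_iff_forall_map_le'.mp hnorm σ
  exact h1 ((IntermediateField.mem_map _).mpr ⟨y, hy, rfl⟩)

/-- the compositum of two finite Galois-stable levels. -/
theorem s35el_sup_level (L₁ L₂ : IntermediateField ℚ (AlgebraicClosure ℚ))
    (h₁ : FiniteDimensional ℚ L₁) (h₂ : FiniteDimensional ℚ L₂)
    (s₁ : ∀ σ : s35el_G, ∀ y ∈ L₁, σ y ∈ L₁) (s₂ : ∀ σ : s35el_G, ∀ y ∈ L₂, σ y ∈ L₂) :
    FiniteDimensional ℚ (L₁ ⊔ L₂ : IntermediateField ℚ (AlgebraicClosure ℚ)) ∧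
      (∀ σ : s35el_G, ∀ y ∈ (L₁ ⊔ L₂ : IntermediateField ℚ (AlgebraicClosure ℚ)),
        σ y ∈ (L₁ ⊔ L₂ : IntermediateField ℚ (AlgebraicClosure ℚ))) := by
  refine ⟨IntermediateField.finiteDimensional_sup L₁ L₂, fun σ y hy => ?_⟩
  have hm : (L₁ ⊔ L₂).map (σ : AlgebraicClosure ℚ →ₐ[ℚ] AlgebraicClosure ℚ) ≤ L₁ ⊔ L₂ := by
    rw [IntermediateField.map_sup]
    refine sup_le_sup ?_ ?_
    · rintro _ ⟨z, hz, rfl⟩
      exact s₁ σ z hz
    · rintro _ ⟨z, hz, rfl⟩
      exact s₂ σ z hz
  exact hm ((IntermediateField.mem_map _).mpr ⟨y, hy, rfl⟩)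

variable {T : Type} [CommRing T] [IsLocalRing T]

/-- **The `T`-side level**: traces of elements agreeing on a finite level are congruent. -/
theorem s35el_exists_levelT (r : GaloisRepAdic T) (n : ℕ) :
    ∃ L : IntermediateField ℚ (AlgebraicClosure ℚ), FiniteDimensional ℚ L ∧
      (∀ σ : s35el_G, ∀ y ∈ L, σ y ∈ L) ∧
      ∀ g g' : s35el_G, (∀ x ∈ L, g x = g' x) →
        r.trace g - r.trace g' ∈ maximalIdeal T ^ n := by
  obtain ⟨L₁, hfd, hL₁⟩ := r.isAdicContinuous n
  obtain ⟨L, hLfd, hLst, hle⟩ := s35el_exists_stable L₁ hfd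
  refine ⟨L, hLfd, hLst, fun g g' hgg' => ?_⟩
  -- `h := g'⁻¹ * g` fixes `L`
  set h : s35el_G := g'⁻¹ * g with hh
  have hfix : ∀ x ∈ L₁, h x = x := by
    intro x hx
    have := hgg' x (hle hx)
    rw [hh, AlgEquiv.mul_apply, this]
    exact (g'.symm_apply_apply x)
  have hg : g = g' * h := by rw [hh, mul_inv_cancel_left]
  have h1 : r.trace g - r.trace g' =
      LinearMap.trace T r.V (r.ρ g' * (r.ρ h - 1)) := by
    unfold GaloisRepAdic.trace
    rw [hg, map_mul, mul_sub, mul_one, map_sub]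
  rw [h1]
  refine s35el_trace_mem _ _ fun v => ?_
  rw [Module.End.mul_apply]
  refine s35el_map_mem_smul_top _ _ ?_
  rw [LinearMap.sub_apply, Module.End.one_apply]
  exact hL₁ h hfix v

end Galois

section Hecke

variable {N : ℕ} [NeZero N] {S : Set ℕ}
  {𝒪 : Type} [CommRing 𝒪] [IsDomain 𝒪] [IsDiscreteValuationRing 𝒪]
  [IsAdicComplete (IsLocalRing.maximalIdeal 𝒪) 𝒪]
  {θ : CuspForm.heckeAlgebra N 2 S →+* IsLocalRing.ResidueField 𝒪}
  {T : Type} [CommRing T] [IsLocalRing T] [IsNoetherianRing T]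
  [IsAdicComplete (IsLocalRing.maximalIdeal T) T] [Algebra 𝒪 T] [IsLocalHom (algebraMap 𝒪 T)]
  [Module.Finite 𝒪 T] [Module.Free 𝒪 T]

/-- trace and determinant of a Frobenius element. -/
theorem s35el_trace_det_frob (H : CuspForm.HeckeGaloisRepDatum N S 𝒪 θ T)
    (ℓ : ℕ) (hℓ : ℓ.Prime) (hℓN : ¬ ℓ ∣ N) (hℓS : ℓ ∉ S)
    (A : ValuationSubring (AlgebraicClosure ℚ)) (hA : A.LiesOverPrime ℓ)
    (σ : s35el_G) (hσ : A.IsFrobeniusAt σ ℓ) :
    H.ρ.trace σ = H.π (CuspForm.heckeAlgebra.T hℓ hℓN hℓS) ∧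
      LinearMap.det (H.ρ.ρ σ) = (ℓ : T) :=
  s35el_trace_det_of_charpoly H.ρ.finrank_eq (H.ρ.ρ σ) _ _ (H.charpoly_frob ℓ hℓ hℓN hℓS A hA σ hσ)

/-- the Lucas recurrence for the traces of the powers of a Frobenius element. -/
theorem s35el_trace_frob_pow_rec (H : CuspForm.HeckeGaloisRepDatum N S 𝒪 θ T)
    (ℓ : ℕ) (hℓ : ℓ.Prime) (hℓN : ¬ ℓ ∣ N) (hℓS : ℓ ∉ S)
    (A : ValuationSubring (AlgebraicClosure ℚ)) (hA : A.LiesOverPrime ℓ)
    (σ : s35el_G) (hσ : A.IsFrobeniusAt σ ℓ) (j : ℕ) :
    H.ρ.trace (σ ^ (j + 2)) =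
      H.π (CuspForm.heckeAlgebra.T hℓ hℓN hℓS) * H.ρ.trace (σ ^ (j + 1))
        - (ℓ : T) * H.ρ.trace (σ ^ j) := by
  obtain ⟨h1, h2⟩ := s35el_trace_det_frob H ℓ hℓ hℓN hℓS A hA σ hσ
  unfold GaloisRepAdic.trace at h1 ⊢
  have e : ∀ k : ℕ, H.ρ.ρ (σ ^ k) = H.ρ.ρ σ ^ k := fun k => map_pow _ _ _
  rw [e, e, e, s35el_trace_pow_rec H.ρ.finrank_eq, h1, h2]

theorem s35el_trace_frob_pow_zero (H : CuspForm.HeckeGaloisRepDatum N S 𝒪 θ T) (σ : s35el_G) :
    H.ρ.trace (σ ^ 0) = 2 := by
  unfold GaloisRepAdic.trace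
  have e : H.ρ.ρ (σ ^ 0) = H.ρ.ρ σ ^ 0 := map_pow _ _ _
  rw [e]
  exact s35el_trace_pow_zero H.ρ.finrank_eq _

end Hecke

end Fermat.Agent.Lib.S35
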