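/-
S35 project, package [B3-E(c)] (helper6): **STRONG MULTIPLICITY ONE AT FINITELY MANY PRIMES**, via
the residual representations of S29 (no Tate module, no `λ`-adic coefficient ring).

`g`, `g'` normalised eigenforms of levels `N`, `M' ∣ N` with `a_ℓ(g') = a_ℓ(g)` for all primes
`ℓ ∤ N` outside a FINITE set `S`.  Then `a_ℓ(g') = a_ℓ(g)` for ALL primes `ℓ ∤ N`
(`s35e_smo`); hence `g` is not a newform if `M' ≠ N` (`s35e_not_newform`).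

Proof: `x := a_{ℓ₀}(g) - a_{ℓ₀}(g') ∈ ℤ̄`.  For a prime `p ≠ ℓ₀` and a maximal ideal `𝔪 ∋ p` of `ℤ̄`,
S29 gives `ρ̄_g`, `ρ̄_{g'}` over `k = ℤ̄/𝔪`, trivial on `Gal(ℚ̄/L)` for a common finite level `L`;
Frobenius density: `Frob_{ℓ₀}|_L = (Frob_ℓ)^j|_L` with `ℓ ∉ S ∪ {p} ∪ primes(N)`; the Lucas recurrence
for `tr (A ^ j)` in rank two gives `tr ρ̄_g(Frob_{ℓ₀}) = tr ρ̄_{g'}(Frob_{ℓ₀})`, i.e. `x ∈ 𝔪`.  Taking
`p` prime to the constant term of an integral equation of `x ≠ 0` gives a contradiction.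
-/
import Fermat.Agent.Lib.S29.KappaFinal
import Fermat.Agent.Lib.S29.GSTop
import Fermat.Agent.Lib.S29.PackTwoDim
import Fermat.Agent.Lib.S29.FDPlace
import Fermat.Agent.Lib.S35.ELevelT
import Fermat.Agent.Lib.Frobenius.Exists
import Fermat.Prelude.Def_CuspForm_Newforms

set_option autoImplicit false

open Polynomial CuspForm

namespace Fermat.Agent.Lib.S35

open Fermat.Agent.Lib.S29

local notation "Zb" => integralClosure ℤ ℂ
local notation "GQ" => AlgebraicClosure ℚ ≃ₐ[ℚ] AlgebraicClosure ℚ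

/-! ### The Lucas sequence -/

section Lucas

variable {k : Type*} [Field k]

/-- `s_0 = 2`, `s_1 = t`, `s_{j+2} = t s_{j+1} - d s_j`. -/
def s35e_luc (t d : k) : ℕ → k
  | 0 => 2
  | 1 => t
  | (j + 2) => t * s35e_luc t d (j + 1) - d * s35e_luc t d j

variable {V : Type*} [AddCommGroup V] [Module k V] [Module.Finite k V]

/-- In rank two, `tr (f ^ j)` is the Lucas sequence of the coefficients of the characteristic
polynomial. -/
theorem s35e_trace_pow (h2 : Module.finrank k V = 2) (f : Module.End k V) (t d : k)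
    (h : LinearMap.charpoly f = X ^ 2 - C t * X + C d) (j : ℕ) :
    LinearMap.trace k V (f ^ j) = s35e_luc t d j := by
  obtain ⟨htr, hdet⟩ := s35el_trace_det_of_charpoly h2 f t d h
  induction j using Nat.strong_induction_on with
  | _ j ih =>
    match j, ih with
    | 0, _ => exact s35el_trace_pow_zero h2 f
    | 1, _ => rw [pow_one, htr]; rfl
    | (j + 2), ih =>
      rw [s35el_trace_pow_rec h2 f j, htr, hdet, ih (j + 1) (by omega), ih j (by omega)]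
      rfl

end Lucas

/-! ### Finite levels -/

section Level

variable {k : Type} [Field k]

/-- A residual representation only depends on the restriction to a level through which it
factors. -/
theorem s35e_rho_eq_pow (ρ : ResidualGaloisRep k)
    (L : IntermediateField ℚ (AlgebraicClosure ℚ))
    (hL : ∀ σ : GQ, (∀ x ∈ L, σ x = x) → ρ.ρ σ = 1)
    (τ σ : GQ) (j : ℕ) (h : ∀ x ∈ L, (σ ^ j) x = τ x) : ρ.ρ τ = ρ.ρ σ ^ j := by
  have hfix : ∀ x ∈ L, ((σ ^ j)⁻¹ * τ) x = x := by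
    intro x hx
    rw [AlgEquiv.mul_apply, ← h x hx]
    exact (σ ^ j).symm_apply_apply x
  have h1 := hL _ hfix
  have h2 : τ = σ ^ j * ((σ ^ j)⁻¹ * τ) := by rw [mul_inv_cancel_left]
  rw [h2, map_mul, h1, mul_one, map_pow]

/-- A common finite Galois-stable level for two residual representations. -/
theorem s35e_common_level (ρ ρ' : ResidualGaloisRep k) :
    ∃ L : IntermediateField ℚ (AlgebraicClosure ℚ), FiniteDimensional ℚ L ∧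
      (∀ σ : GQ, ∀ x ∈ L, σ x ∈ L) ∧
      (∀ σ : GQ, (∀ x ∈ L, σ x = x) → ρ.ρ σ = 1) ∧
      (∀ σ : GQ, (∀ x ∈ L, σ x = x) → ρ'.ρ σ = 1) := by
  obtain ⟨L₁, hfd₁, h₁⟩ := ρ.factorsThroughFiniteLevel
  obtain ⟨L₂, hfd₂, h₂⟩ := ρ'.factorsThroughFiniteLevel
  have hfd : FiniteDimensional ℚ (L₁ ⊔ L₂ : IntermediateField ℚ (AlgebraicClosure ℚ)) :=
    IntermediateField.finiteDimensional_sup L₁ L₂
  obtain ⟨L, hLfd, hLst, hle⟩ := s35el_exists_stable (L₁ ⊔ L₂) hfd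
  refine ⟨L, hLfd, hLst, fun σ hσ => h₁ σ fun x hx => hσ x (hle (le_sup_left (a := L₁) hx)),
    fun σ hσ => h₂ σ fun x hx => hσ x (hle (le_sup_right (b := L₂) hx))⟩

end Level

/-! ### Congruence of the coefficients modulo every maximal ideal -/

section Congruence

variable {N M' : ℕ} {g : CuspForm (CongruenceSubgroup.Gamma0 N) 2}
  {g' : CuspForm (CongruenceSubgroup.Gamma0 M') 2}

/-- S29, from the library. -/
theorem s35e_S29 {N : ℕ} {g : CuspForm (CongruenceSubgroup.Gamma0 N) 2}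
    (hg : g.IsNormalizedEigenform) {p : ℕ} (hp : p.Prime) {k : Type} [Field k] [CharP k p]
    (φ : Zb →+* k) :
    ∃ ρ : ResidualGaloisRep k, ρ.IsAttachedTo g φ ∧
      ∀ ℓ : ℕ, ℓ.Prime → ¬ ℓ ∣ N * p → ρ.IsUnramifiedAt ℓ :=
  s29pk_S29 (s29g_GSOut s29a_eigenSupportFinal) hg hp φ

/-- **The congruence.**  `a₀`, `a₀'` algebraic integers with complex values `a_{ℓ₀}(g)`,
`a_{ℓ₀}(g')`; `p ≠ ℓ₀` a prime, `φ : ℤ̄ → k` with `char k = p`.  Then `φ a₀ = φ a₀'`. -/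
theorem s35e_congr (hN : N ≠ 0) (hg : g.IsNormalizedEigenform) (hg' : g'.IsNormalizedEigenform)
    (hM' : M' ∣ N) (S : Finset ℕ)
    (h : ∀ ℓ : ℕ, ℓ.Prime → ¬ ℓ ∣ N → ℓ ∉ S →
      ModularFormClass.qCoeff g' ℓ = ModularFormClass.qCoeff g ℓ)
    (ℓ₀ : ℕ) (hℓ₀ : ℓ₀.Prime) (hℓ₀N : ¬ ℓ₀ ∣ N) (a₀ a₀' : Zb)
    (ha₀ : (a₀ : ℂ) = ModularFormClass.qCoeff g ℓ₀)
    (ha₀' : (a₀' : ℂ) = ModularFormClass.qCoeff g' ℓ₀)
    {p : ℕ} (hp : p.Prime) (hpℓ₀ : p ≠ ℓ₀) {k : Type} [Field k] [CharP k p] (φ : Zb →+* k) :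
    φ a₀ = φ a₀' := by
  have hcast : ∀ ℓ : ℕ, ℓ.Prime → ℓ ≠ p → (ℓ : k) ≠ 0 := by
    intro ℓ hℓ hℓp h0
    rw [CharP.cast_eq_zero_iff k p] at h0
    exact hℓp ((Nat.prime_dvd_prime_iff_eq hp hℓ).mp h0).symm
  obtain ⟨ρ, hρ, -⟩ := s35e_S29 hg hp φ
  obtain ⟨ρ', hρ', -⟩ := s35e_S29 hg' hp φ
  obtain ⟨L, hLfd, hLst, hL, hL'⟩ := s35e_common_level ρ ρ'
  -- a Frobenius element at `ℓ₀`
  obtain ⟨A₀, hA₀⟩ := Fermat.Agent.Lib.Frobenius.exists_liesOverPrime ℓ₀ hℓ₀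
  obtain ⟨τ, hτ⟩ := Fermat.Agent.Lib.Frobenius.exists_isFrobeniusAt_of_liesOverPrime A₀ ℓ₀ hℓ₀ hA₀
  have hℓ₀M' : ¬ ℓ₀ ∣ M' := fun hd => hℓ₀N (hd.trans hM')
  obtain ⟨b₀, hb₀, hch₀⟩ := hρ ℓ₀ hℓ₀ hℓ₀N (hcast ℓ₀ hℓ₀ hpℓ₀.symm) A₀ hA₀ τ hτ
  obtain ⟨b₀', hb₀', hch₀'⟩ := hρ' ℓ₀ hℓ₀ hℓ₀M' (hcast ℓ₀ hℓ₀ hpℓ₀.symm) A₀ hA₀ τ hτ
  have eb₀ : b₀ = a₀ := Subtype.ext (hb₀.trans ha₀.symm)
  have eb₀' : b₀' = a₀' := Subtype.ext (hb₀'.trans ha₀'.symm)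
  rw [eb₀] at hch₀
  rw [eb₀'] at hch₀'
  -- density
  obtain ⟨ℓ, A, σ, j, hℓ, hℓS, hA, hσ, hj⟩ :=
    s29d_frobDensity L hLfd hLst (S ∪ {p} ∪ N.primeFactors) τ
  have hℓS' : ℓ ∉ S := fun hh => hℓS (Finset.mem_union_left _ (Finset.mem_union_left _ hh))
  have hℓp : ℓ ≠ p := fun hh => hℓS (Finset.mem_union_left _ (Finset.mem_union_right _
    (Finset.mem_singleton.mpr hh)))
  have hℓN : ¬ ℓ ∣ N := fun hh => hℓS (Finset.mem_union_right _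
    (Nat.mem_primeFactors.mpr ⟨hℓ, hh, hN⟩))
  have hℓM' : ¬ ℓ ∣ M' := fun hd => hℓN (hd.trans hM')
  obtain ⟨b, hb, hch⟩ := hρ ℓ hℓ hℓN (hcast ℓ hℓ hℓp) A hA σ hσ
  obtain ⟨b', hb', hch'⟩ := hρ' ℓ hℓ hℓM' (hcast ℓ hℓ hℓp) A hA σ hσ
  have ebb' : b' = b := Subtype.ext (hb'.trans ((h ℓ hℓ hℓN hℓS').trans hb.symm))
  rw [ebb'] at hch'
  -- traces
  have e1 : ρ.ρ τ = ρ.ρ σ ^ j := s35e_rho_eq_pow ρ L hL τ σ j hj
  have e2 : ρ'.ρ τ = ρ'.ρ σ ^ j := s35e_rho_eq_pow ρ' L hL' τ σ j hj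
  have t1 : LinearMap.trace k ρ.V (ρ.ρ τ) = φ a₀ :=
    (s35el_trace_det_of_charpoly ρ.finrank_eq (ρ.ρ τ) _ _ hch₀).1
  have t2 : LinearMap.trace k ρ'.V (ρ'.ρ τ) = φ a₀' :=
    (s35el_trace_det_of_charpoly ρ'.finrank_eq (ρ'.ρ τ) _ _ hch₀').1
  rw [← t1, ← t2, e1, e2, s35e_trace_pow ρ.finrank_eq (ρ.ρ σ) _ _ hch j,
    s35e_trace_pow ρ'.finrank_eq (ρ'.ρ σ) _ _ hch' j]

end Congruence

/-! ### An algebraic integer lying in all maximal ideals away from `ℓ₀` vanishes -/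

section Arith

/-- A non-zero algebraic integer is a root of an integral polynomial with non-zero constant term. -/
theorem s35e_exists_poly (x : Zb) (hx : x ≠ 0) :
    ∃ P : ℤ[X], P.coeff 0 ≠ 0 ∧ Polynomial.aeval x P = 0 := by
  obtain ⟨P, hPm, hP⟩ := integralClosure.isIntegral x
  have hP0 : P ≠ 0 := hPm.ne_zero
  obtain ⟨Q, hQ, hQd⟩ := Polynomial.exists_eq_pow_rootMultiplicity_mul_and_not_dvd P hP0 0
  refine ⟨Q, ?_, ?_⟩
  · intro h0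
    apply hQd
    rw [C_0, sub_zero]
    exact Polynomial.X_dvd_iff.mpr h0
  · have h1 : Polynomial.aeval x P = 0 := by rw [Polynomial.aeval_def]; exact hP
    rw [hQ, C_0, sub_zero, map_mul, map_pow, Polynomial.aeval_X] at h1
    exact (mul_eq_zero.mp h1).resolve_left (pow_ne_zero _ hx)

/-- A maximal ideal of `ℤ̄` over a rational prime `p`. -/
theorem s35e_exists_max (p : ℕ) (hp : p.Prime) :
    ∃ Q : Ideal Zb, Q.IsMaximal ∧ Q.comap (algebraMap ℤ Zb) = Ideal.span {(p : ℤ)} ∧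
      ((p : ℕ) : Zb) ∈ Q := by
  have hpint : Prime (p : ℤ) := Nat.prime_iff_prime_int.mp hp
  haveI hmaxP : (Ideal.span {(p : ℤ)}).IsMaximal :=
    PrincipalIdealRing.isMaximal_of_irreducible hpint.irreducible
  have hinj : Function.Injective (algebraMap ℤ Zb) := by
    intro a b hab
    have := congrArg (fun z : Zb => (z : ℂ)) hab
    simpa using this
  have hker : RingHom.ker (algebraMap ℤ Zb) ≤ Ideal.span {(p : ℤ)} := by
    rw [(RingHom.injective_iff_ker_eq_bot _).mp hinj]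
    exact bot_le
  obtain ⟨Q, hQmax, hQ⟩ := Ideal.exists_ideal_over_maximal_of_isIntegral
    (S := Zb) (Ideal.span {(p : ℤ)}) hker
  refine ⟨Q, hQmax, hQ, ?_⟩
  have h1 : (p : ℤ) ∈ Q.comap (algebraMap ℤ Zb) := by
    rw [hQ]; exact Ideal.mem_span_singleton_self _
  rw [Ideal.mem_comap] at h1
  have e : algebraMap ℤ Zb (p : ℤ) = ((p : ℕ) : Zb) := by
    rw [eq_intCast, Int.cast_natCast]
  rwa [e] at h1

/-- An algebraic integer in the kernel of every `φ : ℤ̄ → k`, `char k = p ≠ ℓ₀`, is zero. -/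
theorem s35e_eq_zero_of_forall (ℓ₀ : ℕ) (x : Zb)
    (h : ∀ (p : ℕ), p.Prime → p ≠ ℓ₀ → ∀ (k : Type) [Field k] [CharP k p] (φ : Zb →+* k),
      φ x = 0) : x = 0 := by
  by_contra hx
  obtain ⟨P, hP0, hPx⟩ := s35e_exists_poly x hx
  obtain ⟨p, hpge, hp⟩ := Nat.exists_infinite_primes ((P.coeff 0).natAbs + ℓ₀ + 1)
  have hpℓ₀ : p ≠ ℓ₀ := by omega
  have hpc : ¬ (p : ℤ) ∣ P.coeff 0 := by
    intro hd
    have h1 : p ∣ (P.coeff 0).natAbs := Int.natCast_dvd.mp hd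
    have h2 : p ≤ (P.coeff 0).natAbs :=
      Nat.le_of_dvd (Int.natAbs_pos.mpr hP0) h1
    omega
  -- a maximal ideal over `p`
  obtain ⟨Q, hQmax, hQ, hpQ'⟩ := s35e_exists_max p hp
  haveI := hQmax
  letI : Field (Zb ⧸ Q) := Ideal.Quotient.field Q
  have hpQ : ((p : ℕ) : Zb ⧸ Q) = 0 := by
    rw [← map_natCast (Ideal.Quotient.mk Q) p]
    exact Ideal.Quotient.eq_zero_iff_mem.mpr hpQ'
  haveI : CharP (Zb ⧸ Q) p := (CharP.charP_iff_prime_eq_zero hp).mpr hpQ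
  have hxQ : x ∈ Q := Ideal.Quotient.eq_zero_iff_mem.mp (h p hp hpℓ₀ (Zb ⧸ Q) (Ideal.Quotient.mk Q))
  -- the constant term lies in `Q ∩ ℤ = (p)`
  have hc : algebraMap ℤ Zb (P.coeff 0) ∈ Q := by
    have h1 := Polynomial.sub_dvd_eval_sub x 0 (P.map (algebraMap ℤ Zb))
    rw [sub_zero, Polynomial.eval_map, ← Polynomial.aeval_def, hPx, zero_sub,
      ← Polynomial.coeff_zero_eq_eval_zero, Polynomial.coeff_map] at h1
    obtain ⟨c, hc⟩ := h1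
    have : algebraMap ℤ Zb (P.coeff 0) = x * (-c) := by rw [mul_neg, ← hc, neg_neg]
    rw [this]
    exact Q.mul_mem_right _ hxQ
  have hc' : P.coeff 0 ∈ Q.comap (algebraMap ℤ Zb) := hc
  rw [hQ, Ideal.mem_span_singleton] at hc'
  exact hpc hc'

end Arith

/-! ### Strong multiplicity one -/

section Main

variable {N M' : ℕ} {g : CuspForm (CongruenceSubgroup.Gamma0 N) 2}
  {g' : CuspForm (CongruenceSubgroup.Gamma0 M') 2}

/-- The coefficient `a_ℓ` (`ℓ ∤ N`) of a normalised eigenform is an algebraic integer. -/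
theorem s35e_exists_int (hg : g.IsNormalizedEigenform) (ℓ : ℕ) (hℓ : ℓ.Prime) (hℓN : ¬ ℓ ∣ N) :
    ∃ a : Zb, (a : ℂ) = ModularFormClass.qCoeff g ℓ := by
  -- any auxiliary prime `p ≠ ℓ` and any residue field of `ℤ̄` of characteristic `p`
  obtain ⟨p, hpge, hp⟩ := Nat.exists_infinite_primes (ℓ + 1)
  have hpℓ : p ≠ ℓ := by omega
  obtain ⟨Q, hQmax, hQ, hpQ'⟩ := s35e_exists_max p hp
  haveI := hQmax
  letI : Field (Zb ⧸ Q) := Ideal.Quotient.field Q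
  have hpQ : ((p : ℕ) : Zb ⧸ Q) = 0 := by
    rw [← map_natCast (Ideal.Quotient.mk Q) p]
    exact Ideal.Quotient.eq_zero_iff_mem.mpr hpQ'
  haveI : CharP (Zb ⧸ Q) p := (CharP.charP_iff_prime_eq_zero hp).mpr hpQ
  obtain ⟨ρ, hρ, -⟩ := s35e_S29 hg hp (Ideal.Quotient.mk Q)
  obtain ⟨A, hA⟩ := Fermat.Agent.Lib.Frobenius.exists_liesOverPrime ℓ hℓ
  obtain ⟨τ, hτ⟩ := Fermat.Agent.Lib.Frobenius.exists_isFrobeniusAt_of_liesOverPrime A ℓ hℓ hA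
  have hcast : (ℓ : Zb ⧸ Q) ≠ 0 := by
    intro h0
    rw [CharP.cast_eq_zero_iff (Zb ⧸ Q) p] at h0
    exact hpℓ ((Nat.prime_dvd_prime_iff_eq hp hℓ).mp h0)
  obtain ⟨a, ha, -⟩ := hρ ℓ hℓ hℓN hcast A hA τ hτ
  exact ⟨a, ha⟩

/-- **STRONG MULTIPLICITY ONE (finitely many exceptional primes).** -/
theorem s35e_smo (hN : N ≠ 0) (hg : g.IsNormalizedEigenform) (hg' : g'.IsNormalizedEigenform)
    (hM' : M' ∣ N) (S : Finset ℕ)
    (h : ∀ ℓ : ℕ, ℓ.Prime → ¬ ℓ ∣ N → ℓ ∉ S →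
      ModularFormClass.qCoeff g' ℓ = ModularFormClass.qCoeff g ℓ) :
    ∀ ℓ : ℕ, ℓ.Prime → ¬ ℓ ∣ N →
      ModularFormClass.qCoeff g' ℓ = ModularFormClass.qCoeff g ℓ := by
  intro ℓ₀ hℓ₀ hℓ₀N
  have hℓ₀M' : ¬ ℓ₀ ∣ M' := fun hd => hℓ₀N (hd.trans hM')
  obtain ⟨a₀, ha₀⟩ := s35e_exists_int hg ℓ₀ hℓ₀ hℓ₀N
  obtain ⟨a₀', ha₀'⟩ := s35e_exists_int hg' ℓ₀ hℓ₀ hℓ₀M'
  have hx : a₀ - a₀' = 0 := by
    apply s35e_eq_zero_of_forall ℓ₀
    intro p hp hpℓ₀ k _ _ φ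
    rw [map_sub, sub_eq_zero]
    exact s35e_congr hN hg hg' hM' S h ℓ₀ hℓ₀ hℓ₀N a₀ a₀' ha₀ ha₀' hp hpℓ₀ φ
  rw [← ha₀, ← ha₀', sub_eq_zero.mp hx]

/-- The eigensystem of `g` away from `N` occurs at level `M'`. -/
theorem s35e_goodEigensystem (hN : N ≠ 0) (hg : g.IsNormalizedEigenform)
    (hg' : g'.IsNormalizedEigenform) (hM' : M' ∣ N) (S : Finset ℕ)
    (h : ∀ ℓ : ℕ, ℓ.Prime → ¬ ℓ ∣ N → ℓ ∉ S →
      ModularFormClass.qCoeff g' ℓ = ModularFormClass.qCoeff g ℓ) :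
    GoodEigensystemOccursAt g M' :=
  ⟨g', hg', s35e_smo hN hg hg' hM' S h⟩

/-- **A newform of level `N` does not share its eigenvalues outside a finite set with an
eigenform of a proper divisor level.** -/
theorem s35e_not_newform (hN : N ≠ 0) (hg : g.IsNewform) (hg' : g'.IsNormalizedEigenform)
    (hM' : M' ∣ N) (hne : M' ≠ N) (S : Finset ℕ)
    (h : ∀ ℓ : ℕ, ℓ.Prime → ¬ ℓ ∣ N → ℓ ∉ S →
      ModularFormClass.qCoeff g' ℓ = ModularFormClass.qCoeff g ℓ) : False :=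
  hg.2 M' hM' hne (s35e_goodEigensystem hN hg.1 hg' hM' S h)

end Main

end Fermat.Agent.Lib.S35
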