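/-
S35 project, package [B3] (helper1), FINAL: **the eigen-module of a newform of level `M q`
(`q ∥ M q`) dies under `α_*` and `β_*`.**

`s35c_Conv` : the contract (CONV) = converse Eichler–Shimura on the Tate module (helper3's
`s35p_conv`, resting on the parabolicity (PAR) of the Kummer classes): a non-zero joint eigenvector
of the good Hecke operators in `O' ⊗ T_p J₀(N)` defines a character of `heckeAlgebra N 2 S`.

`s35c_B3 (hconv : s35c_Conv)` : for a newform `g` of level `M * q` (`q` prime, `q ∤ M`) and the data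
`(lam, S, O', chig, iota)` of S35, every joint eigenvector `w ∈ O' ⊗ T_lam J₀(M q)` for the
eigenvalues of `g` satisfies `(1 ⊗ α_*) w = 0 = (1 ⊗ β_*) w`.

Proof: `w' := (1 ⊗ α_*) w` is a joint eigenvector at level `M` with the same eigenvalues
(B3Eigen: Frobenius subtraction); if `w' ≠ 0`, (CONV) gives a character with values in `O'`, which
descends to `ℂ` (`s35c_char_descend`), occurs in `S₂(Γ₀(M))` (`s35c_exists_form_of_char`), gives a
normalised eigenform `g'` of level `M` with `a_ℓ(g') = a_ℓ(g)` for `ℓ ∉ S` (`s35c_exists_eigenform`),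
and helper6's strong multiplicity one `s35e_not_newform` contradicts the newness of `g`.
-/
import Fermat.Agent.Lib.S35.B3Eigen
import Fermat.Agent.Lib.S35.B3Form
import Fermat.Agent.Lib.S35.B3Char
import Fermat.Agent.Lib.S35.B3Conv
import Fermat.Agent.Lib.S35.ESmo

set_option autoImplicit false
set_option linter.unusedSectionVars false
set_option linter.style.haveILetI false

open ModularFormClass CongruenceSubgroup
open scoped TensorProduct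

noncomputable section

namespace Fermat.Agent.Lib.S35

open Fermat.Agent.Lib.S29 Fermat.Agent.Lib.S30

section Main

variable (hconv : s35c_Conv)
variable (M q : ℕ) [NeZero M] [NeZero q] (hq : q.Prime) (hqM : ¬ q ∣ M)
variable {g : CuspForm (Gamma0 (M * q)) 2} (hg : g.IsNewform)
variable (lam : ℕ) [Fact lam.Prime] (S : Finset ℕ)
variable (O' : Type) [CommRing O'] [IsDomain O'] [CharZero O'] [Algebra ℤ_[lam] O']
variable (chig : CuspForm.heckeAlgebra (M * q) 2 (↑S : Set ℕ) →+* ℂ)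
  (hchig : ∀ (ℓ : ℕ) (hℓ : ℓ.Prime) (hℓM : ¬ ℓ ∣ M * q) (hℓS : ℓ ∉ (↑S : Set ℕ)),
    chig (CuspForm.heckeAlgebra.T hℓ hℓM hℓS) = qCoeff g ℓ)
  (iota : chig.range →+* O')
  (hlamS : lam ∈ S) (hMS : ∀ p : ℕ, p.Prime → p ∣ M * q → p ∈ S)

include hconv hq hqM hg hchig hlamS hMS in
/-- the common core of the two halves of [B3]: a Tate-module map `f : T_lam J₀(M q) → T_lam J₀(M)`
which sends `T_ℓ`-eigenvectors to `T_ℓ`-eigenvectors (for `ℓ ∤ M q lam`) kills the eigen-module of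
the newform `g`. -/
theorem s35c_B3_aux (f : s30a_TJ (M * q) lam →ₗ[ℤ_[lam]] s30a_TJ M lam)
    (hf : ∀ (ℓ : Nat.Primes), ¬ (ℓ : ℕ) ∣ M * q * lam → ∀ (a : O')
      (w : O' ⊗[ℤ_[lam]] s30a_TJ (M * q) lam),
      (s30a_Tz (M * q) lam ℓ).baseChange O' w = a • w →
      (s30a_Tz M lam ℓ).baseChange O' (f.baseChange O' w) = a • f.baseChange O' w)
    (w : O' ⊗[ℤ_[lam]] s30a_TJ (M * q) lam)
    (hw : ∀ (ℓ : ℕ) (hℓ : ℓ.Prime) (hℓM : ¬ ℓ ∣ M * q) (hℓS : ℓ ∉ (↑S : Set ℕ)),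
      (s30a_Tz (M * q) lam ⟨ℓ, hℓ⟩).baseChange O' w =
        (iota.comp chig.rangeRestrict) (CuspForm.heckeAlgebra.T hℓ hℓM hℓS) • w) :
    f.baseChange O' w = 0 := by
  classical
  by_contra hne
  -- the eigenvalues, as elements of `chig.range`
  set cR : ℕ → chig.range := fun ℓ =>
    if h : ℓ.Prime ∧ ¬ ℓ ∣ M * q ∧ ℓ ∉ (↑S : Set ℕ) then
      chig.rangeRestrict (CuspForm.heckeAlgebra.T h.1 h.2.1 h.2.2) else 0 with hcR
  have hcR_pos : ∀ (ℓ : ℕ) (hℓ : ℓ.Prime) (hℓM : ¬ ℓ ∣ M * q) (hℓS : ℓ ∉ (↑S : Set ℕ)),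
      cR ℓ = chig.rangeRestrict (CuspForm.heckeAlgebra.T hℓ hℓM hℓS) := by
    intro ℓ hℓ hℓM hℓS
    rw [hcR]
    exact dif_pos ⟨hℓ, hℓM, hℓS⟩
  -- primes outside `S`
  have hgood : ∀ ℓ : ℕ, ℓ.Prime → ℓ ∉ (↑S : Set ℕ) → ¬ ℓ ∣ M * q ∧ ¬ ℓ ∣ M * q * lam := by
    intro ℓ hℓ hℓS
    have h1 : ¬ ℓ ∣ M * q := fun h => hℓS (Finset.mem_coe.mpr (hMS ℓ hℓ h))
    refine ⟨h1, fun h => ?_⟩
    rcases (Nat.Prime.dvd_mul hℓ).mp h with h2 | h2
    · exact h1 h2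
    · have : ℓ = lam := (Nat.prime_dvd_prime_iff_eq hℓ (Fact.out : lam.Prime)).mp h2
      exact hℓS (this ▸ Finset.mem_coe.mpr hlamS)
  have hNS : ∀ p : ℕ, p.Prime → p ∣ M → p ∈ (↑S : Set ℕ) := fun p hp hpM =>
    Finset.mem_coe.mpr (hMS p hp (Dvd.dvd.mul_right hpM q))
  -- `w' = (1 ⊗ f) w` is a joint eigenvector at level `M`
  have hw' : ∀ (ℓ : ℕ) (hℓ : ℓ.Prime), ¬ ℓ ∣ M → ℓ ∉ (↑S : Set ℕ) →
      (s30a_Tz M lam ⟨ℓ, hℓ⟩).baseChange O' (f.baseChange O' w) =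
        iota (cR ℓ) • f.baseChange O' w := by
    intro ℓ hℓ _ hℓS
    obtain ⟨h1, h2⟩ := hgood ℓ hℓ hℓS
    rw [hcR_pos ℓ hℓ h1 hℓS]
    exact hf ⟨ℓ, hℓ⟩ h2 _ w (hw ℓ hℓ h1 hℓS)
  -- (CONV)
  obtain ⟨χ', hχ'⟩ := hconv M lam (↑S : Set ℕ) hNS O' (fun ℓ => iota (cR ℓ))
    (f.baseChange O' w) hne hw'
  -- descent to `ℂ`
  obtain ⟨χ, hχ⟩ := s35c_char_descend chig iota hNS cR χ' hχ'
  -- a cusp form of level `M` with this eigen-system
  obtain ⟨h, hh0, hh⟩ := s35c_exists_form_of_char (↑S : Set ℕ) χ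
  obtain ⟨g', hg', hg'c⟩ := s35c_exists_eigenform (↑S : Set ℕ) (fun ℓ => (cR ℓ : ℂ)) h hh0
    (fun ℓ hℓ hℓM hℓS => by rw [hh ℓ hℓ hℓM hℓS, hχ ℓ hℓ hℓM hℓS])
  -- strong multiplicity one against newness
  have hMq0 : M * q ≠ 0 := NeZero.ne (M * q)
  have hMne : M ≠ M * q := by
    intro h0
    have h1 : M * 1 = M * q := by rw [mul_one]; exact h0
    have h2 := Nat.eq_of_mul_eq_mul_left (Nat.pos_of_ne_zero (NeZero.ne M)) h1
    exact hq.one_lt.ne h2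
  refine s35e_not_newform hMq0 hg hg' (Dvd.intro q rfl) hMne S ?_
  intro ℓ hℓ hℓMq hℓS
  have hℓS' : ℓ ∉ (↑S : Set ℕ) := fun h0 => hℓS (Finset.mem_coe.mp h0)
  have hℓM : ¬ ℓ ∣ M := fun h0 => hℓMq (Dvd.dvd.mul_right h0 q)
  rw [hg'c ℓ hℓ hℓM hℓS', hcR_pos ℓ hℓ hℓMq hℓS', ← hchig ℓ hℓ hℓMq hℓS']
  rfl

include hconv hg hchig hlamS hMS in
/-- **[B3]**: the eigen-module of a newform of level `M q` dies under `α_*` and `β_*`. -/
theorem s35c_B3 (w : O' ⊗[ℤ_[lam]] s30a_TJ (M * q) lam)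
    (hw : ∀ (ℓ : ℕ) (hℓ : ℓ.Prime) (hℓM : ¬ ℓ ∣ M * q) (hℓS : ℓ ∉ (↑S : Set ℕ)),
      (s30a_Tz (M * q) lam ⟨ℓ, hℓ⟩).baseChange O' w =
        (iota.comp chig.rangeRestrict) (CuspForm.heckeAlgebra.T hℓ hℓM hℓS) • w) :
    (s35c_alphaT M q hq hqM lam).baseChange O' w = 0 ∧
      (s35c_betaT M q hq hqM lam).baseChange O' w = 0 :=
  ⟨s35c_B3_aux hconv M q hq hqM hg lam S O' chig hchig iota hlamS hMS _
      (fun ℓ hℓ a w hw => s35c_alphaT_eigen M q hq hqM lam O' ℓ hℓ a w hw) w hw,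
    s35c_B3_aux hconv M q hq hqM hg lam S O' chig hchig iota hlamS hMS _
      (fun ℓ hℓ a w hw => s35c_betaT_eigen M q hq hqM lam O' ℓ hℓ a w hw) w hw⟩

end Main

end Fermat.Agent.Lib.S35
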