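/-
S35 project, package [B3] (helper1), DONE: **`s35q_B3` is a THEOREM** — the second of the two
named inputs of helper5's final assembly `s35q_S35 (hG : s35q_Geo) (hB3 : s35q_B3)` (RFinal.lean).

* `s35c_conv : s35c_Conv` — the converse of Eichler–Shimura on the Tate module, from helper3's
  parabolicity `s35p_kinf_parabolic` (ParTate.lean) and `s35c_conv_of_parInf` (B3Conv.lean);
* `s35c_B3_done : s35q_B3` — [B3], from `s35c_B3` (B3Final.lean: Frobenius subtraction B3Eigen,
  (CONV), descent of the character to `ℂ` B3Char, eigenform B3Form, helper6's strong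
  multiplicity one ESmo);
* `s35c_weakLocal_of_geo`, `s35c_S35_of_geo` : WEAK LOCAL and the S35 statement from `s35q_Geo`
  alone.
-/
import Fermat.Agent.Lib.S35.B3Final
import Fermat.Agent.Lib.S35.ParTate
import Fermat.Agent.Lib.S35.RFinal

set_option autoImplicit false
set_option linter.unusedSectionVars false
set_option linter.style.haveILetI false

open Polynomial
open scoped TensorProduct

noncomputable section

namespace Fermat.Agent.Lib.S35

open AlgebraicCurve ModularCurve Fermat.Agent.Lib.S29 Fermat.Agent.Lib.S30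

/-- **(CONV)** is a theorem. -/
theorem s35c_conv : s35c_Conv :=
  s35c_conv_of_parInf (fun N _ p _ x => s35p_kinf_parabolic N p x)

/-- **[B3]** is a theorem. -/
theorem s35c_B3_done : s35q_B3 := by
  intro M q _ _ hq hqM g hg lam _ S O' _ _ _ _ _ _ _ _ chig hchig iota hlamS hMS w hw
  exact s35c_B3 s35c_conv M q hq hqM hg lam S O' chig hchig iota hlamS hMS w hw

/-- WEAK LOCAL from the geometric input alone. -/
theorem s35c_weakLocal_of_geo (hG : s35q_Geo) : s35_WeakLocal :=
  s35q_weakLocal hG s35c_B3_done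

/-- **The S35 statement from the geometric input `s35q_Geo` alone.** -/
theorem s35c_S35_of_geo (hG : s35q_Geo)
    {M : ℕ} [NeZero M] {g : CuspForm (CongruenceSubgroup.Gamma0 M) 2} (hg : g.IsNewform)
    (lam : ℕ) [Fact lam.Prime]
    (S : Finset ℕ)
    (O' : Type) [CommRing O'] [IsDomain O'] [IsDiscreteValuationRing O']
    [IsAdicComplete (IsLocalRing.maximalIdeal O') O'] [Finite (IsLocalRing.ResidueField O')]
    [CharZero O'] (hlamO' : (lam : O') ∈ IsLocalRing.maximalIdeal O')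
    (chig : CuspForm.heckeAlgebra M 2 (↑S : Set ℕ) →+* ℂ)
    (hchig : ∀ (ℓ : ℕ) (hℓ : ℓ.Prime) (hℓM : ¬ ℓ ∣ M) (hℓS : ℓ ∉ (↑S : Set ℕ)),
      chig (CuspForm.heckeAlgebra.T hℓ hℓM hℓS) = ModularFormClass.qCoeff g ℓ)
    (iota : chig.range →+* O')
    (hlamS : lam ∈ S) (hMS : ∀ q : ℕ, q.Prime → q ∣ M → q ∈ S) :
    ∃ (O'' : Type) (_ : CommRing O'') (_ : IsDomain O'') (_ : IsDiscreteValuationRing O'')
      (_ : IsAdicComplete (IsLocalRing.maximalIdeal O'') O'') (_ : Finite (IsLocalRing.ResidueField O''))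
      (_ : CharZero O'') (_ : Algebra O' O'') (_ : Module.Finite O' O'') (_ : IsLocalHom (algebraMap O' O'')),
      Function.Injective (algebraMap O' O'') ∧
      ∃ ρ : GaloisRepAdic O'',
        (∀ (ℓ : ℕ) (hℓ : ℓ.Prime) (hℓM : ¬ ℓ ∣ M) (hℓS : ℓ ∉ (↑S : Set ℕ)),
          ∀ A : ValuationSubring (AlgebraicClosure ℚ), A.LiesOverPrime ℓ →
            ∀ σ : AlgebraicClosure ℚ ≃ₐ[ℚ] AlgebraicClosure ℚ, A.IsFrobeniusAt σ ℓ →
              LinearMap.charpoly (ρ.ρ σ) =
                X ^ 2 - C (algebraMap O' O'' ((iota.comp chig.rangeRestrict) (CuspForm.heckeAlgebra.T hℓ hℓM hℓS))) * X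
                  + C ((ℓ : O''))) ∧
        (∀ q : ℕ, q.Prime → q ≠ lam → q ∣ M → ¬ q ^ 2 ∣ M →
          ∀ A : ValuationSubring (AlgebraicClosure ℚ), A.LiesOverPrime q →
            ∀ σ : AlgebraicClosure ℚ ≃ₐ[ℚ] AlgebraicClosure ℚ, A.IsFrobeniusAt σ q →
              LinearMap.charpoly (ρ.ρ σ) = X ^ 2 - C ((q : O'') + 1) * X + C ((q : O'')) ∨
              LinearMap.charpoly (ρ.ρ σ) = X ^ 2 + C ((q : O'') + 1) * X + C ((q : O''))) :=
  s35q_S35 hG s35c_B3_done hg lam S O' hlamO' chig hchig iota hlamS hMS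

end Fermat.Agent.Lib.S35
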