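/-
S35, [B3]/(CONV), abstract part (helper5, prefix `s35cv_`; Mathlib only).

* `s35cv_exists_decomp` : a hom from a finitely generated group to a domain `R` of characteristic
  zero is a finite `R`-combination of `ℤ`-valued homs, each vanishing wherever it does
  (`intL_exists_decomp` with `ℂ` replaced by `R`);
* `s35cv_exists_char` : a non-zero common eigenvector `w ∈ O'^r` of the matrices `Θ' x`, `x ∈ s`,
  defines a character `χ : Algebra.adjoin ℤ s →+* O'` with `Θ' u *ᵥ w = χ u • w`;
* `s35cv_coords`, `s35cv_matrix_of_eigen` : coordinates of `A ⊗[R] V` in a basis of `V` and the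
  matrix form of an eigen-equation.
-/
import Mathlib

set_option autoImplicit false

open scoped TensorProduct

namespace Fermat.Agent.Lib.S35

noncomputable section

section Decomp

variable {G : Type*} [Group G]

/-- The image of a hom from a finitely generated group is a finite `ℤ`-module. -/
theorem s35cv_finite_range [Group.FG G] {R : Type*} [AddCommGroup R] (ψ : Additive G →+ R) :
    Module.Finite ℤ (AddMonoidHom.range ψ).toIntSubmodule := by
  have h1 : (AddMonoidHom.range ψ).FG := by
    rw [← AddGroup.fg_iff_addSubgroup_fg]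
    exact AddGroup.fg_of_surjective (f := ψ.rangeRestrict) ψ.rangeRestrict_surjective
  rw [Module.Finite.iff_fg, Submodule.fg_iff_addSubgroup_fg]
  simpa using h1

/-- Decomposition of a hom `ψ : G → R` (`G` finitely generated, `R` a domain of characteristic
zero) as a finite `R`-combination of `ℤ`-valued homs, each vanishing wherever `ψ` does. -/
theorem s35cv_exists_decomp [Group.FG G] {R : Type*} [CommRing R] [IsDomain R] [CharZero R]
    (ψ : Additive G →+ R) :
    ∃ (ι : Type) (_ : Fintype ι) (ω : ι → R) (χ : ι → (Additive G →+ ℤ)),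
      (∀ g, ψ g = ∑ j, ω j * (χ j g : R)) ∧ (∀ j g, ψ g = 0 → χ j g = 0) := by
  classical
  set R' : Submodule ℤ R := (AddMonoidHom.range ψ).toIntSubmodule with hR
  have : Module.Finite ℤ R' := s35cv_finite_range ψ
  have : Module.Free ℤ R' := Module.free_of_finite_type_torsion_free'
  let b := Module.finBasis ℤ R'
  let ψR : Additive G →+ R' :=
    { toFun := fun g => ⟨ψ g, ⟨g, rfl⟩⟩
      map_zero' := by ext; simp
      map_add' := fun x y => by ext; simp }
  refine ⟨Fin (Module.finrank ℤ R'), inferInstance, fun j => (b j : R),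
    fun j => (b.coord j).toAddMonoidHom.comp ψR, ?_, ?_⟩
  · intro g
    have h := b.sum_repr (ψR g)
    have h2 := congrArg (fun x : R' => (x : R)) h
    simp only [Submodule.coe_sum, Submodule.coe_smul] at h2
    have h3 : ((ψR g : R') : R) = ψ g := rfl
    rw [← h3, ← h2]
    refine Finset.sum_congr rfl fun j _ => ?_
    rw [zsmul_eq_mul, mul_comm]
    rfl
  · intro j g hg
    have : ψR g = 0 := by ext; exact hg
    simp [this]

end Decomp

section Char

variable {r : ℕ} {E : Type*} [Ring E] (s : Set E) {O' : Type*} [CommRing O'] [IsDomain O']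

/-- a scalar is determined by its action on a non-zero vector -/
theorem s35cv_smul_right_injective {w : Fin r → O'} (hw : w ≠ 0) {c c' : O'}
    (h : c • w = c' • w) : c = c' := by
  obtain ⟨i, hi⟩ := Function.ne_iff.mp hw
  have h1 := congrFun h i
  simp only [Pi.smul_apply, smul_eq_mul] at h1
  exact mul_right_cancel₀ hi h1

/-- **The character of a common eigenvector.** -/
theorem s35cv_exists_char (Θ' : Algebra.adjoin ℤ s →+* Matrix (Fin r) (Fin r) O')
    (w : Fin r → O') (hw : w ≠ 0)
    (hs : ∀ (x : E) (hx : x ∈ s), ∃ c : O',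
      Matrix.mulVec (Θ' ⟨x, Algebra.subset_adjoin hx⟩) w = c • w) :
    ∃ χ : Algebra.adjoin ℤ s →+* O', ∀ u, Matrix.mulVec (Θ' u) w = χ u • w := by
  classical
  have hex : ∀ u : Algebra.adjoin ℤ s, ∃ c : O', Matrix.mulVec (Θ' u) w = c • w := by
    rintro ⟨x, hx⟩
    induction hx using Algebra.adjoin_induction with
    | mem x hx => exact hs x hx
    | algebraMap n =>
      refine ⟨(n : O'), ?_⟩
      have h1 : (⟨algebraMap ℤ E n, Subalgebra.algebraMap_mem _ n⟩ : Algebra.adjoin ℤ s) =
          ((n : ℤ) : Algebra.adjoin ℤ s) := by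
        apply Subtype.ext
        simp
      rw [h1, map_intCast]
      ext i
      simp [Matrix.mulVec, dotProduct, Matrix.intCast_apply, Finset.sum_ite_eq]
    | add x y hx hy ihx ihy =>
      obtain ⟨cx, hcx⟩ := ihx
      obtain ⟨cy, hcy⟩ := ihy
      refine ⟨cx + cy, ?_⟩
      have h1 : (⟨x + y, add_mem hx hy⟩ : Algebra.adjoin ℤ s) = ⟨x, hx⟩ + ⟨y, hy⟩ := rfl
      rw [h1, map_add, Matrix.add_mulVec, hcx, hcy, add_smul]
    | mul x y hx hy ihx ihy =>
      obtain ⟨cx, hcx⟩ := ihx
      obtain ⟨cy, hcy⟩ := ihy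
      refine ⟨cx * cy, ?_⟩
      have h1 : (⟨x * y, mul_mem hx hy⟩ : Algebra.adjoin ℤ s) = ⟨x, hx⟩ * ⟨y, hy⟩ := rfl
      rw [h1, map_mul, ← Matrix.mulVec_mulVec, hcy, Matrix.mulVec_smul, hcx, smul_smul, mul_comm]
  choose χ hχ using hex
  refine ⟨{ toFun := χ, map_one' := ?_, map_mul' := ?_, map_zero' := ?_, map_add' := ?_ }, hχ⟩
  · apply s35cv_smul_right_injective hw
    rw [← hχ, map_one, Matrix.one_mulVec, one_smul]
  · intro u v
    apply s35cv_smul_right_injective hw
    rw [← hχ, map_mul, ← Matrix.mulVec_mulVec, hχ v, Matrix.mulVec_smul, hχ u, smul_smul, mul_comm]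
  · apply s35cv_smul_right_injective hw
    rw [← hχ, map_zero, Matrix.zero_mulVec, zero_smul]
  · intro u v
    apply s35cv_smul_right_injective hw
    rw [← hχ, map_add, Matrix.add_mulVec, hχ u, hχ v, add_smul]

end Char

section TensorLA

variable {R A V ι : Type*} [CommRing R] [CommRing A] [Algebra R A] [AddCommGroup V] [Module R V]
  [Fintype ι]

/-- Coordinates in `A ⊗[R] V` with respect to an `R`-basis of `V`. -/
theorem s35cv_coords (β : Module.Basis ι R V) (w : A ⊗[R] V) :
    ∃ v : ι → A, w = ∑ i, v i ⊗ₜ[R] β i := by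
  refine ⟨fun i => (β.baseChange A).repr w i, ?_⟩
  conv_lhs => rw [← (β.baseChange A).sum_repr w]
  refine Finset.sum_congr rfl fun i _ => ?_
  rw [Module.Basis.baseChange_apply, TensorProduct.smul_tmul', smul_eq_mul, mul_one]

/-- The coordinate map is injective. -/
theorem s35cv_coords_injective (β : Module.Basis ι R V) (u v : ι → A)
    (h : ∑ i, u i ⊗ₜ[R] β i = ∑ i, v i ⊗ₜ[R] β i) : u = v := by
  have hu : ∀ x : ι → A, ∑ i, x i ⊗ₜ[R] β i = (β.baseChange A).equivFun.symm x := by
    intro x
    rw [Module.Basis.equivFun_symm_apply]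
    refine Finset.sum_congr rfl fun i _ => ?_
    rw [Module.Basis.baseChange_apply, TensorProduct.smul_tmul', smul_eq_mul, mul_one]
  rw [hu, hu] at h
  exact (β.baseChange A).equivFun.symm.injective h

/-- Base change of an endomorphism with matrix `t` on the vectors `β`. -/
theorem s35cv_baseChange_sum (T : Module.End R V) (β : ι → V) (t : Matrix ι ι R)
    (hT : ∀ j, T (β j) = ∑ i, t i j • β i) (w : ι → A) :
    T.baseChange A (∑ j, w j ⊗ₜ[R] β j) =
      ∑ i, (Matrix.mulVec (t.map (algebraMap R A)) w) i ⊗ₜ[R] β i := by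
  rw [map_sum]
  simp_rw [LinearMap.baseChange_tmul, hT, TensorProduct.tmul_sum, TensorProduct.tmul_smul,
    TensorProduct.smul_tmul']
  rw [Finset.sum_comm]
  refine Finset.sum_congr rfl fun i _ => ?_
  rw [← TensorProduct.sum_tmul]
  congr 1
  show _ = ∑ j, (t.map (algebraMap R A)) i j * w j
  refine Finset.sum_congr rfl fun j _ => ?_
  rw [Matrix.map_apply, Algebra.smul_def]

/-- Matrix form of an eigen-equation in `A ⊗[R] V`. -/
theorem s35cv_matrix_of_eigen (β : Module.Basis ι R V) (T : Module.End R V) (t : Matrix ι ι R)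
    (hT : ∀ j, T (β j) = ∑ i, t i j • β i) (v : ι → A) (c : A)
    (h : T.baseChange A (∑ j, v j ⊗ₜ[R] β j) = c • ∑ j, v j ⊗ₜ[R] β j) :
    Matrix.mulVec (t.map (algebraMap R A)) v = c • v := by
  rw [s35cv_baseChange_sum T β t hT v, Finset.smul_sum] at h
  apply s35cv_coords_injective β
  rw [h]
  refine Finset.sum_congr rfl fun i _ => ?_
  rw [TensorProduct.smul_tmul', Pi.smul_apply]

end TensorLA

end

end Fermat.Agent.Lib.S35
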