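/-
S35, plumbing for `Final.lean` (helper5 for the architect; prefix `s35fin_`): from the hypotheses
of the number-field contract `s35q_NFKummer` to the inputs of the geometric packages.

* `s35fin_zeta` : if `cyclotomic q ℚ` splits in `K₀` (characteristic zero) then `K₀` contains a
  primitive `q`-th root of unity, as a unit;  `s35fin_zeta_of_mul` : the same when a product
  `g₁ * cyclotomic q ℚ` splits (so that the contract polynomial can be enlarged);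
* `s35fin_hsigma` : for the Gauss datum `G := s18g_GaussData.ofResidue A₀ ϖ hϖ`, the Frobenius
  condition `∀ a ∈ A₀, σ₀ a - a ^ q ∈ A₀.nonunits` of the contract gives
  `G.π (s34m_sigmaA G σ₀ hσA a) = G.π a ^ q`;
* `s35fin_hsigmaA`, `s35fin_hsigmaA'` : stability of `A₀` under `σ₀`, `σ₀.symm` from the contract's
  `∀ a, σ₀ a ∈ A₀ ↔ a ∈ A₀`;
* `s35fin_hsigma_symm_sq` etc. are NOT needed: Frobenius is only used in the forward direction.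
-/
import Mathlib
import Fermat.Agent.Lib.S34.MValSigma
import Fermat.Agent.Lib.S18.GGauss

set_option autoImplicit false

noncomputable section

namespace Fermat.Agent.Lib.S35

open Polynomial Fermat.Agent.Lib.S18 Fermat.Agent.Lib.S34 IsLocalRing

section Zeta

variable {K₀ : Type*} [Field K₀] [CharZero K₀]

/-- A field of characteristic zero in which `cyclotomic q ℚ` splits contains a primitive `q`-th
root of unity. -/
theorem s35fin_zeta (q : ℕ) (hq : 0 < q)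
    (h : ((cyclotomic q ℚ).map (algebraMap ℚ K₀)).Splits) :
    ∃ ζ : K₀ˣ, IsPrimitiveRoot (ζ : K₀) q := by
  haveI : NeZero (q : K₀) := ⟨Nat.cast_ne_zero.mpr hq.ne'⟩
  rw [map_cyclotomic] at h
  have hdeg : (cyclotomic q K₀).degree ≠ 0 := by
    rw [degree_cyclotomic]
    exact_mod_cast (Nat.totient_pos.mpr hq).ne'
  obtain ⟨ζ, hζ⟩ := h.exists_eval_eq_zero hdeg
  have hprim : IsPrimitiveRoot ζ q := (isRoot_cyclotomic_iff).mp hζ
  have hζ0 : ζ ≠ 0 := hprim.ne_zero hq.ne'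
  exact ⟨Units.mk0 ζ hζ0, hprim⟩

/-- The same when a multiple `g₁ * cyclotomic q ℚ` of the cyclotomic polynomial splits. -/
theorem s35fin_zeta_of_mul (q : ℕ) (hq : 0 < q) (g₁ : ℚ[X]) (hg₁ : g₁ ≠ 0)
    (h : ((g₁ * cyclotomic q ℚ).map (algebraMap ℚ K₀)).Splits) :
    ∃ ζ : K₀ˣ, IsPrimitiveRoot (ζ : K₀) q := by
  refine s35fin_zeta q hq ?_
  rw [Polynomial.map_mul] at h
  have h0 : g₁.map (algebraMap ℚ K₀) * (cyclotomic q ℚ).map (algebraMap ℚ K₀) ≠ 0 :=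
    mul_ne_zero ((Polynomial.map_ne_zero_iff (algebraMap ℚ K₀).injective).mpr hg₁)
      ((Polynomial.map_ne_zero_iff (algebraMap ℚ K₀).injective).mpr (cyclotomic_ne_zero q ℚ))
  exact ((splits_mul_iff (left_ne_zero_of_mul h0) (right_ne_zero_of_mul h0)).mp h).2

/-- ... and the first factor splits as well. -/
theorem s35fin_splits_left_of_mul (q : ℕ) (g₁ : ℚ[X]) (hg₁ : g₁ ≠ 0)
    (h : ((g₁ * cyclotomic q ℚ).map (algebraMap ℚ K₀)).Splits) :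
    (g₁.map (algebraMap ℚ K₀)).Splits := by
  rw [Polynomial.map_mul] at h
  have h0 : g₁.map (algebraMap ℚ K₀) * (cyclotomic q ℚ).map (algebraMap ℚ K₀) ≠ 0 :=
    mul_ne_zero ((Polynomial.map_ne_zero_iff (algebraMap ℚ K₀).injective).mpr hg₁)
      ((Polynomial.map_ne_zero_iff (algebraMap ℚ K₀).injective).mpr (cyclotomic_ne_zero q ℚ))
  exact ((splits_mul_iff (left_ne_zero_of_mul h0) (right_ne_zero_of_mul h0)).mp h).1

end Zeta

section Sigma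

variable {K₀ : Type*} [Field K₀] [Algebra ℚ K₀] (A₀ : ValuationSubring K₀)
  [IsDiscreteValuationRing A₀] (ϖ : A₀) (hϖ : Irreducible ϖ) (σ₀ : K₀ ≃ₐ[ℚ] K₀)

/-- `A₀` is stable under `σ₀`. -/
theorem s35fin_hsigmaA (hσiff : ∀ a : K₀, σ₀ a ∈ A₀ ↔ a ∈ A₀) :
    ∀ a : K₀, a ∈ (s18g_GaussData.ofResidue A₀ ϖ hϖ).A → (σ₀ : K₀ ≃+* K₀) a ∈
      (s18g_GaussData.ofResidue A₀ ϖ hϖ).A :=
  fun a ha => (hσiff a).mpr ha

/-- `A₀` is stable under `σ₀⁻¹`. -/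
theorem s35fin_hsigmaA' (hσiff : ∀ a : K₀, σ₀ a ∈ A₀ ↔ a ∈ A₀) :
    ∀ a : K₀, a ∈ (s18g_GaussData.ofResidue A₀ ϖ hϖ).A → (σ₀.symm : K₀ ≃+* K₀) a ∈
      (s18g_GaussData.ofResidue A₀ ϖ hϖ).A := by
  intro a ha
  have := hσiff (σ₀.symm a)
  rw [σ₀.apply_symm_apply] at this
  exact this.mp ha

/-- **The Frobenius condition of the contract in Gauss-datum form.** -/
theorem s35fin_hsigma (q : ℕ) (hσiff : ∀ a : K₀, σ₀ a ∈ A₀ ↔ a ∈ A₀)
    (hσF : ∀ a ∈ A₀, σ₀ a - a ^ q ∈ A₀.nonunits)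
    (a : (s18g_GaussData.ofResidue A₀ ϖ hϖ).A) :
    (s18g_GaussData.ofResidue A₀ ϖ hϖ).π
        (s34m_sigmaA (s18g_GaussData.ofResidue A₀ ϖ hϖ) (σ₀ : K₀ ≃+* K₀)
          (s35fin_hsigmaA A₀ ϖ hϖ σ₀ hσiff) a) =
      (s18g_GaussData.ofResidue A₀ ϖ hϖ).π a ^ q := by
  have hsub := hσF (a : K₀) a.2
  obtain ⟨hmem, hmax⟩ := (A₀.mem_nonunits_iff_exists_mem_maximalIdeal).mp hsub
  have e : s34m_sigmaA (s18g_GaussData.ofResidue A₀ ϖ hϖ) (σ₀ : K₀ ≃+* K₀)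
      (s35fin_hsigmaA A₀ ϖ hϖ σ₀ hσiff) a - a ^ q =
      (⟨σ₀ (a : K₀) - (a : K₀) ^ q, hmem⟩ : (s18g_GaussData.ofResidue A₀ ϖ hϖ).A) :=
    Subtype.ext rfl
  have h0 : (s18g_GaussData.ofResidue A₀ ϖ hϖ).π
      (s34m_sigmaA (s18g_GaussData.ofResidue A₀ ϖ hϖ) (σ₀ : K₀ ≃+* K₀)
        (s35fin_hsigmaA A₀ ϖ hϖ σ₀ hσiff) a - a ^ q) = 0 := by
    rw [e]
    exact (residue_eq_zero_iff _).mpr hmax
  rw [map_sub, map_pow, sub_eq_zero] at h0
  exact h0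

/-- The same with an arbitrary proof `hσA` of the stability of `A₀` (as in `s34f_NFKummer_of_geo`). -/
theorem s35fin_hsigma' (q : ℕ)
    (hσA : ∀ a : K₀, a ∈ (s18g_GaussData.ofResidue A₀ ϖ hϖ).A → (σ₀ : K₀ ≃+* K₀) a ∈
      (s18g_GaussData.ofResidue A₀ ϖ hϖ).A)
    (hσF : ∀ a ∈ A₀, σ₀ a - a ^ q ∈ A₀.nonunits)
    (a : (s18g_GaussData.ofResidue A₀ ϖ hϖ).A) :
    (s18g_GaussData.ofResidue A₀ ϖ hϖ).π
        (s34m_sigmaA (s18g_GaussData.ofResidue A₀ ϖ hϖ) (σ₀ : K₀ ≃+* K₀) hσA a) =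
      (s18g_GaussData.ofResidue A₀ ϖ hϖ).π a ^ q := by
  have hsub := hσF (a : K₀) a.2
  obtain ⟨hmem, hmax⟩ := (A₀.mem_nonunits_iff_exists_mem_maximalIdeal).mp hsub
  have e : s34m_sigmaA (s18g_GaussData.ofResidue A₀ ϖ hϖ) (σ₀ : K₀ ≃+* K₀) hσA a - a ^ q =
      (⟨σ₀ (a : K₀) - (a : K₀) ^ q, hmem⟩ : (s18g_GaussData.ofResidue A₀ ϖ hϖ).A) :=
    Subtype.ext rfl
  have h0 : (s18g_GaussData.ofResidue A₀ ϖ hϖ).π
      (s34m_sigmaA (s18g_GaussData.ofResidue A₀ ϖ hϖ) (σ₀ : K₀ ≃+* K₀) hσA a - a ^ q) = 0 := by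
    rw [e]
    exact (residue_eq_zero_iff _).mpr hmax
  rw [map_sub, map_pow, sub_eq_zero] at h0
  exact h0

end Sigma

end Fermat.Agent.Lib.S35
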