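/-
S35 project, package [G] (helper9): THE REFINED DICHOTOMY FROM THE CHART DATA.

`s35g_ChartData G φ M q hq hqM S` (helper4's `Geo.lean`: the hypothesis block of
`s34df_contract_of_hmain`) ⟹ `s35gd_Elem G φ M q hq hqM S` (the refined element-form dichotomy of
`GDich.lean`), hence at every prime `𝔫 ∋ ϖ` of the chart ring: `s35f_SmoothAt` or `s35gd_CrossAt`.
Twin of `s34df_contract_of_hmain` (`Lib/S34/DFibreD.lean`), ending with `s35gd_df_dichotomy`.
-/
import Fermat.Agent.Lib.S35.Geo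
import Fermat.Agent.Lib.S35.GDich
import Fermat.Agent.Lib.S34.DFibreD

set_option autoImplicit false
set_option linter.unusedSectionVars false
set_option linter.style.haveILetI false
set_option synthInstance.maxHeartbeats 400000

noncomputable section

namespace Fermat.Agent.Lib.S35

open ModularCurve AlgebraicCurve HahnSeries Polynomial Fermat.Agent.Lib.FF Fermat.Agent.Lib.S18
  Fermat.Agent.Lib.S37 Fermat.Agent.Lib.S34

local notation "Kb" => AlgebraicClosure ℚ

variable {K₀ : Type} [Field K₀] [CharZero K₀] [Algebra ℚ K₀] {κ : Type} [Field κ]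
  (G : s18g_GaussData K₀ κ) (φ : K₀ →+* Kb) (M q : ℕ) [NeZero M] [NeZero q]
  (hq : q.Prime) (hqM : ¬ q ∣ M) [CharP κ q] [PerfectField κ]

local notation "𝓕M" => laurentBaseChange K₀ (modularFunctionFieldFull M)
local notation "hFM" => (fun (f : LaurentSeries K₀)
  (hf : f ∈ laurentBaseChange K₀ (modularFunctionFieldFull M)) => s18g_baseChange_mem_Frac G M hf)

/-- **The refined element-form dichotomy from the chart data.** -/
theorem s35gd_elem_of_chartData (S : Set (Place K₀ (s34m_F K₀ (M * q))))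
    (hC : s35g_ChartData G φ M q hq hqM S) : s35gd_Elem G φ M q hq hqM S := by
  obtain ⟨hT, hdegM, w, hwV, hdeg, hcoord, hwtw, hmain, hαB, hβB⟩ := hC
  intro 𝔫 h𝔫 hϖ𝔫
  haveI : Fact q.Prime := ⟨hq⟩
  letI algF := s18f_algF G M hT hdegM w hwV
  have hA : ∀ p : κ[X], algebraMap κ[X] ↥(modularFunctionFieldFullC κ M) p =
      Polynomial.aeval (s18g_redF G M hFM hT hdegM ⟨w, hwV⟩) p :=
    s18f_algF_apply G M hT hdegM w hwV
  obtain ⟨hDed, hFrac⟩ := s37b_dedekind_of_coord κ q M (s18g_redF G M hFM hT hdegM ⟨w, hwV⟩)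
    hcoord hA
  haveI := hDed
  haveI := hFrac
  have hBMV : ∀ g ∈ (s18_ring (L₀ := K₀) (s34m_Vinf G M) (s18_chart1 w) : Set (s34m_F K₀ M)),
      g ∈ s34m_Vinf G M := fun g hg => hg.1
  have hlift : ∀ d : ↥(integralClosure κ[X] ↥(modularFunctionFieldFullC κ M)), ∃ g,
      ∃ hg : g ∈ (s18_ring (L₀ := K₀) (s34m_Vinf G M) (s18_chart1 w) : Set (s34m_F K₀ M)),
      s34m_redInf G M ⟨g, hBMV g hg⟩ =
        ((algebraMap ↥(integralClosure κ[X] ↥(modularFunctionFieldFullC κ M))
          ↥(modularFunctionFieldFullC κ M) d : ↥(modularFunctionFieldFullC κ M)) :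
          LaurentSeries κ) := by
    intro d
    obtain ⟨b, hb, e⟩ := hmain (d : ↥(modularFunctionFieldFullC κ M)) d.2
    refine ⟨b, hb, ?_⟩
    have h1 := congrArg (fun z : ↥(modularFunctionFieldFullC κ M) => (z : LaurentSeries κ)) e
    exact h1
  have htw : ∀ d : ↥(integralClosure κ[X] ↥(modularFunctionFieldFullC κ M)),
      ∃ d' : ↥(integralClosure κ[X] ↥(modularFunctionFieldFullC κ M)),
      qExpand κ q ((algebraMap ↥(integralClosure κ[X] ↥(modularFunctionFieldFullC κ M))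
          ↥(modularFunctionFieldFullC κ M) d : ↥(modularFunctionFieldFullC κ M)) :
          LaurentSeries κ) =
        ((algebraMap ↥(integralClosure κ[X] ↥(modularFunctionFieldFullC κ M))
          ↥(modularFunctionFieldFullC κ M) d' : ↥(modularFunctionFieldFullC κ M)) :
          LaurentSeries κ) ^ q := fun d =>
    s34df_htw M q (s18g_redF G M hFM hT hdegM ⟨w, hwV⟩) (hwtw _) hA d
  exact s35gd_df_dichotomy G φ M q hq hqM S (modularFunctionFieldFullC κ M)
    (D₁ := ↥(integralClosure κ[X] ↥(modularFunctionFieldFullC κ M)))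
    (D₂ := ↥(integralClosure κ[X] ↥(modularFunctionFieldFullC κ M)))
    (fun b => s34df_hF₁ G φ M q hq hqM S hdeg hT hdegM b)
    (fun b => s34df_hF₂ G φ M q hq hqM S hdeg hT hdegM b)
    (s35gd_unifB G φ M q hq hqM S) (s35gd_coe_unifB G φ M q hq hqM S)
    _ hBMV hαB hβB hlift hlift htw htw 𝔫 hϖ𝔫

/-- **Smooth-on-one-component or crossing, at every prime `𝔫 ∋ ϖ` of a chart with chart data.** -/
theorem s35gd_smoothAt_or_crossing_of_chartData (S : Set (Place K₀ (s34m_F K₀ (M * q))))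
    (hC : s35g_ChartData G φ M q hq hqM S)
    (𝔫 : Ideal (s34x_ring (s34x_infRing (s34m_VV G φ M q hq hqM)) S)) [h𝔫 : 𝔫.IsPrime]
    (hϖ𝔫 : s35gd_unifB G φ M q hq hqM S ∈ 𝔫) :
    s35f_SmoothAt G.A (s34m_VV G φ M q hq hqM) (s34c_const_mem_VV G φ M q hq hqM) G.ϖ S 𝔫 ∨
      s35gd_CrossAt G φ M q hq hqM S 𝔫 :=
  s35gd_smoothAt_or_crossing G φ M q hq hqM S (s35gd_elem_of_chartData G φ M q hq hqM S hC) 𝔫 hϖ𝔫

end Fermat.Agent.Lib.S35
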