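/-
S35 project, node package (helper8), part 1: THE ADIC VALUATION OF A DEDEKIND DOMAIN IS INVARIANT
UNDER AUTOMORPHISMS FIXING THE PRIME (Mathlib only).

`D` a Dedekind domain, `𝕜 = Frac D`, `v` a height-one prime of `D`, `ψ : 𝕜 →+* 𝕜` a ring
endomorphism which restricts to an AUTOMORPHISM `ψD : D ≃+* D` with `d ∈ v ↔ ψD d ∈ v`
(in the application: `ψ` = the coefficientwise `q²`-Frobenius of the function field `F̄_M` of the
special fibre, `D` the coordinate ring of an affine chart, `v` an `𝔽_{q²}`-rational point).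

* `s35n_intVal_map`  : `v (ψD d) = v d` on `D`;
* `s35n_val_map`     : `v (ψ x) = v x` on `𝕜`;
* `s35n_val_ratio`   : `v (ψ x / x) = 1` for `x ≠ 0` ("`ψ x / x` is a unit at every fixed point");
* `s35n_unit_frac`   : `v x = 1 → ∃ n d ∉ v, x * d = n` (unit fractions);
* `s35n_val_root`    : `v (x ^ m) = 1 → v x = 1` (`m ≠ 0`).
-/
import Mathlib

set_option autoImplicit false
set_option linter.unusedSectionVars false

namespace Fermat.Agent.Lib.S35

open IsDedekindDomain IsDedekindDomain.HeightOneSpectrum WithZero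

/-- Two elements `≤ 1` of `ℤᵐ⁰` with the same position relative to all `exp (-n)` are equal. -/
theorem s35n_withZero_eq_of_le_exp_iff (a b : ℤᵐ⁰)
    (h : ∀ n : ℕ, a ≤ exp (-(n : ℤ)) ↔ b ≤ exp (-(n : ℤ))) (ha : a ≤ 1) (hb : b ≤ 1) : a = b := by
  -- auxiliary: an element below all `exp (-n)` is zero
  have key : ∀ c : ℤᵐ⁰, (∀ n : ℕ, c ≤ exp (-(n : ℤ))) → c = 0 := by
    intro c hc
    by_contra hc0
    obtain ⟨k, rfl⟩ : ∃ k : ℤ, c = exp k := ⟨log c, (exp_log hc0).symm⟩
    have := hc (k.natAbs + 1)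
    rw [exp_le_exp] at this
    have h1 : (k.natAbs : ℤ) = |k| := Int.natCast_natAbs k
    have h2 := neg_abs_le k
    push_cast at this
    omega
  by_cases ha0 : a = 0
  · subst ha0
    symm
    apply key
    intro n
    exact (h n).mp (zero_le)
  by_cases hb0 : b = 0
  · subst hb0
    apply key
    intro n
    exact (h n).mpr (zero_le)
  obtain ⟨i, rfl⟩ : ∃ k : ℤ, a = exp k := ⟨log a, (exp_log ha0).symm⟩
  obtain ⟨j, rfl⟩ : ∃ k : ℤ, b = exp k := ⟨log b, (exp_log hb0).symm⟩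
  rw [← exp_zero, exp_le_exp] at ha hb
  congr 1
  have hi := h (-i).toNat
  have hj := h (-j).toNat
  rw [exp_le_exp, exp_le_exp] at hi hj
  have e1 : (((-i).toNat : ℕ) : ℤ) = -i := Int.toNat_of_nonneg (by omega)
  have e2 : (((-j).toNat : ℕ) : ℤ) = -j := Int.toNat_of_nonneg (by omega)
  rw [e1] at hi
  rw [e2] at hj
  have h3 := hi.mp (by omega)
  have h4 := hj.mpr (by omega)
  omega

section

variable {D 𝕜 : Type*} [CommRing D] [IsDedekindDomain D] [Field 𝕜] [Algebra D 𝕜]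
  [IsFractionRing D 𝕜] (v : HeightOneSpectrum D)
  (ψ : 𝕜 →+* 𝕜) (ψD : D ≃+* D)
  (hψ : ∀ d : D, ψ (algebraMap D 𝕜 d) = algebraMap D 𝕜 (ψD d))
  (hv : ∀ d : D, d ∈ v.asIdeal ↔ ψD d ∈ v.asIdeal)

include hv in
/-- `ψD` preserves the powers of the prime. -/
theorem s35n_mem_pow_map (n : ℕ) (d : D) : d ∈ v.asIdeal ^ n ↔ ψD d ∈ v.asIdeal ^ n := by
  have hmap : ∀ (e : D ≃+* D), (∀ d : D, d ∈ v.asIdeal → e d ∈ v.asIdeal) →
      ∀ d : D, d ∈ v.asIdeal ^ n → e d ∈ v.asIdeal ^ n := by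
    intro e he d hd
    have h1 : Ideal.map (e : D →+* D) v.asIdeal ≤ v.asIdeal := by
      rw [Ideal.map_le_iff_le_comap]
      intro x hx
      exact he x hx
    have h2 : e d ∈ Ideal.map (e : D →+* D) (v.asIdeal ^ n) := Ideal.mem_map_of_mem _ hd
    rw [Ideal.map_pow] at h2
    exact Ideal.pow_right_mono h1 n h2
  constructor
  · exact hmap ψD (fun d hd => (hv d).mp hd) d
  · intro h
    have := hmap ψD.symm (fun d hd => by
      have := (hv (ψD.symm d)).mpr (by rwa [RingEquiv.apply_symm_apply])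
      exact this) _ h
    rwa [RingEquiv.symm_apply_apply] at this

include hv in
/-- **Invariance on `D`.** -/
theorem s35n_intVal_map (d : D) : v.intValuation (ψD d) = v.intValuation d := by
  apply s35n_withZero_eq_of_le_exp_iff _ _ _ (v.intValuation_le_one _) (v.intValuation_le_one _)
  intro n
  rw [intValuation_le_pow_iff_mem, intValuation_le_pow_iff_mem]
  exact (s35n_mem_pow_map v ψD hv n d).symm

include hψ hv in
/-- **Invariance on `𝕜 = Frac D`.** -/
theorem s35n_val_map (x : 𝕜) : v.valuation 𝕜 (ψ x) = v.valuation 𝕜 x := by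
  obtain ⟨a, s, hs, rfl⟩ := IsFractionRing.div_surjective (A := D) x
  rw [map_div₀, map_div₀, map_div₀, hψ, hψ, valuation_of_algebraMap, valuation_of_algebraMap,
    valuation_of_algebraMap, valuation_of_algebraMap, s35n_intVal_map v ψD hv,
    s35n_intVal_map v ψD hv]

include hψ hv in
/-- **`ψ x / x` is a unit at the fixed prime.** -/
theorem s35n_val_ratio {x : 𝕜} (hx : x ≠ 0) : v.valuation 𝕜 (ψ x / x) = 1 := by
  rw [map_div₀, s35n_val_map v ψ ψD hψ hv]
  exact div_self ((Valuation.ne_zero_iff _).mpr hx)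

/-- **Unit fractions.** -/
theorem s35n_unit_frac {x : 𝕜} (hx : v.valuation 𝕜 x = 1) :
    ∃ n d : D, n ∉ v.asIdeal ∧ d ∉ v.asIdeal ∧ x * algebraMap D 𝕜 d = algebraMap D 𝕜 n := by
  obtain ⟨n, d, h⟩ := v.exists_primeCompl_mul_eq_of_integer x hx.le
  refine ⟨n, d, ?_, d.2, h⟩
  have h1 : v.valuation 𝕜 (algebraMap D 𝕜 n) = 1 := by
    rw [← h, map_mul, hx, one_mul]
    exact (valuation_eq_one_iff_notMem v).mpr d.2
  exact (valuation_eq_one_iff_notMem v).mp h1

/-- A root of a unit is a unit. -/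
theorem s35n_val_root {x : 𝕜} {m : ℕ} (hm : m ≠ 0) (hx : v.valuation 𝕜 (x ^ m) = 1) :
    v.valuation 𝕜 x = 1 := by
  rw [map_pow] at hx
  exact (pow_eq_one_iff_of_nonneg zero_le hm).mp hx

end

end Fermat.Agent.Lib.S35
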