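/-
S35 project, node package (helper8), part 2: THE KRONECKER TRICK AT A CROSSING POINT, abstractly
(Mathlib + `NVal.lean`; twin of helper1's `Lib/S34/DNode.lean`).

Setting: `B` a commutative ring (chart ring of `X₀(Mq)`), `r₁ r₂ : B →+* 𝕜` its two reductions
into the function field `𝕜 = F̄_M` of the special fibre of level `M`, `D ⊆ 𝕜` a Dedekind domain with
`Frac D = 𝕜` (coordinate ring of a chart of the special fibre), `Φ : 𝕜 →+* 𝕜` (`T ↦ T^q`) with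
`Φ D ⊆ D`, and the KRONECKER LIFTS
  `hα : ∀ d ∈ D, ∃ g ∈ B, (r₁ g, r₂ g) = (d, Φ d)`,  `hβ : ∀ d ∈ D, ∃ g ∈ B, (r₁ g, r₂ g) = (Φ d, d)`.
`𝔫` a prime of `B` containing `ker r₁` and `ker r₂` (a crossing point), `𝔪ᵢ = s35n_contr rᵢ 𝔫` its
contractions to `D`.

* `s35n_contr_phi₁₂`, `s35n_contr_phi₂₁` : `d ∈ 𝔪₁ ↔ Φ d ∈ 𝔪₂`, `d ∈ 𝔪₂ ↔ Φ d ∈ 𝔪₁`
  (the crossing point is `(x, Frob x)` with `Frob² x = x`);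
* `s35n_contr_psi` : if `ψD : D ≃+* D` satisfies `Φ (Φ (ψD d)) = d ^ Q` (`Q ≠ 0`) then
  `d ∈ 𝔪ᵢ ↔ ψD d ∈ 𝔪ᵢ` — THE CROSSING POINTS ARE `𝔽_Q`-RATIONAL;
* `s35n_node_fixed` : hence every ring endomorphism `s` of `B` with `r₁ ∘ s = ψ ∘ r₁` maps `𝔫` into
  itself (`σ² 𝔫 = 𝔫`);
* `s35n_kron₁`, `s35n_kron₂` : THE KRONECKER TRICK: a unit `ρ` at `𝔪₁` gives `b, b' ∈ B ∖ 𝔫` with
  `(r₁, r₂)(b / b') = (ρ / Φ²ρ, 1)`; symmetrically `(1, ρ / Φ²ρ)`;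
* `s35n_hKR` : for all `W₁ W₂ ∈ 𝕜ˣ` there are `b, b' ∈ B ∖ 𝔫` with
  `rᵢ b = P_ψ(Wᵢ) · rᵢ b'`, `P_ψ(W) = ψ²W · W^Q / (ψW)^(1+Q)`.
-/
import Fermat.Agent.Lib.S35.NVal

set_option autoImplicit false
set_option linter.unusedSectionVars false
set_option linter.style.haveILetI false

namespace Fermat.Agent.Lib.S35

open IsDedekindDomain IsDedekindDomain.HeightOneSpectrum

section Contr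

variable {B D 𝕜 : Type*} [CommRing B] [CommRing D] [Field 𝕜] [Algebra D 𝕜]

/-- The contraction to `D` of a prime `𝔫 ⊇ ker r` of `B` (all elements of `D` lift to `B`). -/
def s35n_contr (r : B →+* 𝕜) (hlift : ∀ d : D, ∃ g : B, r g = algebraMap D 𝕜 d)
    (𝔫 : Ideal B) (hker : RingHom.ker r ≤ 𝔫) : Ideal D where
  carrier := {d | ∀ g : B, r g = algebraMap D 𝕜 d → g ∈ 𝔫}
  zero_mem' := by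
    intro g hg
    rw [map_zero] at hg
    exact hker hg
  add_mem' := by
    intro a b ha hb g hg
    obtain ⟨ga, hga⟩ := hlift a
    obtain ⟨gb, hgb⟩ := hlift b
    have h1 : g - (ga + gb) ∈ 𝔫 := hker (by
      rw [RingHom.mem_ker, map_sub, map_add, hga, hgb, hg, map_add, sub_self])
    have := 𝔫.add_mem h1 (𝔫.add_mem (ha ga hga) (hb gb hgb))
    rwa [sub_add_cancel] at this
  smul_mem' := by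
    intro c a ha g hg
    obtain ⟨ga, hga⟩ := hlift a
    obtain ⟨gc, hgc⟩ := hlift c
    have h1 : g - gc * ga ∈ 𝔫 := hker (by
      rw [RingHom.mem_ker, map_sub, map_mul, hga, hgc, hg, smul_eq_mul, map_mul, sub_self])
    have := 𝔫.add_mem h1 (𝔫.mul_mem_left gc (ha ga hga))
    rwa [sub_add_cancel] at this

variable (r : B →+* 𝕜) (hlift : ∀ d : D, ∃ g : B, r g = algebraMap D 𝕜 d)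
  (𝔫 : Ideal B) (hker : RingHom.ker r ≤ 𝔫)

/-- membership in the contraction is tested on ANY lift. -/
theorem s35n_mem_contr_iff {d : D} {g : B} (hg : r g = algebraMap D 𝕜 d) :
    d ∈ s35n_contr r hlift 𝔫 hker ↔ g ∈ 𝔫 := by
  constructor
  · intro h
    exact h g hg
  · intro h g' hg'
    have h1 : g' - g ∈ 𝔫 := hker (by rw [RingHom.mem_ker, map_sub, hg, hg', sub_self])
    have := 𝔫.add_mem h1 h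
    rwa [sub_add_cancel] at this

theorem s35n_contr_isPrime [h𝔫 : 𝔫.IsPrime] : (s35n_contr r hlift 𝔫 hker).IsPrime := by
  refine ⟨?_, ?_⟩
  · intro htop
    have h1 : (1 : D) ∈ s35n_contr r hlift 𝔫 hker := by rw [htop]; exact Submodule.mem_top
    exact h𝔫.ne_top ((Ideal.eq_top_iff_one _).mpr (h1 1 (by rw [map_one, map_one])))
  · intro a b hab
    obtain ⟨ga, hga⟩ := hlift a
    obtain ⟨gb, hgb⟩ := hlift b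
    have : ga * gb ∈ 𝔫 := hab (ga * gb) (by rw [map_mul, hga, hgb, map_mul])
    rcases h𝔫.mem_or_mem this with h | h
    · exact Or.inl ((s35n_mem_contr_iff r hlift 𝔫 hker hga).mpr h)
    · exact Or.inr ((s35n_mem_contr_iff r hlift 𝔫 hker hgb).mpr h)

/-- The contraction is non-zero as soon as `𝔫` contains an element not killed by `r`
(`IsFractionRing D 𝕜`). -/
theorem s35n_contr_ne_bot [IsDomain D] [IsFractionRing D 𝕜] {b : B} (hb : b ∈ 𝔫) (hb0 : r b ≠ 0) :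
    s35n_contr r hlift 𝔫 hker ≠ ⊥ := by
  intro hbot
  obtain ⟨a, s, hs, e⟩ := IsFractionRing.div_surjective (A := D) (r b)
  have hs0 : algebraMap D 𝕜 s ≠ 0 := IsFractionRing.to_map_ne_zero_of_mem_nonZeroDivisors hs
  obtain ⟨gs, hgs⟩ := hlift s
  obtain ⟨ga, hga⟩ := hlift a
  have hsb : r (gs * b) = algebraMap D 𝕜 a := by
    rw [map_mul, hgs, ← e]; field_simp
  have ha : a ∈ s35n_contr r hlift 𝔫 hker :=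
    (s35n_mem_contr_iff r hlift 𝔫 hker hsb).mpr (𝔫.mul_mem_left _ hb)
  rw [hbot, Ideal.mem_bot] at ha
  rw [ha, map_zero, zero_div] at e
  exact hb0 e.symm

end Contr

section Kron

variable {B D 𝕜 : Type*} [CommRing B] [CommRing D] [IsDedekindDomain D] [Field 𝕜] [Algebra D 𝕜]
  [IsFractionRing D 𝕜]
  (r₁ r₂ : B →+* 𝕜) (Φ : 𝕜 →+* 𝕜) (ΦD : D → D)
  (hΦ : ∀ d : D, Φ (algebraMap D 𝕜 d) = algebraMap D 𝕜 (ΦD d))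
  (hα : ∀ d : D, ∃ g : B, r₁ g = algebraMap D 𝕜 d ∧ r₂ g = Φ (algebraMap D 𝕜 d))
  (hβ : ∀ d : D, ∃ g : B, r₁ g = Φ (algebraMap D 𝕜 d) ∧ r₂ g = algebraMap D 𝕜 d)
  (𝔫 : Ideal B) [h𝔫 : 𝔫.IsPrime] (h₁ : RingHom.ker r₁ ≤ 𝔫) (h₂ : RingHom.ker r₂ ≤ 𝔫)

include hα in
theorem s35n_lift₁ (d : D) : ∃ g : B, r₁ g = algebraMap D 𝕜 d :=
  (hα d).imp fun _ h => h.1

include hβ in
theorem s35n_lift₂ (d : D) : ∃ g : B, r₂ g = algebraMap D 𝕜 d :=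
  (hβ d).imp fun _ h => h.2

/-- The first contraction `𝔪₁`. -/
noncomputable abbrev s35n_m₁ : Ideal D := s35n_contr r₁ (s35n_lift₁ r₁ r₂ Φ hα) 𝔫 h₁

/-- The second contraction `𝔪₂`. -/
noncomputable abbrev s35n_m₂ : Ideal D := s35n_contr r₂ (s35n_lift₂ r₁ r₂ Φ hβ) 𝔫 h₂

include hΦ hα hβ h₁ h₂

/-- `d ∈ 𝔪₁ ↔ Φ d ∈ 𝔪₂`. -/
theorem s35n_contr_phi₁₂ (d : D) :
    d ∈ s35n_m₁ r₁ r₂ Φ hα 𝔫 h₁ ↔ ΦD d ∈ s35n_m₂ r₁ r₂ Φ hβ 𝔫 h₂ := by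
  obtain ⟨g, hg₁, hg₂⟩ := hα d
  rw [hΦ] at hg₂
  rw [s35n_mem_contr_iff r₁ _ 𝔫 h₁ hg₁, s35n_mem_contr_iff r₂ _ 𝔫 h₂ hg₂]

/-- `d ∈ 𝔪₂ ↔ Φ d ∈ 𝔪₁`. -/
theorem s35n_contr_phi₂₁ (d : D) :
    d ∈ s35n_m₂ r₁ r₂ Φ hβ 𝔫 h₂ ↔ ΦD d ∈ s35n_m₁ r₁ r₂ Φ hα 𝔫 h₁ := by
  obtain ⟨g, hg₁, hg₂⟩ := hβ d
  rw [hΦ] at hg₁
  rw [s35n_mem_contr_iff r₂ _ 𝔫 h₂ hg₂, s35n_mem_contr_iff r₁ _ 𝔫 h₁ hg₁]

/-- **The Kronecker trick, first component**: a unit fraction `ρ = n / d` at `𝔪₁` gives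
`b, b' ∈ B ∖ 𝔫` with `r₁ b = (ρ / Φ²ρ) · r₁ b'`, `r₂ b = r₂ b'`. -/
theorem s35n_kron₁ {ρ : 𝕜} {n d : D} (hn : n ∉ s35n_m₁ r₁ r₂ Φ hα 𝔫 h₁)
    (hd : d ∉ s35n_m₁ r₁ r₂ Φ hα 𝔫 h₁) (hρ : ρ * algebraMap D 𝕜 d = algebraMap D 𝕜 n) :
    ∃ b b' : B, b ∉ 𝔫 ∧ b' ∉ 𝔫 ∧ r₁ b = ρ / Φ (Φ ρ) * r₁ b' ∧ r₂ b = r₂ b' := by
  have hd0 : algebraMap D 𝕜 d ≠ 0 := by
    intro h0
    apply hd
    have : d = 0 := IsFractionRing.injective D 𝕜 (by rw [h0, map_zero])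
    rw [this]; exact Ideal.zero_mem _
  have hn0 : algebraMap D 𝕜 n ≠ 0 := by
    intro h0
    apply hn
    have : n = 0 := IsFractionRing.injective D 𝕜 (by rw [h0, map_zero])
    rw [this]; exact Ideal.zero_mem _
  have hρe : ρ = algebraMap D 𝕜 n / algebraMap D 𝕜 d := by
    rw [eq_div_iff hd0]; exact hρ
  obtain ⟨gn, hgn₁, hgn₂⟩ := hα n
  obtain ⟨gd, hgd₁, hgd₂⟩ := hα d
  obtain ⟨kn, hkn₁, hkn₂⟩ := hβ (ΦD n)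
  obtain ⟨kd, hkd₁, hkd₂⟩ := hβ (ΦD d)
  rw [← hΦ] at hkn₁ hkn₂ hkd₁ hkd₂
  have hΦn0 : Φ (Φ (algebraMap D 𝕜 n)) ≠ 0 := (map_ne_zero Φ).mpr ((map_ne_zero Φ).mpr hn0)
  have hΦd0 : Φ (Φ (algebraMap D 𝕜 d)) ≠ 0 := (map_ne_zero Φ).mpr ((map_ne_zero Φ).mpr hd0)
  have mem₁ : ∀ {x : D} {g : B}, r₁ g = algebraMap D 𝕜 x → x ∉ s35n_m₁ r₁ r₂ Φ hα 𝔫 h₁ →
      g ∉ 𝔫 := fun hg hx hc => hx ((s35n_mem_contr_iff r₁ _ 𝔫 h₁ hg).mpr hc)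
  have mem₂ : ∀ {x : D} {g : B}, r₂ g = Φ (algebraMap D 𝕜 x) → x ∉ s35n_m₁ r₁ r₂ Φ hα 𝔫 h₁ →
      g ∉ 𝔫 := by
    intro x g hg hx hc
    rw [hΦ] at hg
    apply hx
    rw [s35n_contr_phi₁₂ r₁ r₂ Φ ΦD hΦ hα hβ 𝔫 h₁ h₂]
    exact (s35n_mem_contr_iff r₂ _ 𝔫 h₂ hg).mpr hc
  refine ⟨gn * kd, gd * kn, ?_, ?_, ?_, ?_⟩
  · exact fun hc => (h𝔫.mem_or_mem hc).elim (mem₁ hgn₁ hn) (mem₂ hkd₂ hd)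
  · exact fun hc => (h𝔫.mem_or_mem hc).elim (mem₁ hgd₁ hd) (mem₂ hkn₂ hn)
  · rw [map_mul, map_mul, hgn₁, hkd₁, hgd₁, hkn₁, hρe, map_div₀, map_div₀]
    field_simp
  · rw [map_mul, map_mul, hgn₂, hkd₂, hgd₂, hkn₂]
    ring

/-- **The Kronecker trick, second component.** -/
theorem s35n_kron₂ {ρ : 𝕜} {n d : D} (hn : n ∉ s35n_m₂ r₁ r₂ Φ hβ 𝔫 h₂)
    (hd : d ∉ s35n_m₂ r₁ r₂ Φ hβ 𝔫 h₂) (hρ : ρ * algebraMap D 𝕜 d = algebraMap D 𝕜 n) :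
    ∃ b b' : B, b ∉ 𝔫 ∧ b' ∉ 𝔫 ∧ r₁ b = r₁ b' ∧ r₂ b = ρ / Φ (Φ ρ) * r₂ b' := by
  obtain ⟨b, b', hb, hb', e₂, e₁⟩ := s35n_kron₁ r₂ r₁ Φ ΦD hΦ
    (fun d => (hβ d).imp fun _ h => ⟨h.2, h.1⟩) (fun d => (hα d).imp fun _ h => ⟨h.2, h.1⟩)
    𝔫 h₂ h₁ hn hd hρ
  exact ⟨b, b', hb, hb', e₁, e₂⟩

variable (ψD : D ≃+* D) (Q : ℕ) (hQ : Q ≠ 0) (hΦψ : ∀ d : D, ΦD (ΦD (ψD d)) = d ^ Q)

include hQ hΦψ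

/-- **The crossing points are `𝔽_Q`-rational**, first component. -/
theorem s35n_contr_psi₁ (d : D) :
    d ∈ s35n_m₁ r₁ r₂ Φ hα 𝔫 h₁ ↔ ψD d ∈ s35n_m₁ r₁ r₂ Φ hα 𝔫 h₁ := by
  haveI := s35n_contr_isPrime r₁ (s35n_lift₁ r₁ r₂ Φ hα) 𝔫 h₁
  rw [s35n_contr_phi₁₂ r₁ r₂ Φ ΦD hΦ hα hβ 𝔫 h₁ h₂ (ψD d),
    s35n_contr_phi₂₁ r₁ r₂ Φ ΦD hΦ hα hβ 𝔫 h₁ h₂ (ΦD (ψD d)), hΦψ]
  constructor
  · intro h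
    exact Ideal.pow_mem_of_mem _ h Q (Nat.pos_of_ne_zero hQ)
  · intro h
    exact Ideal.IsPrime.mem_of_pow_mem inferInstance Q h

/-- **The crossing points are `𝔽_Q`-rational**, second component. -/
theorem s35n_contr_psi₂ (d : D) :
    d ∈ s35n_m₂ r₁ r₂ Φ hβ 𝔫 h₂ ↔ ψD d ∈ s35n_m₂ r₁ r₂ Φ hβ 𝔫 h₂ := by
  haveI := s35n_contr_isPrime r₂ (s35n_lift₂ r₁ r₂ Φ hβ) 𝔫 h₂
  rw [s35n_contr_phi₂₁ r₁ r₂ Φ ΦD hΦ hα hβ 𝔫 h₁ h₂ (ψD d),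
    s35n_contr_phi₁₂ r₁ r₂ Φ ΦD hΦ hα hβ 𝔫 h₁ h₂ (ΦD (ψD d)), hΦψ]
  constructor
  · intro h
    exact Ideal.pow_mem_of_mem _ h Q (Nat.pos_of_ne_zero hQ)
  · intro h
    exact Ideal.IsPrime.mem_of_pow_mem inferInstance Q h

variable (ψ : 𝕜 →+* 𝕜) (hψ : ∀ d : D, ψ (algebraMap D 𝕜 d) = algebraMap D 𝕜 (ψD d))

include hψ

/-- **Node fixedness**: a self-map `s` of `B` lying over `ψ` (through `r₁`) maps `𝔫` into itself. -/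
theorem s35n_node_fixed (s : B → B) (hs : ∀ b : B, r₁ (s b) = ψ (r₁ b)) {y : B} (hy : y ∈ 𝔫) :
    s y ∈ 𝔫 := by
  have hprime := s35n_contr_isPrime r₁ (s35n_lift₁ r₁ r₂ Φ hα) 𝔫 h₁
  have hpsi := s35n_contr_psi₁ r₁ r₂ Φ ΦD hΦ hα hβ 𝔫 h₁ h₂ ψD Q hQ hΦψ
  by_cases hbot : s35n_m₁ r₁ r₂ Φ hα 𝔫 h₁ = ⊥
  · -- `r₁ y = 0`
    have hy0 : r₁ y = 0 := by
      by_contra h0
      exact s35n_contr_ne_bot r₁ (s35n_lift₁ r₁ r₂ Φ hα) 𝔫 h₁ hy h0 hbot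
    apply h₁
    rw [RingHom.mem_ker, hs, hy0, map_zero]
  · let v : HeightOneSpectrum D := ⟨s35n_m₁ r₁ r₂ Φ hα 𝔫 h₁, hprime, hbot⟩
    obtain ⟨n, d, h | h⟩ := v.exists_primeCompl_mul_eq_or_mul_eq (r₁ y)
    · -- `r₁ y = n / d`, `d ∉ 𝔪₁`, hence `n ∈ 𝔪₁`
      obtain ⟨gd, hgd⟩ := s35n_lift₁ r₁ r₂ Φ hα (d : D)
      obtain ⟨gn, hgn⟩ := s35n_lift₁ r₁ r₂ Φ hα n
      have hn : n ∈ s35n_m₁ r₁ r₂ Φ hα 𝔫 h₁ := by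
        have e : r₁ (y * gd) = algebraMap D 𝕜 n := by rw [map_mul, hgd]; exact h
        exact (s35n_mem_contr_iff r₁ _ 𝔫 h₁ e).mpr (𝔫.mul_mem_right _ hy)
      have hd : (d : D) ∉ s35n_m₁ r₁ r₂ Φ hα 𝔫 h₁ := d.2
      have hn' := (hpsi n).mp hn
      have hd' : ψD (d : D) ∉ s35n_m₁ r₁ r₂ Φ hα 𝔫 h₁ := fun hc => hd ((hpsi _).mpr hc)
      obtain ⟨gd', hgd'⟩ := s35n_lift₁ r₁ r₂ Φ hα (ψD (d : D))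
      obtain ⟨gn', hgn'⟩ := s35n_lift₁ r₁ r₂ Φ hα (ψD n)
      have e' : r₁ (s y * gd') = algebraMap D 𝕜 (ψD n) := by
        rw [map_mul, hs, hgd', ← hψ, ← hψ, ← map_mul, h]
      have h1 : s y * gd' ∈ 𝔫 := (s35n_mem_contr_iff r₁ _ 𝔫 h₁ e').mp hn'
      have h2 : gd' ∉ 𝔫 := fun hc => hd' ((s35n_mem_contr_iff r₁ _ 𝔫 h₁ hgd').mpr hc)
      exact (h𝔫.mem_or_mem h1).resolve_right h2
    · -- `r₁ y * n = d` with `d ∉ 𝔪₁`: impossible for `y ∈ 𝔫`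
      exfalso
      obtain ⟨gn, hgn⟩ := s35n_lift₁ r₁ r₂ Φ hα n
      have e : r₁ (y * gn) = algebraMap D 𝕜 (d : D) := by rw [map_mul, hgn]; exact h
      have hd : (d : D) ∉ s35n_m₁ r₁ r₂ Φ hα 𝔫 h₁ := d.2
      exact hd ((s35n_mem_contr_iff r₁ _ 𝔫 h₁ e).mpr (𝔫.mul_mem_right _ hy))


/-- The multiplicative operator `P_ψ(W) = ψ²W · W^Q / (ψW)^(1+Q)` (`= (ψ² − (1+Q)ψ + Q) W`
additively). -/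
noncomputable def s35n_P (ψ : 𝕜 →+* 𝕜) (Q : ℕ) (W : 𝕜) : 𝕜 := ψ (ψ W) * W ^ Q / ψ W ^ (1 + Q)

omit hΦ hα hβ h₁ h₂ hQ hΦψ hψ [IsDedekindDomain D] [IsFractionRing D 𝕜] in
/-- `P_ψ(W) = ρ / Φ²ρ` with `ρ = ψ(ψW / W)`, if `Φ² ∘ ψ = (·)^Q`. -/
theorem s35n_P_eq (hΦψ' : ∀ x : 𝕜, Φ (Φ (ψ x)) = x ^ Q) {W : 𝕜} (hW : W ≠ 0) :
    ψ (ψ W / W) / Φ (Φ (ψ (ψ W / W))) = s35n_P ψ Q W := by
  have h1 : ψ W ≠ 0 := (map_ne_zero ψ).mpr hW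
  have h2 : ψ (ψ W) ≠ 0 := (map_ne_zero ψ).mpr h1
  rw [hΦψ', s35n_P, map_div₀, div_pow, pow_add, pow_one]
  field_simp

/-- **hKR, abstract form**: for all `W₁ W₂ ≠ 0` there are `b, b' ∈ B ∖ 𝔫` with
`(r₁, r₂)(b / b') = (P_ψ W₁, P_ψ W₂)`. -/
theorem s35n_hKR (hΦψ' : ∀ x : 𝕜, Φ (Φ (ψ x)) = x ^ Q)
    (hne₁ : ∃ b ∈ 𝔫, r₁ b ≠ 0) (hne₂ : ∃ b ∈ 𝔫, r₂ b ≠ 0)
    {W₁ W₂ : 𝕜} (hW₁ : W₁ ≠ 0) (hW₂ : W₂ ≠ 0) :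
    ∃ b b' : B, b ∉ 𝔫 ∧ b' ∉ 𝔫 ∧ r₁ b = s35n_P ψ Q W₁ * r₁ b' ∧ r₂ b = s35n_P ψ Q W₂ * r₂ b' := by
  have hprime₁ := s35n_contr_isPrime r₁ (s35n_lift₁ r₁ r₂ Φ hα) 𝔫 h₁
  have hprime₂ := s35n_contr_isPrime r₂ (s35n_lift₂ r₁ r₂ Φ hβ) 𝔫 h₂
  obtain ⟨c₁, hc₁, hc₁0⟩ := hne₁
  obtain ⟨c₂, hc₂, hc₂0⟩ := hne₂
  have hbot₁ := s35n_contr_ne_bot r₁ (s35n_lift₁ r₁ r₂ Φ hα) 𝔫 h₁ hc₁ hc₁0
  have hbot₂ := s35n_contr_ne_bot r₂ (s35n_lift₂ r₁ r₂ Φ hβ) 𝔫 h₂ hc₂ hc₂0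
  let v₁ : HeightOneSpectrum D := ⟨s35n_m₁ r₁ r₂ Φ hα 𝔫 h₁, hprime₁, hbot₁⟩
  let v₂ : HeightOneSpectrum D := ⟨s35n_m₂ r₁ r₂ Φ hβ 𝔫 h₂, hprime₂, hbot₂⟩
  have hv₁ : ∀ d : D, d ∈ v₁.asIdeal ↔ ψD d ∈ v₁.asIdeal :=
    s35n_contr_psi₁ r₁ r₂ Φ ΦD hΦ hα hβ 𝔫 h₁ h₂ ψD Q hQ hΦψ
  have hv₂ : ∀ d : D, d ∈ v₂.asIdeal ↔ ψD d ∈ v₂.asIdeal :=
    s35n_contr_psi₂ r₁ r₂ Φ ΦD hΦ hα hβ 𝔫 h₁ h₂ ψD Q hQ hΦψ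
  have hψW₁ : ψ W₁ ≠ 0 := (map_ne_zero ψ).mpr hW₁
  have hψW₂ : ψ W₂ ≠ 0 := (map_ne_zero ψ).mpr hW₂
  have hρ₁ : v₁.valuation 𝕜 (ψ (ψ W₁ / W₁)) = 1 := by
    rw [s35n_val_map v₁ ψ ψD hψ hv₁]
    exact s35n_val_ratio v₁ ψ ψD hψ hv₁ hW₁
  have hρ₂ : v₂.valuation 𝕜 (ψ (ψ W₂ / W₂)) = 1 := by
    rw [s35n_val_map v₂ ψ ψD hψ hv₂]
    exact s35n_val_ratio v₂ ψ ψD hψ hv₂ hW₂
  obtain ⟨n₁, d₁, hn₁, hd₁, e₁⟩ := s35n_unit_frac v₁ hρ₁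
  obtain ⟨n₂, d₂, hn₂, hd₂, e₂⟩ := s35n_unit_frac v₂ hρ₂
  obtain ⟨b₁, b₁', hb₁, hb₁', f₁, f₁'⟩ :=
    s35n_kron₁ r₁ r₂ Φ ΦD hΦ hα hβ 𝔫 h₁ h₂ hn₁ hd₁ e₁
  obtain ⟨b₂, b₂', hb₂, hb₂', f₂, f₂'⟩ :=
    s35n_kron₂ r₁ r₂ Φ ΦD hΦ hα hβ 𝔫 h₁ h₂ hn₂ hd₂ e₂
  rw [s35n_P_eq Φ Q ψ hΦψ' hW₁] at f₁
  rw [s35n_P_eq Φ Q ψ hΦψ' hW₂] at f₂'
  refine ⟨b₁ * b₂, b₁' * b₂', fun hc => (h𝔫.mem_or_mem hc).elim hb₁ hb₂,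
    fun hc => (h𝔫.mem_or_mem hc).elim hb₁' hb₂', ?_, ?_⟩
  · rw [map_mul, map_mul, f₁, f₂]; ring
  · rw [map_mul, map_mul, f₁', f₂']; ring

end Kron

end Fermat.Agent.Lib.S35
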