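/-
S35 project, node package (helper8), part 4: **hKR AT THE CROSSING POINTS OF `X₀(M q)`** (blueprint v1,
module `MKron`): for every function `U ≠ 0` of level `M q` and every prime `𝔫 ⊇ ker r₁ + ker r₂` of a
chart ring `B` there are `b, b' ∈ B ∖ 𝔫` with

  `P(σ)U · b' ≡ b  mod ϖ V_i`   for BOTH `i = ∞, 0`,

`P(σ)U = s35m_polyHom (s35m_tau2 M q σ₀) (q * q) U = τ⁴U · U^{q²} / (τ²U)^{1+q²}` (helper6, `MPoly.lean`).
So `X_U := b / b'` is a unit of `O₂`, has no zero or pole through `𝔫`, and `P(σ)U / X_U ≡ 1 mod ϖ O_i`: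
the twin of S34's `hsd` at a node.

Setting = `s34df_dichotomy` / `s35m_node_frob_sq` (one Dedekind ring `D`, `Frac D = Fb ⊆ κ((T))`), plus
* `hF` (FRAC): `red_i(V_i) ⊆ Fb` for ALL of `V_i` (helper6, `MFrac.lean`);
* `Fb` stable under `Φ = (T ↦ T^q)` and the coefficientwise Frobenius;
* `ΦD : D → D`, `ψD : D ≃+* D` inducing `Φ`, `ψ̃²` on `D`; some `d ∈ D` with `Φ²d ≠ d`.
Proof: `s35m_poly_red_VV` (`red_i(P(σ)U) = ρ_i/Φ²ρ_i`, `ρ_i = ψ̃²(ψ̃²ū_i/ū_i)`) + the abstract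
Kronecker trick `s35n_hKR` (`NKron.lean`).
-/
import Fermat.Agent.Lib.S35.NKron
import Fermat.Agent.Lib.S35.MPoly
import Fermat.Agent.Lib.S34.DFibre

set_option autoImplicit false
set_option linter.unusedSectionVars false
set_option linter.style.haveILetI false

noncomputable section

namespace Fermat.Agent.Lib.S35

open ModularCurve AlgebraicCurve HahnSeries Fermat.Agent.Lib.FF Fermat.Agent.Lib.S18
  Fermat.Agent.Lib.S34 Fermat.Agent.Lib.S37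

local notation "Kb" => AlgebraicClosure ℚ

variable {K₀ : Type*} [Field K₀] [Algebra ℚ K₀] {κ : Type*} [Field κ] (G : s18g_GaussData K₀ κ)
variable (φ : K₀ →+* Kb) (M q : ℕ) [NeZero M] [NeZero q] (hq : q.Prime) (hqM : ¬ q ∣ M)

/-- The kernel of `red_i` is `ϖ V_i`, uniformly in `i`. -/
theorem s35n_redVV_eq_zero_iff (i : Bool) (y : ↥(s34m_VV G φ M q hq hqM i)) :
    s35m_redVV G φ M q hq hqM i y = 0 ↔
      ∃ z ∈ s34m_VV G φ M q hq hqM i, (y : s34m_F K₀ (M * q)) = s34m_unif G (M * q) * z := by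
  cases i
  · exact s34m_redZero_eq_zero_iff G φ M q hq hqM y
  · exact s34m_redInf_eq_zero_iff G (M * q) y

variable (S : Set (Place K₀ (s34m_F K₀ (M * q))))

local notation "BB" => s34x_ring (s34x_infRing (s34m_VV G φ M q hq hqM)) S

/-- elements of the chart ring lie in both `V_i`. -/
theorem s35n_ring_mem_VV (b : BB) (i : Bool) :
    (b : s34m_F K₀ (M * q)) ∈ s34m_VV G φ M q hq hqM i :=
  (s34x_mem_infRing _ _).mp b.2.1 i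

/-- `r₁`, `r₂` as `red_i`. -/
theorem s35n_r_eq_redVV (b : BB) :
    s34df_r1 G φ M q hq hqM S b =
        s35m_redVV G φ M q hq hqM true ⟨(b : s34m_F K₀ (M * q)), s35n_ring_mem_VV G φ M q hq hqM S b true⟩ ∧
      s34df_r2 G φ M q hq hqM S b =
        s35m_redVV G φ M q hq hqM false
          ⟨(b : s34m_F K₀ (M * q)), s35n_ring_mem_VV G φ M q hq hqM S b false⟩ :=
  ⟨rfl, rfl⟩

/-- **The Kronecker lifts in the chart ring**: for `g ∈ BM` (`α(BM) ⊆ B`, `β(BM) ⊆ B + ϖ O₂`) there are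
`a, b ∈ B` with `(r₁, r₂)(a) = (ḡ, Φ ḡ)` and `(r₁, r₂)(b) = (Φ ḡ, ḡ)`. -/
theorem s35n_lifts (BM : Set (s34m_F K₀ M)) (hBMV : ∀ g ∈ BM, g ∈ s34m_Vinf G M)
    (hαB : ∀ g ∈ BM, heckeAlphaBar K₀ M q g ∈ BB)
    (hβB : ∀ g ∈ BM, ∃ b' ∈ BB,
      ∃ z, z ∈ s34m_Vinf G (M * q) ∧ z ∈ s34m_Vzero G φ M q hq hqM ∧
        b' - heckeBetaBar K₀ M q g = s34m_unif G (M * q) * z)
    (g : s34m_F K₀ M) (hg : g ∈ BM) :
    (∃ a : BB, s34df_r1 G φ M q hq hqM S a = s34m_redInf G M ⟨g, hBMV g hg⟩ ∧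
      s34df_r2 G φ M q hq hqM S a = qExpand κ q (s34m_redInf G M ⟨g, hBMV g hg⟩)) ∧
    (∃ b : BB, s34df_r1 G φ M q hq hqM S b = qExpand κ q (s34m_redInf G M ⟨g, hBMV g hg⟩) ∧
      s34df_r2 G φ M q hq hqM S b = s34m_redInf G M ⟨g, hBMV g hg⟩) := by
  constructor
  · refine ⟨⟨_, hαB g hg⟩, ?_, ?_⟩
    · exact (s34df_r1_eq G φ M q hq hqM S _ _ (s34m_alpha_mem_Vinf G M q (hBMV g hg)) rfl).trans
        (s34m_redInf_alpha G M q ⟨g, hBMV g hg⟩)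
    · exact (s34df_r2_eq G φ M q hq hqM S _ _
        (s34m_alpha_mem_Vzero G φ M q hq hqM (hBMV g hg)) rfl).trans
        (s34m_redZero_alpha G φ M q hq hqM ⟨g, hBMV g hg⟩)
  · obtain ⟨b', hb', z, hzI, hz0, ez⟩ := hβB g hg
    refine ⟨⟨b', hb'⟩, ?_, ?_⟩
    · rw [s34df_r1_apply, ← s34m_redInf_beta G M q ⟨g, hBMV g hg⟩]
      exact s34df_redInf_congr G M q _ _ hzI ez
    · rw [s34df_r2_apply, ← s34m_redZero_beta G φ M q hq hqM ⟨g, hBMV g hg⟩]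
      exact s34df_redZero_congr G φ M q hq hqM _ _ hz0 ez

section Main

variable [hqF : Fact q.Prime] [CharP κ q]
variable (Fb : IntermediateField κ (LaurentSeries κ))
  {D : Type*} [CommRing D] [IsDedekindDomain D] [Algebra D Fb] [IsFractionRing D Fb]

/-- **The ring-setting data of a crossing prime** (`NKron.lean`) extracted from the concrete setting:
`r₁ r₂ : B →+* Fb`, `Φ ψ : Fb →+* Fb` with their coercion formulas and ALL hypotheses of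
`s35n_hKR` / `s35n_xKR`. -/
theorem s35n_setup
    (hF : ∀ (i : Bool) (y : ↥(s34m_VV G φ M q hq hqM i)), s35m_redVV G φ M q hq hqM i y ∈ Fb)
    (hΦFb : ∀ x ∈ Fb, qExpand κ q x ∈ Fb)
    (hψFb : ∀ x ∈ Fb, coeffMap (frobenius κ q) x ∈ Fb)
    (BM : Set (s34m_F K₀ M)) (hBMV : ∀ g ∈ BM, g ∈ s34m_Vinf G M)
    (hαB : ∀ g ∈ BM, heckeAlphaBar K₀ M q g ∈ BB)
    (hβB : ∀ g ∈ BM, ∃ b' ∈ BB,
      ∃ z, z ∈ s34m_Vinf G (M * q) ∧ z ∈ s34m_Vzero G φ M q hq hqM ∧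
        b' - heckeBetaBar K₀ M q g = s34m_unif G (M * q) * z)
    (hlift : ∀ d : D, ∃ g, ∃ hg : g ∈ BM,
      s34m_redInf G M ⟨g, hBMV g hg⟩ = ((algebraMap D Fb d : Fb) : LaurentSeries κ))
    (ΦD : D → D)
    (hΦD : ∀ d : D, qExpand κ q ((algebraMap D Fb d : Fb) : LaurentSeries κ) =
      ((algebraMap D Fb (ΦD d) : Fb) : LaurentSeries κ))
    (ψD : D ≃+* D)
    (hψD : ∀ d : D, s35m_Psi2 q ((algebraMap D Fb d : Fb) : LaurentSeries κ) =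
      ((algebraMap D Fb (ψD d) : Fb) : LaurentSeries κ))
    (hnc : ∃ d : D, ΦD (ΦD d) ≠ d)
    (𝔫 : Ideal BB) [𝔫.IsPrime]
    (h1 : RingHom.ker (s34df_r1 G φ M q hq hqM S) ≤ 𝔫)
    (h2 : RingHom.ker (s34df_r2 G φ M q hq hqM S) ≤ 𝔫) :
    ∃ (r₁ r₂ : BB →+* Fb) (Φ ψ : Fb →+* Fb),
      (∀ b, ((r₁ b : Fb) : LaurentSeries κ) = s34df_r1 G φ M q hq hqM S b) ∧
      (∀ b, ((r₂ b : Fb) : LaurentSeries κ) = s34df_r2 G φ M q hq hqM S b) ∧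
      (∀ x : Fb, ((Φ x : Fb) : LaurentSeries κ) = qExpand κ q (x : LaurentSeries κ)) ∧
      (∀ x : Fb, ((ψ x : Fb) : LaurentSeries κ) = s35m_Psi2 q (x : LaurentSeries κ)) ∧
      RingHom.ker r₁ ≤ 𝔫 ∧ RingHom.ker r₂ ≤ 𝔫 ∧
      (∀ d : D, Φ (algebraMap D Fb d) = algebraMap D Fb (ΦD d)) ∧
      (∀ d : D, ψ (algebraMap D Fb d) = algebraMap D Fb (ψD d)) ∧
      (∀ x : Fb, Φ (Φ (ψ x)) = x ^ (q * q)) ∧
      (∀ d : D, ΦD (ΦD (ψD d)) = d ^ (q * q)) ∧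
      (∀ d : D, ∃ g : BB, r₁ g = algebraMap D Fb d ∧ r₂ g = Φ (algebraMap D Fb d)) ∧
      (∀ d : D, ∃ g : BB, r₁ g = Φ (algebraMap D Fb d) ∧ r₂ g = algebraMap D Fb d) ∧
      (∃ b ∈ 𝔫, r₁ b ≠ 0) ∧ (∃ b ∈ 𝔫, r₂ b ≠ 0) := by
  classical
  -- the two reductions, the substitution `Φ` and the Frobenius `ψ = ψ̃²` on the field `Fb`
  have hF₁ : ∀ b : BB, s34df_r1 G φ M q hq hqM S b ∈ Fb := fun b => hF true _
  have hF₂ : ∀ b : BB, s34df_r2 G φ M q hq hqM S b ∈ Fb := fun b => hF false _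
  obtain ⟨r₁, hr₁c⟩ : ∃ r₁ : BB →+* Fb,
      ∀ b, ((r₁ b : Fb) : LaurentSeries κ) = s34df_r1 G φ M q hq hqM S b :=
    ⟨(s34df_r1 G φ M q hq hqM S).codRestrict Fb hF₁, fun _ => rfl⟩
  obtain ⟨r₂, hr₂c⟩ : ∃ r₂ : BB →+* Fb,
      ∀ b, ((r₂ b : Fb) : LaurentSeries κ) = s34df_r2 G φ M q hq hqM S b :=
    ⟨(s34df_r2 G φ M q hq hqM S).codRestrict Fb hF₂, fun _ => rfl⟩
  obtain ⟨Φ, hΦc⟩ : ∃ Φ : Fb →+* Fb,
      ∀ x : Fb, ((Φ x : Fb) : LaurentSeries κ) = qExpand κ q (x : LaurentSeries κ) :=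
    ⟨((qExpand κ q).comp (algebraMap Fb (LaurentSeries κ))).codRestrict Fb
      (fun x => hΦFb _ x.2), fun _ => rfl⟩
  obtain ⟨ψ, hψc⟩ : ∃ ψ : Fb →+* Fb,
      ∀ x : Fb, ((ψ x : Fb) : LaurentSeries κ) = s35m_Psi2 q (x : LaurentSeries κ) :=
    ⟨((s35m_Psi2 q).comp (algebraMap Fb (LaurentSeries κ))).codRestrict Fb
      (fun x => hψFb _ (hψFb _ x.2)), fun _ => rfl⟩
  have hker₁ : RingHom.ker r₁ ≤ 𝔫 := by
    intro b hb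
    apply h1
    rw [RingHom.mem_ker] at hb ⊢
    rw [← hr₁c, hb]; rfl
  have hker₂ : RingHom.ker r₂ ≤ 𝔫 := by
    intro b hb
    apply h2
    rw [RingHom.mem_ker] at hb ⊢
    rw [← hr₂c, hb]; rfl
  have hΦ : ∀ d : D, Φ (algebraMap D Fb d) = algebraMap D Fb (ΦD d) := fun d =>
    Subtype.ext ((hΦc _).trans (hΦD d))
  have hψ : ∀ d : D, ψ (algebraMap D Fb d) = algebraMap D Fb (ψD d) := fun d =>
    Subtype.ext ((hψc _).trans (hψD d))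
  have hΦψ' : ∀ x : Fb, Φ (Φ (ψ x)) = x ^ (q * q) := by
    intro x
    apply Subtype.ext
    rw [hΦc, hΦc, hψc, SubmonoidClass.coe_pow, s35m_pow_qq q, s35m_Phi2_apply]
  have hinj : Function.Injective (algebraMap D Fb) := IsFractionRing.injective D Fb
  have hΦψ : ∀ d : D, ΦD (ΦD (ψD d)) = d ^ (q * q) := by
    intro d
    apply hinj
    rw [← hΦ, ← hΦ, ← hψ, hΦψ', map_pow]
  -- the Kronecker lifts
  have hα : ∀ d : D, ∃ g : BB, r₁ g = algebraMap D Fb d ∧ r₂ g = Φ (algebraMap D Fb d) := by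
    intro d
    obtain ⟨g₀, hg₀, e₀⟩ := hlift d
    obtain ⟨⟨a, ha₁, ha₂⟩, -⟩ := s35n_lifts G φ M q hq hqM S BM hBMV hαB hβB g₀ hg₀
    refine ⟨a, Subtype.ext ?_, Subtype.ext ?_⟩
    · rw [hr₁c, ha₁, e₀]
    · rw [hr₂c, ha₂, e₀, hΦc]
  have hβ : ∀ d : D, ∃ g : BB, r₁ g = Φ (algebraMap D Fb d) ∧ r₂ g = algebraMap D Fb d := by
    intro d
    obtain ⟨g₀, hg₀, e₀⟩ := hlift d
    obtain ⟨-, ⟨b, hb₁, hb₂⟩⟩ := s35n_lifts G φ M q hq hqM S BM hBMV hαB hβB g₀ hg₀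
    refine ⟨b, Subtype.ext ?_, Subtype.ext ?_⟩
    · rw [hr₁c, hb₁, e₀, hΦc]
    · rw [hr₂c, hb₂, e₀]
  -- `𝔫` contains elements not killed by `r₁`, resp. `r₂`
  obtain ⟨d₀, hd₀⟩ := hnc
  have hd₀' : Φ (Φ (algebraMap D Fb d₀)) - algebraMap D Fb d₀ ≠ 0 := by
    rw [hΦ, hΦ, ← map_sub]
    intro h0
    apply hd₀
    have := hinj (h0.trans (map_zero _).symm)
    exact sub_eq_zero.mp this
  have hne₁ : ∃ b ∈ 𝔫, r₁ b ≠ 0 := by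
    obtain ⟨ga, hga₁, hga₂⟩ := hα d₀
    obtain ⟨gb, hgb₁, hgb₂⟩ := hβ (ΦD d₀)
    refine ⟨gb - ga, hker₂ ?_, ?_⟩
    · rw [RingHom.mem_ker, map_sub, hgb₂, hga₂, hΦ, sub_self]
    · rw [map_sub, hgb₁, hga₁, ← hΦ]
      exact hd₀'
  have hne₂ : ∃ b ∈ 𝔫, r₂ b ≠ 0 := by
    obtain ⟨gb, hgb₁, hgb₂⟩ := hβ d₀
    obtain ⟨ga, hga₁, hga₂⟩ := hα (ΦD d₀)
    refine ⟨ga - gb, hker₁ ?_, ?_⟩
    · rw [RingHom.mem_ker, map_sub, hga₁, hgb₁, hΦ, sub_self]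
    · rw [map_sub, hga₂, hgb₂, ← hΦ]
      exact hd₀'
  exact ⟨r₁, r₂, Φ, ψ, hr₁c, hr₂c, hΦc, hψc, hker₁, hker₂, hΦ, hψ, hΦψ', hΦψ, hα, hβ, hne₁, hne₂⟩

/-- **hKR at a crossing point.** -/
theorem s35n_hKR_concrete
    (hF : ∀ (i : Bool) (y : ↥(s34m_VV G φ M q hq hqM i)), s35m_redVV G φ M q hq hqM i y ∈ Fb)
    (hΦFb : ∀ x ∈ Fb, qExpand κ q x ∈ Fb)
    (hψFb : ∀ x ∈ Fb, coeffMap (frobenius κ q) x ∈ Fb)
    (BM : Set (s34m_F K₀ M)) (hBMV : ∀ g ∈ BM, g ∈ s34m_Vinf G M)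
    (hαB : ∀ g ∈ BM, heckeAlphaBar K₀ M q g ∈ BB)
    (hβB : ∀ g ∈ BM, ∃ b' ∈ BB,
      ∃ z, z ∈ s34m_Vinf G (M * q) ∧ z ∈ s34m_Vzero G φ M q hq hqM ∧
        b' - heckeBetaBar K₀ M q g = s34m_unif G (M * q) * z)
    (hlift : ∀ d : D, ∃ g, ∃ hg : g ∈ BM,
      s34m_redInf G M ⟨g, hBMV g hg⟩ = ((algebraMap D Fb d : Fb) : LaurentSeries κ))
    (ΦD : D → D)
    (hΦD : ∀ d : D, qExpand κ q ((algebraMap D Fb d : Fb) : LaurentSeries κ) =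
      ((algebraMap D Fb (ΦD d) : Fb) : LaurentSeries κ))
    (ψD : D ≃+* D)
    (hψD : ∀ d : D, s35m_Psi2 q ((algebraMap D Fb d : Fb) : LaurentSeries κ) =
      ((algebraMap D Fb (ψD d) : Fb) : LaurentSeries κ))
    (hnc : ∃ d : D, ΦD (ΦD d) ≠ d)
    (σ₀ : K₀ ≃ₐ[ℚ] K₀)
    (hσA : ∀ a : K₀, a ∈ G.A → (σ₀ : K₀ ≃+* K₀) a ∈ G.A)
    (hσA' : ∀ a : K₀, a ∈ G.A → (σ₀.symm : K₀ ≃+* K₀) a ∈ G.A)
    (hσπ : ∀ a : G.A, G.π (s34m_sigmaA G (σ₀ : K₀ ≃+* K₀) hσA a) = G.π a ^ q)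
    (𝔫 : Ideal BB) [h𝔫 : 𝔫.IsPrime]
    (h1 : RingHom.ker (s34df_r1 G φ M q hq hqM S) ≤ 𝔫)
    (h2 : RingHom.ker (s34df_r2 G φ M q hq hqM S) ≤ 𝔫)
    (U : s34m_F K₀ (M * q)) (hU : U ≠ 0) :
    ∃ b b' : BB, b ∉ 𝔫 ∧ b' ∉ 𝔫 ∧ ∀ i : Bool, ∃ y ∈ s34m_VV G φ M q hq hqM i,
      s35m_polyHom (s35m_tau2 M q σ₀) (q * q) U * (b' : s34m_F K₀ (M * q)) -
        (b : s34m_F K₀ (M * q)) = s34m_unif G (M * q) * y := by
  classical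
  obtain ⟨r₁, r₂, Φ, ψ, hr₁c, hr₂c, hΦc, hψc, hker₁, hker₂, hΦ, hψ, hΦψ', hΦψ, hα, hβ, hne₁, hne₂⟩ :=
    s35n_setup G φ M q hq hqM S Fb hF hΦFb hψFb BM hBMV hαB hβB hlift ΦD hΦD ψD hψD hnc 𝔫 h1 h2
  -- the two reductions of `P(σ)U`
  obtain ⟨n₁, u₁, hu₁, hu₁', hUe₁, hP₁, -, hred₁⟩ :=
    s35m_poly_red_VV G φ M q hq hqM σ₀ hσA hσA' hσπ true U hU
  obtain ⟨n₂, u₂, hu₂, hu₂', hUe₂, hP₂, -, hred₂⟩ :=
    s35m_poly_red_VV G φ M q hq hqM σ₀ hσA hσA' hσπ false U hU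
  have hunit : ∀ (i : Bool) (u : s34m_F K₀ (M * q)) (hu : u ∈ s34m_VV G φ M q hq hqM i),
      u⁻¹ ∈ s34m_VV G φ M q hq hqM i → u ≠ 0 →
      s35m_redVV G φ M q hq hqM i ⟨u, hu⟩ ≠ 0 := by
    intro i u hu hu' hu0 h0
    have h1 : s35m_redVV G φ M q hq hqM i (⟨u, hu⟩ * ⟨u⁻¹, hu'⟩) = 1 := by
      have : (⟨u, hu⟩ * ⟨u⁻¹, hu'⟩ : ↥(s34m_VV G φ M q hq hqM i)) = 1 :=
        Subtype.ext (mul_inv_cancel₀ hu0)
      rw [this, map_one]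
    rw [map_mul, h0, zero_mul] at h1
    exact zero_ne_one h1
  have hu₁0 : u₁ ≠ 0 := by
    rintro rfl
    rw [mul_zero] at hUe₁
    exact hU hUe₁
  have hu₂0 : u₂ ≠ 0 := by
    rintro rfl
    rw [mul_zero] at hUe₂
    exact hU hUe₂
  obtain ⟨W₁, hW₁c⟩ : ∃ W : Fb, (W : LaurentSeries κ) =
      s35m_redVV G φ M q hq hqM true ⟨u₁, hu₁⟩ := ⟨⟨_, hF true ⟨u₁, hu₁⟩⟩, rfl⟩
  obtain ⟨W₂, hW₂c⟩ : ∃ W : Fb, (W : LaurentSeries κ) =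
      s35m_redVV G φ M q hq hqM false ⟨u₂, hu₂⟩ := ⟨⟨_, hF false ⟨u₂, hu₂⟩⟩, rfl⟩
  rw [← hW₁c] at hred₁
  rw [← hW₂c] at hred₂
  have hW₁0 : W₁ ≠ 0 := by
    rintro rfl
    exact hunit true u₁ hu₁ hu₁' hu₁0 hW₁c.symm
  have hW₂0 : W₂ ≠ 0 := by
    rintro rfl
    exact hunit false u₂ hu₂ hu₂' hu₂0 hW₂c.symm
  -- the abstract Kronecker trick
  obtain ⟨b, b', hb, hb', e₁, e₂⟩ := s35n_hKR r₁ r₂ Φ ΦD hΦ hα hβ 𝔫 hker₁ hker₂ ψD (q * q)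
    (Nat.mul_ne_zero hq.ne_zero hq.ne_zero) hΦψ ψ hψ hΦψ' hne₁ hne₂ hW₁0 hW₂0
  -- `ρ/Φ²ρ = P_ψ(W)` in `κ((T))`
  have hPc : ∀ W : Fb, W ≠ 0 → ((s35n_P ψ (q * q) W : Fb) : LaurentSeries κ) =
      s35m_Psi2 q (s35m_Psi2 q (W : LaurentSeries κ) / (W : LaurentSeries κ)) /
        s35m_Phi2 q (s35m_Psi2 q (s35m_Psi2 q (W : LaurentSeries κ) / (W : LaurentSeries κ))) := by
    intro W hW
    rw [← s35n_P_eq Φ (q * q) ψ hΦψ' hW]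
    simp only [IntermediateField.coe_div, hΦc, hψc, s35m_Phi2_apply]
  refine ⟨b, b', hb, hb', ?_⟩
  intro i
  cases i
  · -- `i = false`: `V_0`
    have hmem : s35m_polyHom (s35m_tau2 M q σ₀) (q * q) U * (b' : s34m_F K₀ (M * q)) -
        (b : s34m_F K₀ (M * q)) ∈ s34m_VV G φ M q hq hqM false :=
      (s34m_VV G φ M q hq hqM false).sub_mem ((s34m_VV G φ M q hq hqM false).mul_mem _ _ hP₂
        (s35n_ring_mem_VV G φ M q hq hqM S b' false)) (s35n_ring_mem_VV G φ M q hq hqM S b false)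
    have h0 : s35m_redVV G φ M q hq hqM false ⟨_, hmem⟩ = 0 := by
      have hsplit : (⟨_, hmem⟩ : ↥(s34m_VV G φ M q hq hqM false)) =
          ⟨_, hP₂⟩ * ⟨_, s35n_ring_mem_VV G φ M q hq hqM S b' false⟩ -
            ⟨_, s35n_ring_mem_VV G φ M q hq hqM S b false⟩ := rfl
      rw [hsplit, map_sub, map_mul, hred₂, ← hPc W₂ hW₂0]
      have e₂' := congrArg (fun z : Fb => (z : LaurentSeries κ)) e₂
      simp only [MulMemClass.coe_mul, hr₂c] at e₂'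
      rw [sub_eq_zero]
      exact e₂'.symm
    exact (s35n_redVV_eq_zero_iff G φ M q hq hqM false ⟨_, hmem⟩).mp h0
  · -- `i = true`: `V_∞`
    have hmem : s35m_polyHom (s35m_tau2 M q σ₀) (q * q) U * (b' : s34m_F K₀ (M * q)) -
        (b : s34m_F K₀ (M * q)) ∈ s34m_VV G φ M q hq hqM true :=
      (s34m_VV G φ M q hq hqM true).sub_mem ((s34m_VV G φ M q hq hqM true).mul_mem _ _ hP₁
        (s35n_ring_mem_VV G φ M q hq hqM S b' true)) (s35n_ring_mem_VV G φ M q hq hqM S b true)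
    have h0 : s35m_redVV G φ M q hq hqM true ⟨_, hmem⟩ = 0 := by
      have hsplit : (⟨_, hmem⟩ : ↥(s34m_VV G φ M q hq hqM true)) =
          ⟨_, hP₁⟩ * ⟨_, s35n_ring_mem_VV G φ M q hq hqM S b' true⟩ -
            ⟨_, s35n_ring_mem_VV G φ M q hq hqM S b true⟩ := rfl
      rw [hsplit, map_sub, map_mul, hred₁, ← hPc W₁ hW₁0]
      have e₁' := congrArg (fun z : Fb => (z : LaurentSeries κ)) e₁
      simp only [MulMemClass.coe_mul, hr₁c] at e₁'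
      rw [sub_eq_zero]
      exact e₁'.symm
    exact (s35n_redVV_eq_zero_iff G φ M q hq hqM true ⟨_, hmem⟩).mp h0

end Main

end Fermat.Agent.Lib.S35
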