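/-
S35 project, node package (helper8), part 5: THE `x`-PART OF THE KRONECKER TRICK (ring setting of
`NKron.lean`).  For the global function `x` with `F = P(σ)f / x^m ≡ 1 mod ϖ O_i` one has
`red_i x = e_i / Φ²e_i`, `e_i = ψ(β_i)`, `β_i ^ m = c_i · ψ W_i / W_i` (`W_i = f̄_i`, `c_i` a constant).
At a crossing point `𝔫` the `e_i` are units at `𝔪_i` (`ψ 𝔪_i = 𝔪_i`, roots of units are units), so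
`x ≡ b₁ / b₁' mod ϖ O_i` for some `b₁, b₁' ∈ B ∖ 𝔫`:

* `s35n_val_psi_root` : `β ^ m = c · ψW/W`, `v c = 1` ⇒ `v (ψ β) = 1`;
* `s35n_kron_pair`    : unit fractions `e₁` at `𝔪₁`, `e₂` at `𝔪₂` ⇒ `b, b' ∉ 𝔫` with
  `r_i b = (e_i / Φ²e_i) · r_i b'`;
* `s35n_xKR`          : the same from the root presentation of `e₁`, `e₂`.
-/
import Fermat.Agent.Lib.S35.NKron

set_option autoImplicit false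
set_option linter.unusedSectionVars false
set_option linter.style.haveILetI false

namespace Fermat.Agent.Lib.S35

open IsDedekindDomain IsDedekindDomain.HeightOneSpectrum

section Val

variable {D 𝕜 : Type*} [CommRing D] [IsDedekindDomain D] [Field 𝕜] [Algebra D 𝕜]
  [IsFractionRing D 𝕜] (v : HeightOneSpectrum D)
  (ψ : 𝕜 →+* 𝕜) (ψD : D ≃+* D)
  (hψ : ∀ d : D, ψ (algebraMap D 𝕜 d) = algebraMap D 𝕜 (ψD d))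
  (hv : ∀ d : D, d ∈ v.asIdeal ↔ ψD d ∈ v.asIdeal)

include hψ hv in
/-- `β ^ m = c · ψW/W` with `c` a unit at `v` ⇒ `ψ β` is a unit at `v`. -/
theorem s35n_val_psi_root {β c W : 𝕜} (hW : W ≠ 0) {m : ℕ} (hm : m ≠ 0)
    (hc : v.valuation 𝕜 c = 1) (h : β ^ m = c * (ψ W / W)) : v.valuation 𝕜 (ψ β) = 1 := by
  rw [s35n_val_map v ψ ψD hψ hv]
  apply s35n_val_root v hm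
  rw [h, map_mul, hc, one_mul]
  exact s35n_val_ratio v ψ ψD hψ hv hW

/-- The image of a unit of `D` is a unit at every prime. -/
theorem s35n_val_unit (d : Dˣ) : v.valuation 𝕜 (algebraMap D 𝕜 (d : D)) = 1 := by
  rw [valuation_eq_one_iff_notMem]
  intro h
  exact v.isPrime.ne_top (Ideal.eq_top_of_isUnit_mem _ h d.isUnit)

end Val

section Kron

variable {B D 𝕜 : Type*} [CommRing B] [CommRing D] [IsDedekindDomain D] [Field 𝕜] [Algebra D 𝕜]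
  [IsFractionRing D 𝕜]
  (r₁ r₂ : B →+* 𝕜) (Φ : 𝕜 →+* 𝕜) (ΦD : D → D)
  (hΦ : ∀ d : D, Φ (algebraMap D 𝕜 d) = algebraMap D 𝕜 (ΦD d))
  (hα : ∀ d : D, ∃ g : B, r₁ g = algebraMap D 𝕜 d ∧ r₂ g = Φ (algebraMap D 𝕜 d))
  (hβ : ∀ d : D, ∃ g : B, r₁ g = Φ (algebraMap D 𝕜 d) ∧ r₂ g = algebraMap D 𝕜 d)
  (𝔫 : Ideal B) [h𝔫 : 𝔫.IsPrime] (h₁ : RingHom.ker r₁ ≤ 𝔫) (h₂ : RingHom.ker r₂ ≤ 𝔫)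

include hΦ hα hβ h₁ h₂ in
/-- **The Kronecker trick for a pair of unit fractions.** -/
theorem s35n_kron_pair {e₁ e₂ : 𝕜} {n₁ d₁ n₂ d₂ : D}
    (hn₁ : n₁ ∉ s35n_m₁ r₁ r₂ Φ hα 𝔫 h₁) (hd₁ : d₁ ∉ s35n_m₁ r₁ r₂ Φ hα 𝔫 h₁)
    (he₁ : e₁ * algebraMap D 𝕜 d₁ = algebraMap D 𝕜 n₁)
    (hn₂ : n₂ ∉ s35n_m₂ r₁ r₂ Φ hβ 𝔫 h₂) (hd₂ : d₂ ∉ s35n_m₂ r₁ r₂ Φ hβ 𝔫 h₂)
    (he₂ : e₂ * algebraMap D 𝕜 d₂ = algebraMap D 𝕜 n₂) :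
    ∃ b b' : B, b ∉ 𝔫 ∧ b' ∉ 𝔫 ∧ r₁ b = e₁ / Φ (Φ e₁) * r₁ b' ∧ r₂ b = e₂ / Φ (Φ e₂) * r₂ b' := by
  obtain ⟨b₁, b₁', hb₁, hb₁', f₁, f₁'⟩ :=
    s35n_kron₁ r₁ r₂ Φ ΦD hΦ hα hβ 𝔫 h₁ h₂ hn₁ hd₁ he₁
  obtain ⟨b₂, b₂', hb₂, hb₂', f₂, f₂'⟩ :=
    s35n_kron₂ r₁ r₂ Φ ΦD hΦ hα hβ 𝔫 h₁ h₂ hn₂ hd₂ he₂
  refine ⟨b₁ * b₂, b₁' * b₂', fun hc => (h𝔫.mem_or_mem hc).elim hb₁ hb₂,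
    fun hc => (h𝔫.mem_or_mem hc).elim hb₁' hb₂', ?_, ?_⟩
  · rw [map_mul, map_mul, f₁, f₂]; ring
  · rw [map_mul, map_mul, f₁', f₂']; ring

variable (ψD : D ≃+* D) (Q : ℕ) (hQ : Q ≠ 0) (hΦψ : ∀ d : D, ΦD (ΦD (ψD d)) = d ^ Q)
  (ψ : 𝕜 →+* 𝕜) (hψ : ∀ d : D, ψ (algebraMap D 𝕜 d) = algebraMap D 𝕜 (ψD d))

include hΦ hα hβ h₁ h₂ hQ hΦψ hψ in
/-- **The `x`-part**: `e_i = ψ(β_i)`, `β_i ^ m = c_i · ψW_i/W_i` with `c_i` the image of a unit of `D`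
(a non-zero constant) ⇒ `b, b' ∈ B ∖ 𝔫` with `r_i b = (e_i / Φ²e_i) · r_i b'`. -/
theorem s35n_xKR (hne₁ : ∃ b ∈ 𝔫, r₁ b ≠ 0) (hne₂ : ∃ b ∈ 𝔫, r₂ b ≠ 0)
    {m : ℕ} (hm : m ≠ 0) {β₁ W₁ β₂ W₂ : 𝕜} (c₁ c₂ : Dˣ) (hW₁ : W₁ ≠ 0) (hW₂ : W₂ ≠ 0)
    (hβ₁ : β₁ ^ m = algebraMap D 𝕜 (c₁ : D) * (ψ W₁ / W₁))
    (hβ₂ : β₂ ^ m = algebraMap D 𝕜 (c₂ : D) * (ψ W₂ / W₂)) :
    ∃ b b' : B, b ∉ 𝔫 ∧ b' ∉ 𝔫 ∧ r₁ b = ψ β₁ / Φ (Φ (ψ β₁)) * r₁ b' ∧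
      r₂ b = ψ β₂ / Φ (Φ (ψ β₂)) * r₂ b' := by
  have hprime₁ := s35n_contr_isPrime r₁ (s35n_lift₁ r₁ r₂ Φ hα) 𝔫 h₁
  have hprime₂ := s35n_contr_isPrime r₂ (s35n_lift₂ r₁ r₂ Φ hβ) 𝔫 h₂
  obtain ⟨a₁, ha₁, ha₁0⟩ := hne₁
  obtain ⟨a₂, ha₂, ha₂0⟩ := hne₂
  have hbot₁ := s35n_contr_ne_bot r₁ (s35n_lift₁ r₁ r₂ Φ hα) 𝔫 h₁ ha₁ ha₁0
  have hbot₂ := s35n_contr_ne_bot r₂ (s35n_lift₂ r₁ r₂ Φ hβ) 𝔫 h₂ ha₂ ha₂0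
  let v₁ : HeightOneSpectrum D := ⟨s35n_m₁ r₁ r₂ Φ hα 𝔫 h₁, hprime₁, hbot₁⟩
  let v₂ : HeightOneSpectrum D := ⟨s35n_m₂ r₁ r₂ Φ hβ 𝔫 h₂, hprime₂, hbot₂⟩
  have hv₁ : ∀ d : D, d ∈ v₁.asIdeal ↔ ψD d ∈ v₁.asIdeal :=
    s35n_contr_psi₁ r₁ r₂ Φ ΦD hΦ hα hβ 𝔫 h₁ h₂ ψD Q hQ hΦψ
  have hv₂ : ∀ d : D, d ∈ v₂.asIdeal ↔ ψD d ∈ v₂.asIdeal :=
    s35n_contr_psi₂ r₁ r₂ Φ ΦD hΦ hα hβ 𝔫 h₁ h₂ ψD Q hQ hΦψ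
  have hρ₁ : v₁.valuation 𝕜 (ψ β₁) = 1 :=
    s35n_val_psi_root v₁ ψ ψD hψ hv₁ hW₁ hm (s35n_val_unit v₁ c₁) hβ₁
  have hρ₂ : v₂.valuation 𝕜 (ψ β₂) = 1 :=
    s35n_val_psi_root v₂ ψ ψD hψ hv₂ hW₂ hm (s35n_val_unit v₂ c₂) hβ₂
  obtain ⟨n₁, d₁, hn₁, hd₁, e₁⟩ := s35n_unit_frac v₁ hρ₁
  obtain ⟨n₂, d₂, hn₂, hd₂, e₂⟩ := s35n_unit_frac v₂ hρ₂
  exact s35n_kron_pair r₁ r₂ Φ ΦD hΦ hα hβ 𝔫 h₁ h₂ hn₁ hd₁ e₁ hn₂ hd₂ e₂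

end Kron

end Fermat.Agent.Lib.S35
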