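/-
S35 project, node package (helper8), part 6: **THE `x`-PART AT THE CROSSING POINTS OF `X₀(M q)`**
(F-form of `s35n_xKR`, `NXKron.lean`): the `(b₁, b₁')` of helper9's `s35f_nodeGen_of_frac`.

`x` a function of level `M q`, a unit of `V_∞` and of `V_0`, with
  `red_i x = e_i / Φ²e_i`,  `e_i = ψ̃²(β_i)`,  `β_i ^ m = C a_i · ψ̃²(W_i) / W_i`
(`β_i, W_i ∈ Fb`, `a_i ∈ κˣ`; in the application `W_i = f̄_i`, helper2's `MNorm`).  Then for every prime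
`𝔫 ⊇ ker r₁ + ker r₂` of a chart ring `B` there are `b₁, b₁' ∈ B ∖ 𝔫` with
  `x · b₁' ≡ b₁ mod ϖ V_i`  for both `i`.
-/
import Fermat.Agent.Lib.S35.MKron
import Fermat.Agent.Lib.S35.NXKron

set_option autoImplicit false
set_option linter.unusedSectionVars false
set_option linter.style.haveILetI false

noncomputable section

namespace Fermat.Agent.Lib.S35

open ModularCurve AlgebraicCurve HahnSeries Fermat.Agent.Lib.FF Fermat.Agent.Lib.S18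
  Fermat.Agent.Lib.S34 Fermat.Agent.Lib.S37

local notation "Kb" => AlgebraicClosure ℚ

variable {K₀ : Type*} [Field K₀] [Algebra ℚ K₀] {κ : Type*} [Field κ] (G : s18g_GaussData K₀ κ)
variable (φ : K₀ →+* Kb) (M q : ℕ) [NeZero M] [NeZero q] (hq : q.Prime) (hqM : ¬ q ∣ M)
variable (S : Set (Place K₀ (s34m_F K₀ (M * q))))

local notation "BB" => s34x_ring (s34x_infRing (s34m_VV G φ M q hq hqM)) S

variable [hqF : Fact q.Prime] [CharP κ q]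
variable (Fb : IntermediateField κ (LaurentSeries κ))
  {D : Type*} [CommRing D] [IsDedekindDomain D] [Algebra D Fb] [IsFractionRing D Fb]

/-- **The `x`-part at a crossing point.** -/
theorem s35n_xKR_concrete
    (hF : ∀ (i : Bool) (y : ↥(s34m_VV G φ M q hq hqM i)), s35m_redVV G φ M q hq hqM i y ∈ Fb)
    (hΦFb : ∀ x ∈ Fb, qExpand κ q x ∈ Fb)
    (hψFb : ∀ x ∈ Fb, coeffMap (frobenius κ q) x ∈ Fb)
    (BM : Set (s34m_F K₀ M)) (hBMV : ∀ g ∈ BM, g ∈ s34m_Vinf G M)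
    (hαB : ∀ g ∈ BM, heckeAlphaBar K₀ M q g ∈ BB)
    (hβB : ∀ g ∈ BM, ∃ b' ∈ BB,
      ∃ z, z ∈ s34m_Vinf G (M * q) ∧ z ∈ s34m_Vzero G φ M q hq hqM ∧
        b' - heckeBetaBar K₀ M q g = s34m_unif G (M * q) * z)
    (hlift : ∀ d : D, ∃ g, ∃ hg : g ∈ BM,
      s34m_redInf G M ⟨g, hBMV g hg⟩ = ((algebraMap D Fb d : Fb) : LaurentSeries κ))
    (ΦD : D → D)
    (hΦD : ∀ d : D, qExpand κ q ((algebraMap D Fb d : Fb) : LaurentSeries κ) =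
      ((algebraMap D Fb (ΦD d) : Fb) : LaurentSeries κ))
    (ψD : D ≃+* D)
    (hψD : ∀ d : D, s35m_Psi2 q ((algebraMap D Fb d : Fb) : LaurentSeries κ) =
      ((algebraMap D Fb (ψD d) : Fb) : LaurentSeries κ))
    (hnc : ∃ d : D, ΦD (ΦD d) ≠ d)
    (hconst : ∀ a : κ, a ≠ 0 → ∃ d : Dˣ,
      ((algebraMap D Fb (d : D) : Fb) : LaurentSeries κ) = HahnSeries.C a)
    (𝔫 : Ideal BB) [h𝔫 : 𝔫.IsPrime]
    (h1 : RingHom.ker (s34df_r1 G φ M q hq hqM S) ≤ 𝔫)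
    (h2 : RingHom.ker (s34df_r2 G φ M q hq hqM S) ≤ 𝔫)
    (m : ℕ) (hm : m ≠ 0)
    (x : s34m_F K₀ (M * q)) (hx : ∀ i, x ∈ s34m_VV G φ M q hq hqM i)
    (β₁ W₁ β₂ W₂ : LaurentSeries κ) (hβ₁Fb : β₁ ∈ Fb) (hW₁Fb : W₁ ∈ Fb) (hβ₂Fb : β₂ ∈ Fb)
    (hW₂Fb : W₂ ∈ Fb) (hW₁ : W₁ ≠ 0) (hW₂ : W₂ ≠ 0) (a₁ a₂ : κ) (ha₁ : a₁ ≠ 0) (ha₂ : a₂ ≠ 0)
    (hβ₁ : β₁ ^ m = HahnSeries.C a₁ * (s35m_Psi2 q W₁ / W₁))
    (hβ₂ : β₂ ^ m = HahnSeries.C a₂ * (s35m_Psi2 q W₂ / W₂))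
    (hx₁ : s35m_redVV G φ M q hq hqM true ⟨x, hx true⟩ =
      s35m_Psi2 q β₁ / s35m_Phi2 q (s35m_Psi2 q β₁))
    (hx₂ : s35m_redVV G φ M q hq hqM false ⟨x, hx false⟩ =
      s35m_Psi2 q β₂ / s35m_Phi2 q (s35m_Psi2 q β₂)) :
    ∃ b₁ b₁' : BB, b₁ ∉ 𝔫 ∧ b₁' ∉ 𝔫 ∧ ∀ i : Bool, ∃ y ∈ s34m_VV G φ M q hq hqM i,
      x * (b₁' : s34m_F K₀ (M * q)) - (b₁ : s34m_F K₀ (M * q)) = s34m_unif G (M * q) * y := by
  classical
  obtain ⟨r₁, r₂, Φ, ψ, hr₁c, hr₂c, hΦc, hψc, hker₁, hker₂, hΦ, hψ, hΦψ', hΦψ, hα, hβ, hne₁, hne₂⟩ :=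
    s35n_setup G φ M q hq hqM S Fb hF hΦFb hψFb BM hBMV hαB hβB hlift ΦD hΦD ψD hψD hnc 𝔫 h1 h2
  obtain ⟨c₁, hc₁⟩ := hconst a₁ ha₁
  obtain ⟨c₂, hc₂⟩ := hconst a₂ ha₂
  -- the data in `Fb`
  obtain ⟨B₁, hB₁⟩ : ∃ z : Fb, (z : LaurentSeries κ) = β₁ := ⟨⟨β₁, hβ₁Fb⟩, rfl⟩
  obtain ⟨B₂, hB₂⟩ : ∃ z : Fb, (z : LaurentSeries κ) = β₂ := ⟨⟨β₂, hβ₂Fb⟩, rfl⟩
  obtain ⟨w₁, hw₁⟩ : ∃ z : Fb, (z : LaurentSeries κ) = W₁ := ⟨⟨W₁, hW₁Fb⟩, rfl⟩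
  obtain ⟨w₂, hw₂⟩ : ∃ z : Fb, (z : LaurentSeries κ) = W₂ := ⟨⟨W₂, hW₂Fb⟩, rfl⟩
  have hw₁0 : w₁ ≠ 0 := by
    rintro rfl
    exact hW₁ hw₁.symm
  have hw₂0 : w₂ ≠ 0 := by
    rintro rfl
    exact hW₂ hw₂.symm
  have hB₁e : B₁ ^ m = algebraMap D Fb (c₁ : D) * (ψ w₁ / w₁) := by
    apply Subtype.ext
    simp only [SubmonoidClass.coe_pow, MulMemClass.coe_mul, IntermediateField.coe_div, hψc, hB₁,
      hw₁, hc₁]
    exact hβ₁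
  have hB₂e : B₂ ^ m = algebraMap D Fb (c₂ : D) * (ψ w₂ / w₂) := by
    apply Subtype.ext
    simp only [SubmonoidClass.coe_pow, MulMemClass.coe_mul, IntermediateField.coe_div, hψc, hB₂,
      hw₂, hc₂]
    exact hβ₂
  obtain ⟨b, b', hb, hb', e₁, e₂⟩ := s35n_xKR r₁ r₂ Φ ΦD hΦ hα hβ 𝔫 hker₁ hker₂ ψD (q * q)
    (Nat.mul_ne_zero hq.ne_zero hq.ne_zero) hΦψ ψ hψ hne₁ hne₂ hm c₁ c₂ hw₁0 hw₂0 hB₁e hB₂e
  have hcoe : ∀ (Bz : Fb) (βz : LaurentSeries κ), (Bz : LaurentSeries κ) = βz →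
      ((ψ Bz / Φ (Φ (ψ Bz)) : Fb) : LaurentSeries κ) =
        s35m_Psi2 q βz / s35m_Phi2 q (s35m_Psi2 q βz) := by
    intro Bz βz h
    simp only [IntermediateField.coe_div, hΦc, hψc, s35m_Phi2_apply, h]
  refine ⟨b, b', hb, hb', ?_⟩
  intro i
  cases i
  · have hmem : x * (b' : s34m_F K₀ (M * q)) - (b : s34m_F K₀ (M * q)) ∈
        s34m_VV G φ M q hq hqM false :=
      (s34m_VV G φ M q hq hqM false).sub_mem ((s34m_VV G φ M q hq hqM false).mul_mem _ _ (hx false)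
        (s35n_ring_mem_VV G φ M q hq hqM S b' false)) (s35n_ring_mem_VV G φ M q hq hqM S b false)
    have h0 : s35m_redVV G φ M q hq hqM false ⟨_, hmem⟩ = 0 := by
      have hsplit : (⟨_, hmem⟩ : ↥(s34m_VV G φ M q hq hqM false)) =
          ⟨x, hx false⟩ * ⟨_, s35n_ring_mem_VV G φ M q hq hqM S b' false⟩ -
            ⟨_, s35n_ring_mem_VV G φ M q hq hqM S b false⟩ := rfl
      rw [hsplit, map_sub, map_mul, hx₂, ← hcoe B₂ β₂ hB₂]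
      have e₂' := congrArg (fun z : Fb => (z : LaurentSeries κ)) e₂
      simp only [MulMemClass.coe_mul, hr₂c] at e₂'
      rw [sub_eq_zero]
      exact e₂'.symm
    exact (s35n_redVV_eq_zero_iff G φ M q hq hqM false ⟨_, hmem⟩).mp h0
  · have hmem : x * (b' : s34m_F K₀ (M * q)) - (b : s34m_F K₀ (M * q)) ∈
        s34m_VV G φ M q hq hqM true :=
      (s34m_VV G φ M q hq hqM true).sub_mem ((s34m_VV G φ M q hq hqM true).mul_mem _ _ (hx true)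
        (s35n_ring_mem_VV G φ M q hq hqM S b' true)) (s35n_ring_mem_VV G φ M q hq hqM S b true)
    have h0 : s35m_redVV G φ M q hq hqM true ⟨_, hmem⟩ = 0 := by
      have hsplit : (⟨_, hmem⟩ : ↥(s34m_VV G φ M q hq hqM true)) =
          ⟨x, hx true⟩ * ⟨_, s35n_ring_mem_VV G φ M q hq hqM S b' true⟩ -
            ⟨_, s35n_ring_mem_VV G φ M q hq hqM S b true⟩ := rfl
      rw [hsplit, map_sub, map_mul, hx₁, ← hcoe B₁ β₁ hB₁]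
      have e₁' := congrArg (fun z : Fb => (z : LaurentSeries κ)) e₁
      simp only [MulMemClass.coe_mul, hr₁c] at e₁'
      rw [sub_eq_zero]
      exact e₁'.symm
    exact (s35n_redVV_eq_zero_iff G φ M q hq hqM true ⟨_, hmem⟩).mp h0

end Fermat.Agent.Lib.S35
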