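/-
S35 project, node package (helper8), part 7: **hKR AND THE `x`-PART FROM S18's `hmain`** — the twin of
`s34df_contract_of_hmain` (`Lib/S34/DFibreD.lean`), with VERBATIM the same hypotheses
(`hdeg hT hdegM w hwV hcoord hwtw hmain S hαB hβB`) plus the Frobenius lift `σ₀`.

`F̄ = modularFunctionFieldFullC κ M`, `D = integralClosure κ[X] F̄` (`X ↦ w̄`, a good coordinate with
coefficients in the prime field).  This file constructs the data required by `s35n_hKR_concrete` /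
`s35n_xKR_concrete`:
* `s35n_twistD τ` : the automorphism of `D` induced by a coefficientwise automorphism (`τ w̄ = w̄`);
* `ψD = (twist by Frobenius)²`, `ΦD d = (Fr⁻¹ d)^q`, `hnc` (`Φ² w̄ ≠ w̄`: `w̄` is transcendental),
  `hconst` (non-zero constants are units of `D`), (FRAC) from helper6's `MFrac.lean`;
and concludes
* `s35n_hKR_of_hmain`, `s35n_xKR_of_hmain`.
-/
import Fermat.Agent.Lib.S35.MXKron
import Fermat.Agent.Lib.S35.MFrac
import Fermat.Agent.Lib.S34.DFibreD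

set_option autoImplicit false
set_option linter.unusedSectionVars false
set_option linter.style.haveILetI false

noncomputable section

namespace Fermat.Agent.Lib.S35

open ModularCurve AlgebraicCurve HahnSeries Polynomial Fermat.Agent.Lib.FF Fermat.Agent.Lib.S18
  Fermat.Agent.Lib.S34 Fermat.Agent.Lib.S37

local notation "Kb" => AlgebraicClosure ℚ

/-! ### Series fixed by `T ↦ T^N` are constant -/

section Fixed

variable {κ : Type*} [Field κ]

/-- A Laurent series fixed by `T ↦ T^N`, `N ≥ 2`, is constant. -/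
theorem s35n_qExpand_fixed_const (N : ℕ) [NeZero N] (hN : 2 ≤ N) (y : LaurentSeries κ)
    (h : qExpand κ N y = y) : y = HahnSeries.C (y.coeff 0) := by
  have key : ∀ n : ℕ, ∀ k : ℤ, k.natAbs = n → k ≠ 0 → y.coeff k = 0 := by
    intro n
    induction n using Nat.strong_induction_on with
    | _ n ih =>
      intro k hk hk0
      rw [← h]
      by_cases hdvd : (N : ℤ) ∣ k
      · obtain ⟨k₁, rfl⟩ := hdvd
        rw [qExpand_coeff_mul]
        have hk₁0 : k₁ ≠ 0 := by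
          rintro rfl
          exact hk0 (mul_zero _)
        refine ih k₁.natAbs ?_ k₁ rfl hk₁0
        rw [← hk, Int.natAbs_mul, Int.natAbs_natCast]
        have : 0 < k₁.natAbs := Int.natAbs_pos.mpr hk₁0
        nlinarith
      · exact qExpand_coeff_of_not_dvd N y hdvd
  ext k
  by_cases hk : k = 0
  · subst hk
    rw [HahnSeries.C_apply, HahnSeries.coeff_single_same]
  · rw [key k.natAbs k rfl hk, HahnSeries.C_apply, HahnSeries.coeff_single_of_ne hk]

/-- A transcendental series is not fixed by `Φ² = (T ↦ T^{q²})`. -/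
theorem s35n_qExpand_sq_ne (q : ℕ) [NeZero q] (hq : 2 ≤ q) {y : LaurentSeries κ}
    (hy : Transcendental κ y) : qExpand κ q (qExpand κ q y) ≠ y := by
  intro h
  haveI : NeZero (q * q) := ⟨Nat.mul_ne_zero (NeZero.ne q) (NeZero.ne q)⟩
  rw [qExpand_qExpand] at h
  have h2 : 2 ≤ q * q := by nlinarith
  have hc := s35n_qExpand_fixed_const (q * q) h2 y h
  apply hy
  have e : HahnSeries.C (y.coeff 0) = algebraMap κ (LaurentSeries κ) (y.coeff 0) := by
    rw [algebraMap_laurentSeries_eq_single, HahnSeries.C_apply]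
  rw [hc, e]
  exact isAlgebraic_algebraMap (R := κ) (A := LaurentSeries κ) (y.coeff 0)

end Fixed

/-! ### The automorphisms of `D` induced by coefficientwise automorphisms -/

section Twist

variable {κ : Type*} [Field κ] (M : ℕ) [NeZero M]
variable (x : ↥(modularFunctionFieldFullC κ M))
  (hx : ∀ τ : κ ≃+* κ, coeffMap (τ : κ →+* κ) (x : LaurentSeries κ) = (x : LaurentSeries κ))
  [Algebra κ[X] ↥(modularFunctionFieldFullC κ M)]
  (hA : ∀ p : κ[X], algebraMap κ[X] ↥(modularFunctionFieldFullC κ M) p = Polynomial.aeval x p)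

/-- The automorphism of `D = integralClosure κ[X] F̄_M` induced by `τ ∈ Aut κ` (`τ x = x`). -/
def s35n_twistD (τ : κ ≃+* κ) :
    ↥(integralClosure κ[X] ↥(modularFunctionFieldFullC κ M)) ≃+*
      ↥(integralClosure κ[X] ↥(modularFunctionFieldFullC κ M)) where
  toFun d := ⟨s37e_coeffRingAut M τ d, s34df_isIntegral_twist M τ x (hx τ) hA d d.2⟩
  invFun d := ⟨s37e_coeffRingAut M τ.symm d, s34df_isIntegral_twist M τ.symm x (hx τ.symm) hA d d.2⟩
  left_inv d := Subtype.ext ((s37e_coeffRingAut M τ).left_inv (d : ↥(modularFunctionFieldFullC κ M)))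
  right_inv d := Subtype.ext
    ((s37e_coeffRingAut M τ).right_inv (d : ↥(modularFunctionFieldFullC κ M)))
  map_mul' _ _ := Subtype.ext (map_mul (s37e_coeffRingAut M τ) _ _)
  map_add' _ _ := Subtype.ext (map_add (s37e_coeffRingAut M τ) _ _)

theorem s35n_twistD_coe (τ : κ ≃+* κ)
    (d : ↥(integralClosure κ[X] ↥(modularFunctionFieldFullC κ M))) :
    (((s35n_twistD M x hx hA τ d : ↥(integralClosure κ[X] ↥(modularFunctionFieldFullC κ M))) :
      ↥(modularFunctionFieldFullC κ M)) : LaurentSeries κ) =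
      coeffMap (τ : κ →+* κ) ((d : ↥(modularFunctionFieldFullC κ M)) : LaurentSeries κ) := rfl

end Twist

/-! ### The data `ΦD`, `ψD`, `hnc`, `hconst` for `D = integralClosure κ[X] F̄_M` -/

section Data

variable {κ : Type*} [Field κ] (M : ℕ) [NeZero M] (q : ℕ) [hqF : Fact q.Prime] [CharP κ q]
  [PerfectRing κ q]
variable (x : ↥(modularFunctionFieldFullC κ M))
  (hx : ∀ τ : κ ≃+* κ, coeffMap (τ : κ →+* κ) (x : LaurentSeries κ) = (x : LaurentSeries κ))
  [Algebra κ[X] ↥(modularFunctionFieldFullC κ M)]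
  (hA : ∀ p : κ[X], algebraMap κ[X] ↥(modularFunctionFieldFullC κ M) p = Polynomial.aeval x p)


/-- `ψD = (Frobenius twist)²` on `D`. -/
def s35n_psiD : ↥(integralClosure κ[X] ↥(modularFunctionFieldFullC κ M)) ≃+* ↥(integralClosure κ[X] ↥(modularFunctionFieldFullC κ M)) :=
  (s35n_twistD M x hx hA (frobeniusEquiv κ q)).trans (s35n_twistD M x hx hA (frobeniusEquiv κ q))

theorem s35n_psiD_coe (d : ↥(integralClosure κ[X] ↥(modularFunctionFieldFullC κ M))) :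
    (((s35n_psiD M q x hx hA d : ↥(integralClosure κ[X] ↥(modularFunctionFieldFullC κ M))) : ↥(modularFunctionFieldFullC κ M)) : LaurentSeries κ) =
      s35m_Psi2 q ((d : ↥(modularFunctionFieldFullC κ M)) : LaurentSeries κ) := rfl

/-- `ΦD d = (Fr⁻¹ d)^q`. -/
def s35n_phiD (d : ↥(integralClosure κ[X] ↥(modularFunctionFieldFullC κ M))) : ↥(integralClosure κ[X] ↥(modularFunctionFieldFullC κ M)) := (s35n_twistD M x hx hA (frobeniusEquiv κ q).symm d) ^ q

theorem s35n_phiD_coe (d : ↥(integralClosure κ[X] ↥(modularFunctionFieldFullC κ M))) :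
    (((s35n_phiD M q x hx hA d : ↥(integralClosure κ[X] ↥(modularFunctionFieldFullC κ M))) : ↥(modularFunctionFieldFullC κ M)) : LaurentSeries κ) =
      qExpand κ q ((d : ↥(modularFunctionFieldFullC κ M)) : LaurentSeries κ) := by
  rw [s37e_qExpand_eq_pow q]
  rfl

include hA in
/-- the coordinate as an element of `D`. -/
theorem s35n_coord_integral : IsIntegral κ[X] x := by
  have h : x = algebraMap κ[X] ↥(modularFunctionFieldFullC κ M) Polynomial.X := by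
    rw [hA, Polynomial.aeval_X]
  rw [h]
  exact isIntegral_algebraMap

include hA in
/-- `hnc`: `Φ² x ≠ x` for a transcendental coordinate. -/
theorem s35n_hnc (hxt : Transcendental κ (x : LaurentSeries κ)) :
    ∃ d : ↥(integralClosure κ[X] ↥(modularFunctionFieldFullC κ M)), s35n_phiD M q x hx hA (s35n_phiD M q x hx hA d) ≠ d := by
  refine ⟨⟨x, s35n_coord_integral M x hA⟩, fun h => ?_⟩
  have h1 := congrArg (fun d : ↥(integralClosure κ[X] ↥(modularFunctionFieldFullC κ M)) => ((d : ↥(modularFunctionFieldFullC κ M)) : LaurentSeries κ)) h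
  simp only [s35n_phiD_coe] at h1
  exact s35n_qExpand_sq_ne q hqF.out.two_le hxt h1

include hA in
/-- `hconst`: non-zero constants are units of `D`. -/
theorem s35n_hconst (a : κ) (ha : a ≠ 0) : ∃ d : (↥(integralClosure κ[X] ↥(modularFunctionFieldFullC κ M)))ˣ,
    (((d : ↥(integralClosure κ[X] ↥(modularFunctionFieldFullC κ M))) : ↥(modularFunctionFieldFullC κ M)) : LaurentSeries κ) = HahnSeries.C a := by
  have hint : ∀ c : κ, IsIntegral κ[X] (algebraMap κ ↥(modularFunctionFieldFullC κ M) c) := by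
    intro c
    have h : algebraMap κ ↥(modularFunctionFieldFullC κ M) c =
        algebraMap κ[X] ↥(modularFunctionFieldFullC κ M) (Polynomial.C c) := by
      rw [hA, Polynomial.aeval_C]
    rw [h]
    exact isIntegral_algebraMap
  refine ⟨⟨⟨_, hint a⟩, ⟨_, hint a⁻¹⟩, ?_, ?_⟩, ?_⟩
  · apply Subtype.ext
    show algebraMap κ ↥(modularFunctionFieldFullC κ M) a *
      algebraMap κ ↥(modularFunctionFieldFullC κ M) a⁻¹ = 1
    rw [← map_mul, mul_inv_cancel₀ ha, map_one]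
  · apply Subtype.ext
    show algebraMap κ ↥(modularFunctionFieldFullC κ M) a⁻¹ *
      algebraMap κ ↥(modularFunctionFieldFullC κ M) a = 1
    rw [← map_mul, inv_mul_cancel₀ ha, map_one]
  · show ((algebraMap κ ↥(modularFunctionFieldFullC κ M) a : ↥(modularFunctionFieldFullC κ M)) :
      LaurentSeries κ) = HahnSeries.C a
    show algebraMap κ (LaurentSeries κ) a = HahnSeries.C a
    rw [algebraMap_laurentSeries_eq_single, HahnSeries.C_apply]

end Data

/-! ### hKR and the `x`-part from `hmain` -/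

section Final

variable {K₀ : Type} [Field K₀] [CharZero K₀] [Algebra ℚ K₀] {κ : Type} [Field κ]
  (G : s18g_GaussData K₀ κ) (φ : K₀ →+* Kb) (M q : ℕ) [NeZero M] [NeZero q]
  (hq : q.Prime) (hqM : ¬ q ∣ M) [CharP κ q] [PerfectField κ]

local notation "𝓕M" => laurentBaseChange K₀ (modularFunctionFieldFull M)
local notation "hFM" => (fun (f : LaurentSeries K₀)
  (hf : f ∈ laurentBaseChange K₀ (modularFunctionFieldFull M)) => s18g_baseChange_mem_Frac G M hf)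

include hq hqM in
/-- **hKR at every crossing prime of a chart of level `M q`, from S18's `hmain`** (hypotheses verbatim
those of `s34df_contract_of_hmain`, plus the Frobenius lift `σ₀`). -/
theorem s35n_hKR_of_hmain (hdeg : s34m_HDeg K₀ M q) (hT : s18g_HT κ M)
    (hdegM : s18g_HDeg K₀ M) (w : ↥𝓕M) (hwV : w ∈ s18g_V G 𝓕M hFM)
    (hcoord : s37b_Coord κ q
      ((s18g_redF G M hFM hT hdegM ⟨w, hwV⟩ : ↥(modularFunctionFieldFullC κ M)) : LaurentSeries κ))
    (hwtw : ∀ τ : κ ≃+* κ, coeffMap (τ : κ →+* κ)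
      ((s18g_redF G M hFM hT hdegM ⟨w, hwV⟩ : ↥(modularFunctionFieldFullC κ M)) : LaurentSeries κ) =
      ((s18g_redF G M hFM hT hdegM ⟨w, hwV⟩ : ↥(modularFunctionFieldFullC κ M)) : LaurentSeries κ))
    (hmain : letI := s18f_algF G M hT hdegM w hwV
      ∀ z : ↥(modularFunctionFieldFullC κ M), IsIntegral κ[X] z →
        ∃ (b : ↥𝓕M) (hb : b ∈ s18_ring (L₀ := K₀) (s18g_V G 𝓕M hFM) (s18_chart1 w)),
          s18g_redF G M hFM hT hdegM ⟨b, hb.1⟩ = z)
    (S : Set (Place K₀ (s34m_F K₀ (M * q))))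
    (hαB : ∀ g ∈ (s18_ring (L₀ := K₀) (s34m_Vinf G M) (s18_chart1 w) : Set (s34m_F K₀ M)),
      heckeAlphaBar K₀ M q g ∈ s34x_ring (s34x_infRing (s34m_VV G φ M q hq hqM)) S)
    (hβB : ∀ g ∈ (s18_ring (L₀ := K₀) (s34m_Vinf G M) (s18_chart1 w) : Set (s34m_F K₀ M)),
      ∃ b' ∈ s34x_ring (s34x_infRing (s34m_VV G φ M q hq hqM)) S,
      ∃ z, z ∈ s34m_Vinf G (M * q) ∧ z ∈ s34m_Vzero G φ M q hq hqM ∧
        b' - heckeBetaBar K₀ M q g = s34m_unif G (M * q) * z)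
    (σ₀ : K₀ ≃ₐ[ℚ] K₀)
    (hσA : ∀ a : K₀, a ∈ G.A → (σ₀ : K₀ ≃+* K₀) a ∈ G.A)
    (hσA' : ∀ a : K₀, a ∈ G.A → (σ₀.symm : K₀ ≃+* K₀) a ∈ G.A)
    (hσπ : ∀ a : G.A, G.π (s34m_sigmaA G (σ₀ : K₀ ≃+* K₀) hσA a) = G.π a ^ q)
    (𝔫 : Ideal (s34x_ring (s34x_infRing (s34m_VV G φ M q hq hqM)) S)) [h𝔫 : 𝔫.IsPrime]
    (h1 : RingHom.ker (s34df_r1 G φ M q hq hqM S) ≤ 𝔫)
    (h2 : RingHom.ker (s34df_r2 G φ M q hq hqM S) ≤ 𝔫)
    (U : s34m_F K₀ (M * q)) (hU : U ≠ 0) :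
    ∃ b b' : s34x_ring (s34x_infRing (s34m_VV G φ M q hq hqM)) S, b ∉ 𝔫 ∧ b' ∉ 𝔫 ∧
      ∀ i : Bool, ∃ y ∈ s34m_VV G φ M q hq hqM i,
        s35m_polyHom (s35m_tau2 M q σ₀) (q * q) U * (b' : s34m_F K₀ (M * q)) -
          (b : s34m_F K₀ (M * q)) = s34m_unif G (M * q) * y := by
  haveI : Fact q.Prime := ⟨hq⟩
  letI algF := s18f_algF G M hT hdegM w hwV
  have hA : ∀ p : κ[X], algebraMap κ[X] ↥(modularFunctionFieldFullC κ M) p =
      Polynomial.aeval (s18g_redF G M hFM hT hdegM ⟨w, hwV⟩) p :=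
    s18f_algF_apply G M hT hdegM w hwV
  obtain ⟨hDed, hFrac⟩ := s37b_dedekind_of_coord κ q M (s18g_redF G M hFM hT hdegM ⟨w, hwV⟩)
    hcoord hA
  haveI := hDed
  haveI := hFrac
  have hBMV : ∀ g ∈ (s18_ring (L₀ := K₀) (s34m_Vinf G M) (s18_chart1 w) : Set (s34m_F K₀ M)),
      g ∈ s34m_Vinf G M := fun g hg => hg.1
  have hlift : ∀ d : ↥(integralClosure κ[X] ↥(modularFunctionFieldFullC κ M)), ∃ g,
      ∃ hg : g ∈ (s18_ring (L₀ := K₀) (s34m_Vinf G M) (s18_chart1 w) : Set (s34m_F K₀ M)),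
      s34m_redInf G M ⟨g, hBMV g hg⟩ =
        ((algebraMap ↥(integralClosure κ[X] ↥(modularFunctionFieldFullC κ M))
          ↥(modularFunctionFieldFullC κ M) d : ↥(modularFunctionFieldFullC κ M)) :
          LaurentSeries κ) := by
    intro d
    obtain ⟨b, hb, e⟩ := hmain (d : ↥(modularFunctionFieldFullC κ M)) d.2
    refine ⟨b, hb, ?_⟩
    have h1 := congrArg (fun z : ↥(modularFunctionFieldFullC κ M) => (z : LaurentSeries κ)) e
    exact h1
  exact s35n_hKR_concrete G φ M q hq hqM S (modularFunctionFieldFullC κ M)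
    (D := ↥(integralClosure κ[X] ↥(modularFunctionFieldFullC κ M)))
    (fun i y => s35m_redVV_mem_fullC G φ M q hq hqM hdeg hT hdegM i y)
    (fun x hx => s34df_qExpand_mem_fullC M q hq hx)
    (fun x hx => s37e_coeffMap_mem_fullC M _ hx)
    _ hBMV hαB hβB hlift
    (s35n_phiD M q (s18g_redF G M hFM hT hdegM ⟨w, hwV⟩) hwtw hA)
    (fun d => (s35n_phiD_coe M q _ hwtw hA d).symm)
    (s35n_psiD M q (s18g_redF G M hFM hT hdegM ⟨w, hwV⟩) hwtw hA)
    (fun d => (s35n_psiD_coe M q _ hwtw hA d).symm)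
    (s35n_hnc M q _ hwtw hA hcoord.1)
    σ₀ hσA hσA' hσπ 𝔫 h1 h2 U hU

include hq hqM in
/-- **The `x`-part at every crossing prime of a chart of level `M q`, from S18's `hmain`.** -/
theorem s35n_xKR_of_hmain (hdeg : s34m_HDeg K₀ M q) (hT : s18g_HT κ M)
    (hdegM : s18g_HDeg K₀ M) (w : ↥𝓕M) (hwV : w ∈ s18g_V G 𝓕M hFM)
    (hcoord : s37b_Coord κ q
      ((s18g_redF G M hFM hT hdegM ⟨w, hwV⟩ : ↥(modularFunctionFieldFullC κ M)) : LaurentSeries κ))
    (hwtw : ∀ τ : κ ≃+* κ, coeffMap (τ : κ →+* κ)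
      ((s18g_redF G M hFM hT hdegM ⟨w, hwV⟩ : ↥(modularFunctionFieldFullC κ M)) : LaurentSeries κ) =
      ((s18g_redF G M hFM hT hdegM ⟨w, hwV⟩ : ↥(modularFunctionFieldFullC κ M)) : LaurentSeries κ))
    (hmain : letI := s18f_algF G M hT hdegM w hwV
      ∀ z : ↥(modularFunctionFieldFullC κ M), IsIntegral κ[X] z →
        ∃ (b : ↥𝓕M) (hb : b ∈ s18_ring (L₀ := K₀) (s18g_V G 𝓕M hFM) (s18_chart1 w)),
          s18g_redF G M hFM hT hdegM ⟨b, hb.1⟩ = z)
    (S : Set (Place K₀ (s34m_F K₀ (M * q))))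
    (hαB : ∀ g ∈ (s18_ring (L₀ := K₀) (s34m_Vinf G M) (s18_chart1 w) : Set (s34m_F K₀ M)),
      heckeAlphaBar K₀ M q g ∈ s34x_ring (s34x_infRing (s34m_VV G φ M q hq hqM)) S)
    (hβB : ∀ g ∈ (s18_ring (L₀ := K₀) (s34m_Vinf G M) (s18_chart1 w) : Set (s34m_F K₀ M)),
      ∃ b' ∈ s34x_ring (s34x_infRing (s34m_VV G φ M q hq hqM)) S,
      ∃ z, z ∈ s34m_Vinf G (M * q) ∧ z ∈ s34m_Vzero G φ M q hq hqM ∧
        b' - heckeBetaBar K₀ M q g = s34m_unif G (M * q) * z)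
    (𝔫 : Ideal (s34x_ring (s34x_infRing (s34m_VV G φ M q hq hqM)) S)) [h𝔫 : 𝔫.IsPrime]
    (h1 : RingHom.ker (s34df_r1 G φ M q hq hqM S) ≤ 𝔫)
    (h2 : RingHom.ker (s34df_r2 G φ M q hq hqM S) ≤ 𝔫)
    (m : ℕ) (hm : m ≠ 0)
    (x : s34m_F K₀ (M * q)) (hx : ∀ i, x ∈ s34m_VV G φ M q hq hqM i)
    (β₁ W₁ β₂ W₂ : LaurentSeries κ) (hβ₁Fb : β₁ ∈ modularFunctionFieldFullC κ M)
    (hW₁Fb : W₁ ∈ modularFunctionFieldFullC κ M) (hβ₂Fb : β₂ ∈ modularFunctionFieldFullC κ M)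
    (hW₂Fb : W₂ ∈ modularFunctionFieldFullC κ M) (hW₁ : W₁ ≠ 0) (hW₂ : W₂ ≠ 0)
    (a₁ a₂ : κ) (ha₁ : a₁ ≠ 0) (ha₂ : a₂ ≠ 0)
    (hβ₁ : haveI : Fact q.Prime := ⟨hq⟩
      β₁ ^ m = HahnSeries.C a₁ * (s35m_Psi2 q W₁ / W₁))
    (hβ₂ : haveI : Fact q.Prime := ⟨hq⟩
      β₂ ^ m = HahnSeries.C a₂ * (s35m_Psi2 q W₂ / W₂))
    (hx₁ : haveI : Fact q.Prime := ⟨hq⟩
      s35m_redVV G φ M q hq hqM true ⟨x, hx true⟩ =
        s35m_Psi2 q β₁ / s35m_Phi2 q (s35m_Psi2 q β₁))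
    (hx₂ : haveI : Fact q.Prime := ⟨hq⟩
      s35m_redVV G φ M q hq hqM false ⟨x, hx false⟩ =
        s35m_Psi2 q β₂ / s35m_Phi2 q (s35m_Psi2 q β₂)) :
    ∃ b₁ b₁' : s34x_ring (s34x_infRing (s34m_VV G φ M q hq hqM)) S, b₁ ∉ 𝔫 ∧ b₁' ∉ 𝔫 ∧
      ∀ i : Bool, ∃ y ∈ s34m_VV G φ M q hq hqM i,
        x * (b₁' : s34m_F K₀ (M * q)) - (b₁ : s34m_F K₀ (M * q)) =
          s34m_unif G (M * q) * y := by
  haveI : Fact q.Prime := ⟨hq⟩
  letI algF := s18f_algF G M hT hdegM w hwV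
  have hA : ∀ p : κ[X], algebraMap κ[X] ↥(modularFunctionFieldFullC κ M) p =
      Polynomial.aeval (s18g_redF G M hFM hT hdegM ⟨w, hwV⟩) p :=
    s18f_algF_apply G M hT hdegM w hwV
  obtain ⟨hDed, hFrac⟩ := s37b_dedekind_of_coord κ q M (s18g_redF G M hFM hT hdegM ⟨w, hwV⟩)
    hcoord hA
  haveI := hDed
  haveI := hFrac
  have hBMV : ∀ g ∈ (s18_ring (L₀ := K₀) (s34m_Vinf G M) (s18_chart1 w) : Set (s34m_F K₀ M)),
      g ∈ s34m_Vinf G M := fun g hg => hg.1
  have hlift : ∀ d : ↥(integralClosure κ[X] ↥(modularFunctionFieldFullC κ M)), ∃ g,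
      ∃ hg : g ∈ (s18_ring (L₀ := K₀) (s34m_Vinf G M) (s18_chart1 w) : Set (s34m_F K₀ M)),
      s34m_redInf G M ⟨g, hBMV g hg⟩ =
        ((algebraMap ↥(integralClosure κ[X] ↥(modularFunctionFieldFullC κ M))
          ↥(modularFunctionFieldFullC κ M) d : ↥(modularFunctionFieldFullC κ M)) :
          LaurentSeries κ) := by
    intro d
    obtain ⟨b, hb, e⟩ := hmain (d : ↥(modularFunctionFieldFullC κ M)) d.2
    refine ⟨b, hb, ?_⟩
    have h1 := congrArg (fun z : ↥(modularFunctionFieldFullC κ M) => (z : LaurentSeries κ)) e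
    exact h1
  exact s35n_xKR_concrete G φ M q hq hqM S (modularFunctionFieldFullC κ M)
    (D := ↥(integralClosure κ[X] ↥(modularFunctionFieldFullC κ M)))
    (fun i y => s35m_redVV_mem_fullC G φ M q hq hqM hdeg hT hdegM i y)
    (fun x hx => s34df_qExpand_mem_fullC M q hq hx)
    (fun x hx => s37e_coeffMap_mem_fullC M _ hx)
    _ hBMV hαB hβB hlift
    (s35n_phiD M q (s18g_redF G M hFM hT hdegM ⟨w, hwV⟩) hwtw hA)
    (fun d => (s35n_phiD_coe M q _ hwtw hA d).symm)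
    (s35n_psiD M q (s18g_redF G M hFM hT hdegM ⟨w, hwV⟩) hwtw hA)
    (fun d => (s35n_psiD_coe M q _ hwtw hA d).symm)
    (s35n_hnc M q _ hwtw hA hcoord.1)
    (s35n_hconst M _ hA)
    𝔫 h1 h2 m hm x hx β₁ W₁ β₂ W₂ hβ₁Fb hW₁Fb hβ₂Fb hW₂Fb hW₁ hW₂ a₁ a₂ ha₁ ha₂ hβ₁ hβ₂ hx₁ hx₂

end Final

end Fermat.Agent.Lib.S35
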