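/-
S35 project, node package (helper8), part 8: hKR and the `x`-part FROM helper4's `s35g_ChartData`
(`Geo.lean`) — `s35n_hKR_of_hmain` / `s35n_xKR_of_hmain` with the hypothesis block packed into the
single Prop `s35g_ChartData G φ M q hq hqM S`.
-/
import Fermat.Agent.Lib.S35.MKronD
import Fermat.Agent.Lib.S35.Geo

set_option autoImplicit false
set_option linter.unusedSectionVars false
set_option linter.style.haveILetI false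

noncomputable section

namespace Fermat.Agent.Lib.S35

open ModularCurve AlgebraicCurve HahnSeries Polynomial Fermat.Agent.Lib.FF Fermat.Agent.Lib.S18
  Fermat.Agent.Lib.S34 Fermat.Agent.Lib.S37

local notation "Kb" => AlgebraicClosure ℚ

variable {K₀ : Type} [Field K₀] [CharZero K₀] [Algebra ℚ K₀] {κ : Type} [Field κ]
  (G : s18g_GaussData K₀ κ) (φ : K₀ →+* Kb) (M q : ℕ) [NeZero M] [NeZero q]
  (hq : q.Prime) (hqM : ¬ q ∣ M) [CharP κ q] [PerfectField κ]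

/-- **hKR at every crossing prime, from `s35g_ChartData`.** -/
theorem s35n_hKR_of_chartData (S : Set (Place K₀ (s34m_F K₀ (M * q))))
    (hC : s35g_ChartData G φ M q hq hqM S)
    (σ₀ : K₀ ≃ₐ[ℚ] K₀)
    (hσA : ∀ a : K₀, a ∈ G.A → (σ₀ : K₀ ≃+* K₀) a ∈ G.A)
    (hσA' : ∀ a : K₀, a ∈ G.A → (σ₀.symm : K₀ ≃+* K₀) a ∈ G.A)
    (hσπ : ∀ a : G.A, G.π (s34m_sigmaA G (σ₀ : K₀ ≃+* K₀) hσA a) = G.π a ^ q)
    (𝔫 : Ideal (s34x_ring (s34x_infRing (s34m_VV G φ M q hq hqM)) S)) [h𝔫 : 𝔫.IsPrime]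
    (h1 : RingHom.ker (s34df_r1 G φ M q hq hqM S) ≤ 𝔫)
    (h2 : RingHom.ker (s34df_r2 G φ M q hq hqM S) ≤ 𝔫)
    (U : s34m_F K₀ (M * q)) (hU : U ≠ 0) :
    ∃ b b' : s34x_ring (s34x_infRing (s34m_VV G φ M q hq hqM)) S, b ∉ 𝔫 ∧ b' ∉ 𝔫 ∧
      ∀ i : Bool, ∃ y ∈ s34m_VV G φ M q hq hqM i,
        s35m_polyHom (s35m_tau2 M q σ₀) (q * q) U * (b' : s34m_F K₀ (M * q)) -
          (b : s34m_F K₀ (M * q)) = s34m_unif G (M * q) * y := by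
  obtain ⟨hT, hdegM, w, hwV, hdeg, hcoord, hwtw, hmain, hαB, hβB⟩ := hC
  exact s35n_hKR_of_hmain G φ M q hq hqM hdeg hT hdegM w hwV hcoord hwtw hmain S hαB hβB σ₀
    hσA hσA' hσπ 𝔫 h1 h2 U hU

/-- **The `x`-part at every crossing prime, from `s35g_ChartData`.** -/
theorem s35n_xKR_of_chartData (S : Set (Place K₀ (s34m_F K₀ (M * q))))
    (hC : s35g_ChartData G φ M q hq hqM S)
    (𝔫 : Ideal (s34x_ring (s34x_infRing (s34m_VV G φ M q hq hqM)) S)) [h𝔫 : 𝔫.IsPrime]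
    (h1 : RingHom.ker (s34df_r1 G φ M q hq hqM S) ≤ 𝔫)
    (h2 : RingHom.ker (s34df_r2 G φ M q hq hqM S) ≤ 𝔫)
    (m : ℕ) (hm : m ≠ 0)
    (x : s34m_F K₀ (M * q)) (hx : ∀ i, x ∈ s34m_VV G φ M q hq hqM i)
    (β₁ W₁ β₂ W₂ : LaurentSeries κ) (hβ₁Fb : β₁ ∈ modularFunctionFieldFullC κ M)
    (hW₁Fb : W₁ ∈ modularFunctionFieldFullC κ M) (hβ₂Fb : β₂ ∈ modularFunctionFieldFullC κ M)
    (hW₂Fb : W₂ ∈ modularFunctionFieldFullC κ M) (hW₁ : W₁ ≠ 0) (hW₂ : W₂ ≠ 0)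
    (a₁ a₂ : κ) (ha₁ : a₁ ≠ 0) (ha₂ : a₂ ≠ 0)
    (hβ₁ : haveI : Fact q.Prime := ⟨hq⟩
      β₁ ^ m = HahnSeries.C a₁ * (s35m_Psi2 q W₁ / W₁))
    (hβ₂ : haveI : Fact q.Prime := ⟨hq⟩
      β₂ ^ m = HahnSeries.C a₂ * (s35m_Psi2 q W₂ / W₂))
    (hx₁ : haveI : Fact q.Prime := ⟨hq⟩
      s35m_redVV G φ M q hq hqM true ⟨x, hx true⟩ =
        s35m_Psi2 q β₁ / s35m_Phi2 q (s35m_Psi2 q β₁))
    (hx₂ : haveI : Fact q.Prime := ⟨hq⟩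
      s35m_redVV G φ M q hq hqM false ⟨x, hx false⟩ =
        s35m_Psi2 q β₂ / s35m_Phi2 q (s35m_Psi2 q β₂)) :
    ∃ b₁ b₁' : s34x_ring (s34x_infRing (s34m_VV G φ M q hq hqM)) S, b₁ ∉ 𝔫 ∧ b₁' ∉ 𝔫 ∧
      ∀ i : Bool, ∃ y ∈ s34m_VV G φ M q hq hqM i,
        x * (b₁' : s34m_F K₀ (M * q)) - (b₁ : s34m_F K₀ (M * q)) =
          s34m_unif G (M * q) * y := by
  obtain ⟨hT, hdegM, w, hwV, hdeg, hcoord, hwtw, hmain, hαB, hβB⟩ := hC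
  exact s35n_xKR_of_hmain G φ M q hq hqM hdeg hT hdegM w hwV hcoord hwtw hmain S hαB hβB
    𝔫 h1 h2 m hm x hx β₁ W₁ β₂ W₂ hβ₁Fb hW₁Fb hβ₂Fb hW₂Fb hW₁ hW₂ a₁ a₂ ha₁ ha₂ hβ₁ hβ₂ hx₁ hx₂

end Fermat.Agent.Lib.S35
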