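/-
S35 project, node package (helper8), part 9: THE CROSSING-PRIME CASE AS ONE LEMMA.

* `s35n_P_eq_polyHom` : helper5's operator `s35q_P (arithmeticGalois _ σ₀) (q ^ 2)` on
  `𝓕 = s34m_F K₀ (M * q)` IS helper6's `s35m_polyHom (s35m_tau2 M q σ₀) (q * q)`
  (`s35n_P_eq_polyHom_of` : the same for any `g` with `g • g • y = τ² y`);
* `s35n_nodeGen_cross` : at a prime `𝔫` of the chart ring `B = s34x_ring (V_∞ ⊓ V_0) S` containing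
  both `ker r₁` and `ker r₂` (a crossing point of the special fibre), from
    - helper4's `s35g_ChartData` (chart data of `S`), a Frobenius lift `σ₀`,
    - `Φ ≠ 0` with `E(Pf) ≤ ord (P(σ)Φ)` at the places of `S` through `𝔫` (output of helper5's
      `s35f_genP`), `Pf = P(σ) f`,
    - the global function `x` with `red_i x = e_i / Φ² e_i`, `e_i = Ψ² β_i`,
      `β_i ^ m = C a_i · Ψ² W_i / W_i` (output of helper2's [MNorm]),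
  the local generator contract `s35f_NodeGen` of helper9's `s35f_zero` for `Pf / x ^ m`:
  hKR (`U := Φ`) + the `x`-part + `s35f_nodeGen_of_frac`.
  The semilinear automorphism is a variable `g` with `hg : ∀ y, g • g • y = s35m_tau2 M q σ₀ y`
  (for `g = arithmeticGalois (modularFunctionFieldFull (M * q)) σ₀` this is `fun _ => rfl`:
  `s35n_smul_smul_eq_tau2`).
-/
import Fermat.Agent.Lib.S35.MKronG
import Fermat.Agent.Lib.S35.FNode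
import Fermat.Agent.Lib.S35.RDesc
import Fermat.Agent.Lib.S35.VMax

set_option autoImplicit false
set_option linter.unusedSectionVars false
set_option linter.style.haveILetI false

noncomputable section

namespace Fermat.Agent.Lib.S35

open ModularCurve AlgebraicCurve HahnSeries Polynomial Fermat.Agent.Lib.FF Fermat.Agent.Lib.S18
  Fermat.Agent.Lib.S34 Fermat.Agent.Lib.S37

local notation "Kb" => AlgebraicClosure ℚ

section Bridge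

variable {K₀ : Type*} [Field K₀] [Algebra ℚ K₀] (M q : ℕ) [NeZero M] [NeZero q]

/-- `g • g • y = τ² y` for `g = arithmeticGalois σ₀`. -/
theorem s35n_smul_smul_eq_tau2 (σ₀ : K₀ ≃ₐ[ℚ] K₀) (y : s34m_F K₀ (M * q)) :
    arithmeticGalois (modularFunctionFieldFull (M * q)) σ₀ •
      arithmeticGalois (modularFunctionFieldFull (M * q)) σ₀ • y = s35m_tau2 M q σ₀ y := rfl

/-- helper5's `P(g)` is helper6's `polyHom` of `τ²`, for any `g` with `g² = τ²`. -/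
theorem s35n_P_eq_polyHom_of (g : SemilinearAut K₀ (s34m_F K₀ (M * q))) (σ₀ : K₀ ≃ₐ[ℚ] K₀)
    (hg : ∀ y : s34m_F K₀ (M * q), g • g • y = s35m_tau2 M q σ₀ y) (U : s34m_F K₀ (M * q)) :
    s35q_P g (q ^ 2) U = s35m_polyHom (s35m_tau2 M q σ₀) (q * q) U := by
  rw [s35m_polyHom_apply, s35q_P, sq, hg, hg]

/-- helper5's `P(g)`, `g = arithmeticGalois σ₀`, is helper6's `polyHom` of `τ² = σ₀²`. -/
theorem s35n_P_eq_polyHom (σ₀ : K₀ ≃ₐ[ℚ] K₀) (U : s34m_F K₀ (M * q)) :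
    s35q_P (arithmeticGalois (modularFunctionFieldFull (M * q)) σ₀) (q ^ 2) U =
      s35m_polyHom (s35m_tau2 M q σ₀) (q * q) U :=
  s35n_P_eq_polyHom_of M q _ σ₀ (fun _ => rfl) U

end Bridge

variable {K₀ : Type} [Field K₀] [CharZero K₀] [Algebra ℚ K₀] {κ : Type} [Field κ]
  (G : s18g_GaussData K₀ κ) (φ : K₀ →+* Kb) (M q : ℕ) [NeZero M] [NeZero q]
  (hq : q.Prime) (hqM : ¬ q ∣ M) [CharP κ q] [PerfectField κ]

/-- **The local generator contract at every crossing prime.** -/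
theorem s35n_nodeGen_cross (S : Set (Place K₀ (s34m_F K₀ (M * q))))
    (hC : s35g_ChartData G φ M q hq hqM S)
    (σ₀ : K₀ ≃ₐ[ℚ] K₀)
    (hσA : ∀ a : K₀, a ∈ G.A → (σ₀ : K₀ ≃+* K₀) a ∈ G.A)
    (hσA' : ∀ a : K₀, a ∈ G.A → (σ₀.symm : K₀ ≃+* K₀) a ∈ G.A)
    (hσπ : ∀ a : G.A, G.π (s34m_sigmaA G (σ₀ : K₀ ≃+* K₀) hσA a) = G.π a ^ q)
    (g : SemilinearAut K₀ (s34m_F K₀ (M * q)))
    (hg : ∀ y : s34m_F K₀ (M * q), g • g • y = s35m_tau2 M q σ₀ y)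
    (𝔫 : Ideal (s34x_ring (s34x_infRing (s34m_VV G φ M q hq hqM)) S)) [h𝔫 : 𝔫.IsPrime]
    (h1 : RingHom.ker (s34df_r1 G φ M q hq hqM S) ≤ 𝔫)
    (h2 : RingHom.ker (s34df_r2 G φ M q hq hqM S) ≤ 𝔫)
    (m : ℕ) (hm : m ≠ 0)
    (f : s34m_F K₀ (M * q)) (hf : f ≠ 0)
    (hdiv : ∀ Q ∈ S, (m : ℤ) ∣ Q.ord (s35q_P g (q ^ 2) f))
    (Φ : s34m_F K₀ (M * q)) (hΦ : Φ ≠ 0)
    (hord : ∀ Q ∈ S, s34f_through (s34x_infRing (s34m_VV G φ M q hq hqM)) S 𝔫 Q →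
      s18_E (s35q_P g (q ^ 2) f) m Q ≤ Q.ord (s35q_P g (q ^ 2) Φ))
    (x : s34m_F K₀ (M * q)) (hx0 : x ≠ 0) (hx : ∀ i, x ∈ s34m_VV G φ M q hq hqM i)
    (β₁ W₁ β₂ W₂ : LaurentSeries κ) (hβ₁Fb : β₁ ∈ modularFunctionFieldFullC κ M)
    (hW₁Fb : W₁ ∈ modularFunctionFieldFullC κ M) (hβ₂Fb : β₂ ∈ modularFunctionFieldFullC κ M)
    (hW₂Fb : W₂ ∈ modularFunctionFieldFullC κ M) (hW₁ : W₁ ≠ 0) (hW₂ : W₂ ≠ 0)
    (a₁ a₂ : κ) (ha₁ : a₁ ≠ 0) (ha₂ : a₂ ≠ 0)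
    (hβ₁ : haveI : Fact q.Prime := ⟨hq⟩
      β₁ ^ m = HahnSeries.C a₁ * (s35m_Psi2 q W₁ / W₁))
    (hβ₂ : haveI : Fact q.Prime := ⟨hq⟩
      β₂ ^ m = HahnSeries.C a₂ * (s35m_Psi2 q W₂ / W₂))
    (hx₁ : haveI : Fact q.Prime := ⟨hq⟩
      s35m_redVV G φ M q hq hqM true ⟨x, hx true⟩ =
        s35m_Psi2 q β₁ / s35m_Phi2 q (s35m_Psi2 q β₁))
    (hx₂ : haveI : Fact q.Prime := ⟨hq⟩
      s35m_redVV G φ M q hq hqM false ⟨x, hx false⟩ =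
        s35m_Psi2 q β₂ / s35m_Phi2 q (s35m_Psi2 q β₂)) :
    s35f_NodeGen (s34m_VV G φ M q hq hqM) S
      (algebraMap K₀ (s34m_F K₀ (M * q)) ((G.ϖ : G.A) : K₀)) 𝔫
      (s18_E (s35q_P g (q ^ 2) f / x ^ m) m) := by
  obtain ⟨b, b', hb, hb', hγ⟩ := s35n_hKR_of_chartData G φ M q hq hqM S hC σ₀ hσA hσA' hσπ 𝔫 h1 h2
    Φ hΦ
  obtain ⟨b₁, b₁', hb₁, hb₁', hxr⟩ := s35n_xKR_of_chartData G φ M q hq hqM S hC 𝔫 h1 h2 m hm x hx
    β₁ W₁ β₂ W₂ hβ₁Fb hW₁Fb hβ₂Fb hW₂Fb hW₁ hW₂ a₁ a₂ ha₁ ha₂ hβ₁ hβ₂ hx₁ hx₂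
  have hπO : ∀ i, algebraMap K₀ (s34m_F K₀ (M * q)) ((G.ϖ : G.A) : K₀) ∈
      s34m_VV G φ M q hq hqM i := fun i => s34m_unif_mem_VV G φ M q hq hqM i
  have hmax := s35v_hmax_VV G φ M q hq hqM
  have hPf0 : s35q_P g (q ^ 2) f ≠ 0 := s35q_P_ne_zero g (q ^ 2) hf
  have hγ0 : s35q_P g (q ^ 2) Φ ≠ 0 := s35q_P_ne_zero g (q ^ 2) hΦ
  have hγred : ∀ i : Bool, s35f_compThrough (s34m_VV G φ M q hq hqM) S
      (algebraMap K₀ (s34m_F K₀ (M * q)) ((G.ϖ : G.A) : K₀)) 𝔫 i →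
      ∃ y ∈ s34m_VV G φ M q hq hqM i,
        s35q_P g (q ^ 2) Φ * (b' : s34m_F K₀ (M * q)) - (b : s34m_F K₀ (M * q)) =
        algebraMap K₀ (s34m_F K₀ (M * q)) ((G.ϖ : G.A) : K₀) * y := by
    intro i _
    obtain ⟨y, hy, e⟩ := hγ i
    refine ⟨y, hy, ?_⟩
    rw [s35n_P_eq_polyHom_of M q g σ₀ hg]
    exact e
  have hxred : ∀ i : Bool, s35f_compThrough (s34m_VV G φ M q hq hqM) S
      (algebraMap K₀ (s34m_F K₀ (M * q)) ((G.ϖ : G.A) : K₀)) 𝔫 i →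
      ∃ y ∈ s34m_VV G φ M q hq hqM i,
        x * (b₁' : s34m_F K₀ (M * q)) - (b₁ : s34m_F K₀ (M * q)) =
        algebraMap K₀ (s34m_F K₀ (M * q)) ((G.ϖ : G.A) : K₀) * y := by
    intro i _
    obtain ⟨y, hy, e⟩ := hxr i
    exact ⟨y, hy, e⟩
  exact s35f_nodeGen_of_frac (s34m_VV G φ M q hq hqM) S
    (algebraMap K₀ (s34m_F K₀ (M * q)) ((G.ϖ : G.A) : K₀)) hπO hmax 𝔫
    (s35q_P g (q ^ 2) f) x hPf0 hx0 m hm hdiv (s35q_P g (q ^ 2) Φ) hγ0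
    b b' b₁ b₁' hb hb' hb₁ hb₁' hord hγred hxred

end Fermat.Agent.Lib.S35
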