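/-
S35 project, node package (helper8), part 10: `hloc1` / `hloc2` OF `s35f_zero` IN ONE CALL PER CHART.

`s35n_hloc_of_chartData` := helper4's `s35g_hloc` (`GCross.lean`) with its two node-package
hypotheses `hKR`, `hxKR` discharged by `s35n_hKR_of_chartData` / `s35n_xKR_of_chartData`
(`MKronG.lean`); the `x`-data enter in the hypothesis shape of `s35n_xKR_of_chartData`
(`x ∈ V_i`, `red_i x = e_i / Φ² e_i`, `e_i = Ψ² β_i`, `β_i ^ m = C a_i · Ψ² W_i / W_i`,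
`β_i, W_i ∈ F̄_M`).  Conclusion: at EVERY prime `𝔫 ∋ ϖ` of the chart ring, a smooth point on one
component or the local generator contract for `P(σ) f₀ / x ^ m`.
-/
import Fermat.Agent.Lib.S35.GCross
import Fermat.Agent.Lib.S35.MKronG

set_option autoImplicit false
set_option linter.unusedSectionVars false
set_option linter.style.haveILetI false
set_option synthInstance.maxHeartbeats 400000

noncomputable section

namespace Fermat.Agent.Lib.S35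

open ModularCurve AlgebraicCurve HahnSeries Polynomial Fermat.Agent.Lib.FF Fermat.Agent.Lib.S18
  Fermat.Agent.Lib.S37 Fermat.Agent.Lib.S34

local notation "Qbar" => AlgebraicClosure ℚ

variable {K₀ : Type} [Field K₀] [CharZero K₀] [Algebra ℚ K₀] {κ : Type} [Field κ]
  (G : s18g_GaussData K₀ κ) (φ : K₀ →+* Qbar) (M q : ℕ) [NeZero M] [NeZero q]
  (hq : q.Prime) (hqM : ¬ q ∣ M) [CharP κ q] [PerfectField κ] [IsDiscreteValuationRing G.A]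
  (S : Set (Place K₀ (s34m_F K₀ (M * q))))

/-- **`hloc` of `s35f_zero` on one chart, from the chart data and the global function `x`.** -/
theorem s35n_hloc_of_chartData (hϖ : Irreducible G.ϖ)
    (hC : s35g_ChartData G φ M q hq hqM S)
    (hD : s35f_Dict (s34m_VV G φ M q hq hqM) S)
    (σ₀ : K₀ ≃ₐ[ℚ] K₀) (hσA : ∀ a : K₀, a ∈ G.A → (σ₀ : K₀ ≃+* K₀) a ∈ G.A)
    (hσA' : ∀ a : K₀, a ∈ G.A → (σ₀.symm : K₀ ≃+* K₀) a ∈ G.A)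
    (hσπ : ∀ a : G.A, G.π (s34m_sigmaA G (σ₀ : K₀ ≃+* K₀) hσA a) = G.π a ^ q)
    (hchart : ∀ Q : Place K₀ (s34m_F K₀ (M * q)),
      Q ∈ S ↔ (arithmeticGalois (modularFunctionFieldFull (M * q)) σ₀) • Q ∈ S)
    (f₀ : s34m_F K₀ (M * q)) (hf₀ : f₀ ≠ 0) (m : ℕ) (hm0 : m ≠ 0)
    (hdiv : ∀ Q : Place K₀ (s34m_F K₀ (M * q)), (m : ℤ) ∣ Q.ord f₀)
    (hdeg : ∀ Q : Place K₀ (s34m_F K₀ (M * q)), Q.ord f₀ ≠ 0 → Q.deg = 1)
    (x : s34m_F K₀ (M * q)) (hx0 : x ≠ 0) (hx : ∀ i, x ∈ s34m_VV G φ M q hq hqM i)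
    (β₁ W₁ β₂ W₂ : LaurentSeries κ) (hβ₁Fb : β₁ ∈ modularFunctionFieldFullC κ M)
    (hW₁Fb : W₁ ∈ modularFunctionFieldFullC κ M) (hβ₂Fb : β₂ ∈ modularFunctionFieldFullC κ M)
    (hW₂Fb : W₂ ∈ modularFunctionFieldFullC κ M) (hW₁ : W₁ ≠ 0) (hW₂ : W₂ ≠ 0)
    (a₁ a₂ : κ) (ha₁ : a₁ ≠ 0) (ha₂ : a₂ ≠ 0)
    (hβ₁ : haveI : Fact q.Prime := ⟨hq⟩
      β₁ ^ m = HahnSeries.C a₁ * (s35m_Psi2 q W₁ / W₁))
    (hβ₂ : haveI : Fact q.Prime := ⟨hq⟩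
      β₂ ^ m = HahnSeries.C a₂ * (s35m_Psi2 q W₂ / W₂))
    (hx₁ : haveI : Fact q.Prime := ⟨hq⟩
      s35m_redVV G φ M q hq hqM true ⟨x, hx true⟩ =
        s35m_Psi2 q β₁ / s35m_Phi2 q (s35m_Psi2 q β₁))
    (hx₂ : haveI : Fact q.Prime := ⟨hq⟩
      s35m_redVV G φ M q hq hqM false ⟨x, hx false⟩ =
        s35m_Psi2 q β₂ / s35m_Phi2 q (s35m_Psi2 q β₂))
    (𝔫 : Ideal (s34x_ring (s34x_infRing (s34m_VV G φ M q hq hqM)) S)) [h𝔫 : 𝔫.IsPrime]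
    (hϖ𝔫 : s35gd_unifB G φ M q hq hqM S ∈ 𝔫) :
    s35f_SmoothAt G.A (s34m_VV G φ M q hq hqM) (s34c_const_mem_VV G φ M q hq hqM) G.ϖ S 𝔫 ∨
      s35f_NodeGen (s34m_VV G φ M q hq hqM) S
        (algebraMap K₀ (s34m_F K₀ (M * q)) ((G.ϖ : G.A) : K₀)) 𝔫
        (s18_E (s35q_P (arithmeticGalois (modularFunctionFieldFull (M * q)) σ₀) (q ^ 2) f₀ /
          x ^ m) m) :=
  s35g_hloc G φ M q hq hqM S hϖ hC hD σ₀ hσA hσA' hσπ hchart f₀ hf₀ m hm0 hdiv hdeg x hx0 𝔫 hϖ𝔫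
    (fun h1 h2 U hU => s35n_hKR_of_chartData G φ M q hq hqM S hC σ₀ hσA hσA' hσπ 𝔫 h1 h2 U hU)
    (fun h1 h2 => s35n_xKR_of_chartData G φ M q hq hqM S hC 𝔫 h1 h2 m hm0 x hx
      β₁ W₁ β₂ W₂ hβ₁Fb hW₁Fb hβ₂Fb hW₂Fb hW₁ hW₂ a₁ a₂ ha₁ ha₂ hβ₁ hβ₂ hx₁ hx₂)

end Fermat.Agent.Lib.S35
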