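/-
S35 project, node package (helper8), part 3: THE REFINED DICHOTOMY (re-run of helper1's
`s34d_dichotomy`, `Lib/S34/DNode.lean`, keeping what its proof knows).

Same setting: `r₁ : B →+* κ₁`, `r₂ : B →+* κ₂` with `ker r₁ ∩ ker r₂ ⊆ ϖ B`, `κ_i = Frac D_i`, `D_i`
Dedekind, Kronecker-type lifts `hα`, `hβ`.  Every prime `𝔫 ∋ ϖ` of `B` is

* a SMOOTH point ON ONE COMPONENT ONLY: `𝔫 B_𝔫 = (t, ϖ)` AND some `s ∈ ker r₂ ∖ 𝔫` (resp.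
  `s ∈ ker r₁ ∖ 𝔫`) — "(honly)" of helper9's `s35f_loc_smooth`; or
* a CROSSING point: `ker r₁ ≤ 𝔫`, `ker r₂ ≤ 𝔫`, `𝔫 B_𝔫 = (u, w, ϖ)` with `r₂ u = 0`, `r₁ w = 0`
  (so `ϖ ∣ u w`), `u` a local generator of `𝔫` modulo `ker r₁`, `w` modulo `ker r₂`.
-/
import Fermat.Agent.Lib.S34.DNode

set_option autoImplicit false

namespace Fermat.Agent.Lib.S35

open Fermat.Agent.Lib.S34

variable {B κ₁ κ₂ D₁ D₂ : Type*} [CommRing B] [Field κ₁] [Field κ₂]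
  [CommRing D₁] [IsDedekindDomain D₁] [Algebra D₁ κ₁] [IsFractionRing D₁ κ₁]
  [CommRing D₂] [IsDedekindDomain D₂] [Algebra D₂ κ₂] [IsFractionRing D₂ κ₂]

/-- **The refined dichotomy.** -/
theorem s35n_dichotomy (ϖ : B) (r₁ : B →+* κ₁) (r₂ : B →+* κ₂)
    (hker : ∀ b, r₁ b = 0 → r₂ b = 0 → ϖ ∣ b) (q : ℕ) (hq : 2 ≤ q)
    (hα : ∀ d : D₁, ∃ g : B, r₁ g = algebraMap D₁ κ₁ d ∧ ∃ b : B, r₂ g = r₂ b ^ q)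
    (hβ : ∀ d : D₂, ∃ g : B, r₂ g = algebraMap D₂ κ₂ d ∧ ∃ b : B, r₁ g = r₁ b ^ q)
    (𝔫 : Ideal B) [h𝔫 : 𝔫.IsPrime] (hϖ𝔫 : ϖ ∈ 𝔫) :
    (∃ t ∈ 𝔫, (∀ y ∈ 𝔫, ∃ c, c ∉ 𝔫 ∧ ∃ z b, c * y = z * t + b * ϖ) ∧
      ((∃ s, r₂ s = 0 ∧ s ∉ 𝔫) ∨ (∃ s, r₁ s = 0 ∧ s ∉ 𝔫))) ∨
    (RingHom.ker r₁ ≤ 𝔫 ∧ RingHom.ker r₂ ≤ 𝔫 ∧
      ∃ u ∈ 𝔫, ∃ w ∈ 𝔫, r₂ u = 0 ∧ r₁ w = 0 ∧ s34d_LocGenAt r₁ 𝔫 u ∧ s34d_LocGenAt r₂ 𝔫 w ∧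
        ϖ ∣ u * w ∧ ∀ y ∈ 𝔫, ∃ c, c ∉ 𝔫 ∧ ∃ z z' b, c * y = z * u + z' * w + b * ϖ) := by
  have hker' : ∀ b, r₂ b = 0 → r₁ b = 0 → ϖ ∣ b := fun b h2 h1 => hker b h1 h2
  have hboth : ∀ b, r₁ b = 0 → r₂ b = 0 → b ∈ 𝔫 := by
    intro b h1 h2
    obtain ⟨c, rfl⟩ := hker b h1 h2
    exact 𝔫.mul_mem_right _ hϖ𝔫
  have hl₁ : ∀ d : D₁, ∃ g : B, r₁ g = algebraMap D₁ κ₁ d := fun d => (hα d).imp fun _ h => h.1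
  have hl₂ : ∀ d : D₂, ∃ g : B, r₂ g = algebraMap D₂ κ₂ d := fun d => (hβ d).imp fun _ h => h.1
  by_cases h2 : RingHom.ker r₂ ≤ 𝔫
  · by_cases h1 : RingHom.ker r₁ ≤ 𝔫
    · -- a crossing point
      right
      obtain ⟨d₁, hd₁⟩ := s34d_exists_locGenAt r₁ hl₁ 𝔫 h1
      obtain ⟨d₂, hd₂⟩ := s34d_exists_locGenAt r₂ hl₂ 𝔫 h2
      obtain ⟨g₁, hg₁, b₁, hb₁⟩ := hα d₁
      obtain ⟨g₂, hg₂, b₂, hb₂⟩ := hβ d₂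
      have hG₁ := hd₁ g₁ hg₁
      have hG₂ := hd₂ g₂ hg₂
      have hu₂ : r₂ (g₁ - b₁ ^ q) = 0 := by rw [map_sub, map_pow, hb₁, sub_self]
      have hw₁ : r₁ (g₂ - b₂ ^ q) = 0 := by rw [map_sub, map_pow, hb₂, sub_self]
      have hb₁𝔫 : b₁ ∈ 𝔫 := by
        have h : g₁ - b₁ ^ q ∈ 𝔫 := h2 hu₂
        have h' : b₁ ^ q ∈ 𝔫 := by
          have := 𝔫.sub_mem hG₁.1 h
          rwa [sub_sub_cancel] at this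
        exact h𝔫.mem_of_pow_mem _ h'
      have hb₂𝔫 : b₂ ∈ 𝔫 := by
        have h : g₂ - b₂ ^ q ∈ 𝔫 := h1 hw₁
        have h' : b₂ ^ q ∈ 𝔫 := by
          have := 𝔫.sub_mem hG₂.1 h
          rwa [sub_sub_cancel] at this
        exact h𝔫.mem_of_pow_mem _ h'
      have hU := s34d_locGenAt_sub_pow hG₁ hb₁𝔫 hq
      have hW := s34d_locGenAt_sub_pow hG₂ hb₂𝔫 hq
      obtain ⟨hdvd, hgen⟩ := s34d_node ϖ r₁ r₂ hker 𝔫 hU hu₂ hW hw₁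
      exact ⟨h1, h2, _, hU.1, _, hW.1, hu₂, hw₁, hU, hW, hdvd, hgen⟩
    · -- on the second component only
      left
      obtain ⟨s, hs, hs𝔫⟩ := SetLike.not_le_iff_exists.mp h1
      obtain ⟨d₂, hd₂⟩ := s34d_exists_locGenAt r₂ hl₂ 𝔫 h2
      obtain ⟨g₂, hg₂⟩ := hl₂ d₂
      have hG₂ := hd₂ g₂ hg₂
      exact ⟨g₂, hG₂.1, s34d_smooth ϖ r₂ r₁ hker' 𝔫 hs hs𝔫 hG₂, Or.inr ⟨s, hs, hs𝔫⟩⟩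
  · -- on the first component only
    left
    obtain ⟨s, hs, hs𝔫⟩ := SetLike.not_le_iff_exists.mp h2
    have h1 : RingHom.ker r₁ ≤ 𝔫 := by
      intro a ha
      have : a * s ∈ 𝔫 := hboth _ (by rw [map_mul, ha, zero_mul]) (by rw [map_mul, hs, mul_zero])
      exact (h𝔫.mem_or_mem this).resolve_right hs𝔫
    obtain ⟨d₁, hd₁⟩ := s34d_exists_locGenAt r₁ hl₁ 𝔫 h1
    obtain ⟨g₁, hg₁⟩ := hl₁ d₁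
    have hG₁ := hd₁ g₁ hg₁
    exact ⟨g₁, hG₁.1, s34d_smooth ϖ r₁ r₂ hker 𝔫 hs hs𝔫 hG₁, Or.inl ⟨s, hs, hs𝔫⟩⟩

end Fermat.Agent.Lib.S35
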