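/-
S35 project, block (CONV), sub-lemma (b) [ParSpan] (helper6), generic, Mathlib-only.

`G` a finitely generated group, `P ⊆ G`, `b₁ … b_r : G → ℤ` homomorphisms which span (over `ℤ`) all the
`ℤ`-valued homomorphisms vanishing on `P`.  Then EVERY homomorphism `ψ : G → A` into a torsion-free
abelian group `A` which vanishes on `P` is `ψ = ∑ i, b i • c i` with `c i ∈ A`
(`s35ps_span_of_vanish_gen`; for `A = ℤ_[p]` the coefficients are in `ℤ_[p]`, no denominators);
for `A = k` a field of characteristic zero this is `s35ps_span_of_vanish`.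

Proof: `ψ(G) ⊆ A` is a finitely generated torsion-free `ℤ`-module, hence free with a basis `ω_j`;
the coordinates `χ_j` of `ψ` are `ℤ`-valued homomorphisms vanishing wherever `ψ` does, so
`χ_j = ∑ i, a j i * b i`, and `ψ = ∑ j, χ_j • ω_j = ∑ i, b i • (∑ j, a j i • ω_j)`.
-/
import Mathlib

set_option autoImplicit false

namespace Fermat.Agent.Lib.S35

/-- the `ℤ`-valued coordinates of a homomorphism from a finitely generated group to a torsion-free
abelian group: `ψ = ∑ j, χ j • ω j` with `χ j` vanishing wherever `ψ` does. -/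
theorem s35ps_exists_coords {G : Type*} [Group G] [Group.FG G]
    {A : Type*} [AddCommGroup A] [Module.IsTorsionFree ℤ A] (ψ : Additive G →+ A) :
    ∃ (s : ℕ) (ω : Fin s → A) (χ : Fin s → (Additive G →+ ℤ)),
      (∀ g, ψ g = ∑ j, χ j g • ω j) ∧ (∀ g, ψ g = 0 → ∀ j, χ j g = 0) ∧
      (∀ j, ω j ∈ ψ.range) := by
  classical
  let M : Submodule ℤ A := AddSubgroup.toIntSubmodule ψ.range
  have hfg : M.FG := by
    rw [Submodule.fg_iff_addSubgroup_fg]
    have h1 : AddGroup.FG ψ.range := inferInstance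
    exact (AddGroup.fg_iff_addSubgroup_fg _).mp h1
  have : Module.Finite ℤ M := Module.Finite.iff_fg.mpr hfg
  have : Module.Free ℤ M := Module.free_of_finite_type_torsion_free'
  let B := Module.Free.chooseBasis ℤ M
  let e := Fintype.equivFin (Module.Free.ChooseBasisIndex ℤ M)
  let B' : Module.Basis (Fin (Fintype.card (Module.Free.ChooseBasisIndex ℤ M))) ℤ M :=
    B.reindex e
  let ψ' : Additive G →+ M :=
    { toFun := fun g => ⟨ψ g, ⟨g, rfl⟩⟩
      map_zero' := by ext; simp
      map_add' := fun x y => by ext; simp }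
  refine ⟨_, fun j => (B' j : A), fun j => (B'.coord j).toAddMonoidHom.comp ψ', ?_, ?_, ?_⟩
  · intro g
    have h := B'.sum_repr (ψ' g)
    have h2 := congrArg (fun m : M => (m : A)) h
    simp only [Submodule.coe_sum, Submodule.coe_smul] at h2
    simpa [ψ'] using h2.symm
  · intro g hg j
    have : ψ' g = 0 := by ext; simpa [ψ'] using hg
    simp [this]
  · intro j
    exact (B' j).2

/-- **[ParSpan], torsion-free form.** -/
theorem s35ps_span_of_vanish_gen {G : Type*} [Group G] [Group.FG G] (P : Set G) {r : ℕ}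
    (b : Fin r → (Additive G →+ ℤ))
    (hb : ∀ φ : Additive G →+ ℤ, (∀ g ∈ P, φ (Additive.ofMul g) = 0) →
      ∃ a : Fin r → ℤ, ∀ g, φ g = ∑ i, a i * b i g)
    {A : Type*} [AddCommGroup A] [Module.IsTorsionFree ℤ A] (ψ : Additive G →+ A)
    (hψ : ∀ g ∈ P, ψ (Additive.ofMul g) = 0) :
    ∃ c : Fin r → A, ∀ g, ψ g = ∑ i, b i g • c i := by
  classical
  obtain ⟨s, ω, χ, hsum, hvan, -⟩ := s35ps_exists_coords ψ
  have h1 : ∀ j, ∃ a : Fin r → ℤ, ∀ g, χ j g = ∑ i, a i * b i g :=
    fun j => hb (χ j) (fun g hg => hvan _ (hψ g hg) j)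
  choose a ha using h1
  refine ⟨fun i => ∑ j, a j i • ω j, fun g => ?_⟩
  rw [hsum g]
  simp only [ha, Finset.sum_smul, Finset.smul_sum]
  rw [Finset.sum_comm]
  refine Finset.sum_congr rfl fun i _ => Finset.sum_congr rfl fun j _ => ?_
  rw [smul_smul, mul_comm]

/-- **[ParSpan]**, in the exact shape requested by helper3 (#1487). -/
theorem s35ps_span_of_vanish {G : Type*} [Group G] [Group.FG G] (P : Set G) {r : ℕ}
    (b : Fin r → (Additive G →+ ℤ))
    (hb : ∀ φ : Additive G →+ ℤ, (∀ g ∈ P, φ (Additive.ofMul g) = 0) →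
      ∃ a : Fin r → ℤ, ∀ g, φ g = ∑ i, a i * b i g)
    {k : Type*} [Field k] [CharZero k] (ψ : Additive G →+ k)
    (hψ : ∀ g ∈ P, ψ (Additive.ofMul g) = 0) :
    ∃ c : Fin r → k, ∀ g, ψ g = ∑ i, c i * ((b i g : ℤ) : k) := by
  obtain ⟨c, hc⟩ := s35ps_span_of_vanish_gen P b hb ψ hψ
  refine ⟨c, fun g => ?_⟩
  rw [hc g]
  refine Finset.sum_congr rfl fun i _ => ?_
  rw [zsmul_eq_mul, mul_comm]

end Fermat.Agent.Lib.S35
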