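/-
S35, package [R] (helper5, prefix `s35r_`), part 2: the MODULAR Kummer form of NEW-WEIGHT and its
change of level.

* `s35r_KummerNWmod M q σ m` : the Kummer form `s35r_KummerNW` for `α, β : F̄(M) → F̄(M q)`,
  `g = ` coefficientwise action of `σ ∈ G_ℚ`, `Q = q²`.
* `s35r_top` : it implies `(σ⁴ - (1 + q²) σ² + q²) z = 0` for every `z = [D] ∈ J₀(M q)[m]` with
  `α_* D`, `β_* D` principal.
* `s35r_levelChange` : for a prime `d ∤ M q` with `(q + 1, d + 1) = 1 = (d + 1, m)`, the Kummer form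
  at level `(d M) q` implies the Kummer form at level `M q`  (norms commute with the base change
  `F̄(M) ⊂ F̄(d M)` by linear disjointness, S37's `s37l_norm_baseChangeAlong`; the `m`-th root
  descends as in S18/S34).
* `s35r_kummerNW_of_good` : it suffices to treat the levels `M` which are good for `q` in the
  sense of S18 (`q ≥ 5`, or `q = 3 ∧ 2 ∣ M`, or `q = 2 ∧ 3 ∣ M`).
-/
import Fermat.Agent.Lib.S35.RTop
import Fermat.Agent.Lib.S37.LLevel
import Fermat.Agent.Lib.S18.EConst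
import Fermat.Agent.Lib.S18.LChange

set_option autoImplicit false
set_option linter.style.haveILetI false

noncomputable section

namespace Fermat.Agent.Lib.S35

open ModularCurve AlgebraicCurve IntermediateField Fermat.Agent.Lib.FF Fermat.Agent.Lib.S18
  Fermat.Agent.Lib.S37 Module

local notation "Kb" => AlgebraicClosure ℚ
local notation "Γℚ" => (AlgebraicClosure ℚ ≃ₐ[ℚ] AlgebraicClosure ℚ)

section Generic

variable {K F F' F₀ F₀' : Type*} [Field K] [Field F] [Field F'] [Field F₀] [Field F₀']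
  [Algebra K F] [Algebra K F'] [Algebra K F₀] [Algebra K F₀']

/-- **Descent of the Kummer form of NEW-WEIGHT** along a finite extension `π : F → F'` of degree
prime to `m`, with compatible embeddings, norms and semilinear automorphisms. -/
theorem s35r_kummerNW_descend (π : F →ₐ[K] F') (π₀ : F₀ →ₐ[K] F₀')
    (φ₁ φ₂ : F₀ →ₐ[K] F) (φ₁' φ₂' : F₀' →ₐ[K] F')
    (hn₁ : ∀ f : F, s35r_normAlong φ₁' (π f) = π₀ (s35r_normAlong φ₁ f))
    (hn₂ : ∀ f : F, s35r_normAlong φ₂' (π f) = π₀ (s35r_normAlong φ₂ f))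
    (g : SemilinearAut K F) (g' : SemilinearAut K F')
    (hequiv : ∀ y : F, π (g • y) = g' • π y)
    (hfin : FiniteAlong K π)
    (m : ℕ) (hm : m ≠ 0) (hcop : (finrankAlong K π).Coprime m)
    (hroots : ∀ ζ : F', ζ ^ m = 1 → ζ ∈ π.toRingHom.range) (Q : ℕ)
    (h : s35r_KummerNW φ₁' φ₂' g' m Q) : s35r_KummerNW φ₁ φ₂ g m Q := by
  letI : Algebra F F' := algebraAlong π
  haveI : IsScalarTower K F F' := isScalarTower_along π
  haveI : FiniteDimensional F F' := hfin
  haveI : Algebra.IsAlgebraic F F' := Algebra.IsAlgebraic.of_finite _ _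
  have hπ : ∀ y : F, algebraMap F F' y = π y := fun y => rfl
  intro f hf hord hnorm₁ hnorm₂
  have hf' : π f ≠ 0 := (map_ne_zero _).mpr hf
  obtain ⟨c₁, h₁, hc₁⟩ := hnorm₁
  obtain ⟨c₂, h₂, hc₂⟩ := hnorm₂
  obtain ⟨c, x', hx'⟩ := h (π f) hf'
    (fun P' => by rw [← hπ]; exact s18l_dvd_ord_of_forall (m : ℤ) f hord P')
    ⟨c₁, π₀ h₁, by rw [hn₁, hc₁, map_mul, map_pow, AlgHom.commutes]⟩
    ⟨c₂, π₀ h₂, by rw [hn₂, hc₂, map_mul, map_pow, AlgHom.commutes]⟩
  have hg2f : g • g • f ≠ 0 := s35r_smul_ne_zero g (s35r_smul_ne_zero g hf)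
  have hg4f : g • g • g • g • f ≠ 0 := s35r_smul_ne_zero g (s35r_smul_ne_zero g hg2f)
  rw [← hequiv, ← hequiv, ← hequiv, ← hequiv] at hx'
  have hg2f' : π (g • g • f) ≠ 0 := (map_ne_zero _).mpr hg2f
  have hg4f' : π (g • g • g • g • f) ≠ 0 := (map_ne_zero _).mpr hg4f
  -- `c ≠ 0`
  have hc : c ≠ 0 := by
    rintro rfl
    rw [map_zero, zero_mul, zero_mul] at hx'
    exact mul_ne_zero hg4f' (pow_ne_zero Q hf') hx'
  have hc' : algebraMap K F' c ≠ 0 := (map_ne_zero _).mpr hc
  -- `x' ^ m` lies in the small field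
  have hxpow : x' ^ m ∈ (algebraMap F F').range := by
    refine ⟨algebraMap K F c⁻¹ * ((g • g • g • g • f) * f ^ Q * ((g • g • f) ^ (1 + Q))⁻¹), ?_⟩
    rw [hπ]
    simp only [map_mul, map_inv₀, map_pow]
    rw [hx', AlgHom.commutes]
    have h2 : (π (g • g • f)) ^ (1 + Q) ≠ 0 := pow_ne_zero _ hg2f'
    rw [mul_assoc (algebraMap K F' c * x' ^ m), mul_inv_cancel₀ h2, mul_one, ← mul_assoc,
      inv_mul_cancel₀ hc', one_mul]
  obtain ⟨x, rfl⟩ := s18l_mem_of_pow_mem m hm hcop hroots x' hxpow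
  refine ⟨c, x, ?_⟩
  apply π.toRingHom.injective
  show π _ = π _
  rw [map_mul, map_pow, hx', map_mul, map_mul, map_pow, map_pow, AlgHom.commutes]
  rfl

end Generic

/-! ### The modular instance -/

section Modular

variable (M q : ℕ) [NeZero M] [NeZero q]

/-- **Kummer form of NEW-WEIGHT** at level `M q`, for `σ ∈ G_ℚ` and `m`. -/
def s35r_KummerNWmod (σ : Γℚ) (m : ℕ) : Prop :=
  s35r_KummerNW (heckeAlphaBar Kb M q) (heckeBetaBar Kb M q)
    (arithmeticGalois (L := Kb) (modularFunctionFieldFull (M * q)) σ) m (q ^ 2)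

/-- functions on `X₀(M)` over `ℚ̄` without zeros and poles are constant -/
theorem s35r_const (u : ffi_F M) (hu : u ≠ 0) (h : ∀ v : Place Kb (ffi_F M), v.ord u = 0) :
    ∃ c : Kb, u = algebraMap Kb (ffi_F M) c :=
  s18e_const_of_ord_nonneg M u (fun P => (h P).ge)

variable {M q}

/-- **[R1]**: `(σ² - q²)(σ² - 1)` kills the classes of `J₀(M q)[m]` which die under `α_*` and `β_*`,
from the Kummer form. -/
theorem s35r_top (hq : q.Prime) (hqM : ¬ q ∣ M) (σ : Γℚ) (m : ℕ) (hm : m ≠ 0)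
    (h : s35r_KummerNWmod M q σ m)
    (D : Divisor.degZero (K := Kb) (F := ffi_F (M * q)))
    (hz : m • (Pic0.mk D : JZero (M * q)) = 0)
    (h1 : (Divisor.pushforwardAlong (heckeAlphaBar Kb M q)
      (s37l_isIntegral_of_finite _ (s37w_finite_alpha M q hq hqM))
        (D : Divisor Kb (ffi_F (M * q)))).IsPrincipal)
    (h2 : (Divisor.pushforwardAlong (heckeBetaBar Kb M q)
      (s37l_isIntegral_of_finite _ (s37w_finite_beta M q hq hqM))
        (D : Divisor Kb (ffi_F (M * q)))).IsPrincipal) :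
    σ • σ • σ • σ • (Pic0.mk D : JZero (M * q)) -
      (1 + q ^ 2) • (σ • σ • (Pic0.mk D : JZero (M * q))) +
        q ^ 2 • (Pic0.mk D : JZero (M * q)) = 0 :=
  s35r_poly_of_kummer (heckeAlphaBar Kb M q) (heckeBetaBar Kb M q) _ _
    (s37w_finite_alpha M q hq hqM) (s37w_finite_beta M q hq hqM)
    (s37l_normFormulaAlong _ _) (s37l_normFormulaAlong _ _) (s35r_const M)
    (arithmeticGalois (L := Kb) (modularFunctionFieldFull (M * q)) σ) m hm (q ^ 2) h D hz h1 h2

end Modular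

section Change

/-- degree and finiteness of the inclusion of levels `N ⊂ N' = p N`, with the product in any
shape. -/
theorem s35r_incl_data (N N' p : ℕ) [NeZero N] [NeZero N'] (hp : p.Prime) (hpN : ¬ p ∣ N)
    (hN' : N' = p * N) (h : N ∣ N') :
    FiniteAlong Kb (s37l_incl N N' h) ∧ finrankAlong Kb (s37l_incl N N' h) = p + 1 := by
  subst hN'
  exact ⟨s37l_finite_incl N p hp hpN, s37l_finrank_incl N p hp hpN⟩

variable (M q d : ℕ) [NeZero M] [NeZero q] [NeZero (d * M)]

/-- **Change of level for the Kummer form of NEW-WEIGHT.** -/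
theorem s35r_levelChange (hq : q.Prime) (hqM : ¬ q ∣ M) (hd : d.Prime) (hdM : ¬ d ∣ M)
    (hdq : d ≠ q) (hcop : (q + 1).Coprime (d + 1)) (m : ℕ) (hm : m ≠ 0)
    (hcopm : (d + 1).Coprime m) (σ : Γℚ) (h : s35r_KummerNWmod (d * M) q σ m) :
    s35r_KummerNWmod M q σ m := by
  haveI : NeZero (M * q) := ⟨mul_ne_zero (NeZero.ne M) (NeZero.ne q)⟩
  haveI : NeZero (d * M * q) := ⟨mul_ne_zero (NeZero.ne (d * M)) (NeZero.ne q)⟩
  have hqdM : ¬ q ∣ d * M := by
    intro hdvd
    rcases (Nat.Prime.dvd_mul hq).mp hdvd with h1 | h1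
    · exact hdq ((Nat.prime_dvd_prime_iff_eq hq hd).mp h1).symm
    · exact hqM h1
  have hdMq : ¬ d ∣ M * q := by
    intro hdvd
    rcases (Nat.Prime.dvd_mul hd).mp hdvd with h1 | h1
    · exact hdM h1
    · exact hdq ((Nat.prime_dvd_prime_iff_eq hd hq).mp h1)
  -- the maps
  set α := heckeAlphaBar Kb M q with hαdef
  set β := heckeBetaBar Kb M q with hβdef
  set α' := heckeAlphaBar Kb (d * M) q with hα'def
  set β' := heckeBetaBar Kb (d * M) q with hβ'def
  set π₀ := s37l_incl M (d * M) (dvd_mul_left M d) with hπ₀def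
  set π := s37l_incl (M * q) (d * M * q) (s37l_dvd_level M d q) with hπdef
  have hsqα : α'.comp π₀ = π.comp α := s37l_sq_alpha M d q
  have hsqβ : β'.comp π₀ = π.comp β := s37l_sq_beta M d q
  have hfinα : FiniteAlong Kb α := s37w_finite_alpha M q hq hqM
  have hfinβ : FiniteAlong Kb β := s37w_finite_beta M q hq hqM
  have hfinπ₀ : FiniteAlong Kb π₀ := s37l_finite_incl M d hd hdM
  have hdegα : finrankAlong Kb α = q + 1 := s37w_finrank_alpha M q hq hqM
  have hdegβ : finrankAlong Kb β = q + 1 := s37w_finrank_beta M q hq hqM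
  have hdegα' : finrankAlong Kb α' = q + 1 := s37w_finrank_alpha (d * M) q hq hqdM
  have hdegβ' : finrankAlong Kb β' = q + 1 := s37w_finrank_beta (d * M) q hq hqdM
  have hdegπ₀ : finrankAlong Kb π₀ = d + 1 := s37l_finrank_incl M d hd hdM
  obtain ⟨hfinπ, hdegπ⟩ := s35r_incl_data (M * q) (d * M * q) d hd hdMq (by ring)
    (s37l_dvd_level M d q)
  have hn₁ : ∀ f : ffi_F (M * q), s35r_normAlong α' (π f) = π₀ (s35r_normAlong α f) := fun f =>
    s37l_norm_baseChangeAlong α π₀ α' π hsqα hfinα hfinπ₀ (by rw [hdegα, hdegπ₀]; exact hcop)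
      (by rw [hdegα', hdegα]) f
  have hn₂ : ∀ f : ffi_F (M * q), s35r_normAlong β' (π f) = π₀ (s35r_normAlong β f) := fun f =>
    s37l_norm_baseChangeAlong β π₀ β' π hsqβ hfinβ hfinπ₀ (by rw [hdegβ, hdegπ₀]; exact hcop)
      (by rw [hdegβ', hdegβ]) f
  have hroots : ∀ ζ : ffi_F (d * M * q), ζ ^ m = 1 → ζ ∈ π.toRingHom.range := by
    intro ζ hζ
    obtain ⟨μ, hμ⟩ := s18l_root_of_unity_const m hm (ζ : LaurentSeries Kb) (by
      have := congrArg Subtype.val hζ
      simpa using this)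
    refine ⟨algebraMap Kb (ffi_F (M * q)) μ, ?_⟩
    show π _ = ζ
    rw [AlgHom.commutes]
    exact Subtype.ext hμ
  exact s35r_kummerNW_descend π π₀ α β α' β' hn₁ hn₂
    (arithmeticGalois (L := Kb) (modularFunctionFieldFull (M * q)) σ)
    (arithmeticGalois (L := Kb) (modularFunctionFieldFull (d * M * q)) σ)
    (fun y => (s37l_incl_intertwines (M * q) (d * M * q) (s37l_dvd_level M d q) σ y).symm)
    hfinπ m hm (by rw [hdegπ]; exact hcopm) hroots (q ^ 2) h

end Change

/-- It suffices to prove the Kummer form of NEW-WEIGHT at the levels `M` which are good for `q` in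
the sense of S18. -/
theorem s35r_kummerNW_of_good (q : ℕ) [NeZero q] (hq : q.Prime) (σ : Γℚ) (m : ℕ) (hm : ¬ q ∣ m)
    (h : ∀ (M : ℕ) [NeZero M], ¬ q ∣ M →
      (5 ≤ q ∨ (q = 3 ∧ 2 ∣ M) ∨ (q = 2 ∧ 3 ∣ M)) → s35r_KummerNWmod M q σ m)
    (M : ℕ) [NeZero M] (hqM : ¬ q ∣ M) : s35r_KummerNWmod M q σ m := by
  have hm0 : m ≠ 0 := by
    rintro rfl
    exact hm (dvd_zero q)
  by_cases h5 : 5 ≤ q
  · exact h M hqM (Or.inl h5)
  · have hq23 : q = 2 ∨ q = 3 := by
      have h2 := hq.two_le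
      have : q ≠ 4 := by rintro rfl; exact absurd hq (by decide)
      omega
    rcases hq23 with rfl | rfl
    · -- `q = 2`: adjoin the prime `3` to the level
      by_cases h3 : 3 ∣ M
      · exact h M hqM (Or.inr (Or.inr ⟨rfl, h3⟩))
      · haveI : NeZero (3 * M) := ⟨mul_ne_zero (by norm_num) (NeZero.ne M)⟩
        refine s35r_levelChange M 2 3 hq hqM (by norm_num) h3 (by norm_num) (by norm_num) m hm0
          ?_ σ ?_
        · have h2 : Nat.Coprime 2 m := (Nat.Prime.coprime_iff_not_dvd Nat.prime_two).mpr hm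
          exact Nat.Coprime.pow_left 2 h2
        · refine h (3 * M) ?_ (Or.inr (Or.inr ⟨rfl, dvd_mul_right 3 M⟩))
          intro hdvd
          rcases (Nat.Prime.dvd_mul Nat.prime_two).mp hdvd with h1 | h1
          · norm_num at h1
          · exact hqM h1
    · -- `q = 3`: adjoin the prime `2` to the level
      by_cases h2 : 2 ∣ M
      · exact h M hqM (Or.inr (Or.inl ⟨rfl, h2⟩))
      · haveI : NeZero (2 * M) := ⟨mul_ne_zero (by norm_num) (NeZero.ne M)⟩
        refine s35r_levelChange M 3 2 hq hqM (by norm_num) h2 (by norm_num) (by norm_num) m hm0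
          ?_ σ ?_
        · exact (Nat.Prime.coprime_iff_not_dvd Nat.prime_three).mpr hm
        · refine h (2 * M) ?_ (Or.inr (Or.inl ⟨rfl, dvd_mul_right 2 M⟩))
          intro hdvd
          rcases (Nat.Prime.dvd_mul Nat.prime_three).mp hdvd with h1 | h1
          · norm_num at h1
          · exact hqM h1

end Fermat.Agent.Lib.S35
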