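/-
S35 (row 34), skeleton [SK] (helper3): the formal part of the argument.

* `s35s_core` : the abstract core of S30 (form C), exporting in addition the local statement at a
  "bad" Frobenius: if `σ` acts on the eigen-module `E` with a vector `w ≠ 0` such that
  `σ² w = q² w` or `σ² w = w`, and `d σ = q`, then the rank-two representation has
  `charpoly (ρ'' σ) = X² ∓ (q + 1) X + q`.
  (Proof: the scalar relation `ρ g + d g • ρ g⁻¹ = t g` of `[DENS]` holds for ALL `g`; applied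
  to `w` and to `σ w` it gives `(q + 1)² = t(σ)²`.)
* `s35s_main` : the S35 conclusion for a system of eigenvalues `χ : 𝕋 →+* 𝒪'` of level `N`,
  from the WEAK LOCAL input at the primes `q ∥ N`, `q ≠ p`.
-/
import Fermat.Agent.Lib.S30.LFinal2

set_option autoImplicit false
set_option linter.unusedSectionVars false
set_option linter.style.haveILetI false

open Polynomial IsLocalRing
open scoped TensorProduct

namespace Fermat.Agent.Lib.S35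

open Fermat.Agent.Lib.S29 Fermat.Agent.Lib.S30

noncomputable section

section Alg

variable {𝒪 : Type} [CommRing 𝒪] [IsDomain 𝒪] {E : Type} [AddCommGroup E] [Module 𝒪 E]
  [Module.IsTorsionFree 𝒪 E]

/-- The algebra of the weak local statement: `s + q • s⁻¹ = t` on `E`, `w ≠ 0`, and
`s² w = q² w` or `s² w = w` force `t = ± (q + 1)`. -/
theorem s35s_trace_sq (s sinv : Module.End 𝒪 E) (q t : 𝒪) (hq : q ≠ 0)
    (hinv : sinv * s = 1) (hrel : s + q • sinv = t • 1)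
    (w : E) (hw : w ≠ 0) (h : s (s w) = q ^ 2 • w ∨ s (s w) = w) :
    t = q + 1 ∨ t = -(q + 1) := by
  have hsinv : ∀ x : E, sinv (s x) = x := fun x => by
    have := congrArg (fun f : Module.End 𝒪 E => f x) hinv
    simpa using this
  -- the relation on `w` and on `s w`
  have h1 : s (s w) + q • w = t • s w := by
    have := congrArg (fun f : Module.End 𝒪 E => f (s w)) hrel
    simp only [LinearMap.add_apply, LinearMap.smul_apply, Module.End.one_apply] at this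
    rw [hsinv] at this
    exact this
  have h2 : s (s (s w)) + q • s w = t • s (s w) := by
    have := congrArg (fun f : Module.End 𝒪 E => f (s (s w))) hrel
    simp only [LinearMap.add_apply, LinearMap.smul_apply, Module.End.one_apply] at this
    rw [hsinv] at this
    exact this
  have key : (t ^ 2 - (q + 1) ^ 2) • w = 0 := by
    rcases h with h | h
    · -- `s² w = q² w`
      rw [h] at h1
      rw [h, map_smul] at h2
      -- h1 : q² w + q w = t s w ; h2 : q² s w + q s w = t q² w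
      have h3 : (q ^ 2 + q) • w = t • s w := by rw [add_smul]; exact h1
      have h4 : (q ^ 2 + q) • s w = (t * q ^ 2) • w := by rw [add_smul, mul_smul]; exact h2
      have h5 : (q ^ 2 * (t ^ 2 - (q + 1) ^ 2)) • w = 0 := by
        have e1 : (q ^ 2 + q) • ((q ^ 2 + q) • w) = (q ^ 2 + q) • (t • s w) := by rw [h3]
        rw [smul_comm (q ^ 2 + q) t, h4, smul_smul, smul_smul] at e1
        have e2 : (q ^ 2 * (t ^ 2 - (q + 1) ^ 2)) • w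
            = (t * (t * q ^ 2)) • w - ((q ^ 2 + q) * (q ^ 2 + q)) • w := by
          rw [← sub_smul]; congr 1; ring
        rw [e2, e1, sub_self]
      rw [mul_smul] at h5
      exact (smul_eq_zero_iff_right (pow_ne_zero 2 hq)).mp h5
    · -- `s² w = w`
      rw [h] at h1
      rw [h] at h2
      -- h1 : w + q w = t s w ; h2 : s w + q s w = t w
      have h3 : (1 + q) • w = t • s w := by rw [add_smul, one_smul]; exact h1
      have h4 : (1 + q) • s w = t • w := by rw [add_smul, one_smul]; exact h2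
      have e1 : (1 + q) • ((1 + q) • w) = (1 + q) • (t • s w) := by rw [h3]
      rw [smul_comm (1 + q) t, h4, smul_smul, smul_smul] at e1
      have e2 : (t ^ 2 - (q + 1) ^ 2) • w = (t * t) • w - ((1 + q) * (1 + q)) • w := by
        rw [← sub_smul]; congr 1; ring
      rw [e2, e1, sub_self]
  have h0 : t ^ 2 - (q + 1) ^ 2 = 0 := by
    rcases smul_eq_zero.mp key with h | h
    · exact h
    · exact absurd h hw
  have h00 : (t - (q + 1)) * (t + (q + 1)) = 0 := by rw [← h0]; ring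
  rcases mul_eq_zero.mp h00 with h | h
  · left; exact sub_eq_zero.mp h
  · right; exact eq_neg_of_add_eq_zero_left h

end Alg

section CoreC

variable {𝒪 : Type} [CommRing 𝒪] [IsDomain 𝒪] [IsDiscreteValuationRing 𝒪]
  {M : Type} [AddCommGroup M] [Module 𝒪 M] [Module.Free 𝒪 M] [Module.Finite 𝒪 M]
  [IsAdicComplete (maximalIdeal 𝒪) 𝒪] [Finite (ResidueField 𝒪)] [CharZero 𝒪]

/-- **The abstract core of S35** (= the core of S30, form C, exporting the weak local statement). -/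
theorem s35s_core (hDens : s30_DensContract) (hTwo : s30_TwoContractC) (p : ℕ) [Fact p.Prime]
    (hp : (p : 𝒪) ∈ maximalIdeal 𝒪)
    (ρ : s29k_G →* Module.End 𝒪 M) (hcont : GaloisActionIsAdicContinuous 𝒪 ρ)
    (d : s29k_G →* 𝒪ˣ) (hd : s30_CharContinuous d)
    (cc : s29k_G) (hcc : cc * cc = 1) (hdcc : d cc = -1)
    {ι : Type} (T : ι → Module.End 𝒪 M) (c : ι → 𝒪)
    (hcomm : ∀ (σ : s29k_G) (i : ι), Commute (ρ σ) (T i))
    (v : M) (hv0 : v ≠ 0) (hv : v ∈ s30f_eigen T c)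
    (S₀ : Finset ℕ) (a : ℕ → 𝒪)
    (hfrob : ∀ ℓ : ℕ, ℓ.Prime → ℓ ∉ S₀ →
      ∀ A : ValuationSubring (AlgebraicClosure ℚ), A.LiesOverPrime ℓ →
        ∀ σ : s29k_G, A.IsFrobeniusAt σ ℓ →
          (∀ w ∈ s30f_eigen T c, ρ σ (ρ σ w) - a ℓ • ρ σ w + (ℓ : 𝒪) • w = 0) ∧
            ((d σ : 𝒪ˣ) : 𝒪) = (ℓ : 𝒪)) :
    ∃ ρ'' : GaloisRepAdic 𝒪,
      (∀ ℓ : ℕ, ℓ.Prime → ℓ ∉ S₀ →
        ∀ A : ValuationSubring (AlgebraicClosure ℚ), A.LiesOverPrime ℓ →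
          ∀ σ : s29k_G, A.IsFrobeniusAt σ ℓ →
            LinearMap.charpoly (ρ''.ρ σ) = X ^ 2 - C (a ℓ) * X + C ((ℓ : 𝒪))) ∧
      ∀ (σ : s29k_G) (q : 𝒪), q ≠ 0 → ((d σ : 𝒪ˣ) : 𝒪) = q →
        (∃ w ∈ s30f_eigen T c, w ≠ 0 ∧ (ρ σ (ρ σ w) = q ^ 2 • w ∨ ρ σ (ρ σ w) = w)) →
        LinearMap.charpoly (ρ''.ρ σ) = X ^ 2 - C (q + 1) * X + C q ∨
          LinearMap.charpoly (ρ''.ρ σ) = X ^ 2 + C (q + 1) * X + C q := by
  -- the eigen-submodule and the restricted representation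
  set E : Submodule 𝒪 M := s30f_eigen T c with hEdef
  have hE : ∀ (g : s29k_G) (w : M), w ∈ E → ρ g w ∈ E := fun g w hw =>
    s30f_map_mem_eigen (fun i => hcomm g i) hw
  have hsat : ∀ (r : 𝒪), r ≠ 0 → ∀ m : M, r • m ∈ E → m ∈ E := fun r hr m hm =>
    s30f_eigen_saturated hr hm
  haveI : Module.Finite 𝒪 E := s30f_finite_submodule E
  haveI : Module.Free 𝒪 E := s30f_free_submodule E
  haveI : Nontrivial E := ⟨⟨⟨v, hv⟩, 0, fun h => hv0 (congrArg Subtype.val h)⟩⟩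
  set ρE : s29k_G →* Module.End 𝒪 E := s30f_restrict ρ E hE with hρE
  have hcontE : GaloisActionIsAdicContinuous 𝒪 ρE := s30f_continuous_restrict ρ hcont E hE hsat
  -- [DENS]
  obtain ⟨t, ht, htfrob⟩ := hDens 𝒪 E ρE hcontE d hd S₀ a (by
    intro ℓ hℓ hℓS A hA σ hσ
    obtain ⟨h1, h2⟩ := hfrob ℓ hℓ hℓS A hA σ hσ
    refine ⟨?_, h2⟩
    apply LinearMap.ext
    intro w
    apply Subtype.ext
    exact h1 (w : M) w.2)
  -- [TWO], form C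
  obtain ⟨ρ'', hchar, -⟩ := hTwo p 𝒪 hp E ρE hcontE d hd t ht cc hcc hdcc
  refine ⟨ρ'', ?_, ?_⟩
  · intro ℓ hℓ hℓS A hA σ hσ
    rw [hchar σ, htfrob ℓ hℓ hℓS A hA σ hσ, (hfrob ℓ hℓ hℓS A hA σ hσ).2]
  · intro σ q hq hdq ⟨w, hwE, hw0, hw⟩
    have hinv : ρE σ⁻¹ * ρE σ = 1 := by rw [← map_mul, inv_mul_cancel, map_one]
    have hrel : ρE σ + q • ρE σ⁻¹ = t σ • 1 := by rw [← hdq]; exact ht σ
    have hw0' : (⟨w, hwE⟩ : E) ≠ 0 := fun h => hw0 (congrArg Subtype.val h)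
    have hw' : ρE σ (ρE σ ⟨w, hwE⟩) = q ^ 2 • (⟨w, hwE⟩ : E) ∨ ρE σ (ρE σ ⟨w, hwE⟩) = ⟨w, hwE⟩ := by
      rcases hw with h | h
      · left; apply Subtype.ext; exact h
      · right; apply Subtype.ext; exact h
    rcases s35s_trace_sq (ρE σ) (ρE σ⁻¹) q (t σ) hq hinv hrel ⟨w, hwE⟩ hw0' hw' with h | h
    · left; rw [hchar σ, h, hdq]
    · right
      rw [hchar σ, h, hdq, C_neg, neg_mul, sub_neg_eq_add]

end CoreC

section MainC

variable (p : ℕ) [Fact p.Prime]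

/-- **S35 from the contracts of S30 and the WEAK LOCAL input.**  `χ : 𝕋 →+* 𝒪'` is a system of
eigenvalues of level `N`; the weak local input at a prime `q ∥ N`, `q ≠ p` and a Frobenius `σ` at
`q` is a non-zero `χ`-eigenvector `w` of `𝒪' ⊗ T_p J₀(N)` with `σ² w = q² w` or `σ² w = w`. -/
theorem s35s_main (hExtA : s30_ExtAContract) (hDens : s30_DensContract)
    (hTwo : s30_TwoContractC)
    (N : ℕ) [NeZero N] (D : s30_TateDatum N p) (Cy : s30_CycDatum p)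
    (hconj : Cy.ε complexConjugation = -1)
    (S : Finset ℕ) (hpS : p ∈ S) (hNS : ∀ q : ℕ, q.Prime → q ∣ N → q ∈ S)
    (𝒪' : Type) [CommRing 𝒪'] [IsDomain 𝒪'] [IsDiscreteValuationRing 𝒪']
    [IsAdicComplete (maximalIdeal 𝒪') 𝒪'] [Finite (ResidueField 𝒪')]
    [CharZero 𝒪'] (hp𝒪' : (p : 𝒪') ∈ maximalIdeal 𝒪')
    (χ : CuspForm.heckeAlgebra N 2 (↑S : Set ℕ) →+* 𝒪')
    (hWL : ∀ [Algebra ℤ_[p] 𝒪'] (q : ℕ), q.Prime → q ≠ p → q ∣ N → ¬ q ^ 2 ∣ N →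
      ∀ A : ValuationSubring (AlgebraicClosure ℚ), A.LiesOverPrime q →
        ∀ σ : s29k_G, A.IsFrobeniusAt σ q →
          ∃ w : 𝒪' ⊗[ℤ_[p]] D.Λ, w ≠ 0 ∧
            (∀ (ℓ : ℕ) (hℓ : ℓ.Prime) (hℓN : ¬ ℓ ∣ N) (hℓS : ℓ ∉ (↑S : Set ℕ)),
              (D.T ⟨ℓ, hℓ⟩).baseChange 𝒪' w = χ (CuspForm.heckeAlgebra.T hℓ hℓN hℓS) • w) ∧
            ((D.ρ σ).baseChange 𝒪' ((D.ρ σ).baseChange 𝒪' w) = (q : 𝒪') ^ 2 • w ∨
              (D.ρ σ).baseChange 𝒪' ((D.ρ σ).baseChange 𝒪' w) = w)) :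
    ∃ (𝒪'' : Type) (_ : CommRing 𝒪'') (_ : IsDomain 𝒪'') (_ : IsDiscreteValuationRing 𝒪'')
      (_ : IsAdicComplete (maximalIdeal 𝒪'') 𝒪'')
      (_ : Finite (ResidueField 𝒪'')) (_ : CharZero 𝒪'')
      (_ : Algebra 𝒪' 𝒪'') (_ : Module.Finite 𝒪' 𝒪'') (_ : IsLocalHom (algebraMap 𝒪' 𝒪'')),
      Function.Injective (algebraMap 𝒪' 𝒪'') ∧
      ∃ ρ : GaloisRepAdic 𝒪'',
        (∀ (ℓ : ℕ) (hℓ : ℓ.Prime) (hℓN : ¬ ℓ ∣ N) (hℓS : ℓ ∉ (↑S : Set ℕ)),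
          ∀ A : ValuationSubring (AlgebraicClosure ℚ), A.LiesOverPrime ℓ →
            ∀ σ : AlgebraicClosure ℚ ≃ₐ[ℚ] AlgebraicClosure ℚ, A.IsFrobeniusAt σ ℓ →
              LinearMap.charpoly (ρ.ρ σ) =
                X ^ 2 - C (algebraMap 𝒪' 𝒪'' (χ (CuspForm.heckeAlgebra.T hℓ hℓN hℓS))) * X
                  + C ((ℓ : 𝒪''))) ∧
        (∀ q : ℕ, q.Prime → q ≠ p → q ∣ N → ¬ q ^ 2 ∣ N →
          ∀ A : ValuationSubring (AlgebraicClosure ℚ), A.LiesOverPrime q →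
            ∀ σ : AlgebraicClosure ℚ ≃ₐ[ℚ] AlgebraicClosure ℚ, A.IsFrobeniusAt σ q →
              LinearMap.charpoly (ρ.ρ σ) = X ^ 2 - C ((q : 𝒪'') + 1) * X + C ((q : 𝒪'')) ∨
              LinearMap.charpoly (ρ.ρ σ) = X ^ 2 + C ((q : 𝒪'') + 1) * X + C ((q : 𝒪''))) := by
  classical
  obtain ⟨f⟩ := hExtA p 𝒪' hp𝒪'
  letI : Algebra ℤ_[p] 𝒪' := f.toAlgebra
  have hfnat : ∀ m : ℕ, algebraMap ℤ_[p] 𝒪' (m : ℤ_[p]) = (m : 𝒪') := fun m => map_natCast _ m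
  -- the base-changed Tate module
  set ρ : s29k_G →* Module.End 𝒪' (𝒪' ⊗[ℤ_[p]] D.Λ) := s30f_baseChange 𝒪' D.ρ with hρ
  have hcont : GaloisActionIsAdicContinuous 𝒪' ρ :=
    s30f_continuous_baseChange p hp𝒪' D.ρ D.cont
  -- the cyclotomic character
  set d : s29k_G →* 𝒪'ˣ := (Units.map (f : ℤ_[p] →* 𝒪')).comp Cy.ε with hd
  have hdval : ∀ σ : s29k_G, ((d σ : 𝒪'ˣ) : 𝒪') = f ((Cy.ε σ : ℤ_[p]ˣ) : ℤ_[p]) := fun σ => rfl
  have hdcont : s30_CharContinuous d := by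
    intro n
    obtain ⟨L, hL, -, h1⟩ := Cy.cont n
    refine ⟨L, hL, fun σ hσ => ?_⟩
    obtain ⟨w, hw⟩ := h1 σ hσ
    have : ((d σ : 𝒪'ˣ) : 𝒪') - 1 = (p : 𝒪') ^ n * f w := by
      rw [hdval, ← map_one f, ← map_sub, hw, map_mul, map_pow, map_natCast]
    rw [this]
    exact Ideal.mul_mem_right _ _ (Ideal.pow_mem_pow hp𝒪' n)
  have hdcc : d complexConjugation = -1 := by
    apply Units.ext
    rw [hdval, hconj]
    simp
  -- the eigen-system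
  let ι : Type := {ℓ : ℕ // ℓ.Prime ∧ ¬ ℓ ∣ N ∧ ℓ ∉ (↑S : Set ℕ)}
  let T : ι → Module.End 𝒪' (𝒪' ⊗[ℤ_[p]] D.Λ) := fun i => (D.T ⟨i.1, i.2.1⟩).baseChange 𝒪'
  let c : ι → 𝒪' := fun i => χ (CuspForm.heckeAlgebra.T i.2.1 i.2.2.1 i.2.2.2)
  have hcomm : ∀ (σ : s29k_G) (i : ι), Commute (ρ σ) (T i) := fun σ i =>
    s30f_baseChange_commute 𝒪' (D.comm ⟨i.1, i.2.1⟩ σ)
  obtain ⟨v, hv0, hv⟩ := D.eig S 𝒪' χ
  have hvE : v ∈ s30f_eigen T c := fun i => hv i.1 i.2.1 i.2.2.1 i.2.2.2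
  -- the Frobenius data
  let a : ℕ → 𝒪' := fun ℓ =>
    if h : ℓ.Prime ∧ ¬ ℓ ∣ N ∧ ℓ ∉ (↑S : Set ℕ) then
      χ (CuspForm.heckeAlgebra.T h.1 h.2.1 h.2.2) else 0
  have hgood : ∀ ℓ : ℕ, ℓ.Prime → ℓ ∉ S → ¬ ℓ ∣ N ∧ ℓ ≠ p := by
    intro ℓ hℓ hℓS
    exact ⟨fun h => hℓS (hNS ℓ hℓ h), fun h => hℓS (h ▸ hpS)⟩
  have hndvd : ∀ ℓ : ℕ, ℓ.Prime → ¬ ℓ ∣ N → ℓ ≠ p → ¬ ℓ ∣ N * p := by
    intro ℓ hℓ h1 h2 h3
    rcases (Nat.Prime.dvd_mul hℓ).mp h3 with h | h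
    · exact h1 h
    · exact h2 ((Nat.prime_dvd_prime_iff_eq hℓ (Fact.out : p.Prime)).mp h)
  have hfrob : ∀ ℓ : ℕ, ℓ.Prime → ℓ ∉ S →
      ∀ A : ValuationSubring (AlgebraicClosure ℚ), A.LiesOverPrime ℓ →
        ∀ σ : s29k_G, A.IsFrobeniusAt σ ℓ →
          (∀ w ∈ s30f_eigen T c, ρ σ (ρ σ w) - a ℓ • ρ σ w + (ℓ : 𝒪') • w = 0) ∧
            ((d σ : 𝒪'ˣ) : 𝒪') = (ℓ : 𝒪') := by
    intro ℓ hℓ hℓS A hA σ hσ
    obtain ⟨hℓN, hℓp⟩ := hgood ℓ hℓ hℓS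
    have hℓS' : ℓ ∉ (↑S : Set ℕ) := fun h => hℓS (Finset.mem_coe.mp h)
    refine ⟨fun w hw => ?_, ?_⟩
    · have hq := D.frobQuad ⟨ℓ, hℓ⟩ (hndvd ℓ hℓ hℓN hℓp) A hA σ hσ
      have hq' := congrArg (fun g : Module.End ℤ_[p] D.Λ => g.baseChange 𝒪' w) hq
      simp only [LinearMap.baseChange_add, LinearMap.baseChange_sub, LinearMap.baseChange_mul,
        LinearMap.baseChange_smul, LinearMap.baseChange_one, LinearMap.baseChange_zero,
        LinearMap.add_apply, LinearMap.sub_apply, Module.End.mul_apply, LinearMap.smul_apply,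
        Module.End.one_apply, LinearMap.zero_apply] at hq'
      have hTw : (D.T ⟨ℓ, hℓ⟩).baseChange 𝒪' (ρ σ w) = a ℓ • ρ σ w := by
        have h1 := s30f_map_mem_eigen (fun i => hcomm σ i) hw ⟨ℓ, hℓ, hℓN, hℓS'⟩
        have ha : a ℓ = c ⟨ℓ, hℓ, hℓN, hℓS'⟩ := by
          show (if h : ℓ.Prime ∧ ¬ ℓ ∣ N ∧ ℓ ∉ (↑S : Set ℕ) then
            χ (CuspForm.heckeAlgebra.T h.1 h.2.1 h.2.2) else 0) = _
          rw [dif_pos ⟨hℓ, hℓN, hℓS'⟩]
        rw [ha]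
        exact h1
      have hsm : (((ℓ : ℕ) : ℤ_[p])) • w = (ℓ : 𝒪') • w := by
        rw [algebra_compatible_smul 𝒪' ((ℓ : ℕ) : ℤ_[p]) w, hfnat]
      rw [s30f_baseChange_apply] at hTw ⊢
      rw [hTw, hsm] at hq'
      exact hq'
    · rw [hdval, Cy.frob ℓ hℓ hℓp A hA σ hσ, map_natCast]
  obtain ⟨ρ'', hchar, hloc⟩ :=
    s35s_core hDens hTwo p hp𝒪' ρ hcont d hdcont complexConjugation complexConjugation_mul_self
      hdcc T c hcomm v hv0 hvE S a hfrob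
  refine ⟨𝒪', inferInstance, inferInstance, inferInstance, inferInstance, inferInstance,
    inferInstance, Algebra.id 𝒪', Module.Finite.self 𝒪', ?_, ?_, ρ'', ?_, ?_⟩
  · show IsLocalHom (RingHom.id 𝒪')
    infer_instance
  · exact Function.injective_id
  · intro ℓ hℓ hℓN hℓS A hA σ hσ
    have hℓS' : ℓ ∉ S := fun h => hℓS (Finset.mem_coe.mpr h)
    rw [hchar ℓ hℓ hℓS' A hA σ hσ]
    have ha : a ℓ = χ (CuspForm.heckeAlgebra.T hℓ hℓN hℓS) := by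
      show (if h : ℓ.Prime ∧ ¬ ℓ ∣ N ∧ ℓ ∉ (↑S : Set ℕ) then
        χ (CuspForm.heckeAlgebra.T h.1 h.2.1 h.2.2) else 0) = _
      rw [dif_pos ⟨hℓ, hℓN, hℓS⟩]
    rw [ha]
    rfl
  · intro q hq hqp hqN hq2 A hA σ hσ
    obtain ⟨w, hw0, hwE, hw⟩ := hWL q hq hqp hqN hq2 A hA σ hσ
    have hq0 : (q : 𝒪') ≠ 0 := Nat.cast_ne_zero.mpr hq.ne_zero
    have hdq : ((d σ : 𝒪'ˣ) : 𝒪') = (q : 𝒪') := by
      rw [hdval, Cy.frob q hq hqp A hA σ hσ, map_natCast]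
    exact hloc σ (q : 𝒪') hq0 hdq
      ⟨w, fun i => hwE i.1 i.2.1 i.2.2.1 i.2.2.2, hw0, hw⟩

end MainC

end

end Fermat.Agent.Lib.S35
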