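/-
S35 stage 1 (helper5, prefix `s35t_`): the TAME RELATION for adic Galois representations with
unipotent inertia, and the formal endgame `charpoly ρ(Frob_q) = X² ∓ (q+1) X + q`.
-/
import Mathlib
import Fermat.Agent.Lib.S35.TameFin
import Fermat.Prelude.Def_GaloisRep_Adic

set_option autoImplicit false
set_option linter.unusedSectionVars false
set_option linter.style.haveILetI false

namespace Fermat.Agent.Lib.S35

open Polynomial IsLocalRing

local notation "Ω" => AlgebraicClosure ℚ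
local notation "GQ" => (AlgebraicClosure ℚ ≃ₐ[ℚ] AlgebraicClosure ℚ)

section Algebra

/-- `(1 + N) ^ k = 1 + k N` if `N² = 0` -/
lemma s35t_one_add_pow {R : Type*} [Ring R] (N : R) (hN : N * N = 0) (k : ℕ) :
    (1 + N) ^ k = 1 + k • N := by
  induction k with
  | zero => simp
  | succ k ih =>
    rw [pow_succ, ih, add_mul, mul_add, mul_add, one_mul, mul_one, one_mul, smul_mul_assoc, hN,
      smul_zero, add_zero, succ_nsmul]
    abel

end Algebra

section Level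

variable {𝒪 : Type} [CommRing 𝒪] [IsLocalRing 𝒪] {Λ : Type} [AddCommGroup Λ] [Module 𝒪 Λ]
  (ρ : GQ →* Module.End 𝒪 Λ)

/-- a finite Galois-stable level for `ρ` modulo `𝔪 ^ n`. -/
theorem s35t_exists_level (hρ : GaloisActionIsAdicContinuous 𝒪 ρ) (n : ℕ) :
    ∃ L : IntermediateField ℚ Ω, FiniteDimensional ℚ L ∧
      (∀ σ : GQ, ∀ x ∈ L, σ x ∈ L) ∧
      ∀ σ : GQ, (∀ x ∈ L, σ x = x) →
        (∀ v : Λ, ρ σ v - v ∈ (maximalIdeal 𝒪 ^ n) • (⊤ : Submodule 𝒪 Λ)) := by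
  obtain ⟨L₀, hL₀, h₁⟩ := hρ n
  have hcl : IsAlgClosure ℚ Ω := ⟨inferInstance, AlgebraicClosure.isAlgebraic ℚ⟩
  have hnQ : Normal ℚ Ω := IsAlgClosure.normal ℚ Ω
  set L : IntermediateField ℚ Ω := IntermediateField.normalClosure ℚ L₀ Ω with hL
  have hle : L₀ ≤ L := IntermediateField.le_normalClosure L₀
  have hnorm : Normal ℚ L := normalClosure.normal ℚ L₀ Ω
  refine ⟨L, normalClosure.is_finiteDimensional ℚ L₀ Ω, fun σ y hy => ?_, fun σ hσ => ?_⟩
  · have h1 := IntermediateField.normal_iff_forall_map_le'.mp hnorm σ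
    exact h1 ((IntermediateField.mem_map _).mpr ⟨y, hy, rfl⟩)
  · exact h₁ σ (fun x hx => hσ x (hle hx))

end Level

section Rep

variable {𝒪 : Type} [CommRing 𝒪] [IsLocalRing 𝒪] [IsNoetherianRing 𝒪]

/-- unipotent: `(ρ(τ) - 1)² = 0` -/
lemma s35t_sub_one_sq (ρ : GaloisRepAdic 𝒪) {τ : GQ}
    (h : LinearMap.charpoly (ρ.ρ τ) = (X - 1) ^ 2) :
    (ρ.ρ τ - 1) * (ρ.ρ τ - 1) = 0 := by
  have h1 := LinearMap.aeval_self_charpoly (ρ.ρ τ)
  rw [h] at h1
  simpa [pow_two] using h1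

/-- **the tame relation for continuous actions**: `Λ` a finite module over a Noetherian local ring
`𝒪` in which `q` is invertible, `ρ` an adically continuous action of `G_ℚ` such that
`(ρ(τ) - 1)² = 0` on the inertia group at `A`.  Then `ρ(σ τ σ⁻¹) = ρ(τ) ^ q` for every Frobenius
lift `σ` and every `τ` in the inertia group. -/
theorem s35t_tame_gen {Λ : Type} [AddCommGroup Λ] [Module 𝒪 Λ] [Module.Finite 𝒪 Λ]
    (ρ : GQ →* Module.End 𝒪 Λ) (hcont : GaloisActionIsAdicContinuous 𝒪 ρ)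
    (A : ValuationSubring Ω) {q : ℕ} (hq : q.Prime)
    (hA : A.LiesOverPrime q) (hqO : IsUnit (q : 𝒪))
    (hU : ∀ τ ∈ A.inertiaSubgroupIn ℚ, (ρ τ - 1) * (ρ τ - 1) = 0)
    (σ τ : GQ) (hσ : A.IsFrobeniusAt σ q) (hτ : τ ∈ A.inertiaSubgroupIn ℚ) :
    ρ (σ * τ * σ⁻¹) = ρ τ ^ q := by
  set c : GQ := σ * τ * σ⁻¹ * (τ ^ q)⁻¹ with hc
  have hcI : c ∈ A.inertiaSubgroupIn ℚ :=
    mul_mem (s35t_conj_mem_inertia A σ τ hσ.mem_decompositionSubgroup hτ)
      (inv_mem (pow_mem hτ q))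
  set N : Module.End 𝒪 Λ := ρ c - 1 with hN
  have hNN : N * N = 0 := hU c hcI
  have hρc : ρ c = 1 + N := by rw [hN]; abel
  -- `N` vanishes modulo every power of the maximal ideal
  have hNv : ∀ (v : Λ) (n : ℕ), N v ∈ (maximalIdeal 𝒪 ^ n) • (⊤ : Submodule 𝒪 Λ) := by
    intro v n
    obtain ⟨L, hL, hstab, hlev⟩ := s35t_exists_level ρ hcont n
    obtain ⟨a, ha⟩ := s35t_tame_fin A hq hA σ τ hσ hτ L hL hstab
    have h1 := hlev (c ^ (q ^ a)) ha v
    rw [map_pow, hρc, s35t_one_add_pow N hNN] at h1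
    have h2 : (1 + (q ^ a) • N) v - v = ((q ^ a : ℕ) : 𝒪) • N v := by
      rw [LinearMap.add_apply, Module.End.one_apply, add_sub_cancel_left, LinearMap.smul_apply,
        Nat.cast_smul_eq_nsmul]
    rw [h2] at h1
    have hu : IsUnit (((q ^ a : ℕ) : 𝒪)) := by
      rw [Nat.cast_pow]; exact hqO.pow a
    obtain ⟨u, hu'⟩ := hu
    have h3 : N v = ((u⁻¹ : 𝒪ˣ) : 𝒪) • (((q ^ a : ℕ) : 𝒪) • N v) := by
      rw [smul_smul, ← hu', Units.inv_mul, one_smul]
    rw [h3]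
    exact Submodule.smul_mem _ _ h1
  have hN0 : N = 0 := by
    refine LinearMap.ext fun v => ?_
    have h1 : N v ∈ (⨅ i : ℕ, (maximalIdeal 𝒪) ^ i • (⊤ : Submodule 𝒪 Λ)) := by
      rw [Submodule.mem_iInf]; exact hNv v
    rw [Ideal.iInf_pow_smul_eq_bot_of_isLocalRing (maximalIdeal 𝒪)
      (Ideal.IsMaximal.ne_top inferInstance), Submodule.mem_bot] at h1
    rw [h1, LinearMap.zero_apply]
  have hc1 : ρ c = 1 := by rw [hρc, hN0, add_zero]
  have h4 : σ * τ * σ⁻¹ = c * τ ^ q := by rw [hc, inv_mul_cancel_right]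
  rw [h4, map_mul, hc1, one_mul, map_pow]

/-- **the tame relation for representations**: if inertia at `A` acts unipotently and `q` is
invertible in `𝒪`, then `ρ(σ τ σ⁻¹) = ρ(τ) ^ q` for every Frobenius lift `σ` and every `τ` in the
inertia group. -/
theorem s35t_tame_rep (ρ : GaloisRepAdic 𝒪) (A : ValuationSubring Ω) {q : ℕ} (hq : q.Prime)
    (hA : A.LiesOverPrime q) (hqO : IsUnit (q : 𝒪))
    (hU : ∀ τ ∈ A.inertiaSubgroupIn ℚ, LinearMap.charpoly (ρ.ρ τ) = (X - 1) ^ 2)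
    (σ τ : GQ) (hσ : A.IsFrobeniusAt σ q) (hτ : τ ∈ A.inertiaSubgroupIn ℚ) :
    ρ.ρ (σ * τ * σ⁻¹) = ρ.ρ τ ^ q :=
  s35t_tame_gen ρ.ρ ρ.isAdicContinuous A hq hA hqO
    (fun τ' hτ' => s35t_sub_one_sq ρ (hU τ' hτ')) σ τ hσ hτ

end Rep

end Fermat.Agent.Lib.S35
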