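/-
S35 stage 1 (helper5, prefix `s35t_`): (D) the determinant at Frobenius lifts at BAD primes.

If `det ρ(Frob_ℓ) = ℓ` for all Frobenius lifts at the primes `ℓ` outside a finite set, then
`det ρ(σ) = q` for every Frobenius lift `σ` at every prime `q ≠ p` (`p` the residue
characteristic), by weak Chebotarev + continuity + the `p`-adic cyclotomic character.
-/
import Mathlib
import Fermat.Agent.Lib.S35.TameRep
import Fermat.Agent.Lib.S30.CycB
import Fermat.Agent.Lib.S30.Dens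
import Fermat.Agent.Lib.S29.FDPlace

set_option autoImplicit false
set_option linter.unusedSectionVars false
set_option linter.style.haveILetI false

namespace Fermat.Agent.Lib.S35

open Polynomial IsLocalRing Fermat.Agent.Lib.S29 Fermat.Agent.Lib.S30

local notation "Ω" => AlgebraicClosure ℚ
local notation "GQ" => (AlgebraicClosure ℚ ≃ₐ[ℚ] AlgebraicClosure ℚ)

section Det

variable {R M : Type*} [CommRing R] [AddCommGroup M] [Module R M] [Module.Free R M]
  [Module.Finite R M]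

/-- an endomorphism congruent to `1` modulo `I` has determinant congruent to `1` modulo `I` -/
lemma s35t_det_sub_one_mem (I : Ideal R) (T : Module.End R M)
    (h : ∀ v, T v - v ∈ I • (⊤ : Submodule R M)) : LinearMap.det T - 1 ∈ I := by
  classical
  set b := Module.Free.chooseBasis R M with hb
  rw [← LinearMap.det_toMatrix b T]
  have h1 : (LinearMap.toMatrix b b T).map (Ideal.Quotient.mk I) = 1 := by
    ext i j
    rw [Matrix.map_apply, LinearMap.toMatrix_apply, Matrix.one_apply]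
    have h2 := s30d_repr_mem_of_mem_smul_top b I (h (b j)) i
    rw [map_sub, Finsupp.sub_apply, Module.Basis.repr_self, Finsupp.single_apply] at h2
    rw [← Ideal.Quotient.eq_zero_iff_mem, map_sub] at h2
    rw [sub_eq_zero.mp h2]
    by_cases hij : i = j
    · rw [if_pos hij, if_pos hij.symm, map_one]
    · rw [if_neg hij, if_neg (Ne.symm hij), map_zero]
  have h3 := (Ideal.Quotient.mk I).map_det (LinearMap.toMatrix b b T)
  rw [RingHom.mapMatrix_apply, h1, Matrix.det_one] at h3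
  rw [← Ideal.Quotient.eq_zero_iff_mem, map_sub, h3, map_one, sub_self]

end Det

section Main

variable {𝒪 : Type} [CommRing 𝒪] [IsLocalRing 𝒪] [IsNoetherianRing 𝒪]

/-- **(D)** `det ρ(σ) = q` for Frobenius lifts at every prime `q ≠ p`. -/
theorem s35t_det_frob (ρ : GaloisRepAdic 𝒪) (p : ℕ) [Fact p.Prime]
    (hp𝒪 : (p : 𝒪) ∈ maximalIdeal 𝒪) (S₀ : Finset ℕ)
    (hfrob : ∀ ℓ : ℕ, ℓ.Prime → ℓ ∉ S₀ → ∀ A : ValuationSubring Ω, A.LiesOverPrime ℓ →
      ∀ σ : GQ, A.IsFrobeniusAt σ ℓ → LinearMap.det (ρ.ρ σ) = (ℓ : 𝒪))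
    (A : ValuationSubring Ω) {q : ℕ} (hq : q.Prime) (hqp : q ≠ p) (hA : A.LiesOverPrime q)
    (σ : GQ) (hσ : A.IsFrobeniusAt σ q) : LinearMap.det (ρ.ρ σ) = (q : 𝒪) := by
  have key : ∀ n : ℕ, LinearMap.det (ρ.ρ σ) - (q : 𝒪) ∈ maximalIdeal 𝒪 ^ n := by
    intro n
    obtain ⟨L₁, hL₁, hst₁, hlev₁⟩ := s35t_exists_level ρ.ρ ρ.isAdicContinuous n
    obtain ⟨L₂, hL₂, hst₂, hlev₂⟩ := (s30y_cycDatum p).cont n
    have hcl : IsAlgClosure ℚ Ω := ⟨inferInstance, AlgebraicClosure.isAlgebraic ℚ⟩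
    have hnQ : Normal ℚ Ω := IsAlgClosure.normal ℚ Ω
    set L₀ : IntermediateField ℚ Ω := L₁ ⊔ L₂ with hL₀
    have hfd : FiniteDimensional ℚ L₀ := IntermediateField.finiteDimensional_sup L₁ L₂
    set L : IntermediateField ℚ Ω := IntermediateField.normalClosure ℚ L₀ Ω with hL
    have hle : L₀ ≤ L := IntermediateField.le_normalClosure L₀
    have hnorm : Normal ℚ L := normalClosure.normal ℚ L₀ Ω
    have hLfd : FiniteDimensional ℚ L := normalClosure.is_finiteDimensional ℚ L₀ Ω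
    have hstab : ∀ g : GQ, ∀ x ∈ L, g x ∈ L := by
      intro g y hy
      have h1 := IntermediateField.normal_iff_forall_map_le'.mp hnorm g
      exact h1 ((IntermediateField.mem_map _).mpr ⟨y, hy, rfl⟩)
    obtain ⟨ℓ, A', σ', j, hℓ, hℓS, hA', hFr, hj⟩ :=
      s29d_frobDensity L hLfd hstab (insert p S₀) σ
    have hℓp : ℓ ≠ p := fun h => hℓS (h ▸ Finset.mem_insert_self _ _)
    have hℓS₀ : ℓ ∉ S₀ := fun h => hℓS (Finset.mem_insert_of_mem h)
    set g : GQ := σ⁻¹ * σ' ^ j with hg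
    have hgL : ∀ x ∈ L, g x = x := by
      intro x hx
      rw [hg, AlgEquiv.mul_apply, hj x hx]
      exact σ.symm_apply_apply x
    have hσg : σ * g = σ' ^ j := by rw [hg, mul_inv_cancel_left]
    -- the determinant of `ρ g`
    have h1 : LinearMap.det (ρ.ρ g) - 1 ∈ maximalIdeal 𝒪 ^ n :=
      s35t_det_sub_one_mem _ _ (hlev₁ g (fun x hx => hgL x (hle ((le_sup_left : L₁ ≤ L₁ ⊔ L₂) hx))))
    -- the cyclotomic character of `g`
    obtain ⟨w, hw⟩ := hlev₂ g (fun x hx => hgL x (hle ((le_sup_right : L₂ ≤ L₁ ⊔ L₂) hx)))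
    have hεσ := (s30y_cycDatum p).frob q hq hqp A hA σ hσ
    have hεσ' := (s30y_cycDatum p).frob ℓ hℓ hℓp A' hA' σ' hFr
    have h2 : ((q : ℕ) : ℤ_[p]) * (((s30y_cycDatum p).ε g : ℤ_[p]ˣ) : ℤ_[p]) =
        ((ℓ : ℕ) : ℤ_[p]) ^ j := by
      rw [← hεσ, ← hεσ', ← Units.val_pow_eq_pow_val, ← Units.val_mul, ← map_pow, ← map_mul, hσg]
    have h3 : ((p : ℤ_[p]) ^ n) ∣ (((ℓ : ℤ) ^ j - (q : ℤ) : ℤ) : ℤ_[p]) := by
      refine ⟨(q : ℤ_[p]) * w, ?_⟩
      push_cast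
      have e : (((s30y_cycDatum p).ε g : ℤ_[p]ˣ) : ℤ_[p]) = 1 + (p : ℤ_[p]) ^ n * w := by
        rw [← hw]; ring
      rw [e] at h2
      linear_combination -h2
    rw [PadicInt.pow_p_dvd_int_iff] at h3
    obtain ⟨m, hm⟩ := h3
    have h4 : ((ℓ : 𝒪) ^ j - (q : 𝒪)) ∈ maximalIdeal 𝒪 ^ n := by
      have e := congrArg (Int.cast (R := 𝒪)) hm
      push_cast at e
      rw [e]
      exact Ideal.mul_mem_right _ _ (Ideal.pow_mem_pow hp𝒪 n)
    -- conclusion
    have h5 : LinearMap.det (ρ.ρ σ) * LinearMap.det (ρ.ρ g) = (ℓ : 𝒪) ^ j := by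
      rw [← map_mul, ← map_mul, hσg, map_pow, map_pow, hfrob ℓ hℓ hℓS₀ A' hA' σ' hFr]
    have h6 : LinearMap.det (ρ.ρ σ) - (q : 𝒪) =
        ((ℓ : 𝒪) ^ j - (q : 𝒪)) - LinearMap.det (ρ.ρ σ) * (LinearMap.det (ρ.ρ g) - 1) := by
      rw [← h5]; ring
    rw [h6]
    exact Ideal.sub_mem _ h4 (Ideal.mul_mem_left _ _ h1)
  have h7 : LinearMap.det (ρ.ρ σ) - (q : 𝒪) ∈ (⨅ i : ℕ, maximalIdeal 𝒪 ^ i) := by
    rw [Ideal.mem_iInf]; exact key
  rw [Ideal.iInf_pow_eq_bot_of_isLocalRing (maximalIdeal 𝒪) (Ideal.IsMaximal.ne_top inferInstance),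
    Ideal.mem_bot] at h7
  exact sub_eq_zero.mp h7

end Main

end Fermat.Agent.Lib.S35
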