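/-
S35 stage 1 (helper5, prefix `s35t_`): the formal endgame.

`ρ` a 2-dimensional adic Galois representation over a domain, unipotent on inertia at `q`,
`q` invertible, `det ρ(σ) = q` for a Frobenius lift `σ`, and `ρ(τ) ≠ 1` for some `τ` in the
inertia group.  Then `charpoly ρ(σ) = X² ∓ (q + 1) X + q`.
-/
import Mathlib
import Fermat.Agent.Lib.S35.TameRep

set_option autoImplicit false
set_option linter.unusedSectionVars false
set_option linter.style.haveILetI false

namespace Fermat.Agent.Lib.S35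

open Polynomial IsLocalRing

local notation "Ω" => AlgebraicClosure ℚ
local notation "GQ" => (AlgebraicClosure ℚ ≃ₐ[ℚ] AlgebraicClosure ℚ)

section Algebra

variable {R V : Type*} [CommRing R] [IsDomain R] [AddCommGroup V] [Module R V] [Module.Free R V]

/-- if `S² = t S - q`, `S N = q N S` and `N ≠ 0` (with `q ≠ 0, 1`), then `t² = (q + 1)²` -/
theorem s35t_trace_sq (S N : Module.End R V) (t q : R) (hq0 : q ≠ 0) (hq1 : q ≠ 1)
    (hCH : S * S = t • S - q • (1 : Module.End R V)) (hSN : S * N = q • (N * S)) (hN : N ≠ 0) :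
    t ^ 2 = (q + 1) ^ 2 := by
  have hCHN : N * S * S = t • (N * S) - q • N := by
    rw [mul_assoc, hCH, mul_sub, mul_smul_comm, mul_smul_comm, mul_one]
  have hH2 : S * N * S = (q * t) • (N * S) - (q ^ 2) • N := by
    rw [hSN, smul_mul_assoc, hCHN]; module
  have hE1 : S * S * N = (q ^ 2 * t) • (N * S) - (q ^ 3) • N := by
    rw [mul_assoc, hSN, mul_smul_comm, ← mul_assoc, hH2]; module
  have hE2 : S * S * N = (t * q) • (N * S) - q • N := by
    rw [hCH, sub_mul, smul_mul_assoc, smul_mul_assoc, one_mul, hSN]; module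
  have h3 : (q * (q - 1)) • (t • (N * S) - (q + 1) • N) = 0 := by
    have := hE1.symm.trans hE2
    linear_combination (norm := module) this
  have hstar : t • (N * S) = (q + 1) • N := by
    rcases smul_eq_zero.mp h3 with h | h
    · exfalso
      rcases mul_eq_zero.mp h with h | h
      · exact hq0 h
      · exact hq1 (sub_eq_zero.mp h)
    · exact sub_eq_zero.mp h
  have hB : (t ^ 2) • (N * S) - (t * q) • N = (q + 1) • (N * S) := by
    have := congrArg (· * S) hstar
    simp only [smul_mul_assoc] at this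
    rw [hCHN] at this
    linear_combination (norm := module) this
  have hfin : (t ^ 2 - (q + 1) ^ 2) • N = 0 := by
    linear_combination (norm := module) t • hB - (t ^ 2 - (q + 1)) • hstar
  rcases smul_eq_zero.mp hfin with h | h
  · exact sub_eq_zero.mp h
  · exact absurd h hN

/-- **LOCAL(q) in the ramified case, any rank**: `S` invertible with `S + q S⁻¹ = t`
(the [DENS] relation at a Frobenius lift), `T` unipotent and nontrivial with `S T S⁻¹ = T ^ q`
(the tame relation).  Then `t² = (q + 1)²`. -/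
theorem s35t_local_of_ram (S S' T : Module.End R V) (t : R) (q : ℕ) (hq0 : (q : R) ≠ 0)
    (hq1 : (q : R) ≠ 1) (hS' : S' * S = 1)
    (hrel : S + (q : R) • S' = t • (1 : Module.End R V))
    (hTT : (T - 1) * (T - 1) = 0) (hT1 : T ≠ 1) (htame : S * T * S' = T ^ q) :
    t ^ 2 = ((q : R) + 1) ^ 2 := by
  set N := T - 1 with hN
  have hN0 : N ≠ 0 := fun h => hT1 (sub_eq_zero.mp h)
  have hT : T = 1 + N := by rw [hN]; abel
  have hCH : S * S = t • S - (q : R) • (1 : Module.End R V) := by
    have h1 := congrArg (· * S) hrel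
    simp only [add_mul, smul_mul_assoc, hS', one_mul] at h1
    rw [eq_sub_iff_add_eq]
    exact h1
  rw [hT, s35t_one_add_pow N hTT] at htame
  have hSN : S * N = (q : R) • (N * S) := by
    have h1 := congrArg (· * S) htame
    simp only [mul_assoc, hS', mul_one] at h1
    rw [mul_add, mul_one, add_mul, one_mul, add_right_inj] at h1
    rw [h1, smul_mul_assoc, Nat.cast_smul_eq_nsmul]
  exact s35t_trace_sq S N t (q : R) hq0 hq1 hCH hSN hN0

/-- **LOCAL(q) in the unramified case, any rank**: `S + q S⁻¹ = t` and `S² = q²` on a nonzero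
torsion-free module force `t² = (q + 1)²`. -/
theorem s35t_local_of_sq [Nontrivial V] (S S' : Module.End R V) (t : R) (q : ℕ)
    (hq0 : (q : R) ≠ 0) (hS' : S' * S = 1)
    (hrel : S + (q : R) • S' = t • (1 : Module.End R V))
    (hsq : S * S = ((q : R) ^ 2) • (1 : Module.End R V)) :
    t ^ 2 = ((q : R) + 1) ^ 2 := by
  have hCH : S * S = t • S - (q : R) • (1 : Module.End R V) := by
    have h1 := congrArg (· * S) hrel
    simp only [add_mul, smul_mul_assoc, hS', one_mul] at h1
    rw [eq_sub_iff_add_eq]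
    exact h1
  -- `t S = q (q + 1)`
  have h1 : t • S = ((q : R) * ((q : R) + 1)) • (1 : Module.End R V) := by
    rw [hsq] at hCH
    linear_combination (norm := module) -hCH
  -- square it
  have h2 : (t ^ 2 * (q : R) ^ 2) • (1 : Module.End R V) =
      (((q : R) * ((q : R) + 1)) ^ 2) • (1 : Module.End R V) := by
    have h3 : (t • S) * (t • S) = (t ^ 2 * (q : R) ^ 2) • (1 : Module.End R V) := by
      rw [smul_mul_assoc, mul_smul_comm, hsq, smul_smul, smul_smul]
      congr 1; ring
    rw [← h3, h1, smul_mul_assoc, mul_smul_comm, one_mul, smul_smul]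
    congr 1; ring
  have h4 : (t ^ 2 * (q : R) ^ 2 - ((q : R) * ((q : R) + 1)) ^ 2) • (1 : Module.End R V) = 0 := by
    rw [sub_smul, h2, sub_self]
  rcases smul_eq_zero.mp h4 with h | h
  · have h5 : (q : R) ^ 2 * (t ^ 2 - ((q : R) + 1) ^ 2) = 0 := by linear_combination h
    rcases mul_eq_zero.mp h5 with h6 | h6
    · exact absurd (pow_eq_zero_iff two_ne_zero |>.mp h6) hq0
    · exact sub_eq_zero.mp h6
  · exact absurd h one_ne_zero

variable [Module.Finite R V]

/-- the characteristic polynomial in rank two -/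
theorem s35t_charpoly_two (h2 : Module.finrank R V = 2) (S : Module.End R V) :
    S.charpoly = X ^ 2 - C (LinearMap.trace R V S) * X + C (LinearMap.det S) := by
  set b : Module.Basis (Fin 2) R V := Module.finBasisOfFinrankEq R V h2 with hb
  rw [← LinearMap.charpoly_toMatrix S b, Matrix.charpoly_fin_two,
    ← LinearMap.trace_eq_matrix_trace R b S, LinearMap.det_toMatrix b S]

/-- Cayley–Hamilton in rank two -/
theorem s35t_cayley_two (h2 : Module.finrank R V = 2) (S : Module.End R V) :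
    S * S = (LinearMap.trace R V S) • S - (LinearMap.det S) • (1 : Module.End R V) := by
  have h1 := LinearMap.aeval_self_charpoly S
  rw [s35t_charpoly_two h2 S] at h1
  simp only [map_add, map_sub, map_mul, map_pow, aeval_X, aeval_C, Algebra.algebraMap_eq_smul_one,
    smul_mul_assoc, one_mul] at h1
  rw [pow_two] at h1
  rw [eq_sub_iff_add_eq, ← sub_eq_zero]
  rw [← h1]
  abel

end Algebra

section Final

variable {𝒪 : Type} [CommRing 𝒪] [IsLocalRing 𝒪] [IsNoetherianRing 𝒪] [IsDomain 𝒪]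

/-- **formal endgame for S35, clause 2** -/
theorem s35t_charpoly_frob (ρ : GaloisRepAdic 𝒪) (A : ValuationSubring Ω) {q : ℕ} (hq : q.Prime)
    (hA : A.LiesOverPrime q) (hqO : IsUnit (q : 𝒪)) (hq1 : (q : 𝒪) ≠ 1)
    (hU : ∀ τ ∈ A.inertiaSubgroupIn ℚ, LinearMap.charpoly (ρ.ρ τ) = (X - 1) ^ 2)
    (σ : GQ) (hσ : A.IsFrobeniusAt σ q) (hdet : LinearMap.det (ρ.ρ σ) = (q : 𝒪))
    (hram : ∃ τ ∈ A.inertiaSubgroupIn ℚ, ρ.ρ τ ≠ 1) :
    LinearMap.charpoly (ρ.ρ σ) = X ^ 2 - C ((q : 𝒪) + 1) * X + C ((q : 𝒪)) ∨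
      LinearMap.charpoly (ρ.ρ σ) = X ^ 2 + C ((q : 𝒪) + 1) * X + C ((q : 𝒪)) := by
  obtain ⟨τ, hτ, hτ1⟩ := hram
  set S := ρ.ρ σ with hS
  set N := ρ.ρ τ - 1 with hN
  have hNN : N * N = 0 := s35t_sub_one_sq ρ (hU τ hτ)
  have hN0 : N ≠ 0 := fun h => hτ1 (sub_eq_zero.mp h)
  have hT : ρ.ρ τ = 1 + N := by rw [hN]; abel
  have hrel := s35t_tame_rep ρ A hq hA hqO hU σ τ hσ hτ
  rw [map_mul, map_mul, hT, s35t_one_add_pow N hNN] at hrel
  have hSS' : ρ.ρ σ⁻¹ * S = 1 := by rw [hS, ← map_mul, inv_mul_cancel, map_one]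
  have hSN : S * N = (q : 𝒪) • (N * S) := by
    have h1 := congrArg (· * S) hrel
    simp only [mul_assoc, hSS', mul_one] at h1
    rw [mul_add, mul_one, add_mul, one_mul, add_right_inj] at h1
    rw [h1, smul_mul_assoc, Nat.cast_smul_eq_nsmul]
  have hCH := s35t_cayley_two ρ.finrank_eq S
  rw [hdet] at hCH
  have hsq := s35t_trace_sq S N (LinearMap.trace 𝒪 ρ.V S) (q : 𝒪) hqO.ne_zero hq1 hCH hSN hN0
  have hcp := s35t_charpoly_two ρ.finrank_eq S
  rw [hdet] at hcp
  have h5 : (LinearMap.trace 𝒪 ρ.V S - ((q : 𝒪) + 1)) * (LinearMap.trace 𝒪 ρ.V S + ((q : 𝒪) + 1)) = 0 := by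
    linear_combination hsq
  rcases mul_eq_zero.mp h5 with h | h
  · left
    rw [hcp, sub_eq_zero.mp h]
  · right
    rw [hcp, eq_neg_of_add_eq_zero_left h, map_neg]
    ring

end Final

end Fermat.Agent.Lib.S35
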