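/-
S35 (row 34), TARGET CONTRACT FILE (helper3).

* `s35_WeakLocal` : the WEAK LOCAL contract — the only non-formal input of S35.  For a newform `g`
  of level `M`, a prime `q ∥ M`, `q ≠ lam`, and a Frobenius element `σ` at a place over `q`, the
  module `O' ⊗ T_lam J₀(M)` contains a non-zero eigenvector `w` for the eigenvalues of `g` (at the
  good primes `ℓ ∉ S`) with `σ² w = q² w` or `σ² w = w`.
  (Sources: [NEW-WEIGHT] `(σ² - q²)(σ² - 1) = 0` on the `q`-new part of the Tate module +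
  [B3] newness puts the eigen-module of `g` into the `q`-new part; or [K] + [RAM'] + [B3].)
* `s35_of_weakLocal` : S35 from `s35_WeakLocal` (everything else is proved: the contracts of S30
  are theorems of Lib/S30).
-/
import Fermat.Agent.Lib.S35.Skel
import Fermat.Agent.Lib.S30.ExtA
import Fermat.Agent.Lib.S30.Dens
import Fermat.Agent.Lib.S30.TwoC
import Fermat.Agent.Lib.S30.WilesTwoC
import Fermat.Agent.Lib.S30.Latt
import Fermat.Agent.Lib.S30.TateDatum
import Fermat.Agent.Lib.S30.CycB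
import Fermat.Prelude.Def_CuspForm_Newforms

set_option autoImplicit false

open Polynomial
open scoped TensorProduct

namespace Fermat.Agent.Lib.S35

open Fermat.Agent.Lib.S29 Fermat.Agent.Lib.S30

/-- **WEAK LOCAL(q)**, the target contract of the S35 project.  The `ℤ_[lam]`-algebra structure of
`O'` is arbitrary (an instance argument). -/
def s35_WeakLocal : Prop :=
  ∀ {M : ℕ} [NeZero M] {g : CuspForm (CongruenceSubgroup.Gamma0 M) 2} (_ : g.IsNewform)
    (lam : ℕ) [Fact lam.Prime] (S : Finset ℕ)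
    (O' : Type) [CommRing O'] [IsDomain O'] [IsDiscreteValuationRing O']
    [IsAdicComplete (IsLocalRing.maximalIdeal O') O'] [Finite (IsLocalRing.ResidueField O')]
    [CharZero O'] [Algebra ℤ_[lam] O'] (_ : (lam : O') ∈ IsLocalRing.maximalIdeal O')
    (chig : CuspForm.heckeAlgebra M 2 (↑S : Set ℕ) →+* ℂ)
    (_ : ∀ (ℓ : ℕ) (hℓ : ℓ.Prime) (hℓM : ¬ ℓ ∣ M) (hℓS : ℓ ∉ (↑S : Set ℕ)),
      chig (CuspForm.heckeAlgebra.T hℓ hℓM hℓS) = ModularFormClass.qCoeff g ℓ)
    (iota : chig.range →+* O')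
    (_ : lam ∈ S) (_ : ∀ q : ℕ, q.Prime → q ∣ M → q ∈ S)
    (q : ℕ), q.Prime → q ≠ lam → q ∣ M → ¬ q ^ 2 ∣ M →
    ∀ A : ValuationSubring (AlgebraicClosure ℚ), A.LiesOverPrime q →
      ∀ σ : s29k_G, A.IsFrobeniusAt σ q →
        ∃ w : O' ⊗[ℤ_[lam]] (s30u_tateDatum M lam).Λ, w ≠ 0 ∧
          (∀ (ℓ : ℕ) (hℓ : ℓ.Prime) (hℓM : ¬ ℓ ∣ M) (hℓS : ℓ ∉ (↑S : Set ℕ)),
            ((s30u_tateDatum M lam).T ⟨ℓ, hℓ⟩).baseChange O' w =
              (iota.comp chig.rangeRestrict) (CuspForm.heckeAlgebra.T hℓ hℓM hℓS) • w) ∧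
          (((s30u_tateDatum M lam).ρ σ).baseChange O'
              (((s30u_tateDatum M lam).ρ σ).baseChange O' w) = (q : O') ^ 2 • w ∨
            ((s30u_tateDatum M lam).ρ σ).baseChange O'
              (((s30u_tateDatum M lam).ρ σ).baseChange O' w) = w)

/-- **S35 from the WEAK LOCAL contract.** -/
theorem s35_of_weakLocal (hWL : s35_WeakLocal)
    {M : ℕ} [NeZero M] {g : CuspForm (CongruenceSubgroup.Gamma0 M) 2} (hg : g.IsNewform)
    (lam : ℕ) [Fact lam.Prime]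
    (S : Finset ℕ)
    (O' : Type) [CommRing O'] [IsDomain O'] [IsDiscreteValuationRing O']
    [IsAdicComplete (IsLocalRing.maximalIdeal O') O'] [Finite (IsLocalRing.ResidueField O')]
    [CharZero O'] (hlamO' : (lam : O') ∈ IsLocalRing.maximalIdeal O')
    (chig : CuspForm.heckeAlgebra M 2 (↑S : Set ℕ) →+* ℂ)
    (hchig : ∀ (ℓ : ℕ) (hℓ : ℓ.Prime) (hℓM : ¬ ℓ ∣ M) (hℓS : ℓ ∉ (↑S : Set ℕ)),
      chig (CuspForm.heckeAlgebra.T hℓ hℓM hℓS) = ModularFormClass.qCoeff g ℓ)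
    (iota : chig.range →+* O')
    (hlamS : lam ∈ S) (hMS : ∀ q : ℕ, q.Prime → q ∣ M → q ∈ S) :
    ∃ (O'' : Type) (_ : CommRing O'') (_ : IsDomain O'') (_ : IsDiscreteValuationRing O'')
      (_ : IsAdicComplete (IsLocalRing.maximalIdeal O'') O'') (_ : Finite (IsLocalRing.ResidueField O''))
      (_ : CharZero O'') (_ : Algebra O' O'') (_ : Module.Finite O' O'') (_ : IsLocalHom (algebraMap O' O'')),
      Function.Injective (algebraMap O' O'') ∧
      ∃ ρ : GaloisRepAdic O'',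
        (∀ (ℓ : ℕ) (hℓ : ℓ.Prime) (hℓM : ¬ ℓ ∣ M) (hℓS : ℓ ∉ (↑S : Set ℕ)),
          ∀ A : ValuationSubring (AlgebraicClosure ℚ), A.LiesOverPrime ℓ →
            ∀ σ : AlgebraicClosure ℚ ≃ₐ[ℚ] AlgebraicClosure ℚ, A.IsFrobeniusAt σ ℓ →
              LinearMap.charpoly (ρ.ρ σ) =
                X ^ 2 - C (algebraMap O' O'' ((iota.comp chig.rangeRestrict) (CuspForm.heckeAlgebra.T hℓ hℓM hℓS))) * X
                  + C ((ℓ : O''))) ∧
        (∀ q : ℕ, q.Prime → q ≠ lam → q ∣ M → ¬ q ^ 2 ∣ M →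
          ∀ A : ValuationSubring (AlgebraicClosure ℚ), A.LiesOverPrime q →
            ∀ σ : AlgebraicClosure ℚ ≃ₐ[ℚ] AlgebraicClosure ℚ, A.IsFrobeniusAt σ q →
              LinearMap.charpoly (ρ.ρ σ) = X ^ 2 - C ((q : O'') + 1) * X + C ((q : O'')) ∨
              LinearMap.charpoly (ρ.ρ σ) = X ^ 2 + C ((q : O'') + 1) * X + C ((q : O''))) :=
  s35s_main lam s30x_extA s30d_densContract (s30t2_twoC_of s30w_wilContract s30l_lattContract)
    M (s30u_tateDatum M lam) (s30y_cycDatum lam) (s30y_conj_datum lam) S hlamS hMS O' hlamO'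
    (iota.comp chig.rangeRestrict)
    (fun q hq hql hqM hq2 A hA σ hσ =>
      hWL hg lam S O' hlamO' chig hchig iota hlamS hMS q hq hql hqM hq2 A hA σ hσ)

end Fermat.Agent.Lib.S35
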